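/-
P-LR (S41 level raising), row LR-ALG, parts (1) and (3): going down and Deligne–Serre lifting
for a commuting family of operators on a finite free `ℤ`-module `K` (integral formulation:
lattices mod `p`, eigenvalues in `ℤ`), with transport of the eigenvector to any complex vector
space receiving `K` equivariantly.  Mathlib + S49/EigenChar (abstract Deligne–Serre lemma) only.
(helper15)
-/
import Mathlib
import Fermat.Agent.S49.EigenChar

set_option autoImplicit false
set_option linter.style.haveILetI false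

namespace Fermat.Agent.LR

open Module

section ring

variable {A : Type*} [CommRing A] {K : Type*} [AddCommGroup K]

/-- The ideal of the elements of `A` which send `y` into `p K`. -/
def h15lr_eigIdeal (φ : A →+* Module.End ℤ K) (p : ℕ) (y : K) : Ideal A where
  carrier := {a | ∃ z : K, φ a y = (p : ℤ) • z}
  add_mem' := by
    rintro a b ⟨z, hz⟩ ⟨w, hw⟩
    exact ⟨z + w, by rw [map_add, LinearMap.add_apply, hz, hw, smul_add]⟩
  zero_mem' := ⟨0, by simp⟩
  smul_mem' := by
    rintro c a ⟨z, hz⟩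
    exact ⟨φ c z, by rw [smul_eq_mul, map_mul, Module.End.mul_apply, hz, map_smul]⟩

theorem h15lr_mem_eigIdeal (φ : A →+* Module.End ℤ K) (p : ℕ) (y : K) (a : A) :
    a ∈ h15lr_eigIdeal φ p y ↔ ∃ z : K, φ a y = (p : ℤ) • z := Iff.rfl

theorem h15lr_eigIdeal_isMaximal (φ : A →+* Module.End ℤ K) {p : ℕ} (hp : p.Prime) (y : K)
    (hy : ¬ ∃ z : K, y = (p : ℤ) • z)
    (hscal : ∀ a : A, ∃ (c : ℤ) (z : K), φ a y = c • y + (p : ℤ) • z) :
    (h15lr_eigIdeal φ p y).IsMaximal := by
  rw [Ideal.isMaximal_iff]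
  refine ⟨?_, ?_⟩
  · rintro ⟨z, hz⟩
    apply hy
    refine ⟨z, ?_⟩
    rw [← hz, map_one]; rfl
  · intro J a hIJ haI haJ
    obtain ⟨c, z, hcz⟩ := hscal a
    -- p does not divide c
    have hpc : ¬ (p : ℤ) ∣ c := by
      rintro ⟨c', rfl⟩
      apply haI
      exact ⟨c' • y + z, by rw [hcz, smul_add, mul_smul]⟩
    have hcop : IsCoprime c (p : ℤ) := by
      rw [isCoprime_comm]
      exact (Nat.prime_iff_prime_int.mp hp).coprime_iff_not_dvd.mpr hpc
    obtain ⟨u, v, huv⟩ := hcop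
    -- u * a - 1 ∈ I
    have hmem : (u : A) * a - 1 ∈ h15lr_eigIdeal φ p y := by
      refine ⟨u • z - v • y, ?_⟩
      have h1 : φ ((u : A) * a - 1) y = u • (φ a y) - y := by
        rw [map_sub, map_mul, map_one, map_intCast, LinearMap.sub_apply, Module.End.mul_apply]
        simp
      rw [h1, hcz]
      have : y = (u * c + v * (p : ℤ)) • y := by rw [huv, one_smul]
      calc u • (c • y + (p : ℤ) • z) - y
          = u • (c • y + (p : ℤ) • z) - (u * c + v * (p : ℤ)) • y := by rw [← this]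
        _ = (p : ℤ) • (u • z - v • y) := by
            simp only [smul_add, smul_sub, add_smul, mul_smul]
            rw [smul_comm u (p : ℤ) z, smul_comm v (p : ℤ) y]
            abel
    have h2 : (u : A) * a - 1 ∈ J := hIJ hmem
    have h3 : (u : A) * a ∈ J := J.mul_mem_left _ haJ
    have : (1 : A) = (u : A) * a - ((u : A) * a - 1) := by ring
    rw [this]
    exact J.sub_mem h3 h2

end ring

section coord

variable {A : Type*} [CommRing A] {K : Type*} [AddCommGroup K]
variable {r : ℕ} (b : Basis (Fin r) ℤ K)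

/-- the integral matrix of `φ a` in the basis `b`, with complex entries. -/
noncomputable def h15lr_cmat (φ : A →+* Module.End ℤ K) (a : A) : Matrix (Fin r) (Fin r) ℂ :=
  (LinearMap.toMatrix b b (φ a)).map (Int.cast : ℤ → ℂ)

/-- coordinates: the action of `A` on `ℂ^r`. -/
noncomputable def h15lr_rho (φ : A →+* Module.End ℤ K) : A →+* Module.End ℂ (Fin r → ℂ) :=
  ((Matrix.toLinAlgEquiv' : Matrix (Fin r) (Fin r) ℂ ≃ₐ[ℂ] Module.End ℂ (Fin r → ℂ)) :
      Matrix (Fin r) (Fin r) ℂ →+* Module.End ℂ (Fin r → ℂ)).comp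
    (((Int.castRingHom ℂ).mapMatrix : Matrix (Fin r) (Fin r) ℤ →+* Matrix (Fin r) (Fin r) ℂ).comp
      (((LinearMap.toMatrixAlgEquiv b : Module.End ℤ K ≃ₐ[ℤ] Matrix (Fin r) (Fin r) ℤ) :
        Module.End ℤ K →+* Matrix (Fin r) (Fin r) ℤ).comp φ))

theorem h15lr_rho_apply (φ : A →+* Module.End ℤ K) (a : A) (c : Fin r → ℂ) :
    h15lr_rho b φ a c = (h15lr_cmat b φ a).mulVec c := by
  rfl

theorem h15lr_rho_injective (φ : A →+* Module.End ℤ K) (hφ : Function.Injective φ) :
    Function.Injective (h15lr_rho b φ) := by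
  intro a a' h
  apply hφ
  have h1 : (Int.castRingHom ℂ).mapMatrix (LinearMap.toMatrixAlgEquiv b (φ a))
      = (Int.castRingHom ℂ).mapMatrix (LinearMap.toMatrixAlgEquiv b (φ a')) :=
    (Matrix.toLinAlgEquiv' : Matrix (Fin r) (Fin r) ℂ ≃ₐ[ℂ] Module.End ℂ (Fin r → ℂ)).injective h
  have h2 : LinearMap.toMatrixAlgEquiv b (φ a) = LinearMap.toMatrixAlgEquiv b (φ a') := by
    ext i k
    have := congrFun (congrFun h1 i) k
    simpa using this
  exact (LinearMap.toMatrixAlgEquiv b).injective h2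

/-- transport of the action to any complex vector space receiving `K` equivariantly. -/
theorem h15lr_transport (φ : A →+* Module.End ℤ K) (a : A)
    {V : Type*} [AddCommGroup V] [Module ℂ V] (j : K →ₗ[ℤ] V) (TV : V →ₗ[ℂ] V)
    (hT : ∀ k : K, TV (j k) = j (φ a k)) (c : Fin r → ℂ) :
    TV (∑ k, c k • j (b k)) = ∑ l, ((h15lr_cmat b φ a).mulVec c) l • j (b l) := by
  rw [map_sum]
  have h1 : ∀ k, TV (c k • j (b k))
      = ∑ l, (c k * (h15lr_cmat b φ a) l k) • j (b l) := by
    intro k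
    rw [map_smul, hT]
    have h2 : φ a (b k) = ∑ l, (LinearMap.toMatrix b b (φ a) l k) • b l := by
      conv_lhs => rw [← b.sum_repr (φ a (b k))]
      simp [LinearMap.toMatrix_apply]
    rw [h2, map_sum, Finset.smul_sum]
    refine Finset.sum_congr rfl fun l _ => ?_
    rw [map_smul, mul_smul]
    congr 1
    rw [h15lr_cmat, Matrix.map_apply]
    exact (Int.cast_smul_eq_zsmul ℂ _ _).symm
  simp_rw [h1]
  rw [Finset.sum_comm]
  refine Finset.sum_congr rfl fun l _ => ?_
  rw [← Finset.sum_smul]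
  congr 1
  rw [Matrix.mulVec, dotProduct]
  refine Finset.sum_congr rfl fun k _ => ?_
  ring

end coord

section lift

/-- **Deligne–Serre lifting, abstract ring form.** -/
theorem h15lr_ds_lift_ring {A : Type*} [CommRing A] [Module.Finite ℤ A]
    {K : Type*} [AddCommGroup K] {r : ℕ} (b : Basis (Fin r) ℤ K)
    (φ : A →+* Module.End ℤ K) (hφ : Function.Injective φ)
    {p : ℕ} (hp : p.Prime) (y : K) (hy : ¬ ∃ z : K, y = (p : ℤ) • z)
    (hscal : ∀ a : A, ∃ (c : ℤ) (z : K), φ a y = c • y + (p : ℤ) • z) :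
    ∃ (c : Fin r → ℂ) (χ : A →+* integralClosure ℤ ℂ) (𝔪' : Ideal (integralClosure ℤ ℂ)),
      c ≠ 0 ∧ 𝔪'.IsMaximal ∧ (∀ a, (h15lr_cmat b φ a).mulVec c = (χ a : ℂ) • c) ∧
      (∀ a ∈ h15lr_eigIdeal φ p y, χ a ∈ 𝔪') := by
  have hmax := h15lr_eigIdeal_isMaximal φ hp y hy hscal
  have hprime : (h15lr_eigIdeal φ p y).IsPrime := hmax.isPrime
  obtain ⟨v, χ₀, hv0, heig, hker⟩ := Fermat.Agent.S49.exists_eigenchar_ker_le
    (h15lr_rho b φ) (h15lr_rho_injective b φ hφ) (h15lr_eigIdeal φ p y)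
  obtain ⟨χ', 𝔪', hχ', hmax', hmem⟩ :=
    Fermat.Agent.S49.exists_integral_lift χ₀ (h15lr_eigIdeal φ p y) hker
  refine ⟨v, χ', 𝔪', hv0, hmax', fun a => ?_, hmem⟩
  rw [← h15lr_rho_apply, heig a, hχ']

end lift

section family

variable {K : Type*} [AddCommGroup K] {ι : Type*}

/-- every element of the algebra generated by the `TK i` acts on `y` by a scalar mod `p`. -/
theorem h15lr_scal_adjoin (TK : ι → Module.End ℤ K) (p : ℕ) (θ : ι → ℤ) (y : K)
    (heig : ∀ i, ∃ z : K, TK i y = θ i • y + (p : ℤ) • z)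
    (a : Module.End ℤ K) (ha : a ∈ Algebra.adjoin ℤ (Set.range TK)) :
    ∃ (c : ℤ) (z : K), a y = c • y + (p : ℤ) • z := by
  induction ha using Algebra.adjoin_induction with
  | mem x hx =>
    obtain ⟨i, rfl⟩ := hx
    obtain ⟨z, hz⟩ := heig i
    exact ⟨θ i, z, hz⟩
  | algebraMap n =>
    refine ⟨n, 0, ?_⟩
    simp
  | add a a' _ _ iha iha' =>
    obtain ⟨c, z, hz⟩ := iha
    obtain ⟨c', z', hz'⟩ := iha'
    refine ⟨c + c', z + z', ?_⟩
    rw [LinearMap.add_apply, hz, hz', add_smul, smul_add]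
    abel
  | mul a a' _ _ iha iha' =>
    obtain ⟨c, z, hz⟩ := iha
    obtain ⟨c', z', hz'⟩ := iha'
    refine ⟨c' * c, c' • z + a z', ?_⟩
    rw [Module.End.mul_apply, hz', map_add, map_smul, map_smul, hz, smul_add, smul_add,
      mul_smul, smul_comm c' (p : ℤ) z]
    abel

open scoped IsMulCommutative in
/-- **Deligne–Serre lifting for a commuting family** on a finite free `ℤ`-module `K`
(with basis `b`): a mod `p` eigenvector `y ∈ K ∖ pK` with eigenvalues `θ i ∈ ℤ` lifts to an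
eigenvector `v` in the complex span of the image of `K` in any complex vector space `V`
receiving `K` equivariantly (the images of the basis being `ℂ`-linearly independent), with
eigenvalues algebraic integers congruent to `θ i` modulo a maximal ideal over `p`. -/
theorem h15lr_ds_lift {r : ℕ} (b : Basis (Fin r) ℤ K)
    (TK : ι → Module.End ℤ K) (hcomm : ∀ i i', TK i * TK i' = TK i' * TK i)
    {p : ℕ} (hp : p.Prime) (θ : ι → ℤ) (y : K) (hy : ¬ ∃ z : K, y = (p : ℤ) • z)
    (heig : ∀ i, ∃ z : K, TK i y = θ i • y + (p : ℤ) • z)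
    {V : Type*} [AddCommGroup V] [Module ℂ V] (j : K →ₗ[ℤ] V)
    (hj : LinearIndependent ℂ (fun k => j (b k)))
    (TV : ι → V →ₗ[ℂ] V) (hT : ∀ i k, TV i (j k) = j (TK i k)) :
    ∃ (v : V) (a : ι → integralClosure ℤ ℂ) (𝔪' : Ideal (integralClosure ℤ ℂ)),
      v ≠ 0 ∧ v ∈ Submodule.span ℂ (Set.range j) ∧ 𝔪'.IsMaximal ∧
      (p : integralClosure ℤ ℂ) ∈ 𝔪' ∧
      ∀ i, TV i v = (a i : ℂ) • v ∧ a i - (θ i : integralClosure ℤ ℂ) ∈ 𝔪' := by
  classical
  have hcomm' : ∀ a ∈ Set.range TK, ∀ a' ∈ Set.range TK, a * a' = a' * a := by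
    rintro _ ⟨i, rfl⟩ _ ⟨i', rfl⟩
    exact hcomm i i'
  have hmc : IsMulCommutative (Algebra.adjoin ℤ (Set.range TK)) :=
    Algebra.isMulCommutative_adjoin ℤ hcomm'
  let φ : Algebra.adjoin ℤ (Set.range TK) →+* Module.End ℤ K :=
    (Algebra.adjoin ℤ (Set.range TK)).val.toRingHom
  have hfin : Module.Finite ℤ K := Module.Finite.of_basis b
  have hfree : Module.Free ℤ K := Module.Free.of_basis b
  have hfinA : Module.Finite ℤ (Algebra.adjoin ℤ (Set.range TK)) := by
    have : IsNoetherian ℤ (Module.End ℤ K) := inferInstance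
    exact Module.Finite.of_injective (Algebra.adjoin ℤ (Set.range TK)).val.toLinearMap
      Subtype.val_injective
  have hφ : Function.Injective φ := Subtype.val_injective
  have hscal : ∀ a : Algebra.adjoin ℤ (Set.range TK),
      ∃ (c : ℤ) (z : K), φ a y = c • y + (p : ℤ) • z :=
    fun a => h15lr_scal_adjoin TK p θ y heig a.1 a.2
  obtain ⟨c, χ, 𝔪', hc0, hmax, heigc, hmem⟩ := h15lr_ds_lift_ring (A := Algebra.adjoin ℤ (Set.range TK)) b φ hφ hp y hy hscal
  let gen : ι → Algebra.adjoin ℤ (Set.range TK) :=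
    fun i => ⟨TK i, Algebra.subset_adjoin ⟨i, rfl⟩⟩
  have hgen : ∀ i, φ (gen i) = TK i := fun i => rfl
  refine ⟨∑ k, c k • j (b k), fun i => χ (gen i), 𝔪', ?_, ?_, hmax, ?_, fun i => ⟨?_, ?_⟩⟩
  · intro h0
    apply hc0
    funext k
    exact (Fintype.linearIndependent_iff.mp hj) c h0 k
  · refine Submodule.sum_mem _ fun k _ => Submodule.smul_mem _ _ (Submodule.subset_span ⟨b k, rfl⟩)
  · have hpm : ((p : ℤ) : Algebra.adjoin ℤ (Set.range TK)) ∈ h15lr_eigIdeal φ p y := by
      refine ⟨y, ?_⟩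
      rw [map_intCast]
      simp
    have := hmem _ hpm
    rw [map_intCast] at this
    exact_mod_cast this
  · have h1 := h15lr_transport b φ (gen i) j (TV i) (fun k => by rw [hT, hgen]) c
    rw [h1, heigc, Finset.smul_sum]
    refine Finset.sum_congr rfl fun l _ => ?_
    rw [Pi.smul_apply, smul_eq_mul, mul_smul]
  · have hm : gen i - ((θ i : ℤ) : Algebra.adjoin ℤ (Set.range TK)) ∈ h15lr_eigIdeal φ p y := by
      obtain ⟨z, hz⟩ := heig i
      refine ⟨z, ?_⟩
      rw [map_sub, map_intCast, LinearMap.sub_apply, hgen, hz]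
      simp
    have := hmem _ hm
    rw [map_sub, map_intCast] at this
    exact this

end family

section goingdown

/-- an eigenvalue of an integral matrix is an algebraic integer. -/
theorem h15lr_eigen_integral {r : ℕ} (M : Matrix (Fin r) (Fin r) ℤ) (c : Fin r → ℂ) (hc : c ≠ 0)
    (μ : ℂ) (h : (M.map (Int.cast : ℤ → ℂ)).mulVec c = μ • c) : IsIntegral ℤ μ := by
  set Mc : Matrix (Fin r) (Fin r) ℂ := M.map (Int.cast : ℤ → ℂ) with hMc
  set f : Module.End ℂ (Fin r → ℂ) := Matrix.toLinAlgEquiv' Mc with hf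
  have hev : f.HasEigenvector μ c := by
    refine ⟨?_, hc⟩
    rw [Module.End.mem_eigenspace_iff]
    exact h
  have h1 := Module.End.aeval_apply_of_hasEigenvector (p := Mc.charpoly) hev
  have h2 : Polynomial.aeval f Mc.charpoly = 0 := by
    rw [hf, Polynomial.aeval_algHom_apply, Matrix.aeval_self_charpoly, map_zero]
  rw [h2, LinearMap.zero_apply] at h1
  have h3 : Mc.charpoly.eval μ = 0 := by
    rcases smul_eq_zero.mp h1.symm with h | h
    · exact h
    · exact absurd h hc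
  have h4 : Mc.charpoly = M.charpoly.map (Int.castRingHom ℂ) := by
    rw [hMc]
    exact Matrix.charpoly_map M (Int.castRingHom ℂ)
  refine ⟨M.charpoly, Matrix.charpoly_monic M, ?_⟩
  rw [h4, Polynomial.eval_map] at h3
  rw [algebraMap_int_eq]
  exact h3

end goingdown

section goingdown2

open Ideal in
/-- **Going down, abstract ring form.**  If the character `χ` of a `ℤ`-finite commutative ring
`A` acting on the finite free `ℤ`-module `K` occurs in `K ⊗ ℂ` (eigenvector `c` in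
coordinates), then for every maximal ideal `𝔪` over `p` there is `x₀ ∈ K ∖ pK` such that every
`a` with `χ a ∈ 𝔪` sends `x₀` into `pK`. -/
theorem h15lr_going_down_ring {A : Type*} [CommRing A] [Module.Finite ℤ A]
    {K : Type*} [AddCommGroup K] {r : ℕ} (b : Basis (Fin r) ℤ K)
    (φ : A →+* Module.End ℤ K)
    {p : ℕ} (hp : p.Prime) (c : Fin r → ℂ) (hc : c ≠ 0)
    (χ : A →+* integralClosure ℤ ℂ)
    (hχ : ∀ a, (h15lr_cmat b φ a).mulVec c = (χ a : ℂ) • c)
    (𝔪 : Ideal (integralClosure ℤ ℂ)) (hmax : 𝔪.IsMaximal)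
    (hpm : (p : integralClosure ℤ ℂ) ∈ 𝔪) :
    ∃ x₀ : K, (¬ ∃ z : K, x₀ = (p : ℤ) • z) ∧
      ∀ a : A, χ a ∈ 𝔪 → ∃ z : K, φ a x₀ = (p : ℤ) • z := by
  classical
  letI : Module A K := Module.compHom K φ
  have hsmul : ∀ (a : A) (k : K), a • k = φ a k := fun a k => rfl
  haveI : IsScalarTower ℤ A K := ⟨fun n a k => by
    rw [hsmul, hsmul, map_zsmul, LinearMap.smul_apply]⟩
  haveI : Module.Finite ℤ K := Module.Finite.of_basis b
  haveI : Module.Finite A K := Module.Finite.of_restrictScalars_finite ℤ A K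
  haveI : IsNoetherianRing A := IsNoetherianRing.of_finite ℤ A
  haveI : Algebra.IsIntegral ℤ A := Algebra.IsIntegral.of_finite ℤ A
  have hp0 : (p : ℂ) ≠ 0 := Nat.cast_ne_zero.mpr hp.ne_zero
  let P : Submodule A K :=
    { carrier := {k | ∃ z : K, k = (p : ℤ) • z}
      add_mem' := by
        rintro k k' ⟨z, rfl⟩ ⟨z', rfl⟩
        exact ⟨z + z', by rw [smul_add]⟩
      zero_mem' := ⟨0, by simp⟩
      smul_mem' := by
        rintro a k ⟨z, rfl⟩
        exact ⟨φ a z, by rw [hsmul, map_smul]⟩ }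
  have hPmem : ∀ k : K, k ∈ P ↔ ∃ z : K, k = (p : ℤ) • z := fun k => Iff.rfl
  haveI hmprime : 𝔪.IsPrime := hmax.isPrime
  let 𝔫 : Ideal A := Ideal.comap χ 𝔪
  have h𝔫mem : ∀ a : A, a ∈ 𝔫 ↔ χ a ∈ 𝔪 := fun a => Iff.rfl
  haveI h𝔫prime : 𝔫.IsPrime := Ideal.comap_isPrime χ 𝔪
  -- annihilator ≤ 𝔫
  have hann : Module.annihilator A (K ⧸ P) ≤ 𝔫 := by
    intro a ha
    rw [Module.mem_annihilator] at ha
    have h1 : ∀ k : K, ∃ z : K, φ a k = (p : ℤ) • z := by
      intro k
      have := ha (Submodule.Quotient.mk k)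
      rw [← Submodule.Quotient.mk_smul, Submodule.Quotient.mk_eq_zero] at this
      exact this
    choose z hz using h1
    let M' : Matrix (Fin r) (Fin r) ℤ := fun l k => b.repr (z (b k)) l
    have hM : h15lr_cmat b φ a = (p : ℂ) • M'.map (Int.cast : ℤ → ℂ) := by
      ext l k
      rw [h15lr_cmat, Matrix.map_apply, LinearMap.toMatrix_apply, hz, map_smul,
        Finsupp.smul_apply, Matrix.smul_apply, Matrix.map_apply]
      simp [M']
    have hμ : (M'.map (Int.cast : ℤ → ℂ)).mulVec c = ((χ a : ℂ) / p) • c := by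
      have h2 := hχ a
      rw [hM, Matrix.smul_mulVec] at h2
      have h3 : (M'.map (Int.cast : ℤ → ℂ)).mulVec c
          = (p : ℂ)⁻¹ • ((p : ℂ) • (M'.map (Int.cast : ℤ → ℂ)).mulVec c) := by
        rw [smul_smul, inv_mul_cancel₀ hp0, one_smul]
      rw [h3, h2, smul_smul]
      congr 1
      field_simp
    have hint := h15lr_eigen_integral M' c hc _ hμ
    have h4 : χ a = (p : integralClosure ℤ ℂ) * ⟨(χ a : ℂ) / p, hint⟩ := by
      apply Subtype.ext
      push_cast
      field_simp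
    rw [h𝔫mem, h4]
    exact 𝔪.mul_mem_right _ hpm
  -- minimality
  have hmin : 𝔫 ∈ (Module.annihilator A (K ⧸ P)).minimalPrimes := by
    refine ⟨⟨h𝔫prime, hann⟩, ?_⟩
    rintro 𝔮 ⟨h𝔮prime, h𝔮ann⟩ h𝔮le
    have hpann : ((p : ℤ) : A) ∈ Module.annihilator A (K ⧸ P) := by
      rw [Module.mem_annihilator]
      intro m
      obtain ⟨k, rfl⟩ := Submodule.Quotient.mk_surjective P m
      rw [← Submodule.Quotient.mk_smul, Submodule.Quotient.mk_eq_zero, hPmem]
      refine ⟨k, ?_⟩
      rw [hsmul, map_intCast]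
      simp
    have hp𝔮 : ((p : ℤ) : A) ∈ 𝔮 := h𝔮ann hpann
    haveI := h𝔮prime
    have hcomap : (𝔮.comap (algebraMap ℤ A)).IsMaximal := by
      have hprime : (𝔮.comap (algebraMap ℤ A)).IsPrime := Ideal.comap_isPrime _ _
      apply hprime.isMaximal
      intro hbot
      have hmem : (p : ℤ) ∈ 𝔮.comap (algebraMap ℤ A) := by
        rw [Ideal.mem_comap]
        simpa using hp𝔮
      rw [hbot, Ideal.mem_bot] at hmem
      exact hp.ne_zero (by exact_mod_cast hmem)
    have h𝔮max : 𝔮.IsMaximal := Ideal.isMaximal_of_isIntegral_of_isMaximal_comap 𝔮 hcomap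
    exact (h𝔮max.eq_of_le h𝔫prime.ne_top h𝔮le).ge
  have hass := Module.associatedPrimes.minimalPrimes_annihilator_subset_associatedPrimes
    A (K ⧸ P) hmin
  obtain ⟨-, t, ht⟩ := (isAssociatedPrime_iff (I := 𝔫) (M := K ⧸ P)).1 hass
  obtain ⟨x₀, rfl⟩ := Submodule.Quotient.mk_surjective P t
  have hmem : ∀ a : A, a ∈ 𝔫 ↔ a • (Submodule.Quotient.mk x₀ : K ⧸ P) = 0 := by
    intro a
    rw [ht, Submodule.mem_colon_singleton]
    simp
  refine ⟨x₀, ?_, ?_⟩
  · intro hx
    have h0 : (Submodule.Quotient.mk x₀ : K ⧸ P) = 0 :=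
      (Submodule.Quotient.mk_eq_zero P).mpr hx
    have h1 : (1 : A) ∈ 𝔫 := (hmem 1).mpr (by rw [h0, smul_zero])
    exact h𝔫prime.ne_top ((Ideal.eq_top_iff_one 𝔫).mpr h1)
  · intro a ha
    have := (hmem a).mp ((h𝔫mem a).mpr ha)
    rw [← Submodule.Quotient.mk_smul, Submodule.Quotient.mk_eq_zero] at this
    exact this

end goingdown2

section goingdown3

/-- a vector which is an eigenvector of every element of a commutative ring of operators
defines a character. -/
theorem h15lr_exists_char {A : Type*} [CommRing A] {W : Type*} [AddCommGroup W] [Module ℂ W]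
    (ρ : A →+* Module.End ℂ W) (c : W) (hc : c ≠ 0) (h : ∀ a, ∃ μ : ℂ, ρ a c = μ • c) :
    ∃ χ : A →+* ℂ, ∀ a, ρ a c = χ a • c := by
  choose χ hχ using h
  have huniq : ∀ {μ μ' : ℂ}, μ • c = μ' • c → μ = μ' := by
    intro μ μ' h
    exact smul_left_injective ℂ hc h
  refine ⟨
    { toFun := χ
      map_one' := by
        apply huniq
        rw [← hχ 1, map_one, one_smul]; rfl
      map_mul' := by
        intro a b
        apply huniq
        rw [← hχ (a * b), map_mul, Module.End.mul_apply, hχ b, map_smul, hχ a, smul_smul,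
          mul_comm]
      map_zero' := by
        apply huniq
        rw [← hχ 0, map_zero, zero_smul]; rfl
      map_add' := by
        intro a b
        apply huniq
        rw [← hχ (a + b), map_add, LinearMap.add_apply, hχ a, hχ b, add_smul] }, hχ⟩

variable {K : Type*} [AddCommGroup K] {ι : Type*}

open scoped IsMulCommutative in
/-- **Going down for a commuting family** on a finite free `ℤ`-module `K` (with basis `b`):
an eigenvector `v ≠ 0` in the complex span of the image of `K` in `V`, with eigenvalues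
`a i` (algebraic integers) congruent to `θ i ∈ ℤ` modulo a maximal ideal `𝔪` over `p`, gives a
mod `p` eigenvector `x₀ ∈ K ∖ pK` with eigenvalues `θ i`. -/
theorem h15lr_going_down {r : ℕ} (b : Basis (Fin r) ℤ K)
    (TK : ι → Module.End ℤ K) (hcomm : ∀ i i', TK i * TK i' = TK i' * TK i)
    {p : ℕ} (hp : p.Prime) (θ : ι → ℤ)
    {V : Type*} [AddCommGroup V] [Module ℂ V] (j : K →ₗ[ℤ] V)
    (hj : LinearIndependent ℂ (fun k => j (b k)))
    (TV : ι → V →ₗ[ℂ] V) (hT : ∀ i k, TV i (j k) = j (TK i k))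
    (v : V) (hv0 : v ≠ 0) (hv : v ∈ Submodule.span ℂ (Set.range j))
    (a : ι → integralClosure ℤ ℂ) (𝔪 : Ideal (integralClosure ℤ ℂ)) (hmax : 𝔪.IsMaximal)
    (hpm : (p : integralClosure ℤ ℂ) ∈ 𝔪)
    (heig : ∀ i, TV i v = (a i : ℂ) • v)
    (hcong : ∀ i, a i - (θ i : integralClosure ℤ ℂ) ∈ 𝔪) :
    ∃ x₀ : K, (¬ ∃ z : K, x₀ = (p : ℤ) • z) ∧
      ∀ i, ∃ z : K, TK i x₀ = θ i • x₀ + (p : ℤ) • z := by
  classical
  have hcomm' : ∀ a ∈ Set.range TK, ∀ a' ∈ Set.range TK, a * a' = a' * a := by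
    rintro _ ⟨i, rfl⟩ _ ⟨i', rfl⟩
    exact hcomm i i'
  have hmc : IsMulCommutative (Algebra.adjoin ℤ (Set.range TK)) :=
    Algebra.isMulCommutative_adjoin ℤ hcomm'
  let φ : Algebra.adjoin ℤ (Set.range TK) →+* Module.End ℤ K :=
    (Algebra.adjoin ℤ (Set.range TK)).val.toRingHom
  have hfin : Module.Finite ℤ K := Module.Finite.of_basis b
  have hfree : Module.Free ℤ K := Module.Free.of_basis b
  have hfinA : Module.Finite ℤ (Algebra.adjoin ℤ (Set.range TK)) := by
    have : IsNoetherian ℤ (Module.End ℤ K) := inferInstance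
    exact Module.Finite.of_injective (Algebra.adjoin ℤ (Set.range TK)).val.toLinearMap
      Subtype.val_injective
  have hintA : Algebra.IsIntegral ℤ (Algebra.adjoin ℤ (Set.range TK)) :=
    Algebra.IsIntegral.of_finite ℤ _
  let gen : ι → Algebra.adjoin ℤ (Set.range TK) :=
    fun i => ⟨TK i, Algebra.subset_adjoin ⟨i, rfl⟩⟩
  have hgen : ∀ i, φ (gen i) = TK i := fun i => rfl
  -- coordinates of `v`
  have hspan : Submodule.span ℂ (Set.range j) ≤ Submodule.span ℂ (Set.range fun k => j (b k)) := by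
    apply Submodule.span_le.mpr
    rintro _ ⟨x, rfl⟩
    have hx : j x = ∑ k, ((b.repr x k : ℤ) : ℂ) • j (b k) := by
      conv_lhs => rw [← b.sum_repr x]
      rw [map_sum]
      refine Finset.sum_congr rfl fun k _ => ?_
      rw [map_smul]
      exact (Int.cast_smul_eq_zsmul ℂ _ _).symm
    rw [hx]
    exact Submodule.sum_mem _ fun k _ => Submodule.smul_mem _ _ (Submodule.subset_span ⟨k, rfl⟩)
  obtain ⟨c, hcv⟩ := (Submodule.mem_span_range_iff_exists_fun ℂ).mp (hspan hv)
  have hc0 : c ≠ 0 := by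
    rintro rfl
    apply hv0
    rw [← hcv]
    simp
  -- the generators act on `c` by the scalars `a i`
  have hgenc : ∀ i, (h15lr_cmat b φ (gen i)).mulVec c = (a i : ℂ) • c := by
    intro i
    have h1 := h15lr_transport b φ (gen i) j (TV i) (fun k => by rw [hT, hgen]) c
    rw [hcv, heig i, ← hcv, Finset.smul_sum] at h1
    have h2 : ∑ k, ((a i : ℂ) • c k - (h15lr_cmat b φ (gen i)).mulVec c k) • j (b k) = 0 := by
      simp_rw [sub_smul, Finset.sum_sub_distrib]
      rw [sub_eq_zero, ← h1]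
      refine Finset.sum_congr rfl fun k _ => ?_
      rw [smul_eq_mul, mul_smul]
    have h3 := (Fintype.linearIndependent_iff.mp hj) _ h2
    funext k
    have := h3 k
    rw [sub_eq_zero] at this
    rw [Pi.smul_apply, this]
  -- every element of the algebra acts on `c` by a scalar
  have hall : ∀ x : Algebra.adjoin ℤ (Set.range TK),
      ∃ μ : ℂ, h15lr_rho b φ x c = μ • c := by
    rintro ⟨x, hx⟩
    induction hx using Algebra.adjoin_induction with
    | mem x hx =>
      obtain ⟨i, rfl⟩ := hx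
      exact ⟨a i, hgenc i⟩
    | algebraMap n =>
      refine ⟨(n : ℂ), ?_⟩
      have : (⟨algebraMap ℤ (Module.End ℤ K) n, Subalgebra.algebraMap_mem _ n⟩ :
          Algebra.adjoin ℤ (Set.range TK)) = ((n : ℤ) : Algebra.adjoin ℤ (Set.range TK)) := by
        apply Subtype.ext
        simp
      rw [this, map_intCast]
      funext k
      simp
    | add x x' hx hx' ih ih' =>
      obtain ⟨μ, hμ⟩ := ih
      obtain ⟨μ', hμ'⟩ := ih'
      refine ⟨μ + μ', ?_⟩
      have : (⟨x + x', Subalgebra.add_mem _ hx hx'⟩ : Algebra.adjoin ℤ (Set.range TK))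
          = ⟨x, hx⟩ + ⟨x', hx'⟩ := rfl
      rw [this, map_add, LinearMap.add_apply, hμ, hμ', add_smul]
    | mul x x' hx hx' ih ih' =>
      obtain ⟨μ, hμ⟩ := ih
      obtain ⟨μ', hμ'⟩ := ih'
      refine ⟨μ * μ', ?_⟩
      have : (⟨x * x', Subalgebra.mul_mem _ hx hx'⟩ : Algebra.adjoin ℤ (Set.range TK))
          = ⟨x, hx⟩ * ⟨x', hx'⟩ := rfl
      rw [this, map_mul, Module.End.mul_apply, hμ', map_smul, hμ, smul_smul, mul_comm]
  obtain ⟨χ₀, hχ₀⟩ := h15lr_exists_char (h15lr_rho b φ) c hc0 hall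
  have hint : ∀ x : Algebra.adjoin ℤ (Set.range TK), χ₀ x ∈ integralClosure ℤ ℂ := by
    intro x
    have h1 : IsIntegral ℤ x := Algebra.IsIntegral.isIntegral x
    exact h1.map (χ₀.toIntAlgHom)
  let χ' : Algebra.adjoin ℤ (Set.range TK) →+* integralClosure ℤ ℂ :=
    ((χ₀.toIntAlgHom).codRestrict (integralClosure ℤ ℂ) hint :
      Algebra.adjoin ℤ (Set.range TK) →ₐ[ℤ] integralClosure ℤ ℂ)
  have hχ' : ∀ x, (χ' x : ℂ) = χ₀ x := fun x => rfl
  have hχ'c : ∀ x, (h15lr_cmat b φ x).mulVec c = (χ' x : ℂ) • c := by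
    intro x
    rw [hχ', ← hχ₀ x, h15lr_rho_apply]
  obtain ⟨x₀, hx₀, hx₀T⟩ := h15lr_going_down_ring (A := Algebra.adjoin ℤ (Set.range TK))
    b φ hp c hc0 χ' hχ'c 𝔪 hmax hpm
  refine ⟨x₀, hx₀, fun i => ?_⟩
  have hai : χ' (gen i) = a i := by
    apply Subtype.ext
    rw [hχ']
    have h1 := hχ₀ (gen i)
    rw [h15lr_rho_apply, hgenc i] at h1
    exact (smul_left_injective ℂ hc0 h1).symm
  have hmem : χ' (gen i - ((θ i : ℤ) : Algebra.adjoin ℤ (Set.range TK))) ∈ 𝔪 := by
    rw [map_sub, map_intCast, hai]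
    exact hcong i
  obtain ⟨z, hz⟩ := hx₀T _ hmem
  refine ⟨z, ?_⟩
  rw [map_sub, map_intCast, LinearMap.sub_apply, hgen] at hz
  have h5 : ((θ i : Module.End ℤ K)) x₀ = θ i • x₀ := by simp
  rw [h5] at hz
  rw [← hz]
  abel

end goingdown3

end Fermat.Agent.LR
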