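/-
P-LR (S41 level raising), blueprint item (5a) AMALGAM, part 1: the objects.
`Γ₀(N)[1/q] = Γ₀(N) *_{Γ₀(Nq)} g⁻¹ Γ₀(N) g`, `g = diag(q, 1)`, inside `SL(2, ℚ)`.
Mathlib only.  (helper32)
-/
import Mathlib

namespace Fermat.Agent.LR

open Matrix CongruenceSubgroup

/-- The cast `SL(2, ℤ) →* SL(2, ℚ)`. -/
noncomputable def h32_iota :
    Matrix.SpecialLinearGroup (Fin 2) ℤ →* Matrix.SpecialLinearGroup (Fin 2) ℚ :=
  Matrix.SpecialLinearGroup.map (Int.castRingHom ℚ)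

theorem h32_iota_apply (γ : Matrix.SpecialLinearGroup (Fin 2) ℤ) (i j : Fin 2) :
    (h32_iota γ) i j = ((γ i j : ℤ) : ℚ) := rfl

theorem h32_iota_injective : Function.Injective h32_iota := by
  intro a b h
  ext i j
  have := congrArg (fun M : Matrix.SpecialLinearGroup (Fin 2) ℚ => M i j) h
  simpa [h32_iota_apply] using this

/-- Conjugation by `g = diag(q, 1)` on `SL(2, ℚ)`:
`M ↦ g⁻¹ M g = [[a, b / q], [q c, d]]`. -/
noncomputable def h32_cg (q : ℕ) [NeZero q] :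
    Matrix.SpecialLinearGroup (Fin 2) ℚ →* Matrix.SpecialLinearGroup (Fin 2) ℚ where
  toFun M := ⟨!![M 0 0, M 0 1 / q; q * M 1 0, M 1 1], by
    have hq : (q : ℚ) ≠ 0 := Nat.cast_ne_zero.mpr (NeZero.ne q)
    have h := M.det_coe
    rw [Matrix.det_fin_two] at h
    rw [Matrix.det_fin_two_of]
    field_simp
    linear_combination h⟩
  map_one' := by
    ext i j
    fin_cases i <;> fin_cases j <;> simp
  map_mul' A B := by
    have hq : (q : ℚ) ≠ 0 := Nat.cast_ne_zero.mpr (NeZero.ne q)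
    ext i j
    fin_cases i <;> fin_cases j <;>
      simp [Matrix.mul_apply, Fin.sum_univ_two] <;> field_simp

/-- Conjugation by `g⁻¹`, `g = diag(q, 1)` on `SL(2, ℚ)`:
`M ↦ g M g⁻¹ = [[a, q b], [c / q, d]]`. -/
noncomputable def h32_cgInv (q : ℕ) [NeZero q] :
    Matrix.SpecialLinearGroup (Fin 2) ℚ →* Matrix.SpecialLinearGroup (Fin 2) ℚ where
  toFun M := ⟨!![M 0 0, q * M 0 1; M 1 0 / q, M 1 1], by
    have hq : (q : ℚ) ≠ 0 := Nat.cast_ne_zero.mpr (NeZero.ne q)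
    have h := M.det_coe
    rw [Matrix.det_fin_two] at h
    rw [Matrix.det_fin_two_of]
    field_simp
    linear_combination h⟩
  map_one' := by
    ext i j
    fin_cases i <;> fin_cases j <;> simp
  map_mul' A B := by
    have hq : (q : ℚ) ≠ 0 := Nat.cast_ne_zero.mpr (NeZero.ne q)
    ext i j
    fin_cases i <;> fin_cases j <;>
      simp [Matrix.mul_apply, Fin.sum_univ_two] <;> field_simp

theorem h32_cg_apply (q : ℕ) [NeZero q] (M : Matrix.SpecialLinearGroup (Fin 2) ℚ) :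
    ((h32_cg q M : Matrix.SpecialLinearGroup (Fin 2) ℚ) : Matrix (Fin 2) (Fin 2) ℚ) =
      !![M 0 0, M 0 1 / q; q * M 1 0, M 1 1] := rfl

theorem h32_cgInv_apply (q : ℕ) [NeZero q] (M : Matrix.SpecialLinearGroup (Fin 2) ℚ) :
    ((h32_cgInv q M : Matrix.SpecialLinearGroup (Fin 2) ℚ) : Matrix (Fin 2) (Fin 2) ℚ) =
      !![M 0 0, q * M 0 1; M 1 0 / q, M 1 1] := rfl

theorem h32_cg_cgInv (q : ℕ) [NeZero q] (M : Matrix.SpecialLinearGroup (Fin 2) ℚ) :
    h32_cg q (h32_cgInv q M) = M := by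
  have hq : (q : ℚ) ≠ 0 := Nat.cast_ne_zero.mpr (NeZero.ne q)
  ext i j
  fin_cases i <;> fin_cases j <;> simp [h32_cg, h32_cgInv] <;> field_simp

theorem h32_cgInv_cg (q : ℕ) [NeZero q] (M : Matrix.SpecialLinearGroup (Fin 2) ℚ) :
    h32_cgInv q (h32_cg q M) = M := by
  have hq : (q : ℚ) ≠ 0 := Nat.cast_ne_zero.mpr (NeZero.ne q)
  ext i j
  fin_cases i <;> fin_cases j <;> simp [h32_cg, h32_cgInv] <;> field_simp

theorem h32_cg_injective (q : ℕ) [NeZero q] : Function.Injective (h32_cg q) :=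
  Function.LeftInverse.injective (h32_cgInv_cg q)

/-- Membership in `Γ₀(N)` as integer divisibility. -/
theorem h32_mem_Gamma0_iff (N : ℕ) (γ : Matrix.SpecialLinearGroup (Fin 2) ℤ) :
    γ ∈ Gamma0 N ↔ (N : ℤ) ∣ γ 1 0 := by
  rw [Gamma0_mem, ZMod.intCast_zmod_eq_zero_iff_dvd]

/-- The underlying function of `up : Γ₀(Nq) → Γ₀(N)`, `γ ↦ g γ g⁻¹ = [[a, q b], [c / q, d]]`. -/
noncomputable def h32_upFun (N q : ℕ) [NeZero q] (γ : Gamma0 (N * q)) : Gamma0 N :=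
  ⟨⟨!![(γ : Matrix.SpecialLinearGroup (Fin 2) ℤ) 0 0,
        q * (γ : Matrix.SpecialLinearGroup (Fin 2) ℤ) 0 1;
        (γ : Matrix.SpecialLinearGroup (Fin 2) ℤ) 1 0 / q,
        (γ : Matrix.SpecialLinearGroup (Fin 2) ℤ) 1 1], by
      have hmem := (h32_mem_Gamma0_iff (N * q) γ.1).1 γ.2
      have hq : (q : ℤ) ∣ (γ : Matrix.SpecialLinearGroup (Fin 2) ℤ) 1 0 :=
        Dvd.dvd.trans ⟨(N : ℤ), by push_cast; ring⟩ hmem
      obtain ⟨c, hc⟩ := hq
      have hq0 : (q : ℤ) ≠ 0 := Nat.cast_ne_zero.mpr (NeZero.ne q)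
      have h := (γ : Matrix.SpecialLinearGroup (Fin 2) ℤ).det_coe
      rw [Matrix.det_fin_two] at h
      rw [Matrix.det_fin_two_of, hc, Int.mul_ediv_cancel_left _ hq0]
      rw [hc] at h
      linear_combination h⟩, by
      rw [h32_mem_Gamma0_iff]
      have hmem := (h32_mem_Gamma0_iff (N * q) γ.1).1 γ.2
      obtain ⟨c, hc⟩ := hmem
      have hq0 : (q : ℤ) ≠ 0 := Nat.cast_ne_zero.mpr (NeZero.ne q)
      refine ⟨c, ?_⟩
      show (γ : Matrix.SpecialLinearGroup (Fin 2) ℤ) 1 0 / (q : ℤ) = N * c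
      rw [hc]
      push_cast
      rw [show (N : ℤ) * q * c = q * (N * c) by ring, Int.mul_ediv_cancel_left _ hq0]⟩

theorem h32_iota_upFun (N q : ℕ) [NeZero q] (γ : Gamma0 (N * q)) :
    h32_iota (h32_upFun N q γ : Matrix.SpecialLinearGroup (Fin 2) ℤ) =
      h32_cgInv q (h32_iota (γ : Matrix.SpecialLinearGroup (Fin 2) ℤ)) := by
  have hmem := (h32_mem_Gamma0_iff (N * q) γ.1).1 γ.2
  have hq : (q : ℤ) ∣ (γ : Matrix.SpecialLinearGroup (Fin 2) ℤ) 1 0 :=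
    Dvd.dvd.trans ⟨(N : ℤ), by push_cast; ring⟩ hmem
  have hq0 : (q : ℚ) ≠ 0 := Nat.cast_ne_zero.mpr (NeZero.ne q)
  ext i j
  fin_cases i <;> fin_cases j
  · simp [h32_upFun, h32_cgInv, h32_iota_apply]
  · simp [h32_upFun, h32_cgInv, h32_iota_apply]
  · obtain ⟨c, hc⟩ := hq
    have hq0' : (q : ℤ) ≠ 0 := Nat.cast_ne_zero.mpr (NeZero.ne q)
    simp [h32_upFun, h32_cgInv, h32_iota_apply, hc, Int.mul_ediv_cancel_left _ hq0']
    field_simp
  · simp [h32_upFun, h32_cgInv, h32_iota_apply]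

/-- `up : Γ₀(Nq) →* Γ₀(N)`, `γ ↦ g γ g⁻¹ = [[a, q b], [c / q, d]]`, `g = diag(q, 1)`. -/
noncomputable def h32_up (N q : ℕ) [NeZero q] : Gamma0 (N * q) →* Gamma0 N where
  toFun := h32_upFun N q
  map_one' := by
    apply Subtype.ext
    apply h32_iota_injective
    rw [h32_iota_upFun]
    simp
  map_mul' a b := by
    apply Subtype.ext
    apply h32_iota_injective
    rw [h32_iota_upFun]
    simp [h32_iota_upFun]

theorem h32_iota_up (N q : ℕ) [NeZero q] (γ : Gamma0 (N * q)) :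
    h32_iota (h32_up N q γ : Matrix.SpecialLinearGroup (Fin 2) ℤ) =
      h32_cgInv q (h32_iota (γ : Matrix.SpecialLinearGroup (Fin 2) ℤ)) :=
  h32_iota_upFun N q γ

theorem h32_up_injective (N q : ℕ) [NeZero q] : Function.Injective (h32_up N q) := by
  intro a b h
  apply Subtype.ext
  apply h32_iota_injective
  have h1 := congrArg (fun x : Gamma0 N =>
    h32_cg q (h32_iota (x : Matrix.SpecialLinearGroup (Fin 2) ℤ))) h
  simpa [h32_iota_up, h32_cg_cgInv] using h1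

theorem h32_Gamma0_mul_le (N q : ℕ) : Gamma0 (N * q) ≤ Gamma0 N := by
  intro γ hγ
  rw [h32_mem_Gamma0_iff] at hγ ⊢
  exact Dvd.dvd.trans ⟨(q : ℤ), by push_cast; ring⟩ hγ

/-- The inclusion `Γ₀(Nq) →* Γ₀(N)`. -/
noncomputable def h32_incl (N q : ℕ) : Gamma0 (N * q) →* Gamma0 N :=
  Subgroup.inclusion (h32_Gamma0_mul_le N q)

theorem h32_incl_coe (N q : ℕ) (γ : Gamma0 (N * q)) :
    (h32_incl N q γ : Matrix.SpecialLinearGroup (Fin 2) ℤ) = γ := rfl

theorem h32_incl_injective (N q : ℕ) : Function.Injective (h32_incl N q) :=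
  Subgroup.inclusion_injective _

end Fermat.Agent.LR
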