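/-
P-LR (S41 level raising), blueprint item (5a) AMALGAM, part 2: the `q`-adic ping-pong.
A nonempty reduced alternating word in `Γ₀(N)` and `g⁻¹ Γ₀(N) g` is not in `Γ₀(Nq)`.
Mathlib only.  (helper32)
-/
import Fermat.Agent.LR.AmalgamDefs

namespace Fermat.Agent.LR

open Matrix CongruenceSubgroup

/-- State `A_k` of a row vector `(x, y)`: `x = X / q^k`, `y = Y / q^k`, `q ∤ X`. -/
def h32_stA (q k : ℕ) (x y : ℚ) : Prop :=
  ∃ X Y : ℤ, ¬ (q : ℤ) ∣ X ∧ x * (q : ℚ) ^ k = X ∧ y * (q : ℚ) ^ k = Y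

/-- State `B_k` of a row vector `(x, y)`: `x = q X / q^k`, `y = Y / q^k`, `q ∤ Y`. -/
def h32_stB (q k : ℕ) (x y : ℚ) : Prop :=
  ∃ X Y : ℤ, ¬ (q : ℤ) ∣ Y ∧ x * (q : ℚ) ^ k = q * X ∧ y * (q : ℚ) ^ k = Y

theorem h32_stB_to_stA {q k : ℕ} (hq : q.Prime) {x y : ℚ} (h : h32_stB q k x y)
    (a b c d : ℤ) (hc : ¬ (q : ℤ) ∣ c) :
    h32_stA q k (x * a + y * c) (x * b + y * d) := by
  obtain ⟨X, Y, hY, hx, hy⟩ := h
  refine ⟨q * X * a + Y * c, q * X * b + Y * d, ?_, ?_, ?_⟩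
  · intro hdvd
    have h1 : (q : ℤ) ∣ Y * c := by
      have h2 : (q : ℤ) ∣ q * X * a := ⟨X * a, by ring⟩
      exact (Int.dvd_add_right h2).1 hdvd
    rcases (Nat.prime_iff_prime_int.mp hq).dvd_or_dvd h1 with h3 | h3
    · exact hY h3
    · exact hc h3
  · push_cast
    rw [← hx, ← hy]; ring
  · push_cast
    rw [← hx, ← hy]; ring

theorem h32_stA_to_stB {q k : ℕ} (hq : q.Prime) {x y : ℚ} (h : h32_stA q k x y)
    (a b c d : ℤ) (hb : ¬ (q : ℤ) ∣ b) :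
    h32_stB q (k + 1) (x * a + y * (q * c)) (x * (b / q) + y * d) := by
  obtain ⟨X, Y, hX, hx, hy⟩ := h
  have hq0 : (q : ℚ) ≠ 0 := Nat.cast_ne_zero.mpr hq.ne_zero
  refine ⟨X * a + q * Y * c, X * b + q * Y * d, ?_, ?_, ?_⟩
  · intro hdvd
    have h1 : (q : ℤ) ∣ X * b := by
      have h2 : (q : ℤ) ∣ q * Y * d := ⟨Y * d, by ring⟩
      exact (Int.dvd_add_left h2).1 hdvd
    rcases (Nat.prime_iff_prime_int.mp hq).dvd_or_dvd h1 with h3 | h3
    · exact hX h3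
    · exact hb h3
  · push_cast
    rw [← hx, ← hy]; ring
  · push_cast
    rw [← hx, ← hy]
    field_simp
    ring

theorem h32_stA_not_int {q k : ℕ} (_hq : q.Prime) {x y : ℚ} (h : h32_stA q (k + 1) x y)
    (n : ℤ) : x ≠ n := by
  obtain ⟨X, Y, hX, hx, -⟩ := h
  intro hxn
  apply hX
  rw [hxn] at hx
  have : (X : ℚ) = ((n * q ^ (k + 1) : ℤ) : ℚ) := by rw [← hx]; push_cast; ring
  have h2 : X = n * q ^ (k + 1) := by exact_mod_cast this
  rw [h2, pow_succ]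
  exact ⟨n * q ^ k, by ring⟩

theorem h32_stB_not_int {q k : ℕ} (_hq : q.Prime) {x y : ℚ} (h : h32_stB q (k + 1) x y)
    (n : ℤ) : y ≠ n := by
  obtain ⟨X, Y, hY, -, hy⟩ := h
  intro hyn
  apply hY
  rw [hyn] at hy
  have : (Y : ℚ) = ((n * q ^ (k + 1) : ℤ) : ℚ) := by rw [← hy]; push_cast; ring
  have h2 : Y = n * q ^ (k + 1) := by exact_mod_cast this
  rw [h2, pow_succ]
  exact ⟨n * q ^ k, by ring⟩

/-- Combined state: `t = 0` is `B_k` (the next letter must be of type `0`),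
`t = 1` is `A_k` (the next letter must be of type `1`). -/
def h32_st (q : ℕ) (t : Fin 2) (k : ℕ) (x y : ℚ) : Prop :=
  (t = 0 ∧ h32_stB q k x y) ∨ (t = 1 ∧ h32_stA q k x y)

theorem h32_st_not_int {q k : ℕ} (hq : q.Prime) {t : Fin 2} {x y : ℚ}
    (h : h32_st q t (k + 1) x y) : ¬ ((∃ n : ℤ, x = n) ∧ (∃ n : ℤ, y = n)) := by
  rintro ⟨⟨n, hn⟩, ⟨m, hm⟩⟩
  rcases h with ⟨-, h⟩ | ⟨-, h⟩
  · exact h32_stB_not_int hq h m hm
  · exact h32_stA_not_int hq h n hn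

/-- The two maps of the diagram `Γ₀(N) ← Γ₀(Nq) → Γ₀(N)`: inclusion and `up`. -/
noncomputable def h32_phi (N q : ℕ) [NeZero q] (i : Fin 2) : Gamma0 (N * q) →* Gamma0 N :=
  if i = 0 then h32_incl N q else h32_up N q

/-- The two embeddings of `Γ₀(N)` into `SL(2, ℚ)`: the cast and its conjugate by `g`. -/
noncomputable def h32_f (N q : ℕ) [NeZero q] (i : Fin 2) :
    Gamma0 N →* Matrix.SpecialLinearGroup (Fin 2) ℚ :=
  if i = 0 then h32_iota.comp (Gamma0 N).subtype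
  else (h32_cg q).comp (h32_iota.comp (Gamma0 N).subtype)

/-- The embedding of the base group `Γ₀(Nq)` into `SL(2, ℚ)`. -/
noncomputable def h32_k (N q : ℕ) : Gamma0 (N * q) →* Matrix.SpecialLinearGroup (Fin 2) ℚ :=
  h32_iota.comp (Gamma0 (N * q)).subtype

theorem h32_f_comp_phi (N q : ℕ) [NeZero q] (i : Fin 2) :
    (h32_f N q i).comp (h32_phi N q i) = h32_k N q := by
  ext γ : 1
  by_cases hi : i = 0
  · simp [h32_f, h32_phi, h32_k, hi, h32_incl_coe]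
  · simp [h32_f, h32_phi, h32_k, hi, h32_iota_up, h32_cg_cgInv]

theorem h32_phi_injective (N q : ℕ) [NeZero q] (i : Fin 2) :
    Function.Injective (h32_phi N q i) := by
  by_cases hi : i = 0
  · simp only [h32_phi, hi, if_true]; exact h32_incl_injective N q
  · simp only [h32_phi, hi, if_false]; exact h32_up_injective N q

theorem h32_k_injective (N q : ℕ) : Function.Injective (h32_k N q) := by
  intro a b h
  apply Subtype.ext
  exact h32_iota_injective h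

/-- A letter of type `0` outside the base group has `q ∤ c`. -/
theorem h32_letter_zero {N q : ℕ} [NeZero q] (hNq : Nat.Coprime N q) (γ : Gamma0 N)
    (h : γ ∉ (h32_phi N q 0).range) :
    ¬ (q : ℤ) ∣ (γ : Matrix.SpecialLinearGroup (Fin 2) ℤ) 1 0 := by
  intro hq
  apply h
  have hN := (h32_mem_Gamma0_iff N γ.1).1 γ.2
  have hcop : IsCoprime (N : ℤ) (q : ℤ) := Nat.isCoprime_iff_coprime.mpr hNq
  have hmem : (γ : Matrix.SpecialLinearGroup (Fin 2) ℤ) ∈ Gamma0 (N * q) := by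
    rw [h32_mem_Gamma0_iff]
    push_cast
    exact hcop.mul_dvd hN hq
  refine ⟨⟨γ.1, hmem⟩, ?_⟩
  simp only [h32_phi, if_true]
  rfl

/-- A letter of type `1` outside the base group has `q ∤ b`. -/
theorem h32_letter_one {N q : ℕ} [NeZero q] (γ : Gamma0 N)
    (h : γ ∉ (h32_phi N q 1).range) :
    ¬ (q : ℤ) ∣ (γ : Matrix.SpecialLinearGroup (Fin 2) ℤ) 0 1 := by
  intro hq
  apply h
  obtain ⟨b, hb⟩ := hq
  have hN := (h32_mem_Gamma0_iff N γ.1).1 γ.2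
  obtain ⟨c, hc⟩ := hN
  have hq0 : (q : ℤ) ≠ 0 := Nat.cast_ne_zero.mpr (NeZero.ne q)
  have hdet := (γ : Matrix.SpecialLinearGroup (Fin 2) ℤ).det_coe
  rw [Matrix.det_fin_two] at hdet
  let δ : Matrix.SpecialLinearGroup (Fin 2) ℤ :=
    ⟨!![(γ : Matrix.SpecialLinearGroup (Fin 2) ℤ) 0 0, b;
        q * (γ : Matrix.SpecialLinearGroup (Fin 2) ℤ) 1 0,
        (γ : Matrix.SpecialLinearGroup (Fin 2) ℤ) 1 1], by
      rw [Matrix.det_fin_two_of]
      rw [hb] at hdet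
      linear_combination hdet⟩
  have hδ : δ ∈ Gamma0 (N * q) := by
    rw [h32_mem_Gamma0_iff]
    refine ⟨c, ?_⟩
    show (q : ℤ) * (γ : Matrix.SpecialLinearGroup (Fin 2) ℤ) 1 0 = ((N * q : ℕ) : ℤ) * c
    rw [hc]; push_cast; ring
  refine ⟨⟨δ, hδ⟩, ?_⟩
  have h1 : (1 : Fin 2) ≠ 0 := by decide
  simp only [h32_phi, h1, if_false]
  apply Subtype.ext
  ext i j
  fin_cases i <;> fin_cases j
  · rfl
  · show (q : ℤ) * b = _
    exact hb.symm
  · show (q : ℤ) * (γ : Matrix.SpecialLinearGroup (Fin 2) ℤ) 1 0 / (q : ℤ) = _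
    exact Int.mul_ediv_cancel_left _ hq0
  · rfl

end Fermat.Agent.LR
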