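/-
P-LR (S41 level raising), blueprint item (5a) AMALGAM, part 3: injectivity of the canonical map
from the amalgamated product `Γ₀(N) *_{Γ₀(Nq)} Γ₀(N)` to `SL(2, ℚ)` and extension of
compatible pairs of homomorphisms.  Mathlib only.  (helper32)
-/
import Fermat.Agent.LR.AmalgamPing

namespace Fermat.Agent.LR

open Matrix CongruenceSubgroup Monoid

/-- The image in `SL(2, ℚ)` of a letter. -/
noncomputable def h32_F (N q : ℕ) [NeZero q] (l : Σ _ : Fin 2, Gamma0 N) :
    Matrix.SpecialLinearGroup (Fin 2) ℚ :=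
  h32_f N q l.1 l.2

theorem h32_F_zero (N q : ℕ) [NeZero q] (l : Σ _ : Fin 2, Gamma0 N) (h : l.1 = 0) (i j : Fin 2) :
    (h32_F N q l) i j = (((l.2 : Matrix.SpecialLinearGroup (Fin 2) ℤ) i j : ℤ) : ℚ) := by
  simp [h32_F, h32_f, h, h32_iota_apply]

theorem h32_F_one (N q : ℕ) [NeZero q] (l : Σ _ : Fin 2, Gamma0 N) (h : l.1 = 1) :
    ((h32_F N q l : Matrix.SpecialLinearGroup (Fin 2) ℚ) : Matrix (Fin 2) (Fin 2) ℚ) =
      !![(((l.2 : Matrix.SpecialLinearGroup (Fin 2) ℤ) 0 0 : ℤ) : ℚ),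
         (((l.2 : Matrix.SpecialLinearGroup (Fin 2) ℤ) 0 1 : ℤ) : ℚ) / q;
         q * (((l.2 : Matrix.SpecialLinearGroup (Fin 2) ℤ) 1 0 : ℤ) : ℚ),
         (((l.2 : Matrix.SpecialLinearGroup (Fin 2) ℤ) 1 1 : ℤ) : ℚ)] := by
  have h1 : (1 : Fin 2) ≠ 0 := by decide
  simp [h32_F, h32_f, h, h1, h32_cg_apply, h32_iota_apply]

theorem h32_row_mul (M F : Matrix.SpecialLinearGroup (Fin 2) ℚ) (r : Fin 2) :
    (M * F) r 0 = M r 0 * F 0 0 + M r 1 * F 1 0 ∧
      (M * F) r 1 = M r 0 * F 0 1 + M r 1 * F 1 1 := by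
  constructor <;>
    simp [Matrix.SpecialLinearGroup.coe_mul, Matrix.mul_apply, Fin.sum_univ_two]

theorem h32_fin2_a : ∀ x y t : Fin 2, t ≠ x → x ≠ y → y = t := by decide

theorem h32_fin2_b : ∀ x t : Fin 2, t ≠ x → x ≠ 1 → t = 1 := by decide

theorem h32_fin2_c : ∀ x : Fin 2, x ≠ 1 → x = 0 := by decide

/-- One step of the ping-pong. -/
theorem h32_step {N q : ℕ} [NeZero q] (hq : q.Prime) (hNq : Nat.Coprime N q)
    (l : Σ _ : Fin 2, Gamma0 N) (hl : l.2 ∉ (h32_phi N q l.1).range)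
    (M : Matrix.SpecialLinearGroup (Fin 2) ℚ) (r : Fin 2) (k : ℕ)
    (hst : h32_st q l.1 k (M r 0) (M r 1)) :
    ∃ (t' : Fin 2) (k' : ℕ),
      h32_st q t' k' ((M * h32_F N q l) r 0) ((M * h32_F N q l) r 1) ∧
        t' ≠ l.1 ∧ k ≤ k' ∧ (l.1 = 1 → k + 1 ≤ k') := by
  obtain ⟨i, γ⟩ := l
  have h01 : (0 : Fin 2) ≠ 1 := by decide
  have h10 : (1 : Fin 2) ≠ 0 := by decide
  obtain ⟨hr0, hr1⟩ := h32_row_mul M (h32_F N q ⟨i, γ⟩) r
  rcases hst with ⟨hi, hB⟩ | ⟨hi, hA⟩
  · -- type 0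
    simp only at hi
    subst hi
    have hc := h32_letter_zero hNq γ hl
    refine ⟨1, k, Or.inr ⟨rfl, ?_⟩, h10, le_rfl, fun h => absurd h h01⟩
    rw [hr0, hr1, h32_F_zero N q _ rfl, h32_F_zero N q _ rfl, h32_F_zero N q _ rfl,
      h32_F_zero N q _ rfl]
    exact h32_stB_to_stA hq hB _ _ _ _ hc
  · -- type 1
    simp only at hi
    subst hi
    have hb := h32_letter_one γ hl
    refine ⟨0, k + 1, Or.inl ⟨rfl, ?_⟩, h01, Nat.le_succ k, fun _ => le_rfl⟩
    have hF := h32_F_one N q ⟨1, γ⟩ rfl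
    have e00 : (h32_F N q ⟨1, γ⟩) 0 0 =
        (((γ : Matrix.SpecialLinearGroup (Fin 2) ℤ) 0 0 : ℤ) : ℚ) := by
      have := congrFun (congrFun hF 0) 0; simpa using this
    have e01 : (h32_F N q ⟨1, γ⟩) 0 1 =
        (((γ : Matrix.SpecialLinearGroup (Fin 2) ℤ) 0 1 : ℤ) : ℚ) / q := by
      have := congrFun (congrFun hF 0) 1; simpa using this
    have e10 : (h32_F N q ⟨1, γ⟩) 1 0 =
        q * (((γ : Matrix.SpecialLinearGroup (Fin 2) ℤ) 1 0 : ℤ) : ℚ) := by
      have := congrFun (congrFun hF 1) 0; simpa using this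
    have e11 : (h32_F N q ⟨1, γ⟩) 1 1 =
        (((γ : Matrix.SpecialLinearGroup (Fin 2) ℤ) 1 1 : ℤ) : ℚ) := by
      have := congrFun (congrFun hF 1) 1; simpa using this
    rw [hr0, hr1, e00, e01, e10, e11]
    exact h32_stA_to_stB hq hA _ _ _ _ hb

/-- The ping-pong run along a reduced alternating list of letters. -/
theorem h32_run {N q : ℕ} [NeZero q] (hq : q.Prime) (hNq : Nat.Coprime N q) :
    ∀ (L : List (Σ _ : Fin 2, Gamma0 N)),
      L.IsChain (fun l l' => l.1 ≠ l'.1) →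
      (∀ l ∈ L, l.2 ∉ (h32_phi N q l.1).range) →
      ∀ (M : Matrix.SpecialLinearGroup (Fin 2) ℚ) (r : Fin 2) (k : ℕ) (t : Fin 2),
        (∀ l, L.head? = some l → l.1 = t) →
        h32_st q t k (M r 0) (M r 1) →
        ∃ (t' : Fin 2) (k' : ℕ),
          h32_st q t' k' ((M * (L.map (h32_F N q)).prod) r 0)
            ((M * (L.map (h32_F N q)).prod) r 1) ∧
          k ≤ k' ∧ (2 ≤ L.length → k + 1 ≤ k') ∧ (t = 1 → 1 ≤ L.length → k + 1 ≤ k') := by
  intro L
  induction L with
  | nil =>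
    intro _ _ M r k t _ hst
    refine ⟨t, k, by simpa using hst, le_rfl, by simp, by simp⟩
  | cons l L ih =>
    intro hchain hred M r k t hhead hst
    have hl1 : l.1 = t := hhead l rfl
    subst hl1
    obtain ⟨t₁, k₁, hst₁, ht₁, hk₁, hk₁'⟩ :=
      h32_step hq hNq l (hred l List.mem_cons_self) M r k hst
    have hchain' : L.IsChain (fun l l' => l.1 ≠ l'.1) := by
      cases L with
      | nil => exact List.isChain_nil
      | cons b L' => exact (List.isChain_cons_cons.1 hchain).2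
    have hhead' : ∀ l', L.head? = some l' → l'.1 = t₁ := by
      intro l' hl'
      cases L with
      | nil => simp at hl'
      | cons b L' =>
        simp only [List.head?_cons, Option.some.injEq] at hl'
        subst hl'
        have hne : l.1 ≠ b.1 := (List.isChain_cons_cons.1 hchain).1
        exact h32_fin2_a _ _ _ ht₁ hne
    obtain ⟨t', k', hst', hk', hk2, hk3⟩ :=
      ih hchain' (fun l' hl' => hred l' (List.mem_cons_of_mem _ hl')) (M * h32_F N q l) r k₁ t₁
        hhead' hst₁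
    refine ⟨t', k', ?_, hk₁.trans hk', ?_, ?_⟩
    · simpa [List.map_cons, List.prod_cons, mul_assoc] using hst'
    · intro hlen
      have hlen' : 1 ≤ L.length := by simpa using hlen
      by_cases ht : l.1 = 1
      · exact (hk₁' ht).trans hk'
      · have ht1 : t₁ = 1 := h32_fin2_b _ _ ht₁ ht
        exact (Nat.succ_le_succ hk₁).trans (hk3 ht1 hlen')
    · intro ht _
      exact (hk₁' ht).trans hk'

/-- **Ping-pong**: a nonempty reduced alternating word is not in the image of `Γ₀(Nq)`. -/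
theorem h32_word_not_mem {N q : ℕ} [NeZero q] (hq : q.Prime) (hNq : Nat.Coprime N q)
    (L : List (Σ _ : Fin 2, Gamma0 N))
    (hchain : L.IsChain (fun l l' => l.1 ≠ l'.1))
    (hred : ∀ l ∈ L, l.2 ∉ (h32_phi N q l.1).range)
    (hmem : (L.map (h32_F N q)).prod ∈ (h32_k N q).range) : L = [] := by
  by_contra hne
  obtain ⟨γ₀, hγ₀⟩ := hmem
  have hint : ∀ i j, ∃ n : ℤ, ((L.map (h32_F N q)).prod) i j = n := by
    intro i j
    refine ⟨(γ₀ : Matrix.SpecialLinearGroup (Fin 2) ℤ) i j, ?_⟩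
    rw [← hγ₀]
    rfl
  have hq1 : ¬ (q : ℤ) ∣ 1 := by
    intro h
    have := Int.natAbs_dvd_natAbs.mpr h
    simp at this
    exact hq.one_lt.ne' this
  cases L with
  | nil => exact hne rfl
  | cons l L' =>
    by_cases ht : l.1 = 1
    · -- first letter of type 1: use the top row of the identity
      have hst : h32_st q 1 0 ((1 : Matrix.SpecialLinearGroup (Fin 2) ℚ) 0 0)
          ((1 : Matrix.SpecialLinearGroup (Fin 2) ℚ) 0 1) := by
        refine Or.inr ⟨rfl, 1, 0, hq1, ?_, ?_⟩ <;> simp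
      obtain ⟨t', k', hst', -, -, hk3⟩ :=
        h32_run hq hNq (l :: L') hchain hred 1 0 0 1
          (fun l' hl' => by
            simp only [List.head?_cons, Option.some.injEq] at hl'
            rw [← hl']; exact ht) hst
      have hk : 1 ≤ k' := hk3 rfl (by simp)
      obtain ⟨k'', rfl⟩ : ∃ k'', k' = k'' + 1 := ⟨k' - 1, by omega⟩
      rw [one_mul] at hst'
      exact h32_st_not_int hq hst' ⟨hint 0 0, hint 0 1⟩
    · -- first letter of type 0: use the bottom row of the identity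
      have ht0 : l.1 = 0 := h32_fin2_c _ ht
      have hst : h32_st q 0 0 ((1 : Matrix.SpecialLinearGroup (Fin 2) ℚ) 1 0)
          ((1 : Matrix.SpecialLinearGroup (Fin 2) ℚ) 1 1) := by
        refine Or.inl ⟨rfl, 0, 1, hq1, ?_, ?_⟩ <;> simp
      cases L' with
      | nil =>
        -- a single letter of type 0
        apply hred l List.mem_cons_self
        have h1 : h32_F N q l = h32_iota (γ₀ : Matrix.SpecialLinearGroup (Fin 2) ℤ) := by
          have := hγ₀
          simp only [List.map_cons, List.map_nil, List.prod_cons, List.prod_nil, mul_one] at this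
          rw [← this]; rfl
        have h2 : h32_F N q l = h32_iota (l.2 : Matrix.SpecialLinearGroup (Fin 2) ℤ) := by
          simp [h32_F, h32_f, ht0]
        have h3 : (l.2 : Matrix.SpecialLinearGroup (Fin 2) ℤ) = γ₀ :=
          h32_iota_injective (h2.symm.trans h1)
        refine ⟨γ₀, ?_⟩
        rw [ht0]
        simp only [h32_phi, if_true]
        apply Subtype.ext
        rw [h32_incl_coe]
        exact h3.symm
      | cons b L'' =>
        obtain ⟨t', k', hst', -, hk2, -⟩ :=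
          h32_run hq hNq (l :: b :: L'') hchain hred 1 1 0 0
            (fun l' hl' => by
              simp only [List.head?_cons, Option.some.injEq] at hl'
              rw [← hl']; exact ht0) hst
        have hk : 1 ≤ k' := hk2 (by simp)
        obtain ⟨k'', rfl⟩ : ∃ k'', k' = k'' + 1 := ⟨k' - 1, by omega⟩
        rw [one_mul] at hst'
        exact h32_st_not_int hq hst' ⟨hint 1 0, hint 1 1⟩

end Fermat.Agent.LR
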