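/-
P-LR (S41 level raising), blueprint item (5a) AMALGAM, part 4: main theorems.
Mathlib only.  (helper32)
-/
import Fermat.Agent.LR.Amalgam

namespace Fermat.Agent.LR

open Matrix CongruenceSubgroup Monoid

/-- The canonical map from the amalgamated product `Γ₀(N) *_{Γ₀(Nq)} Γ₀(N)` to `SL(2, ℚ)`. -/
noncomputable def h32_Psi (N q : ℕ) [NeZero q] :
    PushoutI (G := fun _ : Fin 2 => ↥(Gamma0 N)) (h32_phi N q) →*
      Matrix.SpecialLinearGroup (Fin 2) ℚ :=
  PushoutI.lift (G := fun _ : Fin 2 => ↥(Gamma0 N)) (h32_f N q) (h32_k N q) (h32_f_comp_phi N q)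

theorem h32_Psi_of (N q : ℕ) [NeZero q] (i : Fin 2) (γ : Gamma0 N) :
    h32_Psi N q (PushoutI.of (G := fun _ : Fin 2 => ↥(Gamma0 N)) i γ) = h32_f N q i γ := by
  simp [h32_Psi]

theorem h32_Psi_base (N q : ℕ) [NeZero q] (γ : Gamma0 (N * q)) :
    h32_Psi N q (PushoutI.base (G := fun _ : Fin 2 => ↥(Gamma0 N)) (h32_phi N q) γ) =
      h32_k N q γ := by
  simp [h32_Psi]

theorem h32_Psi_list (N q : ℕ) [NeZero q] (L : List (Σ _ : Fin 2, Gamma0 N)) :
    h32_Psi N q (PushoutI.ofCoprodI (G := fun _ : Fin 2 => ↥(Gamma0 N))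
      (L.map fun l => CoprodI.of (M := fun _ : Fin 2 => ↥(Gamma0 N)) (i := l.1) l.2).prod) =
      (L.map (h32_F N q)).prod := by
  induction L with
  | nil => simp
  | cons l L ih =>
    simp only [List.map_cons, List.prod_cons, map_mul, ih]
    congr 1

/-- **Amalgam, injectivity**: the canonical map
`Γ₀(N) *_{Γ₀(Nq)} Γ₀(N) → SL(2, ℚ)` is injective (`q` prime, `q ∤ N`). -/
theorem h32_Psi_injective {N q : ℕ} [NeZero q] (hq : q.Prime) (hNq : Nat.Coprime N q) :
    Function.Injective (h32_Psi N q) := by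
  classical
  rw [injective_iff_map_eq_one]
  intro x hx
  obtain ⟨d⟩ := PushoutI.NormalWord.transversal_nonempty
    (G := fun _ : Fin 2 => ↥(Gamma0 N)) (h32_phi N q) (h32_phi_injective N q)
  set w : PushoutI.NormalWord d := PushoutI.NormalWord.equiv x with hw
  have hprod : w.prod = x := (PushoutI.NormalWord.equiv (d := d)).symm_apply_apply x
  have hred : ∀ l ∈ w.toList, l.2 ∉ (h32_phi N q l.1).range := by
    intro l hl hmem
    have hset := w.normalized l.1 l.2 hl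
    have hne := w.ne_one l hl
    have hcompl := d.compl l.1
    have hinj := hcompl.1
    have h1 : (⟨⟨l.2, hmem⟩, ⟨1, d.one_mem l.1⟩⟩ :
        (h32_phi N q l.1).range × d.set l.1) = ⟨⟨1, one_mem _⟩, ⟨l.2, hset⟩⟩ := by
      apply hinj
      simp
    have h2 := congrArg (fun p : (h32_phi N q l.1).range × d.set l.1 => (p.1 : Gamma0 N)) h1
    exact hne h2
  have hΨ : h32_Psi N q w.prod = h32_k N q w.head * (w.toList.map (h32_F N q)).prod := by
    rw [PushoutI.NormalWord.prod, map_mul, h32_Psi_base]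
    congr 1
    exact h32_Psi_list N q w.toList
  rw [← hprod, hΨ] at hx
  have hmem : (w.toList.map (h32_F N q)).prod ∈ (h32_k N q).range := by
    refine ⟨w.head⁻¹, ?_⟩
    rw [map_inv]
    exact inv_eq_of_mul_eq_one_right hx
  have hnil := h32_word_not_mem hq hNq w.toList w.chain_ne hred hmem
  rw [hnil] at hx
  simp only [List.map_nil, List.prod_nil, mul_one] at hx
  have hhead : w.head = 1 := h32_k_injective N q (by rw [hx, map_one])
  rw [← hprod, PushoutI.NormalWord.prod, hhead, map_one, one_mul]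
  have : w.toWord.prod = 1 := by
    rw [CoprodI.Word.prod, hnil]
    simp
  rw [this, map_one]

/-- The subgroup `⟨Γ₀(N), g⁻¹ Γ₀(N) g⟩` of `SL(2, ℚ)`, as the range of `h32_Psi`. -/
noncomputable def h32_DeltaGen (N q : ℕ) [NeZero q] :
    Subgroup (Matrix.SpecialLinearGroup (Fin 2) ℚ) :=
  (h32_Psi N q).range

theorem h32_f_mem_DeltaGen (N q : ℕ) [NeZero q] (i : Fin 2) (γ : Gamma0 N) :
    h32_f N q i γ ∈ h32_DeltaGen N q :=
  ⟨PushoutI.of (G := fun _ : Fin 2 => ↥(Gamma0 N)) i γ, h32_Psi_of N q i γ⟩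

theorem h32_iota_mem_DeltaGen (N q : ℕ) [NeZero q] (γ : Gamma0 N) :
    h32_iota (γ : Matrix.SpecialLinearGroup (Fin 2) ℤ) ∈ h32_DeltaGen N q := by
  have := h32_f_mem_DeltaGen N q 0 γ
  simpa [h32_f] using this

theorem h32_cg_iota_mem_DeltaGen (N q : ℕ) [NeZero q] (γ : Gamma0 N) :
    h32_cg q (h32_iota (γ : Matrix.SpecialLinearGroup (Fin 2) ℤ)) ∈ h32_DeltaGen N q := by
  have := h32_f_mem_DeltaGen N q 1 γ
  have h1 : (1 : Fin 2) ≠ 0 := by decide
  simpa [h32_f, h1] using this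

/-- `h32_DeltaGen` is the join of `ι(Γ₀(N))` and `g⁻¹ ι(Γ₀(N)) g`. -/
theorem h32_DeltaGen_eq_sup (N q : ℕ) [NeZero q] :
    h32_DeltaGen N q =
      ((Gamma0 N).map h32_iota) ⊔ (((Gamma0 N).map h32_iota).map (h32_cg q)) := by
  apply le_antisymm
  · rintro _ ⟨x, rfl⟩
    induction x using PushoutI.induction_on with
    | of i γ =>
      rw [h32_Psi_of]
      by_cases hi : i = 0
      · apply Subgroup.mem_sup_left
        simp only [h32_f, hi, if_true]
        exact ⟨γ.1, γ.2, rfl⟩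
      · apply Subgroup.mem_sup_right
        simp only [h32_f, hi, if_false]
        exact ⟨_, ⟨γ.1, γ.2, rfl⟩, rfl⟩
    | base γ =>
      rw [h32_Psi_base]
      apply Subgroup.mem_sup_left
      exact ⟨γ.1, h32_Gamma0_mul_le N q γ.2, rfl⟩
    | mul x y hx hy =>
      rw [map_mul]
      exact Subgroup.mul_mem _ hx hy
  · apply sup_le
    · rintro _ ⟨γ, hγ, rfl⟩
      exact h32_iota_mem_DeltaGen N q ⟨γ, hγ⟩
    · rintro _ ⟨_, ⟨γ, hγ, rfl⟩, rfl⟩
      exact h32_cg_iota_mem_DeltaGen N q ⟨γ, hγ⟩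

/-- **Amalgam, universal property**: a pair of homomorphisms `φ₁, φ₂ : Γ₀(N) →* K` which are
compatible on `Γ₀(Nq)` (`φ₁ γ = φ₂ (g γ g⁻¹)`) glues to a unique homomorphism on
`⟨Γ₀(N), g⁻¹ Γ₀(N) g⟩ ⊆ SL(2, ℚ)`. -/
theorem h32_amalgam_extend {N q : ℕ} [NeZero q] (hq : q.Prime) (hNq : Nat.Coprime N q)
    {K : Type*} [Group K] (φ₁ φ₂ : Gamma0 N →* K)
    (h : ∀ γ : Gamma0 (N * q), φ₁ (h32_incl N q γ) = φ₂ (h32_up N q γ)) :
    ∃! ψ : h32_DeltaGen N q →* K,
      (∀ γ : Gamma0 N, ψ ⟨h32_iota (γ : Matrix.SpecialLinearGroup (Fin 2) ℤ),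
          h32_iota_mem_DeltaGen N q γ⟩ = φ₁ γ) ∧
      (∀ γ : Gamma0 N, ψ ⟨h32_cg q (h32_iota (γ : Matrix.SpecialLinearGroup (Fin 2) ℤ)),
          h32_cg_iota_mem_DeltaGen N q γ⟩ = φ₂ γ) := by
  have h10 : (1 : Fin 2) ≠ 0 := by decide
  have hinj := h32_Psi_injective hq hNq
  let e : PushoutI (G := fun _ : Fin 2 => ↥(Gamma0 N)) (h32_phi N q) ≃* h32_DeltaGen N q :=
    MonoidHom.ofInjective hinj
  have he : ∀ x, ((e x : h32_DeltaGen N q) : Matrix.SpecialLinearGroup (Fin 2) ℚ) =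
      h32_Psi N q x := fun x => rfl
  let fam : (i : Fin 2) → Gamma0 N →* K := fun i => if i = 0 then φ₁ else φ₂
  have hfam : ∀ i, (fam i).comp (h32_phi N q i) = φ₁.comp (h32_incl N q) := by
    intro i
    ext γ : 1
    by_cases hi : i = 0
    · simp [fam, h32_phi, hi]
    · simp only [fam, h32_phi, hi, if_false, MonoidHom.comp_apply]
      exact (h γ).symm
  let Λ : PushoutI (G := fun _ : Fin 2 => ↥(Gamma0 N)) (h32_phi N q) →* K :=
    PushoutI.lift (G := fun _ : Fin 2 => ↥(Gamma0 N)) fam (φ₁.comp (h32_incl N q)) hfam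
  have hΛ : ∀ i γ, Λ (PushoutI.of (G := fun _ : Fin 2 => ↥(Gamma0 N)) i γ) = fam i γ := by
    intro i γ
    simp [Λ]
  have hof : ∀ (i : Fin 2) (γ : Gamma0 N),
      e (PushoutI.of (G := fun _ : Fin 2 => ↥(Gamma0 N)) i γ) =
        ⟨h32_f N q i γ, h32_f_mem_DeltaGen N q i γ⟩ := by
    intro i γ
    apply Subtype.ext
    rw [he, h32_Psi_of]
  have hsymm : ∀ (i : Fin 2) (γ : Gamma0 N),
      e.symm ⟨h32_f N q i γ, h32_f_mem_DeltaGen N q i γ⟩ =
        PushoutI.of (G := fun _ : Fin 2 => ↥(Gamma0 N)) i γ := by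
    intro i γ
    rw [← hof, MulEquiv.symm_apply_apply]
  have e0 : ∀ γ : Gamma0 N, (⟨h32_iota (γ : Matrix.SpecialLinearGroup (Fin 2) ℤ),
      h32_iota_mem_DeltaGen N q γ⟩ : h32_DeltaGen N q) =
        ⟨h32_f N q 0 γ, h32_f_mem_DeltaGen N q 0 γ⟩ := by
    intro γ
    apply Subtype.ext
    simp [h32_f]
  have e1 : ∀ γ : Gamma0 N,
      (⟨h32_cg q (h32_iota (γ : Matrix.SpecialLinearGroup (Fin 2) ℤ)),
        h32_cg_iota_mem_DeltaGen N q γ⟩ : h32_DeltaGen N q) =
        ⟨h32_f N q 1 γ, h32_f_mem_DeltaGen N q 1 γ⟩ := by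
    intro γ
    apply Subtype.ext
    simp [h32_f, h10]
  refine ⟨Λ.comp e.symm.toMonoidHom, ⟨?_, ?_⟩, ?_⟩
  · intro γ
    rw [e0]
    simp only [MonoidHom.comp_apply, MulEquiv.coe_toMonoidHom, hsymm, hΛ]
    simp [fam]
  · intro γ
    rw [e1]
    simp only [MonoidHom.comp_apply, MulEquiv.coe_toMonoidHom, hsymm, hΛ]
    simp [fam, h10]
  · rintro ψ ⟨hψ1, hψ2⟩
    have key : ψ.comp e.toMonoidHom = Λ := by
      apply PushoutI.hom_ext_nonempty
      intro i
      ext γ : 1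
      simp only [MonoidHom.comp_apply, MulEquiv.coe_toMonoidHom, hof, hΛ]
      by_cases hi : i = 0
      · subst hi
        rw [← e0, hψ1]
        simp [fam]
      · have hi1 : i = 1 := by
          revert hi; revert i; decide
        subst hi1
        rw [← e1, hψ2]
        simp [fam, h10]
    ext x : 1
    have := congrArg (fun F : PushoutI (G := fun _ : Fin 2 => ↥(Gamma0 N)) (h32_phi N q) →* K =>
      F (e.symm x)) key
    simpa using this

end Fermat.Agent.LR
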