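/-
P-LR (S41 level raising), blueprint item (5a) AMALGAM, part 5: the explicit group
`Δ = Γ₀(N)[1/q] = {M ∈ SL(2, ℤ[1/q]) : c ∈ N ℤ[1/q]}` as a subgroup of `SL(2, ℚ)`.
Mathlib only.  (helper32)
-/
import Fermat.Agent.LR.AmalgamMain

namespace Fermat.Agent.LR

open Matrix CongruenceSubgroup

/-- `x ∈ ℤ[1/q]`. -/
def h32_IsZq (q : ℕ) (x : ℚ) : Prop := ∃ (k : ℕ) (n : ℤ), x * (q : ℚ) ^ k = n

/-- `x ∈ N ℤ[1/q]`. -/
def h32_IsNZq (N q : ℕ) (x : ℚ) : Prop := ∃ (k : ℕ) (n : ℤ), x * (q : ℚ) ^ k = N * n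

theorem h32_IsZq_int (q : ℕ) (n : ℤ) : h32_IsZq q (n : ℚ) := ⟨0, n, by simp⟩

theorem h32_IsZq_zero (q : ℕ) : h32_IsZq q 0 := ⟨0, 0, by simp⟩

theorem h32_IsZq_one (q : ℕ) : h32_IsZq q 1 := ⟨0, 1, by simp⟩

theorem h32_IsZq_neg {q : ℕ} {x : ℚ} (hx : h32_IsZq q x) : h32_IsZq q (-x) := by
  obtain ⟨k, n, h⟩ := hx
  exact ⟨k, -n, by push_cast; rw [← h]; ring⟩

theorem h32_IsZq_add {q : ℕ} {x y : ℚ} (hx : h32_IsZq q x) (hy : h32_IsZq q y) :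
    h32_IsZq q (x + y) := by
  obtain ⟨k, n, h⟩ := hx
  obtain ⟨l, m, h'⟩ := hy
  exact ⟨k + l, n * q ^ l + m * q ^ k, by push_cast; rw [← h, ← h']; ring⟩

theorem h32_IsZq_mul {q : ℕ} {x y : ℚ} (hx : h32_IsZq q x) (hy : h32_IsZq q y) :
    h32_IsZq q (x * y) := by
  obtain ⟨k, n, h⟩ := hx
  obtain ⟨l, m, h'⟩ := hy
  exact ⟨k + l, n * m, by push_cast; rw [← h, ← h']; ring⟩

theorem h32_IsZq_div_q {q : ℕ} [NeZero q] {x : ℚ} (hx : h32_IsZq q x) :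
    h32_IsZq q (x / q) := by
  obtain ⟨k, n, h⟩ := hx
  have hq : (q : ℚ) ≠ 0 := Nat.cast_ne_zero.mpr (NeZero.ne q)
  exact ⟨k + 1, n, by rw [← h]; field_simp; ring⟩

theorem h32_IsNZq_zero (N q : ℕ) : h32_IsNZq N q 0 := ⟨0, 0, by simp⟩

theorem h32_IsNZq_neg {N q : ℕ} {x : ℚ} (hx : h32_IsNZq N q x) : h32_IsNZq N q (-x) := by
  obtain ⟨k, n, h⟩ := hx
  exact ⟨k, -n, by push_cast; rw [neg_mul, h]; ring⟩

theorem h32_IsNZq_add {N q : ℕ} {x y : ℚ} (hx : h32_IsNZq N q x) (hy : h32_IsNZq N q y) :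
    h32_IsNZq N q (x + y) := by
  obtain ⟨k, n, h⟩ := hx
  obtain ⟨l, m, h'⟩ := hy
  refine ⟨k + l, n * q ^ l + m * q ^ k, ?_⟩
  push_cast
  calc (x + y) * (q : ℚ) ^ (k + l)
      = (x * (q : ℚ) ^ k) * (q : ℚ) ^ l + (y * (q : ℚ) ^ l) * (q : ℚ) ^ k := by ring
    _ = _ := by rw [h, h']; ring

theorem h32_IsNZq_mul_left {N q : ℕ} {x y : ℚ} (hx : h32_IsNZq N q x) (hy : h32_IsZq q y) :
    h32_IsNZq N q (x * y) := by
  obtain ⟨k, n, h⟩ := hx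
  obtain ⟨l, m, h'⟩ := hy
  refine ⟨k + l, n * m, ?_⟩
  push_cast
  calc x * y * (q : ℚ) ^ (k + l)
      = (x * (q : ℚ) ^ k) * (y * (q : ℚ) ^ l) := by ring
    _ = _ := by rw [h, h']; ring

theorem h32_IsNZq_mul_right {N q : ℕ} {x y : ℚ} (hx : h32_IsZq q x) (hy : h32_IsNZq N q y) :
    h32_IsNZq N q (x * y) := by
  rw [mul_comm]; exact h32_IsNZq_mul_left hy hx

theorem h32_IsNZq_int {N q : ℕ} (c : ℤ) (h : (N : ℤ) ∣ c) : h32_IsNZq N q (c : ℚ) := by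
  obtain ⟨n, rfl⟩ := h
  exact ⟨0, n, by push_cast; ring⟩

/-- The group `Δ = Γ₀(N)[1/q]`: matrices in `SL(2, ℚ)` with entries in `ℤ[1/q]` and
lower-left entry in `N ℤ[1/q]`. -/
def h32_Delta (N q : ℕ) : Subgroup (Matrix.SpecialLinearGroup (Fin 2) ℚ) where
  carrier := {M | (∀ i j, h32_IsZq q (M i j)) ∧ h32_IsNZq N q (M 1 0)}
  one_mem' := by
    refine ⟨fun i j => ?_, ?_⟩
    · fin_cases i <;> fin_cases j <;>
        simp [h32_IsZq_zero, h32_IsZq_one]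
    · simpa using h32_IsNZq_zero N q
  mul_mem' := by
    rintro A B ⟨hA, hA'⟩ ⟨hB, hB'⟩
    refine ⟨fun i j => ?_, ?_⟩
    · rw [Matrix.SpecialLinearGroup.coe_mul, Matrix.mul_apply, Fin.sum_univ_two]
      exact h32_IsZq_add (h32_IsZq_mul (hA _ _) (hB _ _)) (h32_IsZq_mul (hA _ _) (hB _ _))
    · rw [Matrix.SpecialLinearGroup.coe_mul, Matrix.mul_apply, Fin.sum_univ_two]
      exact h32_IsNZq_add (h32_IsNZq_mul_left hA' (hB _ _)) (h32_IsNZq_mul_right (hA _ _) hB')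
  inv_mem' := by
    rintro A ⟨hA, hA'⟩
    have hinv : ∀ i j, (A⁻¹ : Matrix.SpecialLinearGroup (Fin 2) ℚ) i j =
        (Matrix.adjugate (A : Matrix (Fin 2) (Fin 2) ℚ)) i j := by
      intro i j
      rw [Matrix.SpecialLinearGroup.coe_inv]
    refine ⟨fun i j => ?_, ?_⟩
    · rw [hinv, Matrix.adjugate_fin_two]
      fin_cases i <;> fin_cases j <;> simp <;>
        first
        | exact hA _ _
        | exact h32_IsZq_neg (hA _ _)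
    · rw [hinv, Matrix.adjugate_fin_two]
      simpa using h32_IsNZq_neg hA'

theorem h32_mem_Delta_iff (N q : ℕ) (M : Matrix.SpecialLinearGroup (Fin 2) ℚ) :
    M ∈ h32_Delta N q ↔ (∀ i j, h32_IsZq q (M i j)) ∧ h32_IsNZq N q (M 1 0) := Iff.rfl

theorem h32_iota_mem_Delta (N q : ℕ) (γ : Gamma0 N) :
    h32_iota (γ : Matrix.SpecialLinearGroup (Fin 2) ℤ) ∈ h32_Delta N q := by
  refine ⟨fun i j => h32_IsZq_int q _, ?_⟩
  exact h32_IsNZq_int _ ((h32_mem_Gamma0_iff N γ.1).1 γ.2)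

theorem h32_cg_mem_Delta (N q : ℕ) [NeZero q] (M : Matrix.SpecialLinearGroup (Fin 2) ℚ)
    (hM : M ∈ h32_Delta N q) : h32_cg q M ∈ h32_Delta N q := by
  obtain ⟨hA, hA'⟩ := hM
  refine ⟨fun i j => ?_, ?_⟩
  · fin_cases i <;> fin_cases j
    · simpa [h32_cg] using hA 0 0
    · simpa [h32_cg] using h32_IsZq_div_q (hA 0 1)
    · simpa [h32_cg] using h32_IsZq_mul (h32_IsZq_int q q) (hA 1 0)
    · simpa [h32_cg] using hA 1 1
  · have := h32_IsNZq_mul_right (N := N) (h32_IsZq_int q q) hA'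
    simpa [h32_cg] using this

theorem h32_DeltaGen_le_Delta (N q : ℕ) [NeZero q] : h32_DeltaGen N q ≤ h32_Delta N q := by
  rw [h32_DeltaGen_eq_sup]
  apply sup_le
  · rintro _ ⟨γ, hγ, rfl⟩
    exact h32_iota_mem_Delta N q ⟨γ, hγ⟩
  · rintro _ ⟨_, ⟨γ, hγ, rfl⟩, rfl⟩
    exact h32_cg_mem_Delta N q _ (h32_iota_mem_Delta N q ⟨γ, hγ⟩)

end Fermat.Agent.LR
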