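/-
P-LR (S41 level raising), blueprint item (5a) AMALGAM, part 6: GENERATION.
`Δ = Γ₀(N)[1/q]` is generated by `Γ₀(N)` and `g⁻¹ Γ₀(N) g`, by descent on the exponent of
the `q`-denominator.  Mathlib only.  (helper32)
-/
import Fermat.Agent.LR.AmalgamDelta

namespace Fermat.Agent.LR

open Matrix CongruenceSubgroup

/-- Chinese remainder theorem in the form we need. -/
theorem h32_crt {N q : ℕ} (hNq : Nat.Coprime N q) (a₀ b₀ : ℤ) :
    ∃ a : ℤ, (q : ℤ) ∣ a - a₀ ∧ (N : ℤ) ∣ a - b₀ := by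
  have hcop : IsCoprime (N : ℤ) (q : ℤ) := Nat.isCoprime_iff_coprime.mpr hNq
  obtain ⟨u, v, huv⟩ := hcop
  refine ⟨a₀ * (u * N) + b₀ * (v * q), ⟨v * (b₀ - a₀), ?_⟩, ⟨u * (a₀ - b₀), ?_⟩⟩
  · linear_combination a₀ * huv
  · linear_combination b₀ * huv

/-- Two integer rows which are linearly dependent mod `q`, the first one nonzero mod `q`:
the second is a multiple of the first mod `q`. -/
theorem h32_dep {q : ℕ} (hq : q.Prime) (X₁ Y₁ X₂ Y₂ : ℤ)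
    (hdet : (q : ℤ) ∣ X₁ * Y₂ - Y₁ * X₂) (hne : ¬ ((q : ℤ) ∣ X₁ ∧ (q : ℤ) ∣ Y₁)) :
    ∃ a₀ : ℤ, (q : ℤ) ∣ a₀ * X₁ + X₂ ∧ (q : ℤ) ∣ a₀ * Y₁ + Y₂ := by
  have hqp : Prime (q : ℤ) := Nat.prime_iff_prime_int.mp hq
  obtain ⟨m, hm⟩ := hdet
  by_cases hX : (q : ℤ) ∣ X₁
  · have hY : ¬ (q : ℤ) ∣ Y₁ := fun h => hne ⟨hX, h⟩
    have hcop : IsCoprime Y₁ (q : ℤ) :=
      (hqp.coprime_iff_not_dvd.mpr hY).symm
    obtain ⟨u, v, huv⟩ := hcop
    obtain ⟨x, hx⟩ := hX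
    have hX₂ : (q : ℤ) ∣ X₂ := by
      have h1 : (q : ℤ) ∣ Y₁ * X₂ := ⟨x * Y₂ - m, by rw [hx] at hm; linear_combination -hm⟩
      rcases hqp.dvd_or_dvd h1 with h2 | h2
      · exact absurd h2 hY
      · exact h2
    obtain ⟨x₂, hx₂⟩ := hX₂
    refine ⟨-u * Y₂, ⟨-u * Y₂ * x + x₂, by rw [hx, hx₂]; ring⟩, ⟨v * Y₂, ?_⟩⟩
    linear_combination (-Y₂) * huv
  · have hcop : IsCoprime X₁ (q : ℤ) :=
      (hqp.coprime_iff_not_dvd.mpr hX).symm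
    obtain ⟨u, v, huv⟩ := hcop
    refine ⟨-u * X₂, ⟨v * X₂, ?_⟩, ⟨v * Y₂ + u * m, ?_⟩⟩
    · linear_combination (-X₂) * huv
    · linear_combination (-Y₂) * huv + u * hm

/-- Both entries of a row are integers after multiplication by `q ^ k`. -/
def h32_rowInt (q k : ℕ) (x y : ℚ) : Prop :=
  ∃ X Y : ℤ, x * (q : ℚ) ^ k = X ∧ y * (q : ℚ) ^ k = Y

theorem h32_mul_entry (G M : Matrix.SpecialLinearGroup (Fin 2) ℚ) (i j : Fin 2) :
    (G * M) i j = G i 0 * M 0 j + G i 1 * M 1 j := by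
  simp [Matrix.SpecialLinearGroup.coe_mul, Matrix.mul_apply, Fin.sum_univ_two]

theorem h32_det_eq (M : Matrix.SpecialLinearGroup (Fin 2) ℚ) :
    M 0 0 * M 1 1 - M 0 1 * M 1 0 = 1 := by
  have h := M.det_coe
  rw [Matrix.det_fin_two] at h
  exact h

/-- Base case of the descent: integral matrices of `Δ` are in `ι(Γ₀(N))`. -/
theorem h32_gen_zero {N q : ℕ} [NeZero q] (hNq : Nat.Coprime N q)
    (M : Matrix.SpecialLinearGroup (Fin 2) ℚ) (hM : M ∈ h32_Delta N q)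
    (h0 : h32_rowInt q 0 (M 0 0) (M 0 1)) (h1 : h32_rowInt q 0 (M 1 0) (M 1 1)) :
    M ∈ h32_DeltaGen N q := by
  obtain ⟨X₁, Y₁, hX₁, hY₁⟩ := h0
  obtain ⟨X₂, Y₂, hX₂, hY₂⟩ := h1
  simp only [pow_zero, mul_one] at hX₁ hY₁ hX₂ hY₂
  have hdet := h32_det_eq M
  rw [hX₁, hY₁, hX₂, hY₂] at hdet
  have hdetZ : X₁ * Y₂ - Y₁ * X₂ = 1 := by exact_mod_cast hdet
  obtain ⟨-, k, n, hn⟩ := hM
  rw [hX₂] at hn
  have hnZ : X₂ * (q : ℤ) ^ k = N * n := by exact_mod_cast hn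
  have hcop : IsCoprime (N : ℤ) ((q : ℤ) ^ k) :=
    (Nat.isCoprime_iff_coprime.mpr hNq).pow_right
  have hN : (N : ℤ) ∣ X₂ := by
    have : (N : ℤ) ∣ X₂ * (q : ℤ) ^ k := ⟨n, hnZ⟩
    exact hcop.dvd_of_dvd_mul_right this
  let γ : Matrix.SpecialLinearGroup (Fin 2) ℤ :=
    ⟨!![X₁, Y₁; X₂, Y₂], by rw [Matrix.det_fin_two_of]; linear_combination hdetZ⟩
  have hγ : γ ∈ Gamma0 N := by
    rw [h32_mem_Gamma0_iff]
    exact hN
  have hMγ : M = h32_iota γ := by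
    ext i j
    fin_cases i <;> fin_cases j
    · simpa [h32_iota_apply, γ] using hX₁
    · simpa [h32_iota_apply, γ] using hY₁
    · simpa [h32_iota_apply, γ] using hX₂
    · simpa [h32_iota_apply, γ] using hY₂
  rw [hMγ]
  exact h32_iota_mem_DeltaGen N q ⟨γ, hγ⟩

/-- The statement `P k` of the descent. -/
def h32_P (N q k : ℕ) [NeZero q] : Prop :=
  ∀ M : Matrix.SpecialLinearGroup (Fin 2) ℚ, M ∈ h32_Delta N q →
    h32_rowInt q k (M 0 0) (M 0 1) → h32_rowInt q k (M 1 0) (M 1 1) → M ∈ h32_DeltaGen N q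

/-- The statement `Q k` of the descent. -/
def h32_Q (N q k : ℕ) [NeZero q] : Prop :=
  ∀ M : Matrix.SpecialLinearGroup (Fin 2) ℚ, M ∈ h32_Delta N q →
    h32_rowInt q (k + 1) (M 0 0) (M 0 1) → h32_rowInt q k (M 1 0) (M 1 1) →
      M ∈ h32_DeltaGen N q

theorem h32_mem_of_mul_mem {N q : ℕ} [NeZero q] {G M : Matrix.SpecialLinearGroup (Fin 2) ℚ}
    (hG : G ∈ h32_DeltaGen N q) (hGM : G * M ∈ h32_DeltaGen N q) : M ∈ h32_DeltaGen N q := by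
  have := Subgroup.mul_mem _ (Subgroup.inv_mem _ hG) hGM
  simpa using this

/-- Step 2 of the descent: `P k → Q k` (multiply by an element of `g⁻¹ Γ₀(N) g`). -/
theorem h32_P_to_Q {N q k : ℕ} [NeZero q] (hq : q.Prime) (hNq : Nat.Coprime N q)
    (hP : h32_P N q k) : h32_Q N q k := by
  intro M hM h0 h1
  have hq0 : (q : ℚ) ≠ 0 := Nat.cast_ne_zero.mpr hq.ne_zero
  obtain ⟨X₁, Y₁, hX₁, hY₁⟩ := h0
  obtain ⟨X₂, Y₂, hX₂, hY₂⟩ := h1
  have hdet := h32_det_eq M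
  have hdetQ : ((X₁ * Y₂ - Y₁ * X₂ : ℤ) : ℚ) = ((q ^ (2 * k + 1) : ℤ) : ℚ) := by
    push_cast
    rw [← hX₁, ← hY₁, ← hX₂, ← hY₂]
    linear_combination ((q : ℚ) ^ (2 * k + 1)) * hdet
  have hdetZ : X₁ * Y₂ - Y₁ * X₂ = (q : ℤ) ^ (2 * k + 1) := by exact_mod_cast hdetQ
  have hdvd : (q : ℤ) ∣ X₁ * Y₂ - Y₁ * X₂ := by
    rw [hdetZ, pow_succ]
    exact ⟨(q : ℤ) ^ (2 * k), by ring⟩
  by_cases hne : (q : ℤ) ∣ X₁ ∧ (q : ℤ) ∣ Y₁
  · -- the top row is already `q ^ k`-integral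
    obtain ⟨⟨x, hx⟩, ⟨y, hy⟩⟩ := hne
    refine hP M hM ⟨x, y, ?_, ?_⟩ ⟨X₂, Y₂, hX₂, hY₂⟩
    · have : M 0 0 * (q : ℚ) ^ k * q = x * q := by
        rw [mul_assoc, ← pow_succ, hX₁, hx]; push_cast; ring
      exact mul_right_cancel₀ hq0 this
    · have : M 0 1 * (q : ℚ) ^ k * q = y * q := by
        rw [mul_assoc, ← pow_succ, hY₁, hy]; push_cast; ring
      exact mul_right_cancel₀ hq0 this
  · obtain ⟨a₀, ha₀X, ha₀Y⟩ := h32_dep hq X₁ Y₁ X₂ Y₂ hdvd hne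
    obtain ⟨a, haq, haN⟩ := h32_crt hNq a₀ 1
    have haX : (q : ℤ) ∣ a * X₁ + X₂ := by
      have : a * X₁ + X₂ = (a - a₀) * X₁ + (a₀ * X₁ + X₂) := by ring
      rw [this]
      exact dvd_add (Dvd.dvd.mul_right haq _) ha₀X
    have haY : (q : ℤ) ∣ a * Y₁ + Y₂ := by
      have : a * Y₁ + Y₂ = (a - a₀) * Y₁ + (a₀ * Y₁ + Y₂) := by ring
      rw [this]
      exact dvd_add (Dvd.dvd.mul_right haq _) ha₀Y
    obtain ⟨T₁, hT₁⟩ := haX
    obtain ⟨T₂, hT₂⟩ := haY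
    let γ : Matrix.SpecialLinearGroup (Fin 2) ℤ :=
      ⟨!![a, 1; a - 1, 1], by rw [Matrix.det_fin_two_of]; ring⟩
    have hγ : γ ∈ Gamma0 N := by
      rw [h32_mem_Gamma0_iff]
      exact haN
    set G : Matrix.SpecialLinearGroup (Fin 2) ℚ := h32_cg q (h32_iota γ) with hGdef
    have hG : G ∈ h32_DeltaGen N q := h32_cg_iota_mem_DeltaGen N q ⟨γ, hγ⟩
    have hG00 : G 0 0 = a := by simp [hGdef, h32_cg, h32_iota_apply, γ]
    have hG01 : G 0 1 = 1 / q := by simp [hGdef, h32_cg, h32_iota_apply, γ]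
    have hG10 : G 1 0 = q * (a - 1) := by simp [hGdef, h32_cg, h32_iota_apply, γ]
    have hG11 : G 1 1 = 1 := by simp [hGdef, h32_cg, h32_iota_apply, γ]
    have hGM : G * M ∈ h32_Delta N q :=
      Subgroup.mul_mem _ (h32_DeltaGen_le_Delta N q hG) hM
    have hT₁Q : (a : ℚ) * X₁ + X₂ = q * T₁ := by exact_mod_cast hT₁
    have hT₂Q : (a : ℚ) * Y₁ + Y₂ = q * T₂ := by exact_mod_cast hT₂
    refine h32_mem_of_mul_mem hG (hP (G * M) hGM ⟨T₁, T₂, ?_, ?_⟩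
      ⟨(a - 1) * X₁ + X₂, (a - 1) * Y₁ + Y₂, ?_, ?_⟩)
    · rw [h32_mul_entry, hG00, hG01]
      have : (a * M 0 0 + 1 / q * M 1 0) * (q : ℚ) ^ k * q = T₁ * q := by
        have e : (a * M 0 0 + 1 / q * M 1 0) * (q : ℚ) ^ k * q =
            a * (M 0 0 * (q : ℚ) ^ (k + 1)) + M 1 0 * (q : ℚ) ^ k := by
          field_simp
          ring
        rw [e, hX₁, hX₂, hT₁Q]; ring
      exact mul_right_cancel₀ hq0 this
    · rw [h32_mul_entry, hG00, hG01]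
      have : (a * M 0 1 + 1 / q * M 1 1) * (q : ℚ) ^ k * q = T₂ * q := by
        have e : (a * M 0 1 + 1 / q * M 1 1) * (q : ℚ) ^ k * q =
            a * (M 0 1 * (q : ℚ) ^ (k + 1)) + M 1 1 * (q : ℚ) ^ k := by
          field_simp
          ring
        rw [e, hY₁, hY₂, hT₂Q]; ring
      exact mul_right_cancel₀ hq0 this
    · rw [h32_mul_entry, hG10, hG11]
      push_cast
      rw [← hX₁, ← hX₂]; ring
    · rw [h32_mul_entry, hG10, hG11]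
      push_cast
      rw [← hY₁, ← hY₂]; ring

/-- Step 1 of the descent: `Q k → P (k + 1)` (multiply by an element of `Γ₀(N)`). -/
theorem h32_Q_to_P {N q k : ℕ} [NeZero q] (hq : q.Prime) (hNq : Nat.Coprime N q)
    (hQ : h32_Q N q k) : h32_P N q (k + 1) := by
  intro M hM h0 h1
  have hq0 : (q : ℚ) ≠ 0 := Nat.cast_ne_zero.mpr hq.ne_zero
  obtain ⟨X₁, Y₁, hX₁, hY₁⟩ := h0
  obtain ⟨X₂, Y₂, hX₂, hY₂⟩ := h1
  have hdet := h32_det_eq M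
  have hdetQ : ((X₁ * Y₂ - Y₁ * X₂ : ℤ) : ℚ) = ((q ^ (2 * k + 2) : ℤ) : ℚ) := by
    push_cast
    rw [← hX₁, ← hY₁, ← hX₂, ← hY₂]
    linear_combination ((q : ℚ) ^ (2 * k + 2)) * hdet
  have hdetZ : X₁ * Y₂ - Y₁ * X₂ = (q : ℤ) ^ (2 * k + 2) := by exact_mod_cast hdetQ
  have hdvd : (q : ℤ) ∣ X₁ * Y₂ - Y₁ * X₂ := by
    rw [hdetZ, pow_succ]
    exact ⟨(q : ℤ) ^ (2 * k + 1), by ring⟩
  by_cases hne : (q : ℤ) ∣ X₁ ∧ (q : ℤ) ∣ Y₁
  · -- the top row is `≡ 0`: use `γ = [[a, b], [N, q]]`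
    obtain ⟨⟨x, hx⟩, ⟨y, hy⟩⟩ := hne
    have hcop : IsCoprime (N : ℤ) (q : ℤ) := Nat.isCoprime_iff_coprime.mpr hNq
    obtain ⟨u, v, huv⟩ := hcop
    let γ : Matrix.SpecialLinearGroup (Fin 2) ℤ :=
      ⟨!![v, -u; N, q], by rw [Matrix.det_fin_two_of]; linear_combination huv⟩
    have hγ : γ ∈ Gamma0 N := by
      rw [h32_mem_Gamma0_iff]
      exact ⟨1, by simp [γ]⟩
    set G : Matrix.SpecialLinearGroup (Fin 2) ℚ := h32_iota γ with hGdef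
    have hG : G ∈ h32_DeltaGen N q := h32_iota_mem_DeltaGen N q ⟨γ, hγ⟩
    have hG00 : G 0 0 = v := by simp [hGdef, h32_iota_apply, γ]
    have hG01 : G 0 1 = -u := by simp [hGdef, h32_iota_apply, γ]
    have hG10 : G 1 0 = N := by simp [hGdef, h32_iota_apply, γ]
    have hG11 : G 1 1 = q := by simp [hGdef, h32_iota_apply, γ]
    have hGM : G * M ∈ h32_Delta N q :=
      Subgroup.mul_mem _ (h32_DeltaGen_le_Delta N q hG) hM
    have hxQ : M 0 0 * (q : ℚ) ^ k = x := by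
      have : M 0 0 * (q : ℚ) ^ k * q = x * q := by
        rw [mul_assoc, ← pow_succ, hX₁, hx]; push_cast; ring
      exact mul_right_cancel₀ hq0 this
    have hyQ : M 0 1 * (q : ℚ) ^ k = y := by
      have : M 0 1 * (q : ℚ) ^ k * q = y * q := by
        rw [mul_assoc, ← pow_succ, hY₁, hy]; push_cast; ring
      exact mul_right_cancel₀ hq0 this
    refine h32_mem_of_mul_mem hG (hQ (G * M) hGM
      ⟨v * X₁ - u * X₂, v * Y₁ - u * Y₂, ?_, ?_⟩ ⟨N * x + X₂, N * y + Y₂, ?_, ?_⟩)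
    · rw [h32_mul_entry, hG00, hG01]
      push_cast
      rw [← hX₁, ← hX₂]; ring
    · rw [h32_mul_entry, hG00, hG01]
      push_cast
      rw [← hY₁, ← hY₂]; ring
    · rw [h32_mul_entry, hG10, hG11]
      push_cast
      rw [← hxQ, ← hX₂]; ring
    · rw [h32_mul_entry, hG10, hG11]
      push_cast
      rw [← hyQ, ← hY₂]; ring
  · obtain ⟨c₀, hc₀X, hc₀Y⟩ := h32_dep hq X₁ Y₁ X₂ Y₂ hdvd hne
    obtain ⟨c, hcq, hcN⟩ := h32_crt hNq c₀ 0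
    have hcX : (q : ℤ) ∣ c * X₁ + X₂ := by
      have : c * X₁ + X₂ = (c - c₀) * X₁ + (c₀ * X₁ + X₂) := by ring
      rw [this]
      exact dvd_add (Dvd.dvd.mul_right hcq _) hc₀X
    have hcY : (q : ℤ) ∣ c * Y₁ + Y₂ := by
      have : c * Y₁ + Y₂ = (c - c₀) * Y₁ + (c₀ * Y₁ + Y₂) := by ring
      rw [this]
      exact dvd_add (Dvd.dvd.mul_right hcq _) hc₀Y
    obtain ⟨T₁, hT₁⟩ := hcX
    obtain ⟨T₂, hT₂⟩ := hcY
    let γ : Matrix.SpecialLinearGroup (Fin 2) ℤ :=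
      ⟨!![1, 0; c, 1], by rw [Matrix.det_fin_two_of]; ring⟩
    have hγ : γ ∈ Gamma0 N := by
      rw [h32_mem_Gamma0_iff]
      simpa [γ] using hcN
    set G : Matrix.SpecialLinearGroup (Fin 2) ℚ := h32_iota γ with hGdef
    have hG : G ∈ h32_DeltaGen N q := h32_iota_mem_DeltaGen N q ⟨γ, hγ⟩
    have hG00 : G 0 0 = 1 := by simp [hGdef, h32_iota_apply, γ]
    have hG01 : G 0 1 = 0 := by simp [hGdef, h32_iota_apply, γ]
    have hG10 : G 1 0 = c := by simp [hGdef, h32_iota_apply, γ]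
    have hG11 : G 1 1 = 1 := by simp [hGdef, h32_iota_apply, γ]
    have hGM : G * M ∈ h32_Delta N q :=
      Subgroup.mul_mem _ (h32_DeltaGen_le_Delta N q hG) hM
    have hT₁Q : (c : ℚ) * X₁ + X₂ = q * T₁ := by exact_mod_cast hT₁
    have hT₂Q : (c : ℚ) * Y₁ + Y₂ = q * T₂ := by exact_mod_cast hT₂
    refine h32_mem_of_mul_mem hG (hQ (G * M) hGM ⟨X₁, Y₁, ?_, ?_⟩ ⟨T₁, T₂, ?_, ?_⟩)
    · rw [h32_mul_entry, hG00, hG01, ← hX₁]; ring
    · rw [h32_mul_entry, hG00, hG01, ← hY₁]; ring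
    · rw [h32_mul_entry, hG10, hG11]
      have : (c * M 0 0 + 1 * M 1 0) * (q : ℚ) ^ k * q = T₁ * q := by
        have e : (c * M 0 0 + 1 * M 1 0) * (q : ℚ) ^ k * q =
            c * (M 0 0 * (q : ℚ) ^ (k + 1)) + M 1 0 * (q : ℚ) ^ (k + 1) := by
          ring
        rw [e, hX₁, hX₂, hT₁Q]; ring
      exact mul_right_cancel₀ hq0 this
    · rw [h32_mul_entry, hG10, hG11]
      have : (c * M 0 1 + 1 * M 1 1) * (q : ℚ) ^ k * q = T₂ * q := by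
        have e : (c * M 0 1 + 1 * M 1 1) * (q : ℚ) ^ k * q =
            c * (M 0 1 * (q : ℚ) ^ (k + 1)) + M 1 1 * (q : ℚ) ^ (k + 1) := by
          ring
        rw [e, hY₁, hY₂, hT₂Q]; ring
      exact mul_right_cancel₀ hq0 this

theorem h32_P_all {N q : ℕ} [NeZero q] (hq : q.Prime) (hNq : Nat.Coprime N q) (k : ℕ) :
    h32_P N q k := by
  induction k with
  | zero => exact fun M hM h0 h1 => h32_gen_zero hNq M hM h0 h1
  | succ k ih => exact h32_Q_to_P hq hNq (h32_P_to_Q hq hNq ih)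

theorem h32_rowInt_mono {q k l : ℕ} {x y : ℚ} (h : h32_rowInt q k x y) :
    h32_rowInt q (k + l) x y := by
  obtain ⟨X, Y, hX, hY⟩ := h
  exact ⟨X * q ^ l, Y * q ^ l, by push_cast; rw [← hX]; ring, by push_cast; rw [← hY]; ring⟩

/-- **Generation**: `Δ = Γ₀(N)[1/q]` is generated by `ι(Γ₀(N))` and `g⁻¹ ι(Γ₀(N)) g`. -/
theorem h32_Delta_eq_DeltaGen {N q : ℕ} [NeZero q] (hq : q.Prime) (hNq : Nat.Coprime N q) :
    h32_Delta N q = h32_DeltaGen N q := by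
  apply le_antisymm _ (h32_DeltaGen_le_Delta N q)
  intro M hM
  obtain ⟨hA, -⟩ := id hM
  obtain ⟨k₁, n₁, h₁⟩ := hA 0 0
  obtain ⟨k₂, n₂, h₂⟩ := hA 0 1
  obtain ⟨k₃, n₃, h₃⟩ := hA 1 0
  obtain ⟨k₄, n₄, h₄⟩ := hA 1 1
  have r1 : h32_rowInt q (k₁ + k₂) (M 0 0) (M 0 1) :=
    ⟨n₁ * q ^ k₂, n₂ * q ^ k₁, by push_cast; rw [← h₁]; ring, by push_cast; rw [← h₂]; ring⟩
  have r2 : h32_rowInt q (k₃ + k₄) (M 1 0) (M 1 1) :=
    ⟨n₃ * q ^ k₄, n₄ * q ^ k₃, by push_cast; rw [← h₃]; ring, by push_cast; rw [← h₄]; ring⟩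
  have r1' : h32_rowInt q ((k₁ + k₂) + (k₃ + k₄)) (M 0 0) (M 0 1) := h32_rowInt_mono r1
  have r2' : h32_rowInt q ((k₁ + k₂) + (k₃ + k₄)) (M 1 0) (M 1 1) := by
    have := h32_rowInt_mono (l := k₁ + k₂) r2
    rwa [add_comm] at this
  exact h32_P_all hq hNq _ M hM r1' r2'

theorem h32_Delta_eq_sup {N q : ℕ} [NeZero q] (hq : q.Prime) (hNq : Nat.Coprime N q) :
    h32_Delta N q =
      ((Gamma0 N).map h32_iota) ⊔ (((Gamma0 N).map h32_iota).map (h32_cg q)) := by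
  rw [h32_Delta_eq_DeltaGen hq hNq, h32_DeltaGen_eq_sup]

end Fermat.Agent.LR
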