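/-
P-LR (S41 level raising), blueprint item (5a) AMALGAM, final form on the explicit group
`Δ = Γ₀(N)[1/q] ⊆ SL(2, ℚ)`.  Mathlib only.  (helper32)
-/
import Fermat.Agent.LR.AmalgamGen

namespace Fermat.Agent.LR

open Matrix CongruenceSubgroup

theorem h32_cg_iota_mem_Delta (N q : ℕ) [NeZero q] (γ : Gamma0 N) :
    h32_cg q (h32_iota (γ : Matrix.SpecialLinearGroup (Fin 2) ℤ)) ∈ h32_Delta N q :=
  h32_cg_mem_Delta N q _ (h32_iota_mem_Delta N q γ)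

/-- **AMALGAM (5a), final form.**  `q` prime, `q ∤ N`, `Δ = Γ₀(N)[1/q] ⊆ SL(2, ℚ)`
(entries in `ℤ[1/q]`, lower-left entry in `N ℤ[1/q]`), `g = diag(q, 1)`.
A pair of homomorphisms `φ₁, φ₂ : Γ₀(N) →* K` with `φ₁ γ = φ₂ (g γ g⁻¹)` for `γ ∈ Γ₀(Nq)`
glues to a unique homomorphism `ψ : Δ →* K` with `ψ (ι γ) = φ₁ γ` and
`ψ (g⁻¹ (ι γ) g) = φ₂ γ`. -/
theorem h32_amalgam {N q : ℕ} [NeZero q] (hq : q.Prime) (hNq : Nat.Coprime N q)
    {K : Type*} [Group K] (φ₁ φ₂ : Gamma0 N →* K)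
    (h : ∀ γ : Gamma0 (N * q), φ₁ (h32_incl N q γ) = φ₂ (h32_up N q γ)) :
    ∃! ψ : h32_Delta N q →* K,
      (∀ γ : Gamma0 N, ψ ⟨h32_iota (γ : Matrix.SpecialLinearGroup (Fin 2) ℤ),
          h32_iota_mem_Delta N q γ⟩ = φ₁ γ) ∧
      (∀ γ : Gamma0 N, ψ ⟨h32_cg q (h32_iota (γ : Matrix.SpecialLinearGroup (Fin 2) ℤ)),
          h32_cg_iota_mem_Delta N q γ⟩ = φ₂ γ) := by
  have hEq := h32_Delta_eq_DeltaGen hq hNq
  obtain ⟨ψ, ⟨hψ1, hψ2⟩, huniq⟩ := h32_amalgam_extend hq hNq φ₁ φ₂ h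
  let e : h32_Delta N q ≃* h32_DeltaGen N q := MulEquiv.subgroupCongr hEq
  have he : ∀ x : h32_Delta N q, ((e x : h32_DeltaGen N q) :
      Matrix.SpecialLinearGroup (Fin 2) ℚ) = x := fun x => rfl
  have hes : ∀ x : h32_DeltaGen N q, ((e.symm x : h32_Delta N q) :
      Matrix.SpecialLinearGroup (Fin 2) ℚ) = x := fun x => rfl
  refine ⟨ψ.comp e.toMonoidHom, ⟨?_, ?_⟩, ?_⟩
  · intro γ
    rw [← hψ1 γ]
    simp only [MonoidHom.comp_apply, MulEquiv.coe_toMonoidHom]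
    congr 1
  · intro γ
    rw [← hψ2 γ]
    simp only [MonoidHom.comp_apply, MulEquiv.coe_toMonoidHom]
    congr 1
  · rintro ψ' ⟨hψ'1, hψ'2⟩
    have h1 : ψ'.comp e.symm.toMonoidHom = ψ := by
      apply huniq
      constructor
      · intro γ
        rw [← hψ'1 γ]
        simp only [MonoidHom.comp_apply, MulEquiv.coe_toMonoidHom]
        congr 1
      · intro γ
        rw [← hψ'2 γ]
        simp only [MonoidHom.comp_apply, MulEquiv.coe_toMonoidHom]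
        congr 1
    rw [← h1]
    ext x : 1
    simp

/-- Additive version of `h32_amalgam` for the Ihara kernel: if `φ₁, φ₂ : Γ₀(N) → A` are
homomorphisms into an additive commutative group with
`φ₁ γ + φ₂ (g γ g⁻¹) = 0` on `Γ₀(Nq)`, then there is a homomorphism `ψ` on `Δ` with
`ψ (ι γ) = φ₁ γ` and `ψ (g⁻¹ (ι γ) g) = - φ₂ γ`. -/
theorem h32_amalgam_add {N q : ℕ} [NeZero q] (hq : q.Prime) (hNq : Nat.Coprime N q)
    {A : Type*} [AddCommGroup A] (φ₁ φ₂ : Gamma0 N →* Multiplicative A)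
    (h : ∀ γ : Gamma0 (N * q), φ₁ (h32_incl N q γ) * φ₂ (h32_up N q γ) = 1) :
    ∃ ψ : h32_Delta N q →* Multiplicative A,
      (∀ γ : Gamma0 N, ψ ⟨h32_iota (γ : Matrix.SpecialLinearGroup (Fin 2) ℤ),
          h32_iota_mem_Delta N q γ⟩ = φ₁ γ) ∧
      (∀ γ : Gamma0 N, ψ ⟨h32_cg q (h32_iota (γ : Matrix.SpecialLinearGroup (Fin 2) ℤ)),
          h32_cg_iota_mem_Delta N q γ⟩ = (φ₂ γ)⁻¹) := by
  obtain ⟨ψ, ⟨h1, h2⟩, -⟩ := h32_amalgam hq hNq φ₁ (φ₂⁻¹) (fun γ => by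
    rw [MonoidHom.inv_apply]
    exact eq_inv_of_mul_eq_one_left (h γ))
  exact ⟨ψ, h1, fun γ => by rw [h2 γ, MonoidHom.inv_apply]⟩

end Fermat.Agent.LR
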