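import Fermat.Agent.LR.CohDefs
import Fermat.Prelude.Def_FreyPackage_LevelRaising
import Fermat.Prelude.Def_CuspForm_HeckeAlgebra

/-!
# P-LR (S41 level raising), row LR-ASM: frozen statements of the remaining leaves (helper88)

All statements are `def ... : Prop` against the landed interface `LR/CohDefs.lean`
(`h17lr_L M = Hom_par(Γ₀(M), ℤ)`, bundled `h17lr_T`, `h17lr_res1/2`, `h17lr_cor1/2`, relational
`h17lr_IsCor`, `Jac.IsCohHeckeAdd`).  Nothing is assumed here.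

* `h88_PdStatement`   (row LR-PD)   : Poincaré duality pairings `B_M` on `L_M`, representing
  every functional, with `res_i ⊣ cor_i`.
* `h88_CommStatement` (row LR-COMM) : the `T_ℓ` commute on `L_M`.
* `h88_DownStatement` (row LR-DOWN) : an eigenform congruent to `θ` modulo `𝔪` produces an
  element of `L_N ∖ p L_N` which is a `θ`-eigenvector modulo `p`.
* `h88_UpStatement`   (row LR-UP)   : Deligne–Serre lifting on `ker cor₁ ∩ ker cor₂`.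
* `h88_EsStatement`   (row LR-ES)   : Eichler–Shimura transport of a `q`-new complex
  eigenclass to a cusp form.
-/

set_option autoImplicit false

open ModularCurve CongruenceSubgroup
open scoped MatrixGroups

noncomputable section

namespace Fermat.Agent.LR

open Fermat.Agent.Jac

/-- **LR-PD.** A family of bilinear forms `B_M` on `L_M` which represents every functional in
the first slot, and for which `res_i` is left adjoint to `cor_i` (`i = 1, 2`). -/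
def h88_PdStatement : Prop :=
  ∃ B : ∀ M : ℕ, h17lr_L M →ₗ[ℤ] h17lr_L M →ₗ[ℤ] ℤ,
    (∀ M : ℕ, 0 < M → ∀ ξ : h17lr_L M →ₗ[ℤ] ℤ, ∃ z : h17lr_L M, ∀ x, ξ x = B M z x) ∧
    (∀ (N q : ℕ) [NeZero q], 0 < N → q.Prime → ¬ q ∣ N →
      ∀ (x : h17lr_L N) (y : h17lr_L (N * q)),
        B (N * q) (h17lr_res1 N q x) y = B N x (h17lr_cor1 N q y) ∧
        B (N * q) (h17lr_res2 N q x) y = B N x (h17lr_cor2 N q y))

/-- **LR-COMM.** The cohomological Hecke operators commute on `L_M`. -/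
def h88_CommStatement : Prop :=
  ∀ (M : ℕ), 0 < M → ∀ (ℓ ℓ' : ℕ), ℓ.Prime → ¬ ℓ ∣ M → ℓ'.Prime → ¬ ℓ' ∣ M →
    ∀ x : h17lr_L M, h17lr_T M ℓ (h17lr_T M ℓ' x) = h17lr_T M ℓ' (h17lr_T M ℓ x)

/-- **LR-DOWN.** If the normalised eigenform `f` of level `N` has `a_ℓ(f) ≡ θ ℓ` modulo `𝔪`
(a proper ideal of `ℤ̄` containing `p`) for all `ℓ` in a set `S` of primes not dividing `N`,
then some `φ ∈ L_N ∖ p L_N` satisfies `T_ℓ φ ≡ θ ℓ • φ` modulo `p L_N` for all `ℓ ∈ S`. -/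
def h88_DownStatement : Prop :=
  ∀ (N : ℕ), 0 < N → ∀ (p : ℕ), p.Prime →
    ∀ (f : CuspForm (Gamma0 N) 2), f.IsNormalizedEigenform →
    ∀ (𝔪 : Ideal (integralClosure ℤ ℂ)), 𝔪.IsMaximal → (p : integralClosure ℤ ℂ) ∈ 𝔪 →
    ∀ (S : Set ℕ) (θ : ℕ → ℤ), (∀ ℓ ∈ S, ℓ.Prime ∧ ¬ ℓ ∣ N) →
      (∀ ℓ ∈ S, ∃ a : integralClosure ℤ ℂ, (a : ℂ) = ModularFormClass.qCoeff f ℓ ∧
        a - ((θ ℓ : ℤ) : integralClosure ℤ ℂ) ∈ 𝔪) →
      ∃ φ : h17lr_L N, (¬ ∃ φ' : h17lr_L N, φ = (p : ℤ) • φ') ∧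
        ∀ ℓ ∈ S, ∃ φ' : h17lr_L N, h17lr_T N ℓ φ - θ ℓ • φ = (p : ℤ) • φ'

/-- **LR-UP** (Deligne–Serre lifting on the `q`-new lattice `ker cor₁ ∩ ker cor₂`).
From `y ∈ L_{Nq} ∖ p L_{Nq}` with `cor₁ y = 0 = cor₂ y` and `T_ℓ y ≡ θ ℓ • y` modulo `p`
(`ℓ ∈ S`) one gets a maximal ideal `𝔪'` of `ℤ̄` over `p`, algebraic integers `lam ℓ ≡ θ ℓ`
modulo `𝔪'` and a nonzero parabolic `v : Γ₀(Nq) → ℂ`, killed by both transfers, with
`T_ℓ v = lam ℓ • v` (`ℓ ∈ S`). -/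
def h88_UpStatement : Prop :=
  ∀ (N q : ℕ) [NeZero q], 0 < N → q.Prime → ¬ q ∣ N → ∀ (p : ℕ), p.Prime →
    ∀ (S : Set ℕ) (θ : ℕ → ℤ), (∀ ℓ ∈ S, ℓ.Prime ∧ ¬ ℓ ∣ N * q) →
    ∀ y : h17lr_L (N * q), h17lr_cor1 N q y = 0 → h17lr_cor2 N q y = 0 →
      (¬ ∃ y' : h17lr_L (N * q), y = (p : ℤ) • y') →
      (∀ ℓ ∈ S, ∃ y' : h17lr_L (N * q), h17lr_T (N * q) ℓ y - θ ℓ • y = (p : ℤ) • y') →
      ∃ (𝔪' : Ideal (integralClosure ℤ ℂ)) (lam : ℕ → integralClosure ℤ ℂ)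
        (v : Additive (Gamma0 (N * q)) →+ ℂ),
        𝔪'.IsMaximal ∧ (p : integralClosure ℤ ℂ) ∈ 𝔪' ∧
        (∀ ℓ ∈ S, lam ℓ - ((θ ℓ : ℤ) : integralClosure ℤ ℂ) ∈ 𝔪') ∧
        v ≠ 0 ∧ Period.IsParabolicHom (Gamma0 (N * q)) v ∧
        h17lr_IsCor (h32_incl N q) v 0 ∧ h17lr_IsCor (h32_up N q) v 0 ∧
        ∀ ℓ ∈ S, IsCohHeckeAdd (N * q) ℓ v ((lam ℓ : ℂ) • v)

/-- **LR-ES** (Eichler–Shimura transport).  A nonzero parabolic `v : Γ₀(Nq) → ℂ`, killed by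
both transfers to level `N`, eigen for the cohomological `T_ℓ` (`ℓ ∈ S`), yields a nonzero
cusp form of level `Nq`, eigen for the `T_ℓ` (`ℓ ∈ S`) with the same eigenvalues, and fixed by
`U_q²`. -/
def h88_EsStatement : Prop :=
  ∀ (N q : ℕ) [NeZero N] [NeZero q], q.Prime → ¬ q ∣ N →
    ∀ (S : Set ℕ) (lam : ℕ → ℂ) (v : Additive (Gamma0 (N * q)) →+ ℂ),
    (∀ ℓ ∈ S, ℓ.Prime ∧ ¬ ℓ ∣ N * q) →
    v ≠ 0 → Period.IsParabolicHom (Gamma0 (N * q)) v →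
    h17lr_IsCor (h32_incl N q) v 0 → h17lr_IsCor (h32_up N q) v 0 →
    (∀ ℓ ∈ S, IsCohHeckeAdd (N * q) ℓ v (lam ℓ • v)) →
    ∃ g₀ : CuspForm (Gamma0 (N * q)) 2, g₀ ≠ 0 ∧
      (∀ (ℓ : ℕ) (hℓ : ℓ.Prime) (hℓM : ¬ ℓ ∣ N * q), ℓ ∈ S →
        CuspForm.heckeTLin 2 hℓ hℓM g₀ = lam ℓ • g₀) ∧
      CuspForm.heckeULin 2 (dvd_mul_left q N)
        (CuspForm.heckeULin 2 (dvd_mul_left q N) g₀) = g₀

end Fermat.Agent.LR
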