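import Fermat.Agent.LR.RibetInst
import Fermat.Agent.LR.AsmDefs
import Fermat.Agent.LR.New.H7New
import Fermat.Agent.EFrob.NonEis
import Fermat.Prelude.Def_FLTPrelim_ModularRep
import Fermat.Prelude.Def_FreyPackage_LevelRaising

/-!
# P-LR (S41 level raising), row LR-ASM, part 2: the assembly (helper88)

`h88_s41_of`: the statement of S41 (level raising) from the three remaining leaf statements
`h88_DownStatement`, `h88_UpStatement`, `h88_EsStatement` of `LR/AsmDefs.lean`.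

Chain: NONEIS (`EFrob.exists_prime_not_eisenstein_mod`) gives a non-Eisenstein prime `ℓ₀`;
DOWN gives `φ ∈ L_N ∖ p L_N`, an eigenvector modulo `p`; `h88_ribet_inst` (Ribet's algebra
lemma + Ihara's lemma + Poincaré duality) gives `y` in the `q'`-new lattice at level `N q'`;
UP lifts it to a complex eigenclass with eigenvalues congruent modulo `𝔪'`; ES transports it to
a cusp form; NEW (`h7new_exists`) normalises it.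
-/

set_option autoImplicit false

open WeierstrassCurve WeierstrassCurve.Affine WeierstrassCurve.Affine.Point
open scoped CongruenceSubgroup

namespace Fermat.Agent.LR

theorem h88_s41_of (hDown : h88_DownStatement) (hUp : h88_UpStatement)
    (hEs : h88_EsStatement)
    (E : WeierstrassCurve ℚ) [E.IsElliptic] {W : WeierstrassCurve ℤ}
    (hW : W.IsIntegralModelOf E)
    {p N q' : ℕ} (hp : p.Prime) (hp2 : p ≠ 2) (hN : 0 < N) (hq' : q'.Prime)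
    (hq'N : ¬ q' ∣ N) (hq'p : q' ≠ p)
    (hirr : GaloisRepIsIrreducible (K := AlgebraicClosure ℚ) ℚ E p)
    (f : CuspForm (CongruenceSubgroup.Gamma0 N) 2) (𝔪 : Ideal (integralClosure ℤ ℂ))
    (hf : f.IsNormalizedEigenform) (hmax : 𝔪.IsMaximal) (hpm : (p : integralClosure ℤ ℂ) ∈ 𝔪)
    (hcong : ∀ ℓ : ℕ, ℓ.Prime → W.IsGoodPrimeFor ℓ → ¬ ℓ ∣ N → ℓ ≠ p →
      ∃ a : integralClosure ℤ ℂ, (a : ℂ) = ModularFormClass.qCoeff f ℓ ∧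
        a - ((W.apOfModel ℓ : ℤ) : integralClosure ℤ ℂ) ∈ 𝔪)
    (hLR : ∃ a : integralClosure ℤ ℂ, (a : ℂ) = ModularFormClass.qCoeff f q' ∧
      a ^ 2 - ((q' : integralClosure ℤ ℂ) + 1) ^ 2 ∈ 𝔪) :
    ∃ (g : CuspForm (CongruenceSubgroup.Gamma0 (N * q')) 2)
      (𝔪' : Ideal (integralClosure ℤ ℂ)),
      g.IsNormalizedEigenform ∧ 𝔪'.IsMaximal ∧ (p : integralClosure ℤ ℂ) ∈ 𝔪' ∧
      (∀ ℓ : ℕ, ℓ.Prime → W.IsGoodPrimeFor ℓ → ¬ ℓ ∣ N * q' → ℓ ≠ p →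
        ∃ a : integralClosure ℤ ℂ, (a : ℂ) = ModularFormClass.qCoeff g ℓ ∧
          a - ((W.apOfModel ℓ : ℤ) : integralClosure ℤ ℂ) ∈ 𝔪') ∧
      g.IsNewAt q' := by
  classical
  haveI : NeZero N := ⟨hN.ne'⟩
  haveI : NeZero q' := ⟨hq'.ne_zero⟩
  -- the sign `ε`
  obtain ⟨aq, haq, hLRm⟩ := hLR
  have hprime : 𝔪.IsPrime := hmax.isPrime
  have hfac : (aq - ((q' : integralClosure ℤ ℂ) + 1)) * (aq + ((q' : integralClosure ℤ ℂ) + 1))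
      ∈ 𝔪 := by
    have e : (aq - ((q' : integralClosure ℤ ℂ) + 1)) * (aq + ((q' : integralClosure ℤ ℂ) + 1))
        = aq ^ 2 - ((q' : integralClosure ℤ ℂ) + 1) ^ 2 := by ring
    rw [e]
    exact hLRm
  obtain ⟨ε, hε, hεm⟩ : ∃ ε : ℤ, ε * ε = 1 ∧
      aq - (((ε * ((q' : ℤ) + 1) : ℤ)) : integralClosure ℤ ℂ) ∈ 𝔪 := by
    rcases hprime.mem_or_mem hfac with h | h
    · refine ⟨1, by norm_num, ?_⟩
      have e : (((1 * ((q' : ℤ) + 1) : ℤ)) : integralClosure ℤ ℂ)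
          = (q' : integralClosure ℤ ℂ) + 1 := by push_cast; ring
      rw [e]
      exact h
    · refine ⟨-1, by norm_num, ?_⟩
      have e : aq - ((((-1) * ((q' : ℤ) + 1) : ℤ)) : integralClosure ℤ ℂ)
          = aq + ((q' : integralClosure ℤ ℂ) + 1) := by push_cast; ring
      rw [e]
      exact h
  -- the set of primes and the eigenvalues
  set S : Set ℕ := {ℓ | ℓ.Prime ∧ W.IsGoodPrimeFor ℓ ∧ ¬ ℓ ∣ N * q' ∧ ℓ ≠ p} with hSdef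
  set θ : ℕ → ℤ := fun ℓ => if ℓ = q' then ε * ((q' : ℤ) + 1) else W.apOfModel ℓ with hθdef
  have hS : ∀ ℓ ∈ S, ℓ.Prime ∧ ¬ ℓ ∣ N * q' := fun ℓ hℓ => ⟨hℓ.1, hℓ.2.2.1⟩
  have hSq : ∀ ℓ ∈ S, ℓ ≠ q' := by
    rintro ℓ hℓ rfl
    exact hℓ.2.2.1 (dvd_mul_left ℓ N)
  have hSN : ∀ ℓ ∈ S, ¬ ℓ ∣ N := fun ℓ hℓ h => hℓ.2.2.1 (Dvd.dvd.mul_right h q')
  have hθS : ∀ ℓ ∈ S, θ ℓ = W.apOfModel ℓ := fun ℓ hℓ => if_neg (hSq ℓ hℓ)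
  have hθq : θ q' = ε * ((q' : ℤ) + 1) := if_pos rfl
  -- a non-Eisenstein prime
  obtain ⟨ℓ₀, hℓ₀, hgood₀, hℓ₀N, hℓ₀S, hℓ₀p, a₀, ha₀, hne₀⟩ :=
    Fermat.Agent.EFrob.exists_prime_not_eisenstein_mod E hW hp hN hirr f 𝔪 hmax hpm hcong {q'}
  have hℓ₀q : ℓ₀ ≠ q' := by simpa using hℓ₀S
  have hℓ₀Nq : ¬ ℓ₀ ∣ N * q' := fun h =>
    (hℓ₀.dvd_mul.1 h).elim hℓ₀N fun h' => hℓ₀q ((Nat.prime_dvd_prime_iff_eq hℓ₀ hq').1 h')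
  have hℓ₀mem : ℓ₀ ∈ S := ⟨hℓ₀, hgood₀, hℓ₀Nq, hℓ₀p⟩
  have hc : ¬ (p : ℤ) ∣ (ℓ₀ : ℤ) + 1 - θ ℓ₀ := by
    rw [hθS ℓ₀ hℓ₀mem]
    intro hdvd
    obtain ⟨a, ha, ham⟩ := hcong ℓ₀ hℓ₀ hgood₀ hℓ₀N hℓ₀p
    have haa : a = a₀ := Subtype.ext (ha.trans ha₀.symm)
    subst haa
    apply hne₀
    obtain ⟨k, hk⟩ := hdvd
    have h1 : ((((ℓ₀ : ℤ) + 1 - W.apOfModel ℓ₀ : ℤ)) : integralClosure ℤ ℂ) ∈ 𝔪 := by
      rw [hk]
      push_cast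
      exact 𝔪.mul_mem_right _ hpm
    have e : a - ((ℓ₀ : integralClosure ℤ ℂ) + 1)
        = (a - ((W.apOfModel ℓ₀ : ℤ) : integralClosure ℤ ℂ))
          - ((((ℓ₀ : ℤ) + 1 - W.apOfModel ℓ₀ : ℤ)) : integralClosure ℤ ℂ) := by
      push_cast
      ring
    rw [e]
    exact 𝔪.sub_mem ham h1
  -- DOWN
  obtain ⟨φ, hφ, hφT⟩ := hDown N hN p hp f hf 𝔪 hmax hpm (S ∪ {q'}) θ
    (by
      rintro ℓ (hℓ | hℓ)
      · exact ⟨hℓ.1, hSN ℓ hℓ⟩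
      · rw [Set.mem_singleton_iff] at hℓ
        subst hℓ
        exact ⟨hq', hq'N⟩)
    (by
      rintro ℓ (hℓ | hℓ)
      · obtain ⟨a, ha, ham⟩ := hcong ℓ hℓ.1 hℓ.2.1 (hSN ℓ hℓ) hℓ.2.2.2
        refine ⟨a, ha, ?_⟩
        rw [hθS ℓ hℓ]
        exact ham
      · rw [Set.mem_singleton_iff] at hℓ
        subst hℓ
        refine ⟨aq, haq, ?_⟩
        rw [hθq]
        exact hεm)
  -- Ribet's lemma
  obtain ⟨y, hy1, hy2, hy, hyT⟩ := h88_ribet_inst hp hp2 hq' hq'N (Ne.symm hq'p) S hS θ ℓ₀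
    hℓ₀mem hc ε hε φ hφ (fun ℓ hℓ => hφT ℓ (Or.inl hℓ))
    (by
      have := hφT q' (Or.inr rfl)
      rwa [hθq] at this)
  -- UP
  obtain ⟨𝔪', lam, v, hmax', hpm', hlam, hv0, hvpar, hv1, hv2, hvT⟩ :=
    hUp N q' hN hq' hq'N p hp S θ hS y hy1 hy2 hy hyT
  -- ES
  obtain ⟨g₀, hg₀, hg₀T, hg₀U⟩ :=
    hEs N q' hq' hq'N S (fun ℓ => (lam ℓ : ℂ)) v hS hv0 hvpar hv1 hv2 hvT
  -- NEW
  obtain ⟨g, hg, hgq, hgnew⟩ := h7new_exists hq' (dvd_mul_left q' N) S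
    (fun ℓ => (lam ℓ : ℂ)) g₀ hg₀ hg₀T hg₀U
  refine ⟨g, 𝔪', hg, hmax', hpm', ?_, hgnew⟩
  intro ℓ hℓ hgood hℓNq hℓp
  have hmem : ℓ ∈ S := ⟨hℓ, hgood, hℓNq, hℓp⟩
  refine ⟨lam ℓ, (hgq ℓ hℓ hℓNq hmem).symm, ?_⟩
  have := hlam ℓ hmem
  rwa [hθS ℓ hmem] at this

end Fermat.Agent.LR
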