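/-
P-LR (S41 level raising), blueprint item (5b): a homomorphism `ψ : Δ → K` (`K` commutative,
`Δ = Γ₀(N)[1/q]` = `h32_Delta N q`) whose restriction to `Γ₀(N)` kills the parabolic elements
(trace² = 4, Prelude `IsParabolicHom` convention) kills every elementary unipotent
`u(x) = [[1, x], [0, 1]]` (`x ∈ ℤ[1/q]`) and `l(y) = [[1, 0], [y, 1]]` (`y ∈ N ℤ[1/q]`) of `Δ`.
Proof: `u(n / q^k) = t⁻ᵏ u(n q^k) tᵏ`, `l(N n / q^k) = tᵏ l(N n q^k) t⁻ᵏ`, `t = diag(q, 1/q) ∈ Δ`.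
Mathlib + helper32's `AmalgamDelta` only.  (helper15)
-/
import Fermat.Agent.LR.AmalgamFinal

namespace Fermat.Agent.LR

open Matrix CongruenceSubgroup

/-- `u(x) = [[1, x], [0, 1]]`. -/
noncomputable def h15lr_uu (x : ℚ) : Matrix.SpecialLinearGroup (Fin 2) ℚ :=
  ⟨!![1, x; 0, 1], by rw [Matrix.det_fin_two_of]; ring⟩

/-- `l(y) = [[1, 0], [y, 1]]`. -/
noncomputable def h15lr_ll (y : ℚ) : Matrix.SpecialLinearGroup (Fin 2) ℚ :=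
  ⟨!![1, 0; y, 1], by rw [Matrix.det_fin_two_of]; ring⟩

/-- `diag(z, 1/z)`, `z ≠ 0`. -/
noncomputable def h15lr_dd (z : ℚ) (hz : z ≠ 0) : Matrix.SpecialLinearGroup (Fin 2) ℚ :=
  ⟨!![z, 0; 0, z⁻¹], by rw [Matrix.det_fin_two_of, mul_zero, sub_zero]; exact mul_inv_cancel₀ hz⟩

theorem h15lr_IsZq_pow (q k : ℕ) : h32_IsZq q ((q : ℚ) ^ k) :=
  ⟨0, (q : ℤ) ^ k, by push_cast; ring⟩

theorem h15lr_IsZq_pow_inv (q k : ℕ) [NeZero q] : h32_IsZq q (((q : ℚ) ^ k)⁻¹) := by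
  have hq : (q : ℚ) ≠ 0 := Nat.cast_ne_zero.mpr (NeZero.ne q)
  exact ⟨k, 1, by push_cast; field_simp⟩

theorem h15lr_uu_mem (N q : ℕ) {x : ℚ} (hx : h32_IsZq q x) : h15lr_uu x ∈ h32_Delta N q := by
  refine ⟨fun i j => ?_, ?_⟩
  · fin_cases i <;> fin_cases j
    · simpa [h15lr_uu] using h32_IsZq_one q
    · simpa [h15lr_uu] using hx
    · simpa [h15lr_uu] using h32_IsZq_zero q
    · simpa [h15lr_uu] using h32_IsZq_one q
  · simpa [h15lr_uu] using h32_IsNZq_zero N q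

theorem h15lr_ll_mem (N q : ℕ) {y : ℚ} (hy : h32_IsNZq N q y) : h15lr_ll y ∈ h32_Delta N q := by
  have hy' : h32_IsZq q y := by
    obtain ⟨k, n, h⟩ := hy
    exact ⟨k, N * n, by rw [h]; push_cast; ring⟩
  refine ⟨fun i j => ?_, ?_⟩
  · fin_cases i <;> fin_cases j
    · simpa [h15lr_ll] using h32_IsZq_one q
    · simpa [h15lr_ll] using h32_IsZq_zero q
    · simpa [h15lr_ll] using hy'
    · simpa [h15lr_ll] using h32_IsZq_one q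
  · simpa [h15lr_ll] using hy

theorem h15lr_dd_mem (N q k : ℕ) [NeZero q] (hz : ((q : ℚ) ^ k) ≠ 0) :
    h15lr_dd ((q : ℚ) ^ k) hz ∈ h32_Delta N q := by
  refine ⟨fun i j => ?_, ?_⟩
  · fin_cases i <;> fin_cases j
    · simpa [h15lr_dd] using h15lr_IsZq_pow q k
    · simpa [h15lr_dd] using h32_IsZq_zero q
    · simpa [h15lr_dd] using h32_IsZq_zero q
    · simpa [h15lr_dd] using h15lr_IsZq_pow_inv q k
  · simpa [h15lr_dd] using h32_IsNZq_zero N q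

/-- `u(x) = d⁻¹ u(x z²) d` for `d = diag(z, 1/z)`. -/
theorem h15lr_uu_conj (x z : ℚ) (hz : z ≠ 0) :
    h15lr_uu x = (h15lr_dd z hz)⁻¹ * h15lr_uu (x * z ^ 2) * h15lr_dd z hz := by
  ext i j
  rw [Matrix.SpecialLinearGroup.coe_mul, Matrix.SpecialLinearGroup.coe_mul,
    Matrix.SpecialLinearGroup.coe_inv, Matrix.adjugate_fin_two]
  fin_cases i <;> fin_cases j <;>
    simp [h15lr_uu, h15lr_dd, Matrix.mul_apply, Fin.sum_univ_two] <;> field_simp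

/-- `l(y) = d l(y z²) d⁻¹` for `d = diag(z, 1/z)`. -/
theorem h15lr_ll_conj (y z : ℚ) (hz : z ≠ 0) :
    h15lr_ll y = h15lr_dd z hz * h15lr_ll (y * z ^ 2) * (h15lr_dd z hz)⁻¹ := by
  ext i j
  rw [Matrix.SpecialLinearGroup.coe_mul, Matrix.SpecialLinearGroup.coe_mul,
    Matrix.SpecialLinearGroup.coe_inv, Matrix.adjugate_fin_two]
  fin_cases i <;> fin_cases j <;>
    simp [h15lr_ll, h15lr_dd, Matrix.mul_apply, Fin.sum_univ_two] <;> field_simp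

/-- the integral unipotent `u(n)` as an element of `Γ₀(N)`. -/
def h15lr_uZ (N : ℕ) (n : ℤ) : Gamma0 N :=
  ⟨⟨!![1, n; 0, 1], by rw [Matrix.det_fin_two_of]; ring⟩, by
    rw [h32_mem_Gamma0_iff]
    simp⟩

/-- the integral unipotent `l(N n)` as an element of `Γ₀(N)`. -/
def h15lr_lZ (N : ℕ) (n : ℤ) : Gamma0 N :=
  ⟨⟨!![1, 0; (N : ℤ) * n, 1], by rw [Matrix.det_fin_two_of]; ring⟩, by
    rw [h32_mem_Gamma0_iff]
    simp⟩

theorem h15lr_iota_uZ (N : ℕ) (n : ℤ) :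
    h32_iota ((h15lr_uZ N n : Gamma0 N) : Matrix.SpecialLinearGroup (Fin 2) ℤ)
      = h15lr_uu (n : ℚ) := by
  ext i j
  rw [h32_iota_apply]
  fin_cases i <;> fin_cases j <;> simp [h15lr_uZ, h15lr_uu]

theorem h15lr_iota_lZ (N : ℕ) (n : ℤ) :
    h32_iota ((h15lr_lZ N n : Gamma0 N) : Matrix.SpecialLinearGroup (Fin 2) ℤ)
      = h15lr_ll ((N : ℚ) * n) := by
  ext i j
  rw [h32_iota_apply]
  fin_cases i <;> fin_cases j <;> simp [h15lr_lZ, h15lr_ll]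

theorem h15lr_trace_uZ (N : ℕ) (n : ℤ) :
    (((h15lr_uZ N n : Gamma0 N) : Matrix.SpecialLinearGroup (Fin 2) ℤ) :
      Matrix (Fin 2) (Fin 2) ℤ).trace ^ 2 = 4 := by
  simp [h15lr_uZ, Matrix.trace_fin_two]

theorem h15lr_trace_lZ (N : ℕ) (n : ℤ) :
    (((h15lr_lZ N n : Gamma0 N) : Matrix.SpecialLinearGroup (Fin 2) ℤ) :
      Matrix (Fin 2) (Fin 2) ℤ).trace ^ 2 = 4 := by
  simp [h15lr_lZ, Matrix.trace_fin_two]

/-- `ψ` restricted to `Γ₀(N)` kills the elements of trace `± 2`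
(the convention of the Prelude's `ModularCurve.Period.IsParabolicHom`). -/
def h15lr_ParOnGamma0 (N q : ℕ) {K : Type*} [Monoid K] (ψ : h32_Delta N q →* K) : Prop :=
  ∀ γ : Gamma0 N,
    ((γ : Matrix.SpecialLinearGroup (Fin 2) ℤ) : Matrix (Fin 2) (Fin 2) ℤ).trace ^ 2 = 4 →
      ψ ⟨h32_iota (γ : Matrix.SpecialLinearGroup (Fin 2) ℤ), h32_iota_mem_Delta N q γ⟩ = 1

/-- **(5b), upper unipotents.**  `ψ (u x) = 1` for every `x ∈ ℤ[1/q]`. -/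
theorem h15lr_psi_uu {N q : ℕ} [NeZero q] {K : Type*} [CommGroup K]
    (ψ : h32_Delta N q →* K) (hψ : h15lr_ParOnGamma0 N q ψ) {x : ℚ} (hx : h32_IsZq q x) :
    ψ ⟨h15lr_uu x, h15lr_uu_mem N q hx⟩ = 1 := by
  obtain ⟨k, n, hkn⟩ := hx
  have hq : (q : ℚ) ≠ 0 := Nat.cast_ne_zero.mpr (NeZero.ne q)
  have hz : ((q : ℚ) ^ k) ≠ 0 := pow_ne_zero k hq
  -- `x (q^k)^2 = n q^k`
  have hx2 : x * ((q : ℚ) ^ k) ^ 2 = ((n * (q : ℤ) ^ k : ℤ) : ℚ) := by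
    push_cast
    rw [← hkn]; ring
  have hmemU : h15lr_uu (x * ((q : ℚ) ^ k) ^ 2) ∈ h32_Delta N q := by
    rw [hx2]; exact h15lr_uu_mem N q (h32_IsZq_int q _)
  have hD := h15lr_dd_mem N q k hz
  have hprod : (⟨h15lr_uu x, h15lr_uu_mem N q ⟨k, n, hkn⟩⟩ : h32_Delta N q)
      = (⟨h15lr_dd ((q : ℚ) ^ k) hz, hD⟩ : h32_Delta N q)⁻¹
        * ⟨h15lr_uu (x * ((q : ℚ) ^ k) ^ 2), hmemU⟩ * ⟨h15lr_dd ((q : ℚ) ^ k) hz, hD⟩ := by
    apply Subtype.ext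
    simp only [Subgroup.coe_mul, Subgroup.coe_inv]
    exact h15lr_uu_conj x _ hz
  have hone : ψ ⟨h15lr_uu (x * ((q : ℚ) ^ k) ^ 2), hmemU⟩ = 1 := by
    have h1 := hψ (h15lr_uZ N (n * (q : ℤ) ^ k)) (h15lr_trace_uZ N _)
    have h2 : (⟨h15lr_uu (x * ((q : ℚ) ^ k) ^ 2), hmemU⟩ : h32_Delta N q)
        = ⟨h32_iota ((h15lr_uZ N (n * (q : ℤ) ^ k) : Gamma0 N) :
            Matrix.SpecialLinearGroup (Fin 2) ℤ), h32_iota_mem_Delta N q _⟩ := by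
      apply Subtype.ext
      show h15lr_uu (x * ((q : ℚ) ^ k) ^ 2) = h32_iota _
      rw [h15lr_iota_uZ, hx2]
    rw [h2]; exact h1
  rw [hprod, map_mul, map_mul, map_inv, hone, mul_one, inv_mul_cancel]

/-- **(5b), lower unipotents.**  `ψ (l y) = 1` for every `y ∈ N ℤ[1/q]`. -/
theorem h15lr_psi_ll {N q : ℕ} [NeZero q] {K : Type*} [CommGroup K]
    (ψ : h32_Delta N q →* K) (hψ : h15lr_ParOnGamma0 N q ψ) {y : ℚ} (hy : h32_IsNZq N q y) :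
    ψ ⟨h15lr_ll y, h15lr_ll_mem N q hy⟩ = 1 := by
  obtain ⟨k, n, hkn⟩ := hy
  have hq : (q : ℚ) ≠ 0 := Nat.cast_ne_zero.mpr (NeZero.ne q)
  have hz : ((q : ℚ) ^ k) ≠ 0 := pow_ne_zero k hq
  have hy2 : y * ((q : ℚ) ^ k) ^ 2 = (N : ℚ) * ((n * (q : ℤ) ^ k : ℤ) : ℚ) := by
    push_cast
    have : y * ((q : ℚ) ^ k) ^ 2 = (y * (q : ℚ) ^ k) * (q : ℚ) ^ k := by ring
    rw [this, hkn]; ring
  have hmemL : h15lr_ll (y * ((q : ℚ) ^ k) ^ 2) ∈ h32_Delta N q := by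
    rw [hy2]; exact h15lr_ll_mem N q ⟨0, n * (q : ℤ) ^ k, by simp⟩
  have hD := h15lr_dd_mem N q k hz
  have hprod : (⟨h15lr_ll y, h15lr_ll_mem N q ⟨k, n, hkn⟩⟩ : h32_Delta N q)
      = ⟨h15lr_dd ((q : ℚ) ^ k) hz, hD⟩
        * ⟨h15lr_ll (y * ((q : ℚ) ^ k) ^ 2), hmemL⟩
        * (⟨h15lr_dd ((q : ℚ) ^ k) hz, hD⟩ : h32_Delta N q)⁻¹ := by
    apply Subtype.ext
    simp only [Subgroup.coe_mul, Subgroup.coe_inv]
    exact h15lr_ll_conj y _ hz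
  have hone : ψ ⟨h15lr_ll (y * ((q : ℚ) ^ k) ^ 2), hmemL⟩ = 1 := by
    have h1 := hψ (h15lr_lZ N (n * (q : ℤ) ^ k)) (h15lr_trace_lZ N _)
    have h2 : (⟨h15lr_ll (y * ((q : ℚ) ^ k) ^ 2), hmemL⟩ : h32_Delta N q)
        = ⟨h32_iota ((h15lr_lZ N (n * (q : ℤ) ^ k) : Gamma0 N) :
            Matrix.SpecialLinearGroup (Fin 2) ℤ), h32_iota_mem_Delta N q _⟩ := by
      apply Subtype.ext
      show h15lr_ll (y * ((q : ℚ) ^ k) ^ 2) = h32_iota _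
      rw [h15lr_iota_lZ, hy2]
    rw [h2]; exact h1
  rw [hprod, map_mul, map_mul, map_inv, hone, mul_one, mul_inv_cancel]

end Fermat.Agent.LR
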