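import Fermat.Agent.Jac.COH

/-!
# P-LR (S41, level raising), block (4): the Eisenstein computation

If a homomorphism `φ : Γ₀(N) → A` factors through `γ ↦ d(γ) mod N`, then the cohomological
Hecke operator `T_ℓ` (`ℓ ∤ N` prime, in the sense of `Fermat.Agent.Jac.IsCohHeckeAdd`) acts on
it by `ℓ + 1`:  `T_ℓ φ = (ℓ + 1) • φ`.

Proof: `δ_i γ = c_i δ_{π i}` gives `D_i d(γ) ≡ d(c_i) D_{π i} (mod N)` where `D_i ∈ {ℓ, 1}` is the
lower right entry of `δ_i`; choose `g_i ∈ Γ₀(N)` with `d(g_i) ≡ D_i`; then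
`φ(c_i) + φ(g_{π i}) = φ(g_i) + φ(γ)`, and `π` is a bijection.
-/

set_option autoImplicit false

open ModularCurve CongruenceSubgroup
open scoped MatrixGroups

noncomputable section

namespace Fermat.Agent.LR

open Fermat.Agent.Jac

/-- the lower right entry of an element of `Γ₀(N)`, modulo `N`. -/
def h15lr_dmod {N : ℕ} (γ : Gamma0 N) : ZMod N :=
  ((((γ : SL(2, ℤ)) : Matrix (Fin 2) (Fin 2) ℤ) 1 1 : ℤ) : ZMod N)

/-- `φ` factors through `γ ↦ d(γ) mod N`. -/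
def h15lr_FactorsThroughD (N : ℕ) {A : Type*} [AddCommGroup A]
    (φ : Additive (Gamma0 N) →+ A) : Prop :=
  ∀ γ γ' : Gamma0 N, h15lr_dmod γ = h15lr_dmod γ' →
    φ (Additive.ofMul γ) = φ (Additive.ofMul γ')

theorem h15lr_dmod_mul {N : ℕ} (γ γ' : Gamma0 N) :
    h15lr_dmod (γ * γ') = h15lr_dmod γ * h15lr_dmod γ' := by
  have hγ : (N : ℤ) ∣ ((γ : SL(2, ℤ)) : Matrix (Fin 2) (Fin 2) ℤ) 1 0 :=
    (h17_mem_Gamma0_iff _).mp γ.2
  have h0 : ((((γ : SL(2, ℤ)) : Matrix (Fin 2) (Fin 2) ℤ) 1 0 : ℤ) : ZMod N) = 0 :=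
    (ZMod.intCast_zmod_eq_zero_iff_dvd _ _).mpr hγ
  unfold h15lr_dmod
  rw [Subgroup.coe_mul, Matrix.SpecialLinearGroup.coe_mul, Matrix.mul_apply, Fin.sum_univ_two]
  push_cast
  rw [h0, zero_mul, zero_add]

/-- an element of `Γ₀(N)` with lower right entry `≡ ℓ`. -/
theorem h15lr_exists_dmod_eq {N ℓ : ℕ} (h : Nat.Coprime ℓ N) :
    ∃ g : Gamma0 N, h15lr_dmod g = (ℓ : ZMod N) := by
  have hc : IsCoprime (ℓ : ℤ) (N : ℤ) := Nat.isCoprime_iff_coprime.mpr h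
  obtain ⟨a, b, hab⟩ := hc
  refine ⟨h17_mk N a (-b) N ℓ (by linear_combination hab) (dvd_refl _), ?_⟩
  unfold h15lr_dmod
  rw [h17_mk_coe]
  simp

theorem h15lr_heckeRep_one_one (ℓ : ℕ) (i : Fin (ℓ + 1)) :
    heckeRep ℓ i 1 1 = (ℓ : ℤ) ∨ heckeRep ℓ i 1 1 = 1 := by
  by_cases h : (i : ℕ) < ℓ
  · left; rw [h17_heckeRep_lt i h]; rfl
  · right; rw [h17_heckeRep_last i h]; rfl

/-- the congruence `D_i d(γ) ≡ d(c_i) D_{π i} (mod N)`. -/
theorem h15lr_decomp_dmod {N ℓ : ℕ} {γ : Gamma0 N} {π : Fin (ℓ + 1) → Fin (ℓ + 1)}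
    {c : Fin (ℓ + 1) → Gamma0 N} (h : HeckeDecomp N ℓ γ π c) (i : Fin (ℓ + 1)) :
    ((heckeRep ℓ i 1 1 : ℤ) : ZMod N) * h15lr_dmod γ
      = h15lr_dmod (c i) * ((heckeRep ℓ (π i) 1 1 : ℤ) : ZMod N) := by
  have hc : (N : ℤ) ∣ ((c i : SL(2, ℤ)) : Matrix (Fin 2) (Fin 2) ℤ) 1 0 :=
    (h17_mem_Gamma0_iff _).mp (c i).2
  have h0 : ((((c i : SL(2, ℤ)) : Matrix (Fin 2) (Fin 2) ℤ) 1 0 : ℤ) : ZMod N) = 0 :=
    (ZMod.intCast_zmod_eq_zero_iff_dvd _ _).mpr hc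
  have key := congrArg (fun M : Matrix (Fin 2) (Fin 2) ℤ => ((M 1 1 : ℤ) : ZMod N)) (h i)
  simp only [Matrix.mul_apply, Fin.sum_univ_two, h17_heckeRep_one_zero] at key
  push_cast at key
  rw [h0] at key
  unfold h15lr_dmod
  simpa using key

/-- **Eisenstein computation.**  If `φ` factors through `d mod N`, then `T_ℓ φ = (ℓ + 1) φ`. -/
theorem h15lr_eis_hecke {N ℓ : ℕ} (hℓ : ℓ.Prime) (hℓN : ¬ ℓ ∣ N) {A : Type*} [AddCommGroup A]
    (φ φ' : Additive (Gamma0 N) →+ A) (hφ : h15lr_FactorsThroughD N φ)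
    (hT : IsCohHeckeAdd N ℓ φ φ') (γ : Gamma0 N) :
    φ' (Additive.ofMul γ) = (ℓ + 1) • φ (Additive.ofMul γ) := by
  obtain ⟨π, c, h⟩ := h17_heckeDecomp_exists N ℓ hℓ hℓN γ
  rw [hT γ π c h]
  have hcop : Nat.Coprime ℓ N := (Nat.Prime.coprime_iff_not_dvd hℓ).mpr hℓN
  obtain ⟨g, hg⟩ := h15lr_exists_dmod_eq hcop
  -- representatives `G i ∈ Γ₀(N)` of `D_i`
  have hG : ∀ i : Fin (ℓ + 1), ∃ G : Gamma0 N,
      h15lr_dmod G = ((heckeRep ℓ i 1 1 : ℤ) : ZMod N) := by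
    intro i
    rcases h15lr_heckeRep_one_one ℓ i with h1 | h1
    · exact ⟨g, by rw [hg, h1]; simp⟩
    · refine ⟨1, ?_⟩
      rw [h1]
      unfold h15lr_dmod
      simp
  choose G hGi using hG
  have hpi : Function.Bijective π := h17_heckeDecomp_bijective hℓ h
  have key : ∀ i, φ (Additive.ofMul (c i)) + φ (Additive.ofMul (G (π i)))
      = φ (Additive.ofMul (G i)) + φ (Additive.ofMul γ) := by
    intro i
    have h1 : h15lr_dmod (c i * G (π i)) = h15lr_dmod (G i * γ) := by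
      rw [h15lr_dmod_mul, h15lr_dmod_mul, hGi, hGi]
      exact (h15lr_decomp_dmod h i).symm
    have h2 := hφ _ _ h1
    rw [ofMul_mul, ofMul_mul, map_add, map_add] at h2
    exact h2
  have hsum : ∑ i, (φ (Additive.ofMul (c i)) + φ (Additive.ofMul (G (π i))))
      = ∑ i, (φ (Additive.ofMul (G i)) + φ (Additive.ofMul γ)) :=
    Finset.sum_congr rfl fun i _ => key i
  rw [Finset.sum_add_distrib, Finset.sum_add_distrib] at hsum
  have hperm : ∑ i, φ (Additive.ofMul (G (π i))) = ∑ i, φ (Additive.ofMul (G i)) :=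
    Function.Bijective.sum_comp hpi (fun i => φ (Additive.ofMul (G i)))
  rw [hperm] at hsum
  have hconst : ∑ _i : Fin (ℓ + 1), φ (Additive.ofMul γ) = (ℓ + 1) • φ (Additive.ofMul γ) := by
    rw [Finset.sum_const, Finset.card_univ, Fintype.card_fin]
  rw [hconst, add_comm (∑ i, φ (Additive.ofMul (c i)))] at hsum
  exact add_left_cancel hsum

end Fermat.Agent.LR
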