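/-
P-LR (S41 level raising), row LR-IHARA, core part (Mathlib + LR/Amalgam*, LR/Unip only).

**Ihara's lemma**, conditional on the abelianised congruence subgroup property for
`Δ = Γ₀(N)[1/q]` (`h32i_CSPStatement`, the only missing input, row LR-CSP):

if `φ₁, φ₂ : Γ₀(N) → A` (`A` an abelian group killed by the prime `p`) are homomorphisms that
vanish on the parabolic elements (trace² = 4) and satisfy `φ₁ γ + φ₂ (g γ g⁻¹) = 0` for all
`γ ∈ Γ₀(Nq)` (`g = diag(q, 1)`), then `φ₁` and `φ₂` vanish on `{γ ∈ Γ₀(N) : d ≡ 1 mod N}`,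
i.e. they factor through `γ ↦ d mod N`.

Chain: AMALGAM (`h32_amalgam_add`) glues `(φ₁, φ₂)` to `ψ : Δ → A`; UNIP (`h15lr_psi_uu`,
`h15lr_psi_ll`) shows that `ψ` kills `u(x)`, `l(N y)`; CSP gives that `ψ` kills `Γ(N)[1/q]`;
an elementary step extends this to `{d ≡ 1 mod N}`.  (helper32)
-/
import Fermat.Agent.LR.Unip

namespace Fermat.Agent.LR

open Matrix CongruenceSubgroup

/-- `M ∈ Γ(N)[1/q]`: `M ≡ 1 mod N ℤ[1/q]` entrywise. -/
def h32i_IsPrincipal (N q : ℕ) (M : Matrix.SpecialLinearGroup (Fin 2) ℚ) : Prop :=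
  h32_IsNZq N q (M 0 0 - 1) ∧ h32_IsNZq N q (M 0 1) ∧ h32_IsNZq N q (M 1 0) ∧
    h32_IsNZq N q (M 1 1 - 1)

/-- `ψ` kills the image of the parabolic elements of the second copy `g⁻¹ Γ₀(N) g` of `Γ₀(N)`
in `Δ`. -/
def h32i_ParOnGamma0' (N q : ℕ) [NeZero q] {K : Type*} [Monoid K] (ψ : h32_Delta N q →* K) :
    Prop :=
  ∀ γ : Gamma0 N,
    ((γ : Matrix.SpecialLinearGroup (Fin 2) ℤ) : Matrix (Fin 2) (Fin 2) ℤ).trace ^ 2 = 4 →
      ψ ⟨h32_cg q (h32_iota (γ : Matrix.SpecialLinearGroup (Fin 2) ℤ)),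
        h32_cg_iota_mem_Delta N q γ⟩ = 1

/-- `ψ` kills the elementary unipotents `u(x)` (`x ∈ ℤ[1/q]`) and `l(y)` (`y ∈ N ℤ[1/q]`). -/
def h32i_KillsElem (N q : ℕ) {K : Type*} [Monoid K] (ψ : h32_Delta N q →* K) : Prop :=
  (∀ (x : ℚ) (hx : h32_IsZq q x), ψ ⟨h15lr_uu x, h15lr_uu_mem N q hx⟩ = 1) ∧
  (∀ (y : ℚ) (hy : h32_IsNZq N q y), ψ ⟨h15lr_ll y, h15lr_ll_mem N q hy⟩ = 1)

/-- **THE MISSING INPUT (row LR-CSP): abelianised congruence subgroup property** for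
`Δ = Γ₀(N)[1/q]` with `𝔽_p`-coefficients.  A homomorphism `ψ : Δ → 𝔽_p` that kills the
elementary unipotents `u(x)` (`x ∈ ℤ[1/q]`) and `l(y)` (`y ∈ N ℤ[1/q]`) kills the principal
congruence subgroup `Γ(N)[1/q]`. -/
def h32i_CSPStatement (N q p : ℕ) : Prop :=
  ∀ ψ : h32_Delta N q →* Multiplicative (ZMod p),
    h32i_KillsElem N q ψ →
    ∀ δ : h32_Delta N q,
      h32i_IsPrincipal N q (δ : Matrix.SpecialLinearGroup (Fin 2) ℚ) → ψ δ = 1

/-- A formally weaker form of `h32i_CSPStatement` which is still sufficient for Ihara's lemma: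
`ψ` is moreover assumed to kill all parabolic elements (trace² = 4) of both copies
`Γ₀(N)`, `g⁻¹ Γ₀(N) g` of `Γ₀(N)` inside `Δ`. -/
def h32i_CSPWeak (N q p : ℕ) [NeZero q] : Prop :=
  ∀ ψ : h32_Delta N q →* Multiplicative (ZMod p),
    h32i_KillsElem N q ψ → h15lr_ParOnGamma0 N q ψ → h32i_ParOnGamma0' N q ψ →
    ∀ δ : h32_Delta N q,
      h32i_IsPrincipal N q (δ : Matrix.SpecialLinearGroup (Fin 2) ℚ) → ψ δ = 1

theorem h32i_CSPWeak_of_CSPStatement {N q p : ℕ} [NeZero q] (h : h32i_CSPStatement N q p) :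
    h32i_CSPWeak N q p :=
  fun ψ h1 _ _ δ hδ => h ψ h1 δ hδ

/-- parabolicity on `Γ₀(N)` gives the vanishing on elementary unipotents (UNIP). -/
theorem h32i_killsElem_of_par {N q : ℕ} [NeZero q] {K : Type*} [CommGroup K]
    (ψ : h32_Delta N q →* K) (hψ : h15lr_ParOnGamma0 N q ψ) : h32i_KillsElem N q ψ :=
  ⟨fun _ hx => h15lr_psi_uu ψ hψ hx, fun _ hy => h15lr_psi_ll ψ hψ hy⟩

/-! ### From `𝔽_p` to arbitrary coefficients killed by `p` -/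

theorem h32i_sep_aux (p : ℕ) [Fact p.Prime] {A : Type*} [AddCommGroup A] [Module (ZMod p) A]
    (v : A) (hv : ∀ f : A →+ ZMod p, f v = 0) : v = 0 := by
  by_contra hv0
  obtain ⟨f, hf⟩ := Module.Projective.exists_dual_ne_zero (ZMod p) hv0
  exact hf (hv f.toAddMonoidHom)

/-- separation of points of an abelian group killed by a prime `p` by homomorphisms to
`ZMod p`. -/
theorem h32i_separate {p : ℕ} (hp : p.Prime) {A : Type*} [AddCommGroup A]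
    (hpA : ∀ a : A, p • a = 0) (v : A) (hv : ∀ f : A →+ ZMod p, f v = 0) : v = 0 :=
  @h32i_sep_aux p ⟨hp⟩ A _ (AddCommGroup.zmodModule hpA) v hv

/-- CSP with coefficients in any abelian group killed by `p`. -/
theorem h32i_csp_general {N q p : ℕ} [NeZero q] (hp : p.Prime) (hcsp : h32i_CSPWeak N q p)
    {A : Type*} [AddCommGroup A] (hpA : ∀ a : A, p • a = 0)
    (ψ : h32_Delta N q →* Multiplicative A)
    (h1 : h15lr_ParOnGamma0 N q ψ) (h2 : h32i_ParOnGamma0' N q ψ)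
    (δ : h32_Delta N q)
    (hδ : h32i_IsPrincipal N q (δ : Matrix.SpecialLinearGroup (Fin 2) ℚ)) : ψ δ = 1 := by
  have key : Multiplicative.toAdd (ψ δ) = 0 := by
    apply h32i_separate hp hpA
    intro f
    let ψf : h32_Delta N q →* Multiplicative (ZMod p) :=
      (AddMonoidHom.toMultiplicative f).comp ψ
    have hψf : ∀ x, ψf x = Multiplicative.ofAdd (f (Multiplicative.toAdd (ψ x))) := fun _ => rfl
    have hone : ∀ x, ψ x = 1 → ψf x = 1 := by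
      intro x hx
      rw [hψf, hx]
      simp
    have h1f : h15lr_ParOnGamma0 N q ψf := fun γ hγ => hone _ (h1 γ hγ)
    have h2f : h32i_ParOnGamma0' N q ψf := fun γ hγ => hone _ (h2 γ hγ)
    have := hcsp ψf (h32i_killsElem_of_par ψf h1f) h1f h2f δ hδ
    rw [hψf] at this
    exact Multiplicative.ofAdd.injective this
  exact Multiplicative.toAdd.injective key

/-! ### From `Γ(N)[1/q]` to `Γ₁(N)[1/q] = {d ≡ 1 mod N}` -/

theorem h32i_IsNZq_sub {N q : ℕ} {x y : ℚ} (hx : h32_IsNZq N q x) (hy : h32_IsNZq N q y) :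
    h32_IsNZq N q (x - y) := by
  rw [sub_eq_add_neg]
  exact h32_IsNZq_add hx (h32_IsNZq_neg hy)

theorem h32i_IsZq_of_IsNZq {N q : ℕ} {x : ℚ} (hx : h32_IsNZq N q x) : h32_IsZq q x := by
  obtain ⟨k, n, h⟩ := hx
  exact ⟨k, N * n, by rw [h]; push_cast; ring⟩

/-- for `δ ∈ Δ` with `d ≡ 1 mod N`, the product `δ · u(- b d)` lies in `Γ(N)[1/q]`. -/
theorem h32i_principal_mul {N q : ℕ} (δ : Matrix.SpecialLinearGroup (Fin 2) ℚ)
    (hδ : δ ∈ h32_Delta N q) (hd : h32_IsNZq N q (δ 1 1 - 1)) :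
    h32i_IsPrincipal N q (δ * h15lr_uu (-(δ 0 1 * δ 1 1))) := by
  obtain ⟨hZ, hc⟩ := hδ
  have hdet : δ 0 0 * δ 1 1 - δ 0 1 * δ 1 0 = 1 := by
    have := δ.2
    rwa [Matrix.det_fin_two] at this
  have e00 : (δ * h15lr_uu (-(δ 0 1 * δ 1 1))) 0 0 = δ 0 0 := by
    simp [h15lr_uu, Matrix.SpecialLinearGroup.coe_mul, Matrix.mul_apply, Fin.sum_univ_two]
  have e01 : (δ * h15lr_uu (-(δ 0 1 * δ 1 1))) 0 1
      = δ 0 0 * (-(δ 0 1 * δ 1 1)) + δ 0 1 := by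
    simp [h15lr_uu, Matrix.SpecialLinearGroup.coe_mul, Matrix.mul_apply, Fin.sum_univ_two]
  have e10 : (δ * h15lr_uu (-(δ 0 1 * δ 1 1))) 1 0 = δ 1 0 := by
    simp [h15lr_uu, Matrix.SpecialLinearGroup.coe_mul, Matrix.mul_apply, Fin.sum_univ_two]
  have e11 : (δ * h15lr_uu (-(δ 0 1 * δ 1 1))) 1 1
      = δ 1 0 * (-(δ 0 1 * δ 1 1)) + δ 1 1 := by
    simp [h15lr_uu, Matrix.SpecialLinearGroup.coe_mul, Matrix.mul_apply, Fin.sum_univ_two]
  -- `a - 1 = b c - a (d - 1)`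
  have ha : h32_IsNZq N q (δ 0 0 - 1) := by
    have : δ 0 0 - 1 = δ 0 1 * δ 1 0 - δ 0 0 * (δ 1 1 - 1) := by linear_combination hdet
    rw [this]
    exact h32i_IsNZq_sub (h32_IsNZq_mul_right (hZ 0 1) hc) (h32_IsNZq_mul_right (hZ 0 0) hd)
  refine ⟨?_, ?_, ?_, ?_⟩
  · rw [e00]; exact ha
  · rw [e01]
    -- `- a b d + b = - b (b c)`
    have : δ 0 0 * (-(δ 0 1 * δ 1 1)) + δ 0 1 = -(δ 0 1 * (δ 0 1 * δ 1 0)) := by
      linear_combination (-(δ 0 1)) * hdet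
    rw [this]
    exact h32_IsNZq_neg (h32_IsNZq_mul_right (hZ 0 1) (h32_IsNZq_mul_right (hZ 0 1) hc))
  · rw [e10]; exact hc
  · rw [e11]
    have : δ 1 0 * (-(δ 0 1 * δ 1 1)) + δ 1 1 - 1
        = δ 1 0 * (-(δ 0 1 * δ 1 1)) + (δ 1 1 - 1) := by ring
    rw [this]
    exact h32_IsNZq_add
      (h32_IsNZq_mul_left hc (h32_IsZq_neg (h32_IsZq_mul (hZ 0 1) (hZ 1 1)))) hd

/-- CSP, strong form: `ψ` kills every `δ ∈ Δ` with `d ≡ 1 mod N`. -/
theorem h32i_csp_d {N q p : ℕ} [NeZero q] (hp : p.Prime) (hcsp : h32i_CSPWeak N q p)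
    {A : Type*} [AddCommGroup A] (hpA : ∀ a : A, p • a = 0)
    (ψ : h32_Delta N q →* Multiplicative A)
    (h1 : h15lr_ParOnGamma0 N q ψ) (h2 : h32i_ParOnGamma0' N q ψ)
    (δ : h32_Delta N q)
    (hd : h32_IsNZq N q ((δ : Matrix.SpecialLinearGroup (Fin 2) ℚ) 1 1 - 1)) : ψ δ = 1 := by
  have hx : h32_IsZq q (-((δ : Matrix.SpecialLinearGroup (Fin 2) ℚ) 0 1
      * (δ : Matrix.SpecialLinearGroup (Fin 2) ℚ) 1 1)) :=
    h32_IsZq_neg (h32_IsZq_mul (δ.2.1 0 1) (δ.2.1 1 1))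
  have hprin := h32i_principal_mul (δ : Matrix.SpecialLinearGroup (Fin 2) ℚ) δ.2 hd
  have hu := h15lr_psi_uu ψ h1 hx
  have hprod := h32i_csp_general hp hcsp hpA ψ h1 h2
    (δ * ⟨h15lr_uu _, h15lr_uu_mem N q hx⟩) hprin
  rw [map_mul, hu, mul_one] at hprod
  exact hprod

/-! ### Ihara's lemma -/

/-- `d ≡ 1 mod N` for `γ ∈ Γ₀(N)`. -/
def h32i_DOne {N : ℕ} (γ : Gamma0 N) : Prop :=
  (N : ℤ) ∣ ((γ : Matrix.SpecialLinearGroup (Fin 2) ℤ) 1 1 - 1)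

/-- **Ihara's lemma (multiplicative form, conditional on CSP).**  -/
theorem h32i_ihara_mul {N q p : ℕ} [NeZero q] (hq : q.Prime) (hNq : Nat.Coprime N q)
    (hp : p.Prime) (hcsp : h32i_CSPWeak N q p)
    {A : Type*} [AddCommGroup A] (hpA : ∀ a : A, p • a = 0)
    (φ₁ φ₂ : Gamma0 N →* Multiplicative A)
    (hpar₁ : ∀ γ : Gamma0 N,
      ((γ : Matrix.SpecialLinearGroup (Fin 2) ℤ) : Matrix (Fin 2) (Fin 2) ℤ).trace ^ 2 = 4 →
        φ₁ γ = 1)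
    (hpar₂ : ∀ γ : Gamma0 N,
      ((γ : Matrix.SpecialLinearGroup (Fin 2) ℤ) : Matrix (Fin 2) (Fin 2) ℤ).trace ^ 2 = 4 →
        φ₂ γ = 1)
    (hker : ∀ γ : Gamma0 (N * q), φ₁ (h32_incl N q γ) * φ₂ (h32_up N q γ) = 1) :
    (∀ γ : Gamma0 N, h32i_DOne γ → φ₁ γ = 1) ∧ (∀ γ : Gamma0 N, h32i_DOne γ → φ₂ γ = 1) := by
  obtain ⟨ψ, hψ1, hψ2⟩ := h32_amalgam_add hq hNq φ₁ φ₂ hker
  have h1 : h15lr_ParOnGamma0 N q ψ := fun γ hγ => by rw [hψ1 γ]; exact hpar₁ γ hγ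
  have h2 : h32i_ParOnGamma0' N q ψ := fun γ hγ => by
    rw [hψ2 γ, hpar₂ γ hγ, inv_one]
  constructor
  · intro γ hγ
    rw [← hψ1 γ]
    apply h32i_csp_d hp hcsp hpA ψ h1 h2
    show h32_IsNZq N q (h32_iota (γ : Matrix.SpecialLinearGroup (Fin 2) ℤ) 1 1 - 1)
    rw [h32_iota_apply]
    have := h32_IsNZq_int (N := N) (q := q) _ hγ
    push_cast at this
    exact this
  · intro γ hγ
    have : (φ₂ γ)⁻¹ = 1 := by
      rw [← hψ2 γ]
      apply h32i_csp_d hp hcsp hpA ψ h1 h2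
      show h32_IsNZq N q
        (h32_cg q (h32_iota (γ : Matrix.SpecialLinearGroup (Fin 2) ℤ)) 1 1 - 1)
      rw [h32_cg_apply]
      have := h32_IsNZq_int (N := N) (q := q) _ hγ
      push_cast at this
      simpa [h32_iota_apply] using this
    exact inv_eq_one.mp this

end Fermat.Agent.LR
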