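/-
P-LR (S41 level raising), row LR-IHARA: **Ihara's lemma**, conditional on the abelianised
congruence subgroup property `h32i_CSPWeak N q p` (implied by `h32i_CSPStatement N q p`,
row LR-CSP), in the vocabulary of the Prelude (`ModularCurve.Period.IsParabolicHom`) and of
`LR/EisHecke` (`h15lr_FactorsThroughD`).

If `φ₁, φ₂ : Γ₀(N) → A` are parabolic homomorphisms into an abelian group killed by the prime
`p` with `φ₁ γ + φ₂ (g γ g⁻¹) = 0` for all `γ ∈ Γ₀(Nq)` (`g = diag(q, 1)`, `q` prime, `q ∤ N`),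
then `φ₁` and `φ₂` factor through `γ ↦ d mod N`; hence (by `h15lr_eis_hecke`) they are
Eisenstein: `T_ℓ φᵢ = (ℓ + 1) φᵢ` for all primes `ℓ ∤ N`.  (helper32)
-/
import Fermat.Agent.LR.IharaCore
import Fermat.Agent.LR.EisHecke

set_option autoImplicit false

open ModularCurve CongruenceSubgroup
open scoped MatrixGroups

namespace Fermat.Agent.LR

open Fermat.Agent.Jac

theorem h32i_dmod_one {N : ℕ} : h15lr_dmod (1 : Gamma0 N) = 1 := by
  unfold h15lr_dmod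
  simp

theorem h32i_DOne_iff {N : ℕ} (γ : Gamma0 N) : h32i_DOne γ ↔ h15lr_dmod γ = 1 := by
  unfold h32i_DOne h15lr_dmod
  rw [← ZMod.intCast_zmod_eq_zero_iff_dvd]
  push_cast
  exact sub_eq_zero

theorem h32i_DOne_mul_inv {N : ℕ} (γ γ' : Gamma0 N) (h : h15lr_dmod γ = h15lr_dmod γ') :
    h32i_DOne (γ * γ'⁻¹) := by
  rw [h32i_DOne_iff, h15lr_dmod_mul, h, ← h15lr_dmod_mul, mul_inv_cancel, h32i_dmod_one]

/-- a homomorphism vanishing on `{d ≡ 1 mod N}` factors through `d mod N`. -/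
theorem h32i_factors_of_DOne {N : ℕ} {A : Type*} [AddCommGroup A]
    (φ : Additive (Gamma0 N) →+ A)
    (h : ∀ γ : Gamma0 N, h32i_DOne γ → φ (Additive.ofMul γ) = 0) :
    h15lr_FactorsThroughD N φ := by
  intro γ γ' hd
  have h0 := h (γ * γ'⁻¹) (h32i_DOne_mul_inv γ γ' hd)
  rw [ofMul_mul, ofMul_inv, map_add, map_neg] at h0
  exact sub_eq_zero.mp (by rw [sub_eq_add_neg]; exact h0)

/-- **Ihara's lemma (LR-IHARA)**, conditional on CSP.  `q` prime, `q ∤ N`, `p` prime, `A` an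
abelian group killed by `p`, `φ₁, φ₂ : Γ₀(N) → A` parabolic homomorphisms with
`φ₁ γ + φ₂ (g γ g⁻¹) = 0` for all `γ ∈ Γ₀(Nq)` (`g = diag(q, 1)`; `h32_incl` is the inclusion
`Γ₀(Nq) ≤ Γ₀(N)`, `h32_up γ = g γ g⁻¹`).  Then `φ₁`, `φ₂` factor through `d mod N`. -/
theorem h32i_ihara {N q p : ℕ} [NeZero q] (hq : q.Prime) (hNq : Nat.Coprime N q)
    (hp : p.Prime) (hcsp : h32i_CSPWeak N q p)
    {A : Type*} [AddCommGroup A] (hpA : ∀ a : A, p • a = 0)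
    (φ₁ φ₂ : Additive (Gamma0 N) →+ A)
    (h₁ : Period.IsParabolicHom (Gamma0 N) φ₁) (h₂ : Period.IsParabolicHom (Gamma0 N) φ₂)
    (hker : ∀ γ : Gamma0 (N * q),
      φ₁ (Additive.ofMul (h32_incl N q γ)) + φ₂ (Additive.ofMul (h32_up N q γ)) = 0) :
    h15lr_FactorsThroughD N φ₁ ∧ h15lr_FactorsThroughD N φ₂ := by
  have key := h32i_ihara_mul hq hNq hp hcsp hpA
    (AddMonoidHom.toMultiplicativeRight φ₁) (AddMonoidHom.toMultiplicativeRight φ₂)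
    (fun γ hγ => by
      show Multiplicative.ofAdd (φ₁ (Additive.ofMul γ)) = 1
      rw [h₁ γ hγ]; rfl)
    (fun γ hγ => by
      show Multiplicative.ofAdd (φ₂ (Additive.ofMul γ)) = 1
      rw [h₂ γ hγ]; rfl)
    (fun γ => by
      show Multiplicative.ofAdd (φ₁ (Additive.ofMul (h32_incl N q γ)))
        * Multiplicative.ofAdd (φ₂ (Additive.ofMul (h32_up N q γ))) = 1
      rw [← ofAdd_add, hker γ]; rfl)
  refine ⟨h32i_factors_of_DOne φ₁ fun γ hγ => ?_, h32i_factors_of_DOne φ₂ fun γ hγ => ?_⟩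
  · have := key.1 γ hγ
    exact Multiplicative.ofAdd.injective this
  · have := key.2 γ hγ
    exact Multiplicative.ofAdd.injective this

/-- Variant of `h32i_ihara` with the compatibility in the form `φ₁ γ = φ₂ (g γ g⁻¹)` on
`Γ₀(Nq)`. -/
theorem h32i_ihara' {N q p : ℕ} [NeZero q] (hq : q.Prime) (hNq : Nat.Coprime N q)
    (hp : p.Prime) (hcsp : h32i_CSPWeak N q p)
    {A : Type*} [AddCommGroup A] (hpA : ∀ a : A, p • a = 0)
    (φ₁ φ₂ : Additive (Gamma0 N) →+ A)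
    (h₁ : Period.IsParabolicHom (Gamma0 N) φ₁) (h₂ : Period.IsParabolicHom (Gamma0 N) φ₂)
    (hker : ∀ γ : Gamma0 (N * q),
      φ₁ (Additive.ofMul (h32_incl N q γ)) = φ₂ (Additive.ofMul (h32_up N q γ))) :
    h15lr_FactorsThroughD N φ₁ ∧ h15lr_FactorsThroughD N φ₂ := by
  have h₂' : Period.IsParabolicHom (Gamma0 N) (-φ₂) := fun γ hγ => by
    rw [AddMonoidHom.neg_apply, h₂ γ hγ, neg_zero]
  obtain ⟨k1, k2⟩ := h32i_ihara hq hNq hp hcsp hpA φ₁ (-φ₂) h₁ h₂' (fun γ => by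
    rw [AddMonoidHom.neg_apply, hker γ, add_neg_cancel])
  refine ⟨k1, fun γ γ' hd => ?_⟩
  have := k2 γ γ' hd
  rw [AddMonoidHom.neg_apply, AddMonoidHom.neg_apply] at this
  exact neg_injective this

/-- Consequence (with `h15lr_eis_hecke`): the Ihara kernel is Eisenstein. -/
theorem h32i_ihara_eisenstein {N q p ℓ : ℕ} [NeZero q] (hq : q.Prime) (hNq : Nat.Coprime N q)
    (hp : p.Prime) (hcsp : h32i_CSPWeak N q p) (hℓ : ℓ.Prime) (hℓN : ¬ ℓ ∣ N)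
    {A : Type*} [AddCommGroup A] (hpA : ∀ a : A, p • a = 0)
    (φ₁ φ₂ : Additive (Gamma0 N) →+ A)
    (h₁ : Period.IsParabolicHom (Gamma0 N) φ₁) (h₂ : Period.IsParabolicHom (Gamma0 N) φ₂)
    (hker : ∀ γ : Gamma0 (N * q),
      φ₁ (Additive.ofMul (h32_incl N q γ)) + φ₂ (Additive.ofMul (h32_up N q γ)) = 0)
    (φ₁' φ₂' : Additive (Gamma0 N) →+ A)
    (hT₁ : IsCohHeckeAdd N ℓ φ₁ φ₁') (hT₂ : IsCohHeckeAdd N ℓ φ₂ φ₂') :
    (∀ γ : Gamma0 N, φ₁' (Additive.ofMul γ) = (ℓ + 1) • φ₁ (Additive.ofMul γ)) ∧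
    (∀ γ : Gamma0 N, φ₂' (Additive.ofMul γ) = (ℓ + 1) • φ₂ (Additive.ofMul γ)) := by
  obtain ⟨k1, k2⟩ := h32i_ihara hq hNq hp hcsp hpA φ₁ φ₂ h₁ h₂ hker
  exact ⟨h15lr_eis_hecke hℓ hℓN φ₁ φ₁' k1 hT₁, h15lr_eis_hecke hℓ hℓN φ₂ φ₂' k2 hT₂⟩

end Fermat.Agent.LR
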