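/-
P-LR (S41 level raising), row LR-IHARA, adapter to the output shape of LR-CSP (helper11's
`h11_csp_iota` / `h11_csp_cg`, L-FINAL): Ihara's lemma from the statement
"a homomorphism `ψ : Δ → A` which is parabolic on `Γ₀(N)` kills `ι γ` and `g⁻¹ (ι γ) g` for
every `γ ∈ Γ₀(N)` with `d ≡ 1 mod N`".  (helper32)
-/
import Fermat.Agent.LR.Ihara

set_option autoImplicit false

open ModularCurve CongruenceSubgroup
open scoped MatrixGroups

namespace Fermat.Agent.LR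

/-- The output shape of LR-CSP (L-FINAL) for a fixed coefficient group `A` (multiplicative). -/
def h32i_CSPIota (N q : ℕ) [NeZero q] (A : Type*) [CommGroup A] : Prop :=
  ∀ ψ : h32_Delta N q →* A, h15lr_ParOnGamma0 N q ψ →
    ∀ γ : Gamma0 N, (N : ℤ) ∣ ((γ : Matrix.SpecialLinearGroup (Fin 2) ℤ) 1 1 - 1) →
      ψ ⟨h32_iota (γ : Matrix.SpecialLinearGroup (Fin 2) ℤ), h32_iota_mem_Delta N q γ⟩ = 1 ∧
      ψ ⟨h32_cg q (h32_iota (γ : Matrix.SpecialLinearGroup (Fin 2) ℤ)),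
        h32_cg_iota_mem_Delta N q γ⟩ = 1

/-- **Ihara's lemma from the L-FINAL shape of CSP** (multiplicative form). Only `φ₁` has to be
parabolic. -/
theorem h32i_ihara_mul_of_iota {N q : ℕ} [NeZero q] (hq : q.Prime) (hNq : Nat.Coprime N q)
    {A : Type*} [AddCommGroup A] (hcsp : h32i_CSPIota N q (Multiplicative A))
    (φ₁ φ₂ : Gamma0 N →* Multiplicative A)
    (hpar₁ : ∀ γ : Gamma0 N,
      ((γ : Matrix.SpecialLinearGroup (Fin 2) ℤ) : Matrix (Fin 2) (Fin 2) ℤ).trace ^ 2 = 4 →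
        φ₁ γ = 1)
    (hker : ∀ γ : Gamma0 (N * q), φ₁ (h32_incl N q γ) * φ₂ (h32_up N q γ) = 1) :
    (∀ γ : Gamma0 N, h32i_DOne γ → φ₁ γ = 1) ∧ (∀ γ : Gamma0 N, h32i_DOne γ → φ₂ γ = 1) := by
  obtain ⟨ψ, hψ1, hψ2⟩ := h32_amalgam_add hq hNq φ₁ φ₂ hker
  have h1 : h15lr_ParOnGamma0 N q ψ := fun γ hγ => by rw [hψ1 γ]; exact hpar₁ γ hγ
  constructor
  · intro γ hγ
    rw [← hψ1 γ]
    exact (hcsp ψ h1 γ hγ).1
  · intro γ hγ
    have : (φ₂ γ)⁻¹ = 1 := by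
      rw [← hψ2 γ]
      exact (hcsp ψ h1 γ hγ).2
    exact inv_eq_one.mp this

/-- **Ihara's lemma from the L-FINAL shape of CSP.**  `q` prime, `q ∤ N`,
`φ₁, φ₂ : Γ₀(N) → A` homomorphisms, `φ₁` parabolic, with `φ₁ γ + φ₂ (g γ g⁻¹) = 0` for all
`γ ∈ Γ₀(Nq)`.  Then `φ₁`, `φ₂` factor through `d mod N`. -/
theorem h32i_ihara_of_iota {N q : ℕ} [NeZero q] (hq : q.Prime) (hNq : Nat.Coprime N q)
    {A : Type*} [AddCommGroup A] (hcsp : h32i_CSPIota N q (Multiplicative A))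
    (φ₁ φ₂ : Additive (Gamma0 N) →+ A)
    (h₁ : Period.IsParabolicHom (Gamma0 N) φ₁)
    (hker : ∀ γ : Gamma0 (N * q),
      φ₁ (Additive.ofMul (h32_incl N q γ)) + φ₂ (Additive.ofMul (h32_up N q γ)) = 0) :
    h15lr_FactorsThroughD N φ₁ ∧ h15lr_FactorsThroughD N φ₂ := by
  have key := h32i_ihara_mul_of_iota hq hNq hcsp
    (AddMonoidHom.toMultiplicativeRight φ₁) (AddMonoidHom.toMultiplicativeRight φ₂)
    (fun γ hγ => by
      show Multiplicative.ofAdd (φ₁ (Additive.ofMul γ)) = 1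
      rw [h₁ γ hγ]; rfl)
    (fun γ => by
      show Multiplicative.ofAdd (φ₁ (Additive.ofMul (h32_incl N q γ)))
        * Multiplicative.ofAdd (φ₂ (Additive.ofMul (h32_up N q γ))) = 1
      rw [← ofAdd_add, hker γ]; rfl)
  refine ⟨h32i_factors_of_DOne φ₁ fun γ hγ => ?_, h32i_factors_of_DOne φ₂ fun γ hγ => ?_⟩
  · exact Multiplicative.ofAdd.injective (key.1 γ hγ)
  · exact Multiplicative.ofAdd.injective (key.2 γ hγ)

/-- Variant with the compatibility in the form `φ₁ γ = φ₂ (g γ g⁻¹)` on `Γ₀(Nq)`. -/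
theorem h32i_ihara_of_iota' {N q : ℕ} [NeZero q] (hq : q.Prime) (hNq : Nat.Coprime N q)
    {A : Type*} [AddCommGroup A] (hcsp : h32i_CSPIota N q (Multiplicative A))
    (φ₁ φ₂ : Additive (Gamma0 N) →+ A)
    (h₁ : Period.IsParabolicHom (Gamma0 N) φ₁)
    (hker : ∀ γ : Gamma0 (N * q),
      φ₁ (Additive.ofMul (h32_incl N q γ)) = φ₂ (Additive.ofMul (h32_up N q γ))) :
    h15lr_FactorsThroughD N φ₁ ∧ h15lr_FactorsThroughD N φ₂ := by
  obtain ⟨k1, k2⟩ := h32i_ihara_of_iota hq hNq hcsp φ₁ (-φ₂) h₁ (fun γ => by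
    rw [AddMonoidHom.neg_apply, hker γ, add_neg_cancel])
  refine ⟨k1, fun γ γ' hd => ?_⟩
  have := k2 γ γ' hd
  rw [AddMonoidHom.neg_apply, AddMonoidHom.neg_apply] at this
  exact neg_injective this

/-- The Ihara kernel is Eisenstein (L-FINAL shape of CSP). -/
theorem h32i_ihara_eisenstein_of_iota {N q ℓ : ℕ} [NeZero q] (hq : q.Prime)
    (hNq : Nat.Coprime N q) (hℓ : ℓ.Prime) (hℓN : ¬ ℓ ∣ N)
    {A : Type*} [AddCommGroup A] (hcsp : h32i_CSPIota N q (Multiplicative A))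
    (φ₁ φ₂ : Additive (Gamma0 N) →+ A)
    (h₁ : Period.IsParabolicHom (Gamma0 N) φ₁)
    (hker : ∀ γ : Gamma0 (N * q),
      φ₁ (Additive.ofMul (h32_incl N q γ)) + φ₂ (Additive.ofMul (h32_up N q γ)) = 0)
    (φ₁' φ₂' : Additive (Gamma0 N) →+ A)
    (hT₁ : Fermat.Agent.Jac.IsCohHeckeAdd N ℓ φ₁ φ₁')
    (hT₂ : Fermat.Agent.Jac.IsCohHeckeAdd N ℓ φ₂ φ₂') :
    (∀ γ : Gamma0 N, φ₁' (Additive.ofMul γ) = (ℓ + 1) • φ₁ (Additive.ofMul γ)) ∧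
    (∀ γ : Gamma0 N, φ₂' (Additive.ofMul γ) = (ℓ + 1) • φ₂ (Additive.ofMul γ)) := by
  obtain ⟨k1, k2⟩ := h32i_ihara_of_iota hq hNq hcsp φ₁ φ₂ h₁ hker
  exact ⟨h15lr_eis_hecke hℓ hℓN φ₁ φ₁' k1 hT₁, h15lr_eis_hecke hℓ hℓN φ₂ φ₂' k2 hT₂⟩

end Fermat.Agent.LR
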