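import Fermat.Agent.LR.CohPar

/-!
# P-LR (S41), row LR-COMM, direct proof: the cohomological Hecke operators commute (helper17)

Pure double-coset computation with the operator calculus of `LR/CohGen`; no period map.

* `h17lr_exists_factor`: an integral matrix with `ℓ ∣ det` is `M₁ * heckeRep ℓ j`;
* `h17lr_free_prod`: the products `heckeRep ℓ a * heckeRep ℓ' b` (`ℓ ≠ ℓ'`) are pairwise
  inequivalent modulo `Γ₀(M)` on the left;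
* `h17lr_isCohHeckeAdd_comm`: `T_ℓ T_ℓ' = T_ℓ' T_ℓ` relationally, any coefficients;
* `h17lr_T_comm`: the bundled operators `h17lr_T M ℓ` commute on `L_M`.
-/

set_option autoImplicit false

open ModularCurve CongruenceSubgroup
open scoped MatrixGroups

noncomputable section

namespace Fermat.Agent.LR

open Fermat.Agent.Jac

section General

variable {M : Type*} [Monoid M] {H Γ K : Type*} [Group H] [Group Γ] [Group K]
variable {ι κ : Type*} {f : H →* M} {g : Γ →* M} {k : K →* M} {δ : ι → M} {ε : κ → M}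

theorem h17lr_closed_comp (hδ : h17lr_Closed f g δ) (hε : h17lr_Closed g k ε) :
    h17lr_Closed f k (fun p : ι × κ => δ p.1 * ε p.2) := by
  rintro ⟨i, j⟩ θ
  obtain ⟨j', d, hd⟩ := hε j θ
  obtain ⟨i', c, hc⟩ := hδ i d
  refine ⟨(i', j'), c, ?_⟩
  show δ i * ε j * k θ = f c * (δ i' * ε j')
  rw [mul_assoc, hd, ← mul_assoc, hc, mul_assoc]

end General

/-- an integral matrix whose determinant is divisible by `ℓ` is `M₁ * heckeRep ℓ j`. -/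
theorem h17lr_exists_factor (N ℓ : ℕ) (hℓ : ℓ.Prime) (hℓN : ¬ ℓ ∣ N)
    (M₀ : Matrix (Fin 2) (Fin 2) ℤ) (k : ℤ) (hdet : M₀.det = (ℓ : ℤ) * k)
    (hN : (N : ℤ) ∣ M₀ 1 0) :
    ∃ (j : Fin (ℓ + 1)) (M₁ : Matrix (Fin 2) (Fin 2) ℤ),
      M₀ = M₁ * heckeRep ℓ j ∧ M₁.det = k ∧ (N : ℤ) ∣ M₁ 1 0 := by
  have hℓ0 : (ℓ : ℤ) ≠ 0 := by exact_mod_cast hℓ.ne_zero
  rw [Matrix.det_fin_two] at hdet
  have hcop : IsCoprime (N : ℤ) (ℓ : ℤ) := by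
    rw [Int.isCoprime_iff_gcd_eq_one, Int.gcd_natCast_natCast]
    exact (Nat.coprime_comm.mp ((Nat.Prime.coprime_iff_not_dvd hℓ).mpr hℓN))
  by_cases hcol : (ℓ : ℤ) ∣ M₀ 0 0 ∧ (ℓ : ℤ) ∣ M₀ 1 0
  · obtain ⟨⟨x, hx⟩, ⟨y, hy⟩⟩ := hcol
    have hNy : (N : ℤ) ∣ y := by
      rw [hy] at hN
      exact hcop.dvd_of_dvd_mul_left hN
    refine ⟨Fin.last ℓ, !![x, M₀ 0 1; y, M₀ 1 1], ?_, ?_, ?_⟩
    · rw [h17_heckeRep_last _ (by simp)]
      ext a b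
      fin_cases a <;> fin_cases b <;>
        simp [Matrix.mul_apply, Fin.sum_univ_two, hx, hy, mul_comm]
    · rw [Matrix.det_fin_two_of]
      apply mul_left_cancel₀ hℓ0
      rw [hx, hy] at hdet
      linear_combination hdet
    · simpa using hNy
  · have hdvd : (ℓ : ℤ) ∣ M₀ 0 0 * M₀ 1 1 - M₀ 0 1 * M₀ 1 0 := ⟨k, hdet⟩
    obtain ⟨j, hj, ⟨p, hp⟩, ⟨q, hq⟩⟩ :=
      h17_exists_multiple ℓ hℓ (M₀ 0 0) (M₀ 1 0) (M₀ 0 1) (M₀ 1 1) hdvd hcol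
    refine ⟨⟨j, by omega⟩, !![M₀ 0 0, p; M₀ 1 0, q], ?_, ?_, ?_⟩
    · rw [h17_heckeRep_lt _ (by simpa using hj)]
      ext a b
      fin_cases a <;> fin_cases b <;> simp [Matrix.mul_apply, Fin.sum_univ_two]
      · linear_combination hp
      · linear_combination hq
    · rw [Matrix.det_fin_two_of]
      apply mul_left_cancel₀ hℓ0
      linear_combination hdet - M₀ 0 0 * hq + M₀ 1 0 * hp
    · simpa using hN

theorem h17lr_heckeRep_det_ne {ℓ : ℕ} (hℓ : ℓ.Prime) (i : Fin (ℓ + 1)) :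
    (heckeRep ℓ i).det ≠ 0 := by
  rw [h17_det_heckeRep]
  exact_mod_cast hℓ.ne_zero

/-- `heckeRep ℓ' b = Z * heckeRep ℓ' b'` with `Z` integral forces `b = b'`. -/
theorem h17lr_heckeRep_eq_of_mul {ℓ : ℕ} (hℓ : ℓ.Prime) (b b' : Fin (ℓ + 1))
    (Z : Matrix (Fin 2) (Fin 2) ℤ) (h : heckeRep ℓ b = Z * heckeRep ℓ b') : b = b' := by
  have hℓ0 : (ℓ : ℤ) ≠ 0 := by exact_mod_cast hℓ.ne_zero
  have hdet : Z.det = 1 := by
    have := congrArg Matrix.det h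
    rw [Matrix.det_mul, h17_det_heckeRep, h17_det_heckeRep] at this
    have h2 : Z.det * (ℓ : ℤ) = 1 * (ℓ : ℤ) := by rw [one_mul]; exact this.symm
    exact mul_right_cancel₀ hℓ0 h2
  have h' : (((1 : SL(2, ℤ)) : Matrix (Fin 2) (Fin 2) ℤ)) * heckeRep ℓ b
      = (((⟨Z, hdet⟩ : SL(2, ℤ)) : Matrix (Fin 2) (Fin 2) ℤ)) * heckeRep ℓ b' := by
    rw [Matrix.SpecialLinearGroup.coe_one, Matrix.one_mul]
    exact h
  exact (h17_decomp_unique ℓ hℓ _ _ _ _ h').1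

/-- the products `heckeRep ℓ a * heckeRep ℓ' b`, `ℓ ≠ ℓ'`, are free modulo `Γ₀(M)`. -/
theorem h17lr_free_prod (M : ℕ) {ℓ ℓ' : ℕ} (hℓ : ℓ.Prime) (hℓ' : ℓ'.Prime) (hne : ℓ ≠ ℓ') :
    h17lr_Free (h17lr_coe (Gamma0 M))
      (fun p : Fin (ℓ + 1) × Fin (ℓ' + 1) => heckeRep ℓ p.1 * heckeRep ℓ' p.2) := by
  rintro ⟨a, b⟩ ⟨a', b'⟩ c c' e
  simp only at e
  have hℓ0 : (ℓ : ℤ) ≠ 0 := by exact_mod_cast hℓ.ne_zero
  have hℓ'0 : (ℓ' : ℤ) ≠ 0 := by exact_mod_cast hℓ'.ne_zero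
  have hcop : IsCoprime (ℓ' : ℤ) (ℓ : ℤ) := by
    rw [Int.isCoprime_iff_gcd_eq_one, Int.gcd_natCast_natCast]
    exact (Nat.coprime_primes hℓ' hℓ).mpr (Ne.symm hne)
  set X : Matrix (Fin 2) (Fin 2) ℤ := h17lr_coe (Gamma0 M) c * heckeRep ℓ a with hX
  set X' : Matrix (Fin 2) (Fin 2) ℤ := h17lr_coe (Gamma0 M) c' * heckeRep ℓ a' with hX'
  have e1 : X * heckeRep ℓ' b = X' * heckeRep ℓ' b' := by
    rw [hX, hX', Matrix.mul_assoc, Matrix.mul_assoc]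
    exact e
  have hdetX : X.det = (ℓ : ℤ) := by
    rw [hX, Matrix.det_mul, h17lr_det_coe, one_mul, h17_det_heckeRep]
  set Y₀ : Matrix (Fin 2) (Fin 2) ℤ := heckeRep ℓ' b * (heckeRep ℓ' b').adjugate with hY₀
  have e2 : (ℓ : ℤ) • Y₀ = (ℓ' : ℤ) • (X.adjugate * X') := by
    have h1 : X * Y₀ = (ℓ' : ℤ) • X' := by
      rw [hY₀, ← Matrix.mul_assoc, e1, Matrix.mul_assoc, Matrix.mul_adjugate,
        h17_det_heckeRep, Matrix.mul_smul, Matrix.mul_one]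
    have h2 : X.adjugate * (X * Y₀) = X.adjugate * ((ℓ' : ℤ) • X') := by rw [h1]
    rw [← Matrix.mul_assoc, Matrix.adjugate_mul, hdetX, Matrix.smul_mul, Matrix.one_mul,
      Matrix.mul_smul] at h2
    exact h2
  have hdvd : ∀ i j, (ℓ' : ℤ) ∣ Y₀ i j := by
    intro i j
    have := congrFun (congrFun e2 i) j
    simp only [Matrix.smul_apply, smul_eq_mul] at this
    exact hcop.dvd_of_dvd_mul_left ⟨_, this⟩
  choose Z hZ using hdvd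
  have hYZ : Y₀ = (ℓ' : ℤ) • Matrix.of Z := by
    ext i j
    simp [hZ i j]
  have e3 : heckeRep ℓ' b = Matrix.of Z * heckeRep ℓ' b' := by
    have h1 : Y₀ * heckeRep ℓ' b' = (ℓ' : ℤ) • heckeRep ℓ' b := by
      rw [hY₀, Matrix.mul_assoc, Matrix.adjugate_mul, h17_det_heckeRep, Matrix.mul_smul,
        Matrix.mul_one]
    rw [hYZ, Matrix.smul_mul] at h1
    exact (smul_right_injective _ hℓ'0 h1).symm
  have hb : b = b' := h17lr_heckeRep_eq_of_mul hℓ' b b' _ e3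
  subst hb
  have e4 : X = X' := h17lr_mul_right_cancel (h17lr_heckeRep_det_ne hℓ' b) _ _ e1
  obtain ⟨ha, hc⟩ := h17lr_free_heckeRep M hℓ a a' c c' e4
  subst ha
  exact ⟨rfl, hc⟩

/-- the family `heckeRep ℓ' b * heckeRep ℓ a` is covered by `heckeRep ℓ a * heckeRep ℓ' b`. -/
theorem h17lr_cover_prod {M ℓ ℓ' : ℕ} (hℓ : ℓ.Prime) (hℓM : ¬ ℓ ∣ M) (hℓ' : ℓ'.Prime)
    (hℓ'M : ¬ ℓ' ∣ M) (p : Fin (ℓ' + 1) × Fin (ℓ + 1)) :
    ∃ (p' : Fin (ℓ + 1) × Fin (ℓ' + 1)) (u : Gamma0 M),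
      heckeRep ℓ' p.1 * heckeRep ℓ p.2
        = h17lr_coe (Gamma0 M) u * (heckeRep ℓ p'.1 * heckeRep ℓ' p'.2) := by
  obtain ⟨b, a⟩ := p
  have hdet : (heckeRep ℓ' b * heckeRep ℓ a).det = (ℓ' : ℤ) * (ℓ : ℤ) := by
    rw [Matrix.det_mul, h17_det_heckeRep, h17_det_heckeRep]
  have h10 : (M : ℤ) ∣ (heckeRep ℓ' b * heckeRep ℓ a) 1 0 := by
    rw [Matrix.mul_apply, Fin.sum_univ_two, h17_heckeRep_one_zero, h17_heckeRep_one_zero]
    simp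
  obtain ⟨b', M₁, h1, h2, h3⟩ :=
    h17lr_exists_factor M ℓ' hℓ' hℓ'M _ (ℓ : ℤ) hdet h10
  obtain ⟨a', u, h4⟩ := h17_exists_decomp M ℓ hℓ hℓM M₁ h2 h3
  refine ⟨(a', b'), u, ?_⟩
  show heckeRep ℓ' b * heckeRep ℓ a = h17lr_coe (Gamma0 M) u * (heckeRep ℓ a' * heckeRep ℓ' b')
  rw [h1, h4, Matrix.mul_assoc]
  rfl

/-- **`T_ℓ T_ℓ' = T_ℓ' T_ℓ`**, relationally, for any coefficients. -/
theorem h17lr_isCohHeckeAdd_comm {M ℓ ℓ' : ℕ} (hℓ : ℓ.Prime) (hℓM : ¬ ℓ ∣ M) (hℓ' : ℓ'.Prime)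
    (hℓ'M : ¬ ℓ' ∣ M) {A : Type*} [AddCommGroup A]
    {x y z y' z' : Additive (Gamma0 M) →+ A}
    (h1 : IsCohHeckeAdd M ℓ' x y) (h2 : IsCohHeckeAdd M ℓ y z)
    (h3 : IsCohHeckeAdd M ℓ x y') (h4 : IsCohHeckeAdd M ℓ' y' z') : z = z' := by
  classical
  by_cases hne : ℓ = ℓ'
  · subst hne
    have e : y = y' :=
      h17lr_op_unique (h17lr_closed_heckeRep hℓ hℓM) (h17lr_isCohHeckeAdd_iff.mp h1)
        (h17lr_isCohHeckeAdd_iff.mp h3)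
    subst e
    exact h17lr_op_unique (h17lr_closed_heckeRep hℓ hℓM) (h17lr_isCohHeckeAdd_iff.mp h2)
      (h17lr_isCohHeckeAdd_iff.mp h4)
  · -- `z` is the operator of `P₁ = (h'_b h_a)`, `z'` of `P₂ = (h_a h'_b)`
    have hC := h17lr_closed_heckeRep hℓ hℓM
    have hC' := h17lr_closed_heckeRep hℓ' hℓ'M
    have hF1 := h17lr_free_prod M hℓ' hℓ (Ne.symm hne)
    have hF2 := h17lr_free_prod M hℓ hℓ' hne
    have hz : h17lr_IsOp (h17lr_coe (Gamma0 M)) (h17lr_coe (Gamma0 M))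
        (fun p : Fin (ℓ' + 1) × Fin (ℓ + 1) => heckeRep ℓ' p.1 * heckeRep ℓ p.2) x z :=
      h17lr_op_comp hC' hC hF1 (h17lr_isCohHeckeAdd_iff.mp h1) (h17lr_isCohHeckeAdd_iff.mp h2)
    have hz' : h17lr_IsOp (h17lr_coe (Gamma0 M)) (h17lr_coe (Gamma0 M))
        (fun p : Fin (ℓ + 1) × Fin (ℓ' + 1) => heckeRep ℓ p.1 * heckeRep ℓ' p.2) x z' :=
      h17lr_op_comp hC hC' hF2 (h17lr_isCohHeckeAdd_iff.mp h3) (h17lr_isCohHeckeAdd_iff.mp h4)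
    choose σ u hu using h17lr_cover_prod (M := M) hℓ hℓM hℓ' hℓ'M
    have hσ : Function.Injective σ :=
      h17lr_cover_injective
        (δ := fun p : Fin (ℓ + 1) × Fin (ℓ' + 1) => heckeRep ℓ p.1 * heckeRep ℓ' p.2)
        hF1 σ u hu
    have hσ' : Function.Bijective σ := by
      rw [Fintype.bijective_iff_injective_and_card]
      refine ⟨hσ, ?_⟩
      rw [Fintype.card_prod, Fintype.card_prod, mul_comm]
    have hz'' := h17lr_op_of_equiv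
      (δ := fun p : Fin (ℓ + 1) × Fin (ℓ' + 1) => heckeRep ℓ p.1 * heckeRep ℓ' p.2)
      hF1 σ hσ' u hu hz'
    exact h17lr_op_unique (h17lr_closed_comp hC' hC) hz hz''

/-- **LR-COMM**: the bundled Hecke operators commute on `L_M`. -/
theorem h17lr_T_comm {M ℓ ℓ' : ℕ} (hℓ : ℓ.Prime) (hℓM : ¬ ℓ ∣ M) (hℓ' : ℓ'.Prime)
    (hℓ'M : ¬ ℓ' ∣ M) (x : h17lr_L M) :
    h17lr_T M ℓ (h17lr_T M ℓ' x) = h17lr_T M ℓ' (h17lr_T M ℓ x) := by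
  apply Subtype.ext
  exact h17lr_isCohHeckeAdd_comm hℓ hℓM hℓ' hℓ'M
    (h17lr_T_spec M ℓ' hℓ' hℓ'M x) (h17lr_T_spec M ℓ hℓ hℓM (h17lr_T M ℓ' x))
    (h17lr_T_spec M ℓ hℓ hℓM x) (h17lr_T_spec M ℓ' hℓ' hℓ'M (h17lr_T M ℓ x))

end Fermat.Agent.LR
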