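import Fermat.Agent.LR.CohComm
import Fermat.Agent.LR.AsmDefs

/-!
# P-LR (S41), row LR-COMM: `h88_CommStatement` (helper17)

The frozen statement of `LR/AsmDefs.lean`, from the direct double-coset proof
`h17lr_T_comm` of `LR/CohComm.lean`.
-/

set_option autoImplicit false

namespace Fermat.Agent.LR

theorem h17lr_commStatement : h88_CommStatement :=
  fun _ _ _ _ hℓ hℓM hℓ' hℓ'M x => h17lr_T_comm hℓ hℓM hℓ' hℓ'M x

end Fermat.Agent.LR
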