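import Mathlib

/-!
# P-LR (S41), item LR-COH: abstract operator calculus (helper17)

`M` a monoid, `H`, `Γ` groups with homomorphisms `f : H →* M`, `g : Γ →* M`, and a finite
family `δ : ι → M`.  A *decomposition* of `γ : Γ` is `δ_i g(γ) = f(c_i) δ_{π i}`; the
operator attached to `δ` sends `y : H → A` to `z : Γ → A`, `z γ = ∑ i, y (c_i)`.
Hecke operators, restrictions and transfers are all of this form.

* `h17lr_Decomp`, `h17lr_IsOp`, `h17lr_Free`, `h17lr_Closed`;
* `h17lr_decomp_exists / _unique / _injective / _bijective / _mul`;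
* `h17lr_op_exists`, `h17lr_op_unique`, `h17lr_op_map`, `h17lr_op_add`;
* `h17lr_op_of_equiv` (equivalent families define the same operator);
* `h17lr_op_comp` (composition = product family).
-/

set_option autoImplicit false

namespace Fermat.Agent.LR

section General

variable {M : Type*} [Monoid M] {H Γ K : Type*} [Group H] [Group Γ] [Group K]
variable {ι κ : Type*}

/-- `δ_i g(γ) = f(c_i) δ_{π i}` for all `i`. -/
def h17lr_Decomp (f : H →* M) (g : Γ →* M) (δ : ι → M) (γ : Γ) (π : ι → ι) (c : ι → H) :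
    Prop :=
  ∀ i, δ i * g γ = f (c i) * δ (π i)

/-- `z` is the image of `y` under the operator attached to the family `δ`. -/
def h17lr_IsOp [Fintype ι] (f : H →* M) (g : Γ →* M) (δ : ι → M) {A : Type*}
    [AddCommMonoid A] (y : Additive H →+ A) (z : Additive Γ →+ A) : Prop :=
  ∀ (γ : Γ) (π : ι → ι) (c : ι → H), h17lr_Decomp f g δ γ π c →
    z (Additive.ofMul γ) = ∑ i, y (Additive.ofMul (c i))

/-- the cosets `f(H) δ_i` are pairwise distinct and `f(h) δ_i` determines `h`. -/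
def h17lr_Free (f : H →* M) (δ : ι → M) : Prop :=
  ∀ (a b : ι) (h h' : H), f h * δ a = f h' * δ b → a = b ∧ h = h'

/-- `⋃ f(H) δ_i` is stable under right multiplication by `g(Γ)`. -/
def h17lr_Closed (f : H →* M) (g : Γ →* M) (δ : ι → M) : Prop :=
  ∀ (i : ι) (γ : Γ), ∃ (j : ι) (c : H), δ i * g γ = f c * δ j

variable {f : H →* M} {g : Γ →* M} {k : K →* M} {δ : ι → M} {ε : κ → M}

theorem h17lr_decomp_exists (hC : h17lr_Closed f g δ) (γ : Γ) :
    ∃ (π : ι → ι) (c : ι → H), h17lr_Decomp f g δ γ π c := by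
  choose π c h using fun i => hC i γ
  exact ⟨π, c, h⟩

theorem h17lr_decomp_unique (hF : h17lr_Free f δ) {γ : Γ} {π π' : ι → ι} {c c' : ι → H}
    (h : h17lr_Decomp f g δ γ π c) (h' : h17lr_Decomp f g δ γ π' c') : π = π' ∧ c = c' := by
  have key : ∀ i, π i = π' i ∧ c i = c' i := fun i =>
    hF (π i) (π' i) (c i) (c' i) ((h i).symm.trans (h' i))
  exact ⟨funext fun i => (key i).1, funext fun i => (key i).2⟩

theorem h17lr_decomp_injective (hF : h17lr_Free f δ) {γ : Γ} {π : ι → ι} {c : ι → H}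
    (h : h17lr_Decomp f g δ γ π c) : Function.Injective π := by
  intro i i' hii
  have k : ∀ j, π j = π i → f (c j)⁻¹ * δ j = δ (π i) * g γ⁻¹ := by
    intro j hj
    have hj' := h j
    rw [hj] at hj'
    calc f (c j)⁻¹ * δ j = f (c j)⁻¹ * (δ j * g γ) * g γ⁻¹ := by
          rw [mul_assoc, mul_assoc, ← map_mul g, mul_inv_cancel, map_one, mul_one]
      _ = δ (π i) * g γ⁻¹ := by
          rw [hj', ← mul_assoc, ← map_mul f, inv_mul_cancel, map_one, one_mul]
  exact (hF _ _ _ _ ((k i rfl).trans (k i' hii.symm).symm)).1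

theorem h17lr_decomp_bijective [Finite ι] (hF : h17lr_Free f δ) {γ : Γ} {π : ι → ι}
    {c : ι → H} (h : h17lr_Decomp f g δ γ π c) : Function.Bijective π :=
  Finite.injective_iff_bijective.mp (h17lr_decomp_injective hF h)

theorem h17lr_decomp_mul {γ γ' : Γ} {π π' : ι → ι} {c c' : ι → H}
    (h : h17lr_Decomp f g δ γ π c) (h' : h17lr_Decomp f g δ γ' π' c') :
    h17lr_Decomp f g δ (γ * γ') (π' ∘ π) (fun i => c i * c' (π i)) := by
  intro i
  show δ i * g (γ * γ') = f (c i * c' (π i)) * δ (π' (π i))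
  rw [map_mul, map_mul, ← mul_assoc, h i, mul_assoc, h' (π i), mul_assoc]

theorem h17lr_decomp_one : h17lr_Decomp f g δ (1 : Γ) id (fun _ => (1 : H)) := by
  intro i
  simp

/-! ## Existence and uniqueness of the operator -/

theorem h17lr_op_exists [Fintype ι] (hF : h17lr_Free f δ) (hC : h17lr_Closed f g δ)
    {A : Type*} [AddCommGroup A] (y : Additive H →+ A) :
    ∃ z : Additive Γ →+ A, h17lr_IsOp f g δ y z := by
  classical
  choose π c h using h17lr_decomp_exists hC
  have hadd : ∀ a b : Additive Γ,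
      (∑ i, y (Additive.ofMul (c (Additive.toMul (a + b)) i)))
        = (∑ i, y (Additive.ofMul (c (Additive.toMul a) i)))
          + ∑ i, y (Additive.ofMul (c (Additive.toMul b) i)) := by
    intro a b
    set γ : Γ := Additive.toMul a with hγ
    set γ' : Γ := Additive.toMul b with hγ'
    have hab : Additive.toMul (a + b) = γ * γ' := rfl
    rw [hab]
    have hmul := h17lr_decomp_mul (h γ) (h γ')
    obtain ⟨-, hc⟩ := h17lr_decomp_unique hF (h (γ * γ')) hmul
    rw [hc]
    simp only [ofMul_mul, map_add, Finset.sum_add_distrib]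
    congr 1
    exact Function.Bijective.sum_comp (h17lr_decomp_bijective hF (h γ))
      (fun j => y (Additive.ofMul (c γ' j)))
  refine ⟨AddMonoidHom.mk' (fun a => ∑ i, y (Additive.ofMul (c (Additive.toMul a) i))) hadd,
    ?_⟩
  intro γ π' c' h'
  obtain ⟨-, hc⟩ := h17lr_decomp_unique hF (h γ) h'
  show (∑ i, y (Additive.ofMul (c γ i))) = _
  rw [hc]

theorem h17lr_op_unique [Fintype ι] (hC : h17lr_Closed f g δ) {A : Type*} [AddCommMonoid A]
    {y : Additive H →+ A} {z z' : Additive Γ →+ A}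
    (h1 : h17lr_IsOp f g δ y z) (h2 : h17lr_IsOp f g δ y z') : z = z' := by
  ext γ
  obtain ⟨π, c, h⟩ := h17lr_decomp_exists hC (Additive.toMul γ)
  exact (h1 _ π c h).trans (h2 _ π c h).symm

theorem h17lr_op_map [Fintype ι] {A B : Type*} [AddCommMonoid A] [AddCommMonoid B]
    (ψ : A →+ B) {y : Additive H →+ A} {z : Additive Γ →+ A}
    (h : h17lr_IsOp f g δ y z) : h17lr_IsOp f g δ (ψ.comp y) (ψ.comp z) := by
  intro γ π c hd
  rw [AddMonoidHom.comp_apply, h γ π c hd, map_sum]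
  rfl

theorem h17lr_op_add [Fintype ι] {A : Type*} [AddCommMonoid A]
    {y y' : Additive H →+ A} {z z' : Additive Γ →+ A}
    (h : h17lr_IsOp f g δ y z) (h' : h17lr_IsOp f g δ y' z') :
    h17lr_IsOp f g δ (y + y') (z + z') := by
  intro γ π c hd
  rw [AddMonoidHom.add_apply, h γ π c hd, h' γ π c hd, ← Finset.sum_add_distrib]
  rfl

theorem h17lr_op_zsmul [Fintype ι] {A : Type*} [AddCommGroup A]
    {y : Additive H →+ A} {z : Additive Γ →+ A} (n : ℤ)
    (h : h17lr_IsOp f g δ y z) : h17lr_IsOp f g δ (n • y) (n • z) := by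
  intro γ π c hd
  rw [AddMonoidHom.smul_apply, h γ π c hd, Finset.smul_sum]
  rfl

/-! ## Equivalent families -/

theorem h17lr_cover_injective {δ' : κ → M} (hF' : h17lr_Free f δ') (σ : κ → ι) (u : κ → H)
    (hu : ∀ j, δ' j = f (u j) * δ (σ j)) : Function.Injective σ := by
  intro j j' hjj
  have e : ∀ l, f (u l)⁻¹ * δ' l = δ (σ l) := by
    intro l
    rw [hu l, ← mul_assoc, ← map_mul, inv_mul_cancel, map_one, one_mul]
  have h1 := e j
  rw [hjj, ← e j'] at h1
  exact (hF' _ _ _ _ h1).1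

theorem h17lr_free_of_cover {δ' : κ → M} (hF : h17lr_Free f δ) (σ : κ → ι)
    (hσ : Function.Injective σ) (u : κ → H) (hu : ∀ j, δ' j = f (u j) * δ (σ j)) :
    h17lr_Free f δ' := by
  intro a b h h' e
  rw [hu a, hu b, ← mul_assoc, ← mul_assoc, ← map_mul, ← map_mul] at e
  obtain ⟨e1, e2⟩ := hF _ _ _ _ e
  have hab : a = b := hσ e1
  subst hab
  exact ⟨rfl, mul_right_cancel e2⟩

theorem h17lr_free_of_cover' {δ' : κ → M} (hF' : h17lr_Free f δ') (σ : κ → ι)
    (hσ : Function.Surjective σ) (u : κ → H) (hu : ∀ j, δ' j = f (u j) * δ (σ j)) :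
    h17lr_Free f δ := by
  have e : ∀ l, δ (σ l) = f (u l)⁻¹ * δ' l := by
    intro l
    rw [hu l, ← mul_assoc, ← map_mul, inv_mul_cancel, map_one, one_mul]
  intro a b h h' hab
  obtain ⟨a', rfl⟩ := hσ a
  obtain ⟨b', rfl⟩ := hσ b
  rw [e a', e b', ← mul_assoc, ← mul_assoc, ← map_mul, ← map_mul] at hab
  obtain ⟨e1, e2⟩ := hF' _ _ _ _ hab
  subst e1
  exact ⟨rfl, mul_right_cancel e2⟩

theorem h17lr_closed_of_cover {δ' : κ → M} (hC : h17lr_Closed f g δ) (σ : κ → ι)
    (hσ : Function.Surjective σ) (u : κ → H) (hu : ∀ j, δ' j = f (u j) * δ (σ j)) :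
    h17lr_Closed f g δ' := by
  intro j γ
  obtain ⟨i, c, h⟩ := hC (σ j) γ
  obtain ⟨j', rfl⟩ := hσ i
  refine ⟨j', u j * c * (u j')⁻¹, ?_⟩
  rw [hu j, mul_assoc, h, hu j', ← mul_assoc, ← mul_assoc, ← map_mul, ← map_mul,
    inv_mul_cancel_right]

/-- equivalent families define the same operator. -/
theorem h17lr_op_of_equiv [Fintype ι] [Fintype κ] {δ' : κ → M} (hF' : h17lr_Free f δ')
    (σ : κ → ι) (hσ : Function.Bijective σ) (u : κ → H)
    (hu : ∀ j, δ' j = f (u j) * δ (σ j))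
    {A : Type*} [AddCommGroup A] {y : Additive H →+ A} {z : Additive Γ →+ A}
    (h : h17lr_IsOp f g δ y z) : h17lr_IsOp f g δ' y z := by
  classical
  intro γ π' c' hd
  let e : κ ≃ ι := Equiv.ofBijective σ hσ
  have he : ∀ j, e j = σ j := fun _ => rfl
  have hinv : ∀ l, δ (σ l) = f (u l)⁻¹ * δ' l := by
    intro l
    rw [hu l, ← mul_assoc, ← map_mul, inv_mul_cancel, map_one, one_mul]
  have hdec : h17lr_Decomp f g δ γ (fun i => σ (π' (e.symm i)))
      (fun i => (u (e.symm i))⁻¹ * c' (e.symm i) * u (π' (e.symm i))) := by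
    intro i
    obtain ⟨j, rfl⟩ := e.surjective i
    simp only [Equiv.symm_apply_apply]
    rw [he, hinv j, mul_assoc, hd j, hu (π' j), ← mul_assoc, ← mul_assoc, ← map_mul,
      ← map_mul]
  rw [h γ _ _ hdec, ← Equiv.sum_comp e]
  simp only [Equiv.symm_apply_apply, ofMul_mul, map_add, ofMul_inv, map_neg,
    Finset.sum_add_distrib, Finset.sum_neg_distrib]
  have hbij := h17lr_decomp_bijective hF' hd
  have := Function.Bijective.sum_comp hbij (fun j => y (Additive.ofMul (u j)))
  rw [this]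
  abel

/-! ## Composition -/

/-- the operator of the product family `(i, j) ↦ δ_i ε_j` is the composite of the
operators of `δ` and of `ε`. -/
theorem h17lr_op_comp [Fintype ι] [Fintype κ]
    (hCδ : h17lr_Closed f g δ) (hCε : h17lr_Closed g k ε)
    (hF : h17lr_Free f (fun p : ι × κ => δ p.1 * ε p.2))
    {A : Type*} [AddCommMonoid A] {y : Additive H →+ A} {z : Additive Γ →+ A}
    {w : Additive K →+ A}
    (h1 : h17lr_IsOp f g δ y z) (h2 : h17lr_IsOp g k ε z w) :
    h17lr_IsOp f k (fun p : ι × κ => δ p.1 * ε p.2) y w := by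
  classical
  intro θ P C hd
  obtain ⟨ρ, d, hρ⟩ := h17lr_decomp_exists hCε θ
  choose π c hπ using fun j => h17lr_decomp_exists hCδ (d j)
  have hcomp : h17lr_Decomp f k (fun p : ι × κ => δ p.1 * ε p.2) θ
      (fun p => (π p.2 p.1, ρ p.2)) (fun p => c p.2 p.1) := by
    rintro ⟨i, j⟩
    show δ i * ε j * k θ = f (c j i) * (δ (π j i) * ε (ρ j))
    rw [mul_assoc, hρ j, ← mul_assoc, hπ j i, mul_assoc]
  obtain ⟨-, hC⟩ := h17lr_decomp_unique hF hd hcomp
  rw [h2 θ ρ d hρ, hC, Fintype.sum_prod_type, Finset.sum_comm]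
  refine Finset.sum_congr rfl fun j _ => ?_
  exact h1 (d j) (π j) (c j) (hπ j)

end General

end Fermat.Agent.LR
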