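import Fermat.Agent.LR.CohDefs
import Fermat.Agent.LR.CohGen

/-!
# P-LR (S41), item LR-COH: the transfer along a homomorphism (helper17)

Abstract group theory: `h17lr_IsCor f` in terms of the operator calculus of `LR/CohGen`.

* `h17lr_isCor_iff`, `h17lr_reps_free`, `h17lr_reps_closed`, `h17lr_reps_equiv`;
* `h17lr_isCor_of_isOp`, `h17lr_cor_exists`, `h17lr_cor_unique`;
* `h17lr_cor_res`: `cor_f (res_f x) = [Γ : f H] • x`;
* `h17lr_decomp_twist`, `h17lr_isOp_twist`: change of the ambient monoid.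
-/

set_option autoImplicit false

namespace Fermat.Agent.LR

section Cor

variable {H Γ : Type*} [Group H] [Group Γ] {f : H →* Γ}

theorem h17lr_isCor_iff {A : Type*} [AddCommMonoid A] {y : Additive H →+ A}
    {z : Additive Γ →+ A} :
    h17lr_IsCor f y z ↔ ∀ (ι : Type) [Fintype ι] (δ : ι → Γ), h17lr_IsReps f δ →
      h17lr_IsOp f (MonoidHom.id Γ) δ y z := by
  constructor
  · intro h ι _ δ hδ γ π c hd
    exact h ι δ π c γ hδ hd
  · intro h ι _ δ π c γ hδ hd
    exact h ι δ hδ γ π c hd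

theorem h17lr_reps_free (hf : Function.Injective f) {ι : Type*} {δ : ι → Γ}
    (hδ : h17lr_IsReps f δ) : h17lr_Free f δ := by
  intro a b h h' e
  have hab : a = b := by
    apply hδ.1
    refine ⟨h⁻¹ * h', ?_⟩
    rw [map_mul, map_inv]
    rw [eq_mul_inv_iff_mul_eq, mul_assoc, ← e, ← mul_assoc, inv_mul_cancel, one_mul]
  subst hab
  exact ⟨rfl, hf (mul_right_cancel e)⟩

theorem h17lr_reps_closed {ι : Type*} {δ : ι → Γ} (hδ : h17lr_IsReps f δ) :
    h17lr_Closed f (MonoidHom.id Γ) δ := by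
  intro i γ
  obtain ⟨j, c, hc⟩ := hδ.2 (δ i * γ)
  refine ⟨j, c, ?_⟩
  rw [hc]
  simp

theorem h17lr_reps_equiv {ι κ : Type*} {δ : ι → Γ} {δ' : κ → Γ}
    (hδ : h17lr_IsReps f δ) (hδ' : h17lr_IsReps f δ') :
    ∃ (σ : κ → ι) (u : κ → H), Function.Bijective σ ∧ ∀ j, δ' j = f (u j) * δ (σ j) := by
  choose σ u hu using fun j => hδ.2 (δ' j)
  have hu' : ∀ j, δ' j = f (u j) * δ (σ j) := by
    intro j
    rw [hu j]
    simp
  refine ⟨σ, u, ⟨?_, ?_⟩, hu'⟩
  · intro j j' hjj
    apply hδ'.1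
    refine ⟨u j * (u j')⁻¹, ?_⟩
    rw [hu' j, hu' j', hjj, map_mul, map_inv]
    group
  · intro i
    obtain ⟨j, c, hc⟩ := hδ'.2 (δ i)
    refine ⟨j, ?_⟩
    symm
    apply hδ.1
    refine ⟨c * u j, ?_⟩
    rw [map_mul, hc, hu j]
    group

theorem h17lr_isCor_of_isOp (hf : Function.Injective f) {ι : Type*} [Fintype ι] {δ : ι → Γ}
    (hδ : h17lr_IsReps f δ) {A : Type*} [AddCommGroup A] {y : Additive H →+ A}
    {z : Additive Γ →+ A} (h : h17lr_IsOp f (MonoidHom.id Γ) δ y z) : h17lr_IsCor f y z := by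
  rw [h17lr_isCor_iff]
  intro κ _ δ' hδ'
  obtain ⟨σ, u, hσ, hu⟩ := h17lr_reps_equiv hδ hδ'
  exact h17lr_op_of_equiv (h17lr_reps_free hf hδ') σ hσ u hu h

theorem h17lr_cor_exists (hf : Function.Injective f) {ι : Type*} [Fintype ι] {δ : ι → Γ}
    (hδ : h17lr_IsReps f δ) {A : Type*} [AddCommGroup A] (y : Additive H →+ A) :
    ∃ z : Additive Γ →+ A, h17lr_IsCor f y z := by
  obtain ⟨z, hz⟩ := h17lr_op_exists (g := MonoidHom.id Γ) (h17lr_reps_free hf hδ)
    (h17lr_reps_closed hδ) y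
  exact ⟨z, h17lr_isCor_of_isOp hf hδ hz⟩

theorem h17lr_cor_unique {ι : Type} [Fintype ι] {δ : ι → Γ}
    (hδ : h17lr_IsReps f δ) {A : Type*} [AddCommMonoid A] {y : Additive H →+ A}
    {z z' : Additive Γ →+ A} (h : h17lr_IsCor f y z) (h' : h17lr_IsCor f y z') : z = z' :=
  h17lr_op_unique (h17lr_reps_closed hδ) (h17lr_isCor_iff.mp h ι δ hδ)
    (h17lr_isCor_iff.mp h' ι δ hδ)

theorem h17lr_cor_add {A : Type*} [AddCommMonoid A] {y y' : Additive H →+ A}
    {z z' : Additive Γ →+ A} (h : h17lr_IsCor f y z) (h' : h17lr_IsCor f y' z') :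
    h17lr_IsCor f (y + y') (z + z') := by
  rw [h17lr_isCor_iff] at h h' ⊢
  intro ι _ δ hδ
  exact h17lr_op_add (h ι δ hδ) (h' ι δ hδ)

theorem h17lr_cor_map {A B : Type*} [AddCommMonoid A] [AddCommMonoid B] (ψ : A →+ B)
    {y : Additive H →+ A} {z : Additive Γ →+ A} (h : h17lr_IsCor f y z) :
    h17lr_IsCor f (ψ.comp y) (ψ.comp z) := by
  rw [h17lr_isCor_iff] at h ⊢
  intro ι _ δ hδ
  exact h17lr_op_map ψ (h ι δ hδ)

/-- `cor_f (res_f x) = [Γ : f H] • x`. -/
theorem h17lr_cor_res (hf : Function.Injective f) {ι : Type} [Fintype ι] {δ : ι → Γ}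
    (hδ : h17lr_IsReps f δ) {A : Type*} [AddCommGroup A] (x : Additive Γ →+ A)
    {z : Additive Γ →+ A} (h : h17lr_IsCor f (h17lr_res f x) z) :
    z = Fintype.card ι • x := by
  classical
  refine AddMonoidHom.ext fun γ' => ?_
  obtain ⟨γ, rfl⟩ : ∃ γ : Γ, Additive.ofMul γ = γ' := ⟨Additive.toMul γ', rfl⟩
  obtain ⟨π, c, hd⟩ := h17lr_decomp_exists (h17lr_reps_closed (f := f) hδ) γ
  have hbij := h17lr_decomp_bijective (h17lr_reps_free hf hδ) hd
  have h1 := h ι δ π c γ hδ hd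
  have h2 : ∀ i, h17lr_res f x (Additive.ofMul (c i))
      = x (Additive.ofMul (δ i)) + x (Additive.ofMul γ) - x (Additive.ofMul (δ (π i))) := by
    intro i
    rw [h17lr_res_apply]
    have e : f (c i) = δ i * γ * (δ (π i))⁻¹ := by
      have := hd i
      simp only [MonoidHom.id_apply] at this
      rw [this]
      group
    rw [e, ofMul_mul, ofMul_mul, map_add, map_add, ofMul_inv, map_neg, sub_eq_add_neg]
  have h3 := Function.Bijective.sum_comp hbij (fun j => x (Additive.ofMul (δ j)))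
  rw [h1, AddMonoidHom.smul_apply]
  simp only [h2, Finset.sum_sub_distrib, Finset.sum_add_distrib, h3, Finset.sum_const,
    Finset.card_univ]
  abel

end Cor

section Twist

variable {M : Type*} [Monoid M] {H Γ : Type*} [Group H] [Group Γ] {f : H →* Γ}
variable {eH : H →* M} {eΓ : Γ →* M} {a : M}

/-- change of the ambient monoid: `f : H →* Γ`, embeddings `eH`, `eΓ` into `M` and a
left-cancellable `a : M` with `a * eΓ (f h) = eH h * a`. -/
theorem h17lr_decomp_twist (heΓ : Function.Injective eΓ)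
    (ha : ∀ m m' : M, a * m = a * m' → m = m') (hfa : ∀ h : H, a * eΓ (f h) = eH h * a)
    {ι : Type*} (δ : ι → Γ) (γ : Γ) (π : ι → ι) (c : ι → H) :
    h17lr_Decomp eH eΓ (fun i => a * eΓ (δ i)) γ π c
      ↔ h17lr_Decomp f (MonoidHom.id Γ) δ γ π c := by
  constructor
  · intro h i
    have hi := h i
    simp only at hi
    rw [← mul_assoc, ← hfa, mul_assoc, mul_assoc, ← map_mul, ← map_mul] at hi
    exact heΓ (ha _ _ hi)
  · intro h i
    have hi := h i
    simp only [MonoidHom.id_apply] at hi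
    show a * eΓ (δ i) * eΓ γ = eH (c i) * (a * eΓ (δ (π i)))
    rw [← mul_assoc, ← hfa, mul_assoc, mul_assoc, ← map_mul, ← map_mul, hi]

theorem h17lr_isOp_twist (heΓ : Function.Injective eΓ)
    (ha : ∀ m m' : M, a * m = a * m' → m = m') (hfa : ∀ h : H, a * eΓ (f h) = eH h * a)
    {ι : Type*} [Fintype ι] (δ : ι → Γ) {A : Type*} [AddCommMonoid A]
    {y : Additive H →+ A} {z : Additive Γ →+ A} :
    h17lr_IsOp eH eΓ (fun i => a * eΓ (δ i)) y z ↔ h17lr_IsOp f (MonoidHom.id Γ) δ y z := by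
  constructor
  · intro h γ π c hd
    exact h γ π c ((h17lr_decomp_twist heΓ ha hfa δ γ π c).mpr hd)
  · intro h γ π c hd
    exact h γ π c ((h17lr_decomp_twist heΓ ha hfa δ γ π c).mp hd)

theorem h17lr_free_twist (hf : Function.Injective f) (heΓ : Function.Injective eΓ)
    (ha : ∀ m m' : M, a * m = a * m' → m = m') (hfa : ∀ h : H, a * eΓ (f h) = eH h * a)
    {ι : Type*} {δ : ι → Γ} (hδ : h17lr_IsReps f δ) :
    h17lr_Free eH (fun i => a * eΓ (δ i)) := by
  intro i j h h' e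
  simp only at e
  rw [← mul_assoc, ← mul_assoc, ← hfa, ← hfa, mul_assoc, mul_assoc, ← map_mul, ← map_mul] at e
  exact h17lr_reps_free hf hδ i j h h' (heΓ (ha _ _ e))

theorem h17lr_closed_twist (hfa : ∀ h : H, a * eΓ (f h) = eH h * a)
    {ι : Type*} {δ : ι → Γ} (hδ : h17lr_IsReps f δ) :
    h17lr_Closed eH eΓ (fun i => a * eΓ (δ i)) := by
  intro i γ
  obtain ⟨j, c, hc⟩ := h17lr_reps_closed hδ i γ
  refine ⟨j, c, ?_⟩
  simp only [MonoidHom.id_apply] at hc
  show a * eΓ (δ i) * eΓ γ = eH c * (a * eΓ (δ j))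
  rw [← mul_assoc, ← hfa, mul_assoc, mul_assoc, ← map_mul, ← map_mul, hc]

end Twist

section Hecke

variable {M : Type*} [Monoid M] {H Γ : Type*} [Group H] [Group Γ] {f f' : H →* Γ}
variable {e : Γ →* M} {a : M} {ι : Type} {B : ι → M} {r u : ι → Γ}

/-- a system of representatives of `f(H) \ Γ` from a free family `B` covering `a e(Γ)`:
`a e(f h) = e(f' h) a`, `a e(r_i) = e(u_i) B_i`, and `a e(ρ) ∈ e(Γ) a → ρ ∈ f(H)`. -/
theorem h17lr_isReps_of_hecke
    (h1 : ∀ h : H, a * e (f h) = e (f' h) * a)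
    (h2 : ∀ i, a * e (r i) = e (u i) * B i)
    (h3 : h17lr_Free e B)
    (h4 : ∀ γ : Γ, ∃ (j : ι) (c : Γ), a * e γ = e c * B j)
    (h5 : ∀ ρ c : Γ, a * e ρ = e c * a → ρ ∈ f.range) :
    h17lr_IsReps f r := by
  constructor
  · rintro i j ⟨c, hc⟩
    have hri : r i = f c * r j := by rw [hc]; group
    have e1 : e (u i) * B i = e (f' c * u j) * B j := by
      rw [← h2 i, hri, map_mul, ← mul_assoc, h1, mul_assoc, h2 j, ← mul_assoc, ← map_mul]
    exact (h3 _ _ _ _ e1).1
  · intro γ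
    obtain ⟨j, c, hc⟩ := h4 γ
    refine ⟨j, ?_⟩
    apply h5 (γ * (r j)⁻¹) (c * (u j)⁻¹)
    have hB : B j = e (u j)⁻¹ * (a * e (r j)) := by
      rw [h2 j, ← mul_assoc, ← map_mul, inv_mul_cancel, map_one, one_mul]
    calc a * e (γ * (r j)⁻¹) = a * e γ * e (r j)⁻¹ := by rw [map_mul, mul_assoc]
      _ = e c * (e (u j)⁻¹ * (a * e (r j))) * e (r j)⁻¹ := by rw [hc, hB]
      _ = e (c * (u j)⁻¹) * a := by
          rw [map_mul]
          simp only [mul_assoc]
          rw [← map_mul e (r j), mul_inv_cancel, map_one, mul_one]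

/-- `cor_f ∘ res_{f'}` is the operator of the family `B`. -/
theorem h17lr_cor_res_hecke [Fintype ι]
    (he : Function.Injective e)
    (ha : ∀ m m' : M, m * a = m' * a → m = m')
    (h1 : ∀ h : H, a * e (f h) = e (f' h) * a)
    (h2 : ∀ i, a * e (r i) = e (u i) * B i)
    (h3 : h17lr_Free e B)
    (h5 : ∀ ρ c : Γ, a * e ρ = e c * a → ρ ∈ f.range)
    (hr : h17lr_IsReps f r)
    {A : Type*} [AddCommGroup A] (x : Additive Γ →+ A) {z : Additive Γ →+ A}
    (hz : h17lr_IsCor f (h17lr_res f' x) z) :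
    h17lr_IsOp e e B x z := by
  classical
  intro γ π c hd
  have hbij := h17lr_decomp_bijective h3 hd
  -- `a e(r_i γ r_{π i}⁻¹) = e(u_i c_i u_{π i}⁻¹) a`
  have key : ∀ i, a * e (r i * γ * (r (π i))⁻¹) = e (u i * c i * (u (π i))⁻¹) * a := by
    intro i
    have hB : B (π i) = e (u (π i))⁻¹ * (a * e (r (π i))) := by
      rw [h2 (π i), ← mul_assoc, ← map_mul, inv_mul_cancel, map_one, one_mul]
    calc a * e (r i * γ * (r (π i))⁻¹)
        = a * e (r i) * e γ * e (r (π i))⁻¹ := by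
          rw [map_mul, map_mul]
          simp only [mul_assoc]
      _ = e (u i) * (B i * e γ) * e (r (π i))⁻¹ := by rw [h2 i, mul_assoc (e (u i))]
      _ = e (u i) * (e (c i) * (e (u (π i))⁻¹ * (a * e (r (π i))))) * e (r (π i))⁻¹ := by
          rw [hd i, hB]
      _ = e (u i * c i * (u (π i))⁻¹) * a := by
          rw [map_mul, map_mul]
          simp only [mul_assoc]
          rw [← map_mul e (r (π i)), mul_inv_cancel, map_one, mul_one]
  have hmem : ∀ i, ∃ d : H, f d = r i * γ * (r (π i))⁻¹ := fun i => h5 _ _ (key i)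
  choose d hd' using hmem
  have hf' : ∀ i, f' (d i) = u i * c i * (u (π i))⁻¹ := by
    intro i
    apply he
    apply ha
    rw [← h1, hd' i, key i]
  have hdec : ∀ i, r i * γ = f (d i) * r (π i) := by
    intro i
    rw [hd' i]
    group
  rw [hz _ r π d γ hr hdec]
  have h3' := Function.Bijective.sum_comp hbij (fun j => x (Additive.ofMul (u j)))
  have h4 : ∀ i, h17lr_res f' x (Additive.ofMul (d i))
      = x (Additive.ofMul (u i)) + x (Additive.ofMul (c i))
        - x (Additive.ofMul (u (π i))) := by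
    intro i
    rw [h17lr_res_apply, hf' i, ofMul_mul, ofMul_mul, map_add, map_add, ofMul_inv, map_neg,
      sub_eq_add_neg]
  simp only [h4, Finset.sum_sub_distrib, Finset.sum_add_distrib, h3']
  abel

end Hecke

section Equiv

variable {M : Type*} [Monoid M] {H Γ : Type*} [Group H] [Group Γ]
variable {f : H →* M} {g : Γ →* M} {ι κ : Type*} {δ : ι → M} {δ' : κ → M}

/-- variant of `h17lr_op_of_equiv` for one decomposition with bijective `π'`. -/
theorem h17lr_sum_of_equiv [Fintype ι] [Fintype κ]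
    (σ : κ → ι) (hσ : Function.Bijective σ) (u : κ → H)
    (hu : ∀ j, δ' j = f (u j) * δ (σ j))
    {A : Type*} [AddCommGroup A] {y : Additive H →+ A} {z : Additive Γ →+ A}
    (h : h17lr_IsOp f g δ y z) {γ : Γ} {π' : κ → κ} {c' : κ → H}
    (hd : h17lr_Decomp f g δ' γ π' c') (hbij : Function.Bijective π') :
    z (Additive.ofMul γ) = ∑ j, y (Additive.ofMul (c' j)) := by
  classical
  let e : κ ≃ ι := Equiv.ofBijective σ hσ
  have he : ∀ j, e j = σ j := fun _ => rfl
  have hinv : ∀ l, δ (σ l) = f (u l)⁻¹ * δ' l := by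
    intro l
    rw [hu l, ← mul_assoc, ← map_mul, inv_mul_cancel, map_one, one_mul]
  have hdec : h17lr_Decomp f g δ γ (fun i => σ (π' (e.symm i)))
      (fun i => (u (e.symm i))⁻¹ * c' (e.symm i) * u (π' (e.symm i))) := by
    intro i
    obtain ⟨j, rfl⟩ := e.surjective i
    simp only [Equiv.symm_apply_apply]
    rw [he, hinv j, mul_assoc, hd j, hu (π' j), ← mul_assoc, ← mul_assoc, ← map_mul,
      ← map_mul]
  rw [h γ _ _ hdec, ← Equiv.sum_comp e]
  simp only [Equiv.symm_apply_apply, ofMul_mul, map_add, ofMul_inv, map_neg,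
    Finset.sum_add_distrib, Finset.sum_neg_distrib]
  have := Function.Bijective.sum_comp hbij (fun j => y (Additive.ofMul (u j)))
  rw [this]
  abel

end Equiv

end Fermat.Agent.LR
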