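import Fermat.Agent.LR.CohDefs

/-!
# P-LR (S41 level raising), item LR-COH: `h17lr_CorRes` from the three specs (helper40)

`h40cr_corRes : h17lr_TSpec → h17lr_Cor1Spec → h17lr_Cor2Spec → h17lr_CorRes`.

Method: explicit representatives `δ_j` (`j : Fin (q + 1)`) of `f(Γ₀(Nq)) \ Γ₀(N)` with
`D * δ_j = e_j * heckeRep q j` (`D = diag(q, 1)` for `f = h32_incl`, `D = diag(1, q)` for
`f = h32_up`; `e_j ∈ Γ₀(N)`).  `h17lr_IsReps` follows from the uniqueness and existence of the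
Hecke decomposition; the four identities follow by telescoping sums.
-/

set_option autoImplicit false

open ModularCurve CongruenceSubgroup
open scoped MatrixGroups

noncomputable section

namespace Fermat.Agent.LR

open Fermat.Agent.Jac

/-! ## Abstract part -/

theorem h40cr_exists_decomp {H Γ : Type*} [Group H] [Group Γ] (f : H →* Γ) {ι : Type*}
    (δ : ι → Γ) (hδ : h17lr_IsReps f δ) (γ : Γ) :
    ∃ (π : ι → ι) (c : ι → H), ∀ i, δ i * γ = f (c i) * δ (π i) := by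
  have key : ∀ i, ∃ (j : ι) (c : H), δ i * γ = f c * δ j := by
    intro i
    obtain ⟨j, hj⟩ := hδ.2 (δ i * γ)
    obtain ⟨c, hc⟩ := MonoidHom.mem_range.mp hj
    refine ⟨j, c, ?_⟩
    rw [hc]
    group
  choose π c h using key
  exact ⟨π, c, h⟩

theorem h40cr_decomp_injective {H Γ : Type*} [Group H] [Group Γ] (f : H →* Γ) {ι : Type*}
    (δ : ι → Γ) (hδ : h17lr_IsReps f δ) (γ : Γ) (π : ι → ι) (c : ι → H)
    (h : ∀ i, δ i * γ = f (c i) * δ (π i)) : Function.Injective π := by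
  intro i i' hii
  apply hδ.1
  rw [MonoidHom.mem_range]
  refine ⟨c i * (c i')⁻¹, ?_⟩
  have h1 := h i
  have h2 := h i'
  rw [← hii] at h2
  have e1 : δ i = f (c i) * δ (π i) * γ⁻¹ := by rw [← h1]; group
  have e2 : δ i' = f (c i') * δ (π i) * γ⁻¹ := by rw [← h2]; group
  rw [e1, e2, map_mul, map_inv]
  group

/-- `cor_f (res_f x) = [Γ : f(H)] • x`. -/
theorem h40cr_cor_res {H Γ : Type*} [Group H] [Group Γ] (f : H →* Γ) {A : Type*}
    [AddCommGroup A] {ι : Type} [Fintype ι] (δ : ι → Γ) (hδ : h17lr_IsReps f δ)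
    (x : Additive Γ →+ A) (z : Additive Γ →+ A) (hz : h17lr_IsCor f (h17lr_res f x) z)
    (γ : Γ) : z (Additive.ofMul γ) = Fintype.card ι • x (Additive.ofMul γ) := by
  obtain ⟨π, c, h⟩ := h40cr_exists_decomp f δ hδ γ
  have hπ : Function.Bijective π :=
    Finite.injective_iff_bijective.mp (h40cr_decomp_injective f δ hδ γ π c h)
  rw [hz ι δ π c γ hδ h]
  have e : ∀ i, h17lr_res f x (Additive.ofMul (c i))
      = x (Additive.ofMul (δ i)) + x (Additive.ofMul γ) - x (Additive.ofMul (δ (π i))) := by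
    intro i
    rw [h17lr_res_apply]
    have : f (c i) = δ i * γ * (δ (π i))⁻¹ := by rw [h i]; group
    rw [this, ofMul_mul, ofMul_mul, ofMul_inv, map_add, map_add, map_neg]
    abel
  simp only [e]
  rw [Finset.sum_sub_distrib, Finset.sum_add_distrib, Finset.sum_const, Finset.card_univ,
    Function.Bijective.sum_comp hπ (fun j => x (Additive.ofMul (δ j)))]
  abel

/-! ## Matrices of elements of `Γ₀(N)` -/

/-- the integral matrix of an element of `Γ₀(N)`. -/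
def h40cr_mat {N : ℕ} (g : Gamma0 N) : Matrix (Fin 2) (Fin 2) ℤ :=
  ((g : SL(2, ℤ)) : Matrix (Fin 2) (Fin 2) ℤ)

theorem h40cr_mat_mul {N : ℕ} (a b : Gamma0 N) :
    h40cr_mat (a * b) = h40cr_mat a * h40cr_mat b := by
  unfold h40cr_mat
  rw [Subgroup.coe_mul, Matrix.SpecialLinearGroup.coe_mul]

theorem h40cr_mat_inv_mul {N : ℕ} (a : Gamma0 N) :
    h40cr_mat a⁻¹ * h40cr_mat a = 1 := by
  rw [← h40cr_mat_mul, inv_mul_cancel]
  rfl

theorem h40cr_mat_mul_inv {N : ℕ} (a : Gamma0 N) :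
    h40cr_mat a * h40cr_mat a⁻¹ = 1 := by
  rw [← h40cr_mat_mul, mul_inv_cancel]
  rfl

theorem h40cr_mat_injective {N : ℕ} : Function.Injective (h40cr_mat (N := N)) := by
  intro a b h
  apply Subtype.ext
  apply Subtype.ext
  exact h

theorem h40cr_mat_dvd {N : ℕ} (g : Gamma0 N) : (N : ℤ) ∣ h40cr_mat g 1 0 :=
  (h17_mem_Gamma0_iff _).mp g.2

/-! ## Transfer versus the Hecke operator -/

/-- `cor_f (res_{f'} x) = T_q x` if `D f(c) = f'(c) D` and the representatives `δ_j` of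
`f(Γ₀(Nq)) \ Γ₀(N)` satisfy `D δ_j = e_j α_j`. -/
theorem h40cr_cor_hecke {N q : ℕ} (D : Matrix (Fin 2) (Fin 2) ℤ)
    (f f' : Gamma0 (N * q) →* Gamma0 N)
    (hD : ∀ c : Gamma0 (N * q), D * h40cr_mat (f c) = h40cr_mat (f' c) * D)
    (δ e : Fin (q + 1) → Gamma0 N)
    (hδe : ∀ j, D * h40cr_mat (δ j) = h40cr_mat (e j) * heckeRep q j)
    (hδ : h17lr_IsReps f δ) {A : Type*} [AddCommGroup A]
    (x z z' : Additive (Gamma0 N) →+ A)
    (hz : h17lr_IsCor f (h17lr_res f' x) z) (hz' : IsCohHeckeAdd N q x z') (γ : Gamma0 N) :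
    z (Additive.ofMul γ) = z' (Additive.ofMul γ) := by
  obtain ⟨π, c, h⟩ := h40cr_exists_decomp f δ hδ γ
  have hπ : Function.Bijective π :=
    Finite.injective_iff_bijective.mp (h40cr_decomp_injective f δ hδ γ π c h)
  rw [hz _ δ π c γ hδ h]
  have hdec : HeckeDecomp N q γ π (fun i => (e i)⁻¹ * f' (c i) * e (π i)) := by
    intro i
    show heckeRep q i * h40cr_mat γ = h40cr_mat ((e i)⁻¹ * f' (c i) * e (π i)) * heckeRep q (π i)
    symm
    calc h40cr_mat ((e i)⁻¹ * f' (c i) * e (π i)) * heckeRep q (π i)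
        = h40cr_mat (e i)⁻¹ * (h40cr_mat (f' (c i)) * (h40cr_mat (e (π i)) * heckeRep q (π i))) := by
          rw [h40cr_mat_mul, h40cr_mat_mul, Matrix.mul_assoc, Matrix.mul_assoc]
      _ = h40cr_mat (e i)⁻¹ * ((h40cr_mat (f' (c i)) * D) * h40cr_mat (δ (π i))) := by
          rw [← hδe, Matrix.mul_assoc]
      _ = h40cr_mat (e i)⁻¹ * (D * h40cr_mat (f (c i) * δ (π i))) := by
          rw [← hD, h40cr_mat_mul, Matrix.mul_assoc]
      _ = h40cr_mat (e i)⁻¹ * ((D * h40cr_mat (δ i)) * h40cr_mat γ) := by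
          rw [← h i, h40cr_mat_mul, Matrix.mul_assoc]
      _ = heckeRep q i * h40cr_mat γ := by
          rw [hδe, Matrix.mul_assoc, ← Matrix.mul_assoc, h40cr_mat_inv_mul, Matrix.one_mul]
  rw [hz' γ π _ hdec]
  have e1 : ∀ i, x (Additive.ofMul ((e i)⁻¹ * f' (c i) * e (π i)))
      = h17lr_res f' x (Additive.ofMul (c i))
        + (x (Additive.ofMul (e (π i))) - x (Additive.ofMul (e i))) := by
    intro i
    rw [h17lr_res_apply, ofMul_mul, ofMul_mul, ofMul_inv, map_add, map_add, map_neg]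
    abel
  simp only [e1]
  rw [Finset.sum_add_distrib, Finset.sum_sub_distrib,
    Function.Bijective.sum_comp hπ (fun j => x (Additive.ofMul (e j))), sub_self, add_zero]

/-- the representatives `δ_j` with `D δ_j = e_j α_j` form a system of representatives. -/
theorem h40cr_isReps {N q : ℕ} (hq : q.Prime) (hqN : ¬ q ∣ N) (D : Matrix (Fin 2) (Fin 2) ℤ)
    (hdet : D.det = (q : ℤ)) (hDN : ∀ γ : Gamma0 N, (N : ℤ) ∣ (D * h40cr_mat γ) 1 0)
    (f f' : Gamma0 (N * q) →* Gamma0 N)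
    (hD : ∀ c : Gamma0 (N * q), D * h40cr_mat (f c) = h40cr_mat (f' c) * D)
    (hrange : ∀ m E : Gamma0 N, D * h40cr_mat m = h40cr_mat E * D → m ∈ f.range)
    (δ e : Fin (q + 1) → Gamma0 N)
    (hδe : ∀ j, D * h40cr_mat (δ j) = h40cr_mat (e j) * heckeRep q j) :
    h17lr_IsReps f δ := by
  constructor
  · intro i j hij
    obtain ⟨c, hc⟩ := MonoidHom.mem_range.mp hij
    have h1 : δ i = f c * δ j := by rw [hc]; group
    have h2 : h40cr_mat (e i) * heckeRep q i = h40cr_mat (f' c * e j) * heckeRep q j := by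
      rw [← hδe, h1, h40cr_mat_mul, ← Matrix.mul_assoc, hD, Matrix.mul_assoc, hδe,
        h40cr_mat_mul, Matrix.mul_assoc]
    exact (h17_decomp_unique q hq _ _ _ _ h2).1
  · intro γ
    obtain ⟨j, c', hc'⟩ := h17_exists_decomp N q hq hqN (D * h40cr_mat γ)
      (by rw [Matrix.det_mul, hdet]; unfold h40cr_mat; rw [(γ : SL(2, ℤ)).det_coe, mul_one])
      (hDN γ)
    refine ⟨j, hrange (γ * (δ j)⁻¹) (c' * (e j)⁻¹) ?_⟩
    have h3 : D * h40cr_mat (γ * (δ j)⁻¹) * h40cr_mat (δ j)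
        = h40cr_mat (c' * (e j)⁻¹) * D * h40cr_mat (δ j) := by
      rw [Matrix.mul_assoc, ← h40cr_mat_mul, inv_mul_cancel_right, hc', Matrix.mul_assoc, hδe,
        ← Matrix.mul_assoc, ← h40cr_mat_mul, inv_mul_cancel_right]
      rfl
    have h4 := congrArg (fun M => M * h40cr_mat (δ j)⁻¹) h3
    simp only [Matrix.mul_assoc, h40cr_mat_mul_inv, Matrix.mul_one] at h4
    exact h4

/-! ## The two scaling matrices -/

theorem h40cr_G_mul (q : ℕ) (M : Matrix (Fin 2) (Fin 2) ℤ) :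
    !![(q : ℤ), 0; 0, 1] * M = !![q * M 0 0, q * M 0 1; M 1 0, M 1 1] := by
  ext i j
  fin_cases i <;> fin_cases j <;> simp [Matrix.mul_apply, Fin.sum_univ_two]

theorem h40cr_mul_G (q : ℕ) (M : Matrix (Fin 2) (Fin 2) ℤ) :
    M * !![(q : ℤ), 0; 0, 1] = !![M 0 0 * q, M 0 1; M 1 0 * q, M 1 1] := by
  ext i j
  fin_cases i <;> fin_cases j <;> simp [Matrix.mul_apply, Fin.sum_univ_two]

theorem h40cr_A_mul (q : ℕ) (M : Matrix (Fin 2) (Fin 2) ℤ) :
    !![1, 0; 0, (q : ℤ)] * M = !![M 0 0, M 0 1; q * M 1 0, q * M 1 1] := by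
  ext i j
  fin_cases i <;> fin_cases j <;> simp [Matrix.mul_apply, Fin.sum_univ_two]

theorem h40cr_mul_A (q : ℕ) (M : Matrix (Fin 2) (Fin 2) ℤ) :
    M * !![1, 0; 0, (q : ℤ)] = !![M 0 0, M 0 1 * q; M 1 0, M 1 1 * q] := by
  ext i j
  fin_cases i <;> fin_cases j <;> simp [Matrix.mul_apply, Fin.sum_univ_two]

theorem h40cr_of_eq {a b c d a' b' c' d' : ℤ} (h : !![a, b; c, d] = !![a', b'; c', d']) :
    a = a' ∧ b = b' ∧ c = c' ∧ d = d' := by
  have h00 := congrFun (congrFun h 0) 0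
  have h01 := congrFun (congrFun h 0) 1
  have h10 := congrFun (congrFun h 1) 0
  have h11 := congrFun (congrFun h 1) 1
  simp at h00 h01 h10 h11
  exact ⟨h00, h01, h10, h11⟩

theorem h40cr_mat_incl (N q : ℕ) (c : Gamma0 (N * q)) :
    h40cr_mat (h32_incl N q c) = h40cr_mat c := rfl

theorem h40cr_mat_up (N q : ℕ) [NeZero q] (c : Gamma0 (N * q)) :
    h40cr_mat (h32_up N q c)
      = !![h40cr_mat c 0 0, q * h40cr_mat c 0 1; h40cr_mat c 1 0 / q, h40cr_mat c 1 1] := rfl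

theorem h40cr_q_dvd (N q : ℕ) (c : Gamma0 (N * q)) : (q : ℤ) ∣ h40cr_mat c 1 0 :=
  Dvd.dvd.trans ⟨(N : ℤ), by push_cast; ring⟩ (h40cr_mat_dvd c)

/-- `diag(q, 1) c = up(c) diag(q, 1)`. -/
theorem h40cr_G_intertwine (N q : ℕ) [NeZero q] (c : Gamma0 (N * q)) :
    !![(q : ℤ), 0; 0, 1] * h40cr_mat (h32_incl N q c)
      = h40cr_mat (h32_up N q c) * !![(q : ℤ), 0; 0, 1] := by
  rw [h40cr_G_mul, h40cr_mul_G, h40cr_mat_incl, h40cr_mat_up]
  have h := Int.ediv_mul_cancel (h40cr_q_dvd N q c)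
  ext i j
  fin_cases i <;> fin_cases j <;> simp [h, mul_comm]

/-- `diag(1, q) up(c) = c diag(1, q)`. -/
theorem h40cr_A_intertwine (N q : ℕ) [NeZero q] (c : Gamma0 (N * q)) :
    !![1, 0; 0, (q : ℤ)] * h40cr_mat (h32_up N q c)
      = h40cr_mat (h32_incl N q c) * !![1, 0; 0, (q : ℤ)] := by
  rw [h40cr_A_mul, h40cr_mul_A, h40cr_mat_incl, h40cr_mat_up]
  have h := Int.mul_ediv_cancel' (h40cr_q_dvd N q c)
  ext i j
  fin_cases i <;> fin_cases j <;> simp [h, mul_comm]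

theorem h40cr_G_range (N q : ℕ) (m E : Gamma0 N)
    (h : !![(q : ℤ), 0; 0, 1] * h40cr_mat m = h40cr_mat E * !![(q : ℤ), 0; 0, 1]) :
    m ∈ (h32_incl N q).range := by
  rw [h40cr_G_mul, h40cr_mul_G] at h
  obtain ⟨-, -, h10, -⟩ := h40cr_of_eq h
  have hm : (m : SL(2, ℤ)) ∈ Gamma0 (N * q) := by
    rw [h17_mem_Gamma0_iff]
    show ((N * q : ℕ) : ℤ) ∣ h40cr_mat m 1 0
    rw [h10]
    push_cast
    exact mul_dvd_mul_right (h40cr_mat_dvd E) _
  exact MonoidHom.mem_range.mpr ⟨⟨(m : SL(2, ℤ)), hm⟩, Subtype.ext rfl⟩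

theorem h40cr_A_range (N q : ℕ) [NeZero q] (m E : Gamma0 N)
    (h : !![1, 0; 0, (q : ℤ)] * h40cr_mat m = h40cr_mat E * !![1, 0; 0, (q : ℤ)]) :
    m ∈ (h32_up N q).range := by
  have hq0 : (q : ℤ) ≠ 0 := Nat.cast_ne_zero.mpr (NeZero.ne q)
  have h' := h
  rw [h40cr_A_mul, h40cr_mul_A] at h'
  obtain ⟨h00, h01, h10, h11⟩ := h40cr_of_eq h'
  have hE : (E : SL(2, ℤ)) ∈ Gamma0 (N * q) := by
    rw [h17_mem_Gamma0_iff]
    show ((N * q : ℕ) : ℤ) ∣ h40cr_mat E 1 0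
    rw [← h10]
    push_cast
    rw [mul_comm (N : ℤ) (q : ℤ)]
    exact mul_dvd_mul_left _ (h40cr_mat_dvd m)
  refine MonoidHom.mem_range.mpr ⟨⟨(E : SL(2, ℤ)), hE⟩, ?_⟩
  apply h40cr_mat_injective
  rw [h40cr_mat_up]
  have e00 : h40cr_mat (⟨(E : SL(2, ℤ)), hE⟩ : Gamma0 (N * q)) 0 0 = h40cr_mat E 0 0 := rfl
  have e01 : h40cr_mat (⟨(E : SL(2, ℤ)), hE⟩ : Gamma0 (N * q)) 0 1 = h40cr_mat E 0 1 := rfl
  have e10 : h40cr_mat (⟨(E : SL(2, ℤ)), hE⟩ : Gamma0 (N * q)) 1 0 = h40cr_mat E 1 0 := rfl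
  have e11 : h40cr_mat (⟨(E : SL(2, ℤ)), hE⟩ : Gamma0 (N * q)) 1 1 = h40cr_mat E 1 1 := rfl
  rw [e00, e01, e10, e11, ← h00, ← h10, Int.mul_ediv_cancel_left _ hq0,
    mul_comm (q : ℤ), ← h01]
  have h11' : h40cr_mat E 1 1 = h40cr_mat m 1 1 := by
    have := h11
    rw [mul_comm] at this
    exact (mul_right_cancel₀ hq0 this).symm
  rw [h11']
  exact (Matrix.eta_fin_two _).symm

/-! ## Explicit representatives -/

theorem h40cr_bezout {N q : ℕ} (hq : q.Prime) (hqN : ¬ q ∣ N) :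
    ∃ u v : ℤ, (q : ℤ) * u - N * v = 1 := by
  have hcop : IsCoprime (q : ℤ) (N : ℤ) :=
    Nat.isCoprime_iff_coprime.mpr ((Nat.Prime.coprime_iff_not_dvd hq).mpr hqN)
  obtain ⟨a, b, hab⟩ := hcop
  exact ⟨a, -b, by linear_combination hab⟩

/-- representatives of `Γ₀(Nq) \ Γ₀(N)`. -/
def h40cr_d1 (N q : ℕ) (u v : ℤ) (h : (q : ℤ) * u - N * v = 1) (j : Fin (q + 1)) : Gamma0 N :=
  if (j : ℕ) < q then
    h17_mk N 1 (((j : ℕ) : ℤ) + v) N (N * ((j : ℕ) : ℤ) + q * u) (by linear_combination h)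
      (dvd_refl _)
  else 1

/-- the correcting elements for `h40cr_d1`. -/
def h40cr_e1 (N q : ℕ) (u v : ℤ) (h : (q : ℤ) * u - N * v = 1) (j : Fin (q + 1)) : Gamma0 N :=
  if (j : ℕ) < q then h17_mk N q v N u (by linear_combination h) (dvd_refl _) else 1

/-- representatives of `up(Γ₀(Nq)) \ Γ₀(N)`. -/
def h40cr_d2 (N q : ℕ) (u v : ℤ) (h : (q : ℤ) * u - N * v = 1) (j : Fin (q + 1)) : Gamma0 N :=
  if (j : ℕ) < q then h17_mk N 1 ((j : ℕ) : ℤ) 0 1 (by ring) (dvd_zero _)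
  else h17_mk N (q * u) v N 1 (by linear_combination h) (dvd_refl _)

/-- the correcting elements for `h40cr_d2`. -/
def h40cr_e2 (N q : ℕ) (u v : ℤ) (h : (q : ℤ) * u - N * v = 1) (j : Fin (q + 1)) : Gamma0 N :=
  if (j : ℕ) < q then 1 else h17_mk N u v N q (by linear_combination h) (dvd_refl _)

theorem h40cr_mat_one (N : ℕ) : h40cr_mat (1 : Gamma0 N) = 1 := rfl

theorem h40cr_d1_spec (N q : ℕ) (u v : ℤ) (h : (q : ℤ) * u - N * v = 1) (j : Fin (q + 1)) :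
    !![(q : ℤ), 0; 0, 1] * h40cr_mat (h40cr_d1 N q u v h j)
      = h40cr_mat (h40cr_e1 N q u v h j) * heckeRep q j := by
  by_cases hj : (j : ℕ) < q
  · rw [h17_heckeRep_lt j hj]
    unfold h40cr_d1 h40cr_e1
    rw [if_pos hj, if_pos hj]
    unfold h40cr_mat
    rw [h17_mk_coe, h17_mk_coe]
    ext a b
    fin_cases a <;> fin_cases b <;> simp [Matrix.mul_apply, Fin.sum_univ_two] <;> ring
  · rw [h17_heckeRep_last j hj]
    unfold h40cr_d1 h40cr_e1
    rw [if_neg hj, if_neg hj, h40cr_mat_one, Matrix.mul_one, Matrix.one_mul]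

theorem h40cr_d2_spec (N q : ℕ) (u v : ℤ) (h : (q : ℤ) * u - N * v = 1) (j : Fin (q + 1)) :
    !![1, 0; 0, (q : ℤ)] * h40cr_mat (h40cr_d2 N q u v h j)
      = h40cr_mat (h40cr_e2 N q u v h j) * heckeRep q j := by
  by_cases hj : (j : ℕ) < q
  · rw [h17_heckeRep_lt j hj]
    unfold h40cr_d2 h40cr_e2
    rw [if_pos hj, if_pos hj, h40cr_mat_one, Matrix.one_mul]
    unfold h40cr_mat
    rw [h17_mk_coe]
    ext a b
    fin_cases a <;> fin_cases b <;> simp [Matrix.mul_apply, Fin.sum_univ_two]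
  · rw [h17_heckeRep_last j hj]
    unfold h40cr_d2 h40cr_e2
    rw [if_neg hj, if_neg hj]
    unfold h40cr_mat
    rw [h17_mk_coe, h17_mk_coe]
    ext a b
    fin_cases a <;> fin_cases b <;> simp [Matrix.mul_apply, Fin.sum_univ_two] <;> ring

theorem h40cr_isReps1 {N q : ℕ} [NeZero q] (hq : q.Prime) (hqN : ¬ q ∣ N) (u v : ℤ)
    (h : (q : ℤ) * u - N * v = 1) : h17lr_IsReps (h32_incl N q) (h40cr_d1 N q u v h) :=
  h40cr_isReps hq hqN !![(q : ℤ), 0; 0, 1] (by rw [Matrix.det_fin_two_of]; ring)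
    (fun γ => by rw [h40cr_G_mul]; simpa using h40cr_mat_dvd γ)
    (h32_incl N q) (h32_up N q) (h40cr_G_intertwine N q) (h40cr_G_range N q) _ _
    (h40cr_d1_spec N q u v h)

theorem h40cr_isReps2 {N q : ℕ} [NeZero q] (hq : q.Prime) (hqN : ¬ q ∣ N) (u v : ℤ)
    (h : (q : ℤ) * u - N * v = 1) : h17lr_IsReps (h32_up N q) (h40cr_d2 N q u v h) :=
  h40cr_isReps hq hqN !![1, 0; 0, (q : ℤ)] (by rw [Matrix.det_fin_two_of]; ring)
    (fun γ => by rw [h40cr_A_mul]; simpa using Dvd.dvd.mul_left (h40cr_mat_dvd γ) (q : ℤ))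
    (h32_up N q) (h32_incl N q) (h40cr_A_intertwine N q) (h40cr_A_range N q) _ _
    (h40cr_d2_spec N q u v h)

/-! ## The theorem -/

/-- **LR-COH, CorRes** from the three specifications. -/
theorem h40cr_corRes (hT : h17lr_TSpec) (h1 : h17lr_Cor1Spec) (h2 : h17lr_Cor2Spec) :
    h17lr_CorRes := by
  intro N q _ hq hqN x
  obtain ⟨u, v, huv⟩ := h40cr_bezout hq hqN
  have hR1 := h40cr_isReps1 hq hqN u v huv
  have hR2 := h40cr_isReps2 hq hqN u v huv
  have hc1 := h1 N q hq hqN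
  have hc2 := h2 N q hq hqN
  have hTq := hT N q hq hqN x
  have hcard : ((Fintype.card (Fin (q + 1)) : ℕ) : ℤ) = (q : ℤ) + 1 := by
    rw [Fintype.card_fin]
    push_cast
    rfl
  refine ⟨?_, ?_, ?_, ?_⟩
  · apply Subtype.ext
    apply AddMonoidHom.ext
    intro a
    have h := h40cr_cor_res (h32_incl N q) _ hR1 (x : Additive (Gamma0 N) →+ ℤ) _
      (hc1 (h17lr_res1 N q x)) (Additive.toMul a)
    rw [ofMul_toMul] at h
    rw [h]
    show _ = ((q : ℤ) + 1) • (x : Additive (Gamma0 N) →+ ℤ) a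
    rw [← hcard, natCast_zsmul]
  · apply Subtype.ext
    apply AddMonoidHom.ext
    intro a
    have h := h40cr_cor_res (h32_up N q) _ hR2 (x : Additive (Gamma0 N) →+ ℤ) _
      (hc2 (h17lr_res2 N q x)) (Additive.toMul a)
    rw [ofMul_toMul] at h
    rw [h]
    show _ = ((q : ℤ) + 1) • (x : Additive (Gamma0 N) →+ ℤ) a
    rw [← hcard, natCast_zsmul]
  · apply Subtype.ext
    apply AddMonoidHom.ext
    intro a
    have h := h40cr_cor_hecke !![(q : ℤ), 0; 0, 1] (h32_incl N q) (h32_up N q)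
      (h40cr_G_intertwine N q) _ _ (h40cr_d1_spec N q u v huv) hR1
      (x : Additive (Gamma0 N) →+ ℤ) _ _ (hc1 (h17lr_res2 N q x)) hTq (Additive.toMul a)
    rw [ofMul_toMul] at h
    exact h
  · apply Subtype.ext
    apply AddMonoidHom.ext
    intro a
    have h := h40cr_cor_hecke !![1, 0; 0, (q : ℤ)] (h32_up N q) (h32_incl N q)
      (h40cr_A_intertwine N q) _ _ (h40cr_d2_spec N q u v huv) hR2
      (x : Additive (Gamma0 N) →+ ℤ) _ _ (hc2 (h17lr_res1 N q x)) hTq (Additive.toMul a)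
    rw [ofMul_toMul] at h
    exact h

end Fermat.Agent.LR
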