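import Fermat.Agent.LR.CohReps
import Fermat.Agent.LR.CohComm

/-!
# P-LR (S41), item LR-COH: `cor_i` commutes with `T_ℓ` (`h17lr_CorT`), direct proof (helper17)

Double-coset computation with the operator calculus of `LR/CohGen`: the product families
`(heckeRep ℓ a) * F_b` and `F_b * (heckeRep ℓ a)` (`F` the family of `cor_i`) have the same
left `Γ₀(Nq)`-cosets.

* `h17lr_cor_op_comm`: the abstract statement;
* `h17lr_isCor1_T`, `h17lr_isCor2_T`: relational forms, any coefficient group;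
* `h17lr_corT : h17lr_CorT`.
-/

set_option autoImplicit false

open ModularCurve CongruenceSubgroup
open scoped MatrixGroups

noncomputable section

namespace Fermat.Agent.LR

open Fermat.Agent.Jac

section Abstract

variable {M : Type*} [Monoid M] {H Γ : Type*} [Group H] [Group Γ]
variable {eH : H →* M} {eΓ : Γ →* M} {f : H →* Γ} {a₀ : M}
variable {ι : Type} {κ : Type*} {r : ι → Γ} {h : κ → M}

/-- `F_b h_a` is free. -/
theorem h17lr_free_twist_comp (hf : Function.Injective f)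
    (ha : ∀ m m' : M, a₀ * m = a₀ * m' → m = m') (hfa : ∀ c : H, a₀ * eΓ (f c) = eH c * a₀)
    (hr : h17lr_IsReps f r) (hFh : h17lr_Free eΓ h) :
    h17lr_Free eH (fun p : ι × κ => (a₀ * eΓ (r p.1)) * h p.2) := by
  rintro ⟨b, a⟩ ⟨b', a'⟩ c c' e
  simp only at e
  have e1 : a₀ * (eΓ (f c * r b) * h a) = a₀ * (eΓ (f c' * r b') * h a') := by
    rw [map_mul, map_mul]
    calc a₀ * (eΓ (f c) * eΓ (r b) * h a) = eH c * (a₀ * eΓ (r b) * h a) := by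
          rw [← mul_assoc, ← mul_assoc, ← mul_assoc, ← mul_assoc, hfa]
      _ = eH c' * (a₀ * eΓ (r b') * h a') := e
      _ = a₀ * (eΓ (f c') * eΓ (r b') * h a') := by
          rw [← mul_assoc, ← mul_assoc, ← mul_assoc, ← mul_assoc, hfa]
  obtain ⟨e2, e3⟩ := hFh _ _ _ _ (ha _ _ e1)
  obtain ⟨e4, e5⟩ := h17lr_reps_free hf hr _ _ _ _ e3
  subst e2 e4 e5
  exact ⟨rfl, rfl⟩

/-- `h_a F_b` is free, given the stabiliser property `(S)`. -/
theorem h17lr_free_comp_twist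
    (ha' : ∀ m m' : M, m * a₀ = m' * a₀ → m = m')
    (hr : h17lr_IsReps f r) (hFh : h17lr_Free eH h)
    (hS : ∀ (c c' : H) (a a' : κ) (ε : Γ),
      eH c * h a * a₀ = eH c' * h a' * a₀ * eΓ ε → ε ∈ f.range) :
    h17lr_Free eH (fun p : κ × ι => h p.1 * (a₀ * eΓ (r p.2))) := by
  rintro ⟨a, b⟩ ⟨a', b'⟩ c c' e
  simp only at e
  have hinv : ∀ γ : Γ, eΓ γ * eΓ γ⁻¹ = 1 := fun γ => by
    rw [← map_mul, mul_inv_cancel, map_one]
  have e1 : eH c * h a * a₀ = eH c' * h a' * a₀ * eΓ (r b' * (r b)⁻¹) := by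
    calc eH c * h a * a₀ = eH c * (h a * (a₀ * eΓ (r b))) * eΓ (r b)⁻¹ := by
          simp only [mul_assoc]
          rw [hinv, mul_one]
      _ = eH c' * (h a' * (a₀ * eΓ (r b'))) * eΓ (r b)⁻¹ := by rw [e]
      _ = eH c' * h a' * a₀ * eΓ (r b' * (r b)⁻¹) := by
          rw [map_mul]
          simp only [mul_assoc]
  have hb : b' = b := hr.1 _ _ (hS _ _ _ _ _ e1)
  subst hb
  rw [mul_inv_cancel, map_one, mul_one] at e1
  obtain ⟨e2, e3⟩ := hFh _ _ _ _ (ha' _ _ e1)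
  subst e2 e3
  exact ⟨rfl, rfl⟩

/-- **`cor_f` commutes with the operator of `h`**, abstractly. -/
theorem h17lr_cor_op_comm [Fintype ι] [Fintype κ]
    (hf : Function.Injective f) (heΓ : Function.Injective eΓ)
    (ha : ∀ m m' : M, a₀ * m = a₀ * m' → m = m')
    (ha' : ∀ m m' : M, m * a₀ = m' * a₀ → m = m')
    (hfa : ∀ c : H, a₀ * eΓ (f c) = eH c * a₀)
    (hr : h17lr_IsReps f r)
    (hFH : h17lr_Free eH h) (hCH : h17lr_Closed eH eH h)
    (hFΓ : h17lr_Free eΓ h) (hCΓ : h17lr_Closed eΓ eΓ h)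
    (hS : ∀ (c c' : H) (a a' : κ) (ε : Γ),
      eH c * h a * a₀ = eH c' * h a' * a₀ * eΓ ε → ε ∈ f.range)
    (hK : ∀ (a : κ) (b : ι), ∃ (c : Γ) (a' : κ),
      h a * (a₀ * eΓ (r b)) = a₀ * eΓ c * h a')
    {A : Type*} [AddCommGroup A] {y y' : Additive H →+ A} {z z' : Additive Γ →+ A}
    (hy : h17lr_IsOp eH eH h y y') (hz : h17lr_IsCor f y z) (hz' : h17lr_IsCor f y' z') :
    h17lr_IsOp eΓ eΓ h z z' := by
  classical
  have hCF := h17lr_closed_twist (eH := eH) (eΓ := eΓ) (a := a₀) hfa hr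
  have hoz := (h17lr_isOp_twist heΓ ha hfa r).mpr (h17lr_isCor_iff.mp hz ι r hr)
  have hoz' := (h17lr_isOp_twist heΓ ha hfa r).mpr (h17lr_isCor_iff.mp hz' ι r hr)
  have hFP := h17lr_free_comp_twist (eH := eH) (eΓ := eΓ) ha' hr hFH hS
  have hFP' := h17lr_free_twist_comp (eH := eH) (eΓ := eΓ) hf ha hfa hr hFΓ
  -- `z'` is the operator of `P = (h_a F_b)`
  have hP := h17lr_op_comp hCH hCF hFP hy hoz'
  -- `w = T z` is the operator of `P' = (F_b h_a)`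
  obtain ⟨w, hw⟩ := h17lr_op_exists hFΓ hCΓ z
  have hP' := h17lr_op_comp hCF hCΓ hFP' hoz hw
  -- the cover
  have hcov : ∀ p : κ × ι, ∃ (p' : ι × κ) (u : H),
      h p.1 * (a₀ * eΓ (r p.2)) = eH u * ((a₀ * eΓ (r p'.1)) * h p'.2) := by
    rintro ⟨a, b⟩
    obtain ⟨c, a', hc⟩ := hK a b
    obtain ⟨b', u, hu⟩ := hr.2 c
    refine ⟨(b', a'), u, ?_⟩
    have hc' : c = f u * r b' := by rw [hu]; group
    show h a * (a₀ * eΓ (r b)) = eH u * ((a₀ * eΓ (r b')) * h a')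
    rw [hc, hc', map_mul]
    simp only [← mul_assoc]
    rw [hfa]
  choose σ u hu using hcov
  have hσ : Function.Injective σ :=
    h17lr_cover_injective (δ := fun p : ι × κ => (a₀ * eΓ (r p.1)) * h p.2) hFP σ u hu
  have hσ' : Function.Bijective σ := by
    rw [Fintype.bijective_iff_injective_and_card]
    refine ⟨hσ, ?_⟩
    rw [Fintype.card_prod, Fintype.card_prod, mul_comm]
  have hP'' := h17lr_op_of_equiv
    (δ := fun p : ι × κ => (a₀ * eΓ (r p.1)) * h p.2) hFP σ hσ' u hu hP'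
  have e : z' = w := h17lr_op_unique (h17lr_closed_comp hCH hCF) hP hP''
  rw [e]
  exact hw

end Abstract

/-! ## The stabiliser properties -/

/-- entries of a matrix of determinant `ℓ` with lower-left entry divisible by `q ≠ ℓ`. -/
theorem h17lr_diag_coprime {q ℓ : ℕ} (hq : q.Prime) (hℓ : ℓ.Prime) (hne : q ≠ ℓ)
    (m : Matrix (Fin 2) (Fin 2) ℤ) (hdet : m.det = (ℓ : ℤ)) (h10 : (q : ℤ) ∣ m 1 0) :
    IsCoprime (q : ℤ) (m 0 0) ∧ IsCoprime (q : ℤ) (m 1 1) := by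
  have hqp : Prime (q : ℤ) := Nat.prime_iff_prime_int.mp hq
  have hql : ¬ (q : ℤ) ∣ (ℓ : ℤ) := by
    intro h
    have := (Nat.prime_dvd_prime_iff_eq hq hℓ).mp (Int.natCast_dvd_natCast.mp h)
    exact hne this
  rw [Matrix.det_fin_two] at hdet
  obtain ⟨t, ht⟩ := h10
  constructor
  · rw [Prime.coprime_iff_not_dvd hqp]
    rintro ⟨s, hs⟩
    apply hql
    refine ⟨s * m 1 1 - m 0 1 * t, ?_⟩
    rw [← hdet, hs, ht]
    ring
  · rw [Prime.coprime_iff_not_dvd hqp]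
    rintro ⟨s, hs⟩
    apply hql
    refine ⟨m 0 0 * s - m 0 1 * t, ?_⟩
    rw [← hdet, hs, ht]
    ring

theorem h17lr_det_mul_heckeRep (M ℓ : ℕ) (c : Gamma0 M) (a : Fin (ℓ + 1)) :
    (h17lr_coe (Gamma0 M) c * heckeRep ℓ a).det = (ℓ : ℤ) := by
  rw [Matrix.det_mul, h17lr_det_coe, one_mul, h17_det_heckeRep]

theorem h17lr_lower_mul_heckeRep (N q ℓ : ℕ) (c : Gamma0 (N * q)) (a : Fin (ℓ + 1)) :
    (q : ℤ) ∣ (h17lr_coe (Gamma0 (N * q)) c * heckeRep ℓ a) 1 0 := by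
  rw [Matrix.mul_apply, Fin.sum_univ_two, h17_heckeRep_one_zero, mul_zero, add_zero]
  exact Dvd.dvd.mul_right (h17lr_dvd_lower N q c) _

/-- `(S)` for `cor₁`. -/
theorem h17lr_stab_incl {N q ℓ : ℕ} (hq : q.Prime) (hqN : ¬ q ∣ N) (hℓ : ℓ.Prime)
    (hne : q ≠ ℓ) (c c' : Gamma0 (N * q)) (a a' : Fin (ℓ + 1)) (ε : Gamma0 N)
    (h : h17lr_coe (Gamma0 (N * q)) c * heckeRep ℓ a * 1
      = h17lr_coe (Gamma0 (N * q)) c' * heckeRep ℓ a' * 1 * h17lr_coe (Gamma0 N) ε) :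
    ε ∈ (h32_incl N q).range := by
  rw [mul_one, mul_one] at h
  set m := h17lr_coe (Gamma0 (N * q)) c * heckeRep ℓ a with hm
  set m' := h17lr_coe (Gamma0 (N * q)) c' * heckeRep ℓ a' with hm'
  have hcop := (h17lr_diag_coprime hq hℓ hne m' (h17lr_det_mul_heckeRep _ _ _ _)
    (h17lr_lower_mul_heckeRep N q ℓ c' a')).2
  have h10 := congrFun (congrFun h 1) 0
  rw [Matrix.mul_apply, Fin.sum_univ_two] at h10
  have hq1 : (q : ℤ) ∣ m' 1 1 * h17lr_coe (Gamma0 N) ε 1 0 := by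
    have h1 : (q : ℤ) ∣ m 1 0 := h17lr_lower_mul_heckeRep N q ℓ c a
    have h2 : (q : ℤ) ∣ m' 1 0 := h17lr_lower_mul_heckeRep N q ℓ c' a'
    have : m' 1 1 * h17lr_coe (Gamma0 N) ε 1 0
        = m 1 0 - m' 1 0 * h17lr_coe (Gamma0 N) ε 0 0 := by
      rw [h10]; ring
    rw [this]
    exact dvd_sub h1 (Dvd.dvd.mul_right h2 _)
  have hq2 : (q : ℤ) ∣ h17lr_coe (Gamma0 N) ε 1 0 := hcop.dvd_of_dvd_mul_left hq1
  have hN2 : (N : ℤ) ∣ h17lr_coe (Gamma0 N) ε 1 0 := h17lr_dvd_lower' N ε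
  have hcopNq : IsCoprime (N : ℤ) (q : ℤ) := by
    rw [Int.isCoprime_iff_gcd_eq_one, Int.gcd_natCast_natCast]
    exact (Nat.coprime_comm.mp ((Nat.Prime.coprime_iff_not_dvd hq).mpr hqN))
  have hmem : (ε : SL(2, ℤ)) ∈ Gamma0 (N * q) := by
    rw [h17_mem_Gamma0_iff]
    push_cast
    exact hcopNq.mul_dvd hN2 hq2
  exact ⟨⟨(ε : SL(2, ℤ)), hmem⟩, Subtype.ext rfl⟩

/-- an element of `Γ₀(N)` with upper-right entry divisible by `q` is in `g Γ₀(Nq) g⁻¹`. -/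
theorem h17lr_mem_range_up (N q : ℕ) [NeZero q] (ε : Gamma0 N)
    (h01 : (q : ℤ) ∣ h17lr_coe (Gamma0 N) ε 0 1) : ε ∈ (h32_up N q).range := by
  obtain ⟨t, ht⟩ := h01
  obtain ⟨s, hs⟩ := h17lr_dvd_lower' N ε
  have hdet := h17lr_det_coe (Gamma0 N) ε
  rw [Matrix.det_fin_two] at hdet
  refine h17lr_stab_al N q ε
    (h17_mk N (h17lr_coe (Gamma0 N) ε 0 0) t (q * h17lr_coe (Gamma0 N) ε 1 0)
      (h17lr_coe (Gamma0 N) ε 1 1) (by rw [ht] at hdet; linear_combination hdet)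
      (by rw [hs]; exact ⟨q * s, by ring⟩)) ?_
  rw [h17lr_coe_apply (Gamma0 N) (h17_mk _ _ _ _ _ _ _), h17_mk_coe, h17lr_al]
  generalize h17lr_coe (Gamma0 N) ε = mε at ht ⊢
  ext i j
  fin_cases i <;> fin_cases j <;> simp [Matrix.mul_apply, Fin.sum_univ_two, ht] <;> ring

/-- `(S)` for `cor₂`. -/
theorem h17lr_stab_up {N q ℓ : ℕ} [NeZero q] (hq : q.Prime) (hℓ : ℓ.Prime)
    (hne : q ≠ ℓ) (c c' : Gamma0 (N * q)) (a a' : Fin (ℓ + 1)) (ε : Gamma0 N)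
    (h : h17lr_coe (Gamma0 (N * q)) c * heckeRep ℓ a * h17lr_al q
      = h17lr_coe (Gamma0 (N * q)) c' * heckeRep ℓ a' * h17lr_al q
        * h17lr_coe (Gamma0 N) ε) :
    ε ∈ (h32_up N q).range := by
  apply h17lr_mem_range_up
  set m := h17lr_coe (Gamma0 (N * q)) c * heckeRep ℓ a with hm
  set m' := h17lr_coe (Gamma0 (N * q)) c' * heckeRep ℓ a' with hm'
  have hcop := (h17lr_diag_coprime hq hℓ hne m' (h17lr_det_mul_heckeRep _ _ _ _)
    (h17lr_lower_mul_heckeRep N q ℓ c' a')).1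
  have h01 := congrFun (congrFun h 0) 1
  have hL : (m * h17lr_al q) 0 1 = (q : ℤ) * m 0 1 := by
    simp [h17lr_al, Matrix.mul_apply, Fin.sum_univ_two, mul_comm]
  have hR : (m' * h17lr_al q * h17lr_coe (Gamma0 N) ε) 0 1
      = m' 0 0 * h17lr_coe (Gamma0 N) ε 0 1
        + (q : ℤ) * (m' 0 1 * h17lr_coe (Gamma0 N) ε 1 1) := by
    simp [h17lr_al, Matrix.mul_apply, Fin.sum_univ_two]
    ring
  rw [hL, hR] at h01
  have hq1 : (q : ℤ) ∣ m' 0 0 * h17lr_coe (Gamma0 N) ε 0 1 := by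
    have : m' 0 0 * h17lr_coe (Gamma0 N) ε 0 1
        = (q : ℤ) * m 0 1 - (q : ℤ) * (m' 0 1 * h17lr_coe (Gamma0 N) ε 1 1) := by
      rw [h01]; ring
    rw [this]
    exact dvd_sub (dvd_mul_right _ _) (dvd_mul_right _ _)
  exact hcop.dvd_of_dvd_mul_left hq1

/-! ## The commutation properties `(K)` -/

theorem h17lr_K_incl {N ℓ : ℕ} (hℓ : ℓ.Prime) (hℓN : ¬ ℓ ∣ N) (a : Fin (ℓ + 1))
    (ρ : Gamma0 N) :
    ∃ (c : Gamma0 N) (a' : Fin (ℓ + 1)),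
      heckeRep ℓ a * (1 * h17lr_coe (Gamma0 N) ρ)
        = 1 * h17lr_coe (Gamma0 N) c * heckeRep ℓ a' := by
  obtain ⟨a', c, h⟩ := h17lr_closed_heckeRep hℓ hℓN a ρ
  exact ⟨c, a', by rw [one_mul, one_mul]; exact h⟩

theorem h17lr_K_up {N q ℓ : ℕ} (hℓ : ℓ.Prime) (hℓN : ¬ ℓ ∣ N) (a : Fin (ℓ + 1))
    (ρ : Gamma0 N) :
    ∃ (c : Gamma0 N) (a' : Fin (ℓ + 1)),
      heckeRep ℓ a * (h17lr_al q * h17lr_coe (Gamma0 N) ρ)
        = h17lr_al q * h17lr_coe (Gamma0 N) c * heckeRep ℓ a' := by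
  -- `h_a α = α m_a`
  set m : Matrix (Fin 2) (Fin 2) ℤ :=
    !![heckeRep ℓ a 0 0, (q : ℤ) * heckeRep ℓ a 0 1; 0, heckeRep ℓ a 1 1] with hm
  have e1 : heckeRep ℓ a * h17lr_al q = h17lr_al q * m := by
    have h10 := h17_heckeRep_one_zero ℓ a
    rw [hm, h17lr_al]
    generalize heckeRep ℓ a = X at h10 ⊢
    ext i j
    fin_cases i <;> fin_cases j <;> simp [Matrix.mul_apply, Fin.sum_univ_two, h10, mul_comm]
  have hdetm : m.det = (ℓ : ℤ) := by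
    have := h17_det_heckeRep ℓ a
    rw [Matrix.det_fin_two, h17_heckeRep_one_zero] at this
    rw [hm, Matrix.det_fin_two_of]
    linear_combination this
  have hdet : (m * h17lr_coe (Gamma0 N) ρ).det = (ℓ : ℤ) := by
    rw [Matrix.det_mul, h17lr_det_coe, mul_one, hdetm]
  have h10 : (N : ℤ) ∣ (m * h17lr_coe (Gamma0 N) ρ) 1 0 := by
    have : (m * h17lr_coe (Gamma0 N) ρ) 1 0
        = heckeRep ℓ a 1 1 * h17lr_coe (Gamma0 N) ρ 1 0 := by
      simp [hm, Matrix.mul_apply, Fin.sum_univ_two]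
    rw [this]
    exact Dvd.dvd.mul_left (h17lr_dvd_lower' N ρ) _
  obtain ⟨a', c, h⟩ := h17_exists_decomp N ℓ hℓ hℓN _ hdet h10
  refine ⟨c, a', ?_⟩
  rw [← Matrix.mul_assoc, e1, Matrix.mul_assoc, h, Matrix.mul_assoc]
  rfl

/-! ## `CorT` -/

section Relational

variable {N q ℓ : ℕ} [NeZero q] {A : Type*} [AddCommGroup A]

theorem h17lr_not_dvd_left {N q ℓ : ℕ} (h : ¬ ℓ ∣ N * q) : ¬ ℓ ∣ N :=
  fun h' => h (Dvd.dvd.mul_right h' q)

theorem h17lr_ne_of_not_dvd {N q ℓ : ℕ} (h : ¬ ℓ ∣ N * q) : q ≠ ℓ := by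
  rintro rfl
  exact h (dvd_mul_left _ _)

/-- `cor₁ (T_ℓ y) = T_ℓ (cor₁ y)`, relationally. -/
theorem h17lr_isCor1_T (hq : q.Prime) (hqN : ¬ q ∣ N) (hℓ : ℓ.Prime) (hℓNq : ¬ ℓ ∣ N * q)
    {y y' : Additive (Gamma0 (N * q)) →+ A} {z z' : Additive (Gamma0 N) →+ A}
    (hy : IsCohHeckeAdd (N * q) ℓ y y') (hz : h17lr_IsCor (h32_incl N q) y z)
    (hz' : h17lr_IsCor (h32_incl N q) y' z') : IsCohHeckeAdd N ℓ z z' := by
  obtain ⟨a, b, hab⟩ := h17lr_exists_bezout hq hqN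
  have hℓN := h17lr_not_dvd_left hℓNq
  exact h17lr_isCohHeckeAdd_iff.mpr
    (h17lr_cor_op_comm (eH := h17lr_coe (Gamma0 (N * q))) (eΓ := h17lr_coe (Gamma0 N))
      (f := h32_incl N q) (a₀ := 1) (r := h17lr_rho N q a b hab) (h := heckeRep ℓ)
      (h32_incl_injective N q) (h17lr_coe_injective _)
      (fun m m' h => by simpa using h) (fun m m' h => by simpa using h)
      (h17lr_one_incl N q) (h17lr_isReps_rho hq hqN a b hab)
      (h17lr_free_heckeRep (N * q) hℓ) (h17lr_closed_heckeRep hℓ hℓNq)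
      (h17lr_free_heckeRep N hℓ) (h17lr_closed_heckeRep hℓ hℓN)
      (h17lr_stab_incl hq hqN hℓ (h17lr_ne_of_not_dvd hℓNq))
      (fun a b => h17lr_K_incl hℓ hℓN a _)
      (h17lr_isCohHeckeAdd_iff.mp hy) hz hz')

/-- `cor₂ (T_ℓ y) = T_ℓ (cor₂ y)`, relationally. -/
theorem h17lr_isCor2_T (hq : q.Prime) (hqN : ¬ q ∣ N) (hℓ : ℓ.Prime) (hℓNq : ¬ ℓ ∣ N * q)
    {y y' : Additive (Gamma0 (N * q)) →+ A} {z z' : Additive (Gamma0 N) →+ A}
    (hy : IsCohHeckeAdd (N * q) ℓ y y') (hz : h17lr_IsCor (h32_up N q) y z)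
    (hz' : h17lr_IsCor (h32_up N q) y' z') : IsCohHeckeAdd N ℓ z z' := by
  obtain ⟨a, b, hab⟩ := h17lr_exists_bezout hq hqN
  have hℓN := h17lr_not_dvd_left hℓNq
  exact h17lr_isCohHeckeAdd_iff.mpr
    (h17lr_cor_op_comm (eH := h17lr_coe (Gamma0 (N * q))) (eΓ := h17lr_coe (Gamma0 N))
      (f := h32_up N q) (a₀ := h17lr_al q) (r := h17lr_tau N q a b hab) (h := heckeRep ℓ)
      (h32_up_injective N q) (h17lr_coe_injective _)
      (h17lr_mul_left_cancel (h17lr_al_det_ne hq))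
      (h17lr_mul_right_cancel (h17lr_al_det_ne hq))
      (h17lr_al_up' N q) (h17lr_isReps_tau hq hqN a b hab)
      (h17lr_free_heckeRep (N * q) hℓ) (h17lr_closed_heckeRep hℓ hℓNq)
      (h17lr_free_heckeRep N hℓ) (h17lr_closed_heckeRep hℓ hℓN)
      (h17lr_stab_up hq hℓ (h17lr_ne_of_not_dvd hℓNq))
      (fun a b => h17lr_K_up hℓ hℓN a _)
      (h17lr_isCohHeckeAdd_iff.mp hy) hz hz')

end Relational

theorem h17lr_corT : h17lr_CorT := by
  intro N q _ ℓ hq hqN hℓ hℓNq y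
  have hℓN := h17lr_not_dvd_left hℓNq
  constructor
  · apply Subtype.ext
    have h := h17lr_isCor1_T hq hqN hℓ hℓNq (h17lr_T_spec (N * q) ℓ hℓ hℓNq y)
      (h17lr_cor1_spec N q hq hqN y) (h17lr_cor1_spec N q hq hqN (h17lr_T (N * q) ℓ y))
    exact (h17lr_T_eq hℓ hℓN _ h).symm
  · apply Subtype.ext
    have h := h17lr_isCor2_T hq hqN hℓ hℓNq (h17lr_T_spec (N * q) ℓ hℓ hℓNq y)
      (h17lr_cor2_spec N q hq hqN y) (h17lr_cor2_spec N q hq hqN (h17lr_T (N * q) ℓ y))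
    exact (h17lr_T_eq hℓ hℓN _ h).symm

end Fermat.Agent.LR
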