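/-
P-LR (S41), LR-COH: `h17lr_CorT` (`cor_i` commutes with `T_ℓ`, `ℓ ∤ N q`) from Poincaré
duality: `cor_i` is the adjoint of `res_i`, `res_i` commutes with `T_ℓ` (`h81r_resT_final`),
`T_ℓ` is self-adjoint at both levels and the pairing at level `N` is nondegenerate.
Conditional on the leaf statements of the PD sub-DAG and on helper17's specifications, exactly
as the consumer interface `LR/PD/AsmMain.lean`.  (helper81)
-/
import Fermat.Agent.LR.PD.AsmMain
import Fermat.Agent.LR.CohResTFinal81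

set_option autoImplicit false

namespace Fermat.Agent.LR

open Fermat.Agent.LR.PD

/-- **LR-COH, `CorT`**, from Poincaré duality and `ResT`. -/
theorem h81r_corT (hD : h1pd_DictStatement) (hC : h1pd_CorStatement)
    (hA : h1pd_AdjmStatement) (hBr : h1pd_BridgeStatement) (hI : h1pd_IsoStatement)
    (hCor1 : h17lr_Cor1Spec) (hCor2 : h17lr_Cor2Spec) (hCR : h17lr_CorRes) : h17lr_CorT := by
  intro N q _ ℓ hq hqN hℓ hℓNq y
  have hN0 : N ≠ 0 := by
    rintro rfl
    exact hℓNq (by simp)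
  have hℓN : ¬ ℓ ∣ N := fun h => hℓNq (Dvd.dvd.mul_right h q)
  have : NeZero N := ⟨hN0⟩
  have : NeZero ℓ := ⟨hℓ.ne_zero⟩
  have : NeZero (N * q) := ⟨Nat.mul_ne_zero hN0 (NeZero.ne q)⟩
  have hres := h81r_resT_final N q ℓ hq hqN hℓ hℓNq
  have hnd := (h1pd_form_nondeg N hD).1
  have hsX := h1pd_form_T hD hC hA hBr hI hCor1 hCor2 hCR N ℓ hℓ hℓN
  have hsY := h1pd_form_T hD hC hA hBr hI hCor1 hCor2 hCR (N * q) ℓ hℓ hℓNq
  constructor
  · exact h81r_adj_comm' (h1pd_form N) (h1pd_form (N * q)) (h1pd_form_antisymm N) hnd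
      (h17lr_res1 N q) (h17lr_cor1 N q)
      (h1pd_form_adj1 hD hC hA hBr hCor1 N q hq hqN)
      (h17lr_T N ℓ) (h17lr_T (N * q) ℓ) (fun x => (hres x).1) hsX hsY y
  · exact h81r_adj_comm' (h1pd_form N) (h1pd_form (N * q)) (h1pd_form_antisymm N) hnd
      (h17lr_res2 N q) (h17lr_cor2 N q)
      (h1pd_form_adj2 hD hC hA hBr hI hCor2 N q hq hqN)
      (h17lr_T N ℓ) (h17lr_T (N * q) ℓ) (fun x => (hres x).2) hsX hsY y

end Fermat.Agent.LR
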