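import Fermat.Agent.Jac.COH
import Fermat.Agent.LR.AmalgamDefs

/-!
# P-LR (S41 level raising), item LR-COH: frozen definitions (helper17)

Group-cohomological degeneracy maps between `Hom(Γ₀(N), A)` and `Hom(Γ₀(Nq), A)`.

* `h17lr_IsReps f δ`: `δ : ι → Γ` is a complete irredundant system of representatives of the
  RIGHT cosets `f(H) δ_i` of the image of `f : H →* Γ`.
* `h17lr_IsCor f y z`: `z = cor_f y` (transfer along `f`), relationally, in the style of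
  `Fermat.Agent.Jac.IsCohHeckeAdd`: `z γ = ∑ i, y (c i)` whenever `δ` is a system of
  representatives and `δ_i γ = f (c_i) δ_{π i}`.
* `h17lr_res f x = x ∘ f`.
* `h17lr_L M = parabolicHoms ℤ (Gamma0 M) ℤ` and the bundled `ℤ`-linear maps
  `h17lr_T M ℓ`, `h17lr_res1 N q`, `h17lr_res2 N q`, `h17lr_cor1 N q`, `h17lr_cor2 N q`
  (`res1`, `cor1` along `h32_incl N q`; `res2`, `cor2` along `h32_up N q`, i.e. conjugation
  by `diag(q, 1)`).  `h17lr_T`, `h17lr_cor1`, `h17lr_cor2` are defined by their relational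
  specification (`h17lr_TSpec`, `h17lr_Cor1Spec`, `h17lr_Cor2Spec`).
* the statements `h17lr_CorRes`, `h17lr_ResT`, `h17lr_CorT` (proved in `LR/Coh*.lean`).
-/

set_option autoImplicit false

open ModularCurve CongruenceSubgroup
open scoped MatrixGroups

noncomputable section

namespace Fermat.Agent.LR

open Fermat.Agent.Jac

/-! ## Relational transfer along a homomorphism -/

/-- `δ : ι → Γ` is a complete irredundant system of representatives of the right cosets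
`f(H) δ_i` of the image of `f : H →* Γ`. -/
def h17lr_IsReps {H Γ : Type*} [Group H] [Group Γ] (f : H →* Γ) {ι : Type*} (δ : ι → Γ) :
    Prop :=
  (∀ i j, δ i * (δ j)⁻¹ ∈ f.range → i = j) ∧ ∀ γ : Γ, ∃ i, γ * (δ i)⁻¹ ∈ f.range

/-- `z = cor_f y`: the transfer (corestriction) of `y : H → A` along `f : H →* Γ`,
relationally: `z γ = ∑ i, y (c i)` whenever `δ` is a system of representatives of
`f(H) \ Γ` and `δ_i γ = f (c_i) δ_{π i}`. -/
def h17lr_IsCor {H Γ : Type*} [Group H] [Group Γ] (f : H →* Γ) {A : Type*} [AddCommMonoid A]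
    (y : Additive H →+ A) (z : Additive Γ →+ A) : Prop :=
  ∀ (ι : Type) [Fintype ι] (δ : ι → Γ) (π : ι → ι) (c : ι → H) (γ : Γ),
    h17lr_IsReps f δ → (∀ i, δ i * γ = f (c i) * δ (π i)) →
      z (Additive.ofMul γ) = ∑ i, y (Additive.ofMul (c i))

/-- restriction along `f`: `x ↦ x ∘ f`. -/
def h17lr_res {H Γ : Type*} [Group H] [Group Γ] (f : H →* Γ) {A : Type*} [AddCommMonoid A]
    (x : Additive Γ →+ A) : Additive H →+ A :=
  x.comp (MonoidHom.toAdditive f)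

@[simp]
theorem h17lr_res_apply {H Γ : Type*} [Group H] [Group Γ] (f : H →* Γ) {A : Type*}
    [AddCommMonoid A] (x : Additive Γ →+ A) (h : H) :
    h17lr_res f x (Additive.ofMul h) = x (Additive.ofMul (f h)) := rfl

/-! ## The lattices `L_M` and the bundled maps -/

/-- `L_M = Hom_par(Γ₀(M), ℤ)`. -/
abbrev h17lr_L (M : ℕ) : Submodule ℤ (Additive (Gamma0 M) →+ ℤ) :=
  Period.parabolicHoms ℤ (Gamma0 M) ℤ

theorem h17lr_trace_incl (N q : ℕ) (γ : Gamma0 (N * q)) :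
    (((h32_incl N q γ : Gamma0 N) : SL(2, ℤ)) : Matrix (Fin 2) (Fin 2) ℤ).trace
      = ((γ : SL(2, ℤ)) : Matrix (Fin 2) (Fin 2) ℤ).trace := rfl

theorem h17lr_trace_up (N q : ℕ) [NeZero q] (γ : Gamma0 (N * q)) :
    (((h32_up N q γ : Gamma0 N) : SL(2, ℤ)) : Matrix (Fin 2) (Fin 2) ℤ).trace
      = ((γ : SL(2, ℤ)) : Matrix (Fin 2) (Fin 2) ℤ).trace := by
  rw [Matrix.trace_fin_two, Matrix.trace_fin_two]
  rfl

/-- restriction along a trace-preserving homomorphism preserves parabolic homomorphisms. -/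
theorem h17lr_res_parabolic {Γ' Γ : Subgroup SL(2, ℤ)} (f : Γ' →* Γ)
    (hf : ∀ γ : Γ', (((f γ : Γ) : SL(2, ℤ)) : Matrix (Fin 2) (Fin 2) ℤ).trace
      = ((γ : SL(2, ℤ)) : Matrix (Fin 2) (Fin 2) ℤ).trace)
    {A : Type*} [AddCommGroup A] (x : Additive Γ →+ A) (hx : Period.IsParabolicHom Γ x) :
    Period.IsParabolicHom Γ' (h17lr_res f x) := by
  intro γ hγ
  rw [h17lr_res_apply]
  apply hx
  rw [hf]
  exact hγ

/-- `res_f` as a `ℤ`-linear map on parabolic homomorphisms. -/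
def h17lr_resLin {Γ' Γ : Subgroup SL(2, ℤ)} (f : Γ' →* Γ)
    (hf : ∀ γ : Γ', (((f γ : Γ) : SL(2, ℤ)) : Matrix (Fin 2) (Fin 2) ℤ).trace
      = ((γ : SL(2, ℤ)) : Matrix (Fin 2) (Fin 2) ℤ).trace) :
    Period.parabolicHoms ℤ Γ ℤ →ₗ[ℤ] Period.parabolicHoms ℤ Γ' ℤ where
  toFun x := ⟨h17lr_res f x.1, h17lr_res_parabolic f hf x.1 x.2⟩
  map_add' x y := by
    apply Subtype.ext
    rfl
  map_smul' n x := by
    apply Subtype.ext
    rfl

/-- `res₁ : L_N → L_{Nq}`, `x ↦ x|Γ₀(Nq)`. -/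
def h17lr_res1 (N q : ℕ) : h17lr_L N →ₗ[ℤ] h17lr_L (N * q) :=
  h17lr_resLin (h32_incl N q) (h17lr_trace_incl N q)

/-- `res₂ : L_N → L_{Nq}`, `x ↦ (γ ↦ x (g γ g⁻¹))`, `g = diag(q, 1)`. -/
def h17lr_res2 (N q : ℕ) [NeZero q] : h17lr_L N →ₗ[ℤ] h17lr_L (N * q) :=
  h17lr_resLin (h32_up N q) (h17lr_trace_up N q)

@[simp]
theorem h17lr_res1_apply (N q : ℕ) (x : h17lr_L N) (γ : Gamma0 (N * q)) :
    (h17lr_res1 N q x : Additive (Gamma0 (N * q)) →+ ℤ) (Additive.ofMul γ)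
      = (x : Additive (Gamma0 N) →+ ℤ) (Additive.ofMul (h32_incl N q γ)) := rfl

@[simp]
theorem h17lr_res2_apply (N q : ℕ) [NeZero q] (x : h17lr_L N) (γ : Gamma0 (N * q)) :
    (h17lr_res2 N q x : Additive (Gamma0 (N * q)) →+ ℤ) (Additive.ofMul γ)
      = (x : Additive (Gamma0 N) →+ ℤ) (Additive.ofMul (h32_up N q γ)) := rfl

theorem h17lr_res1_coe (N q : ℕ) (x : h17lr_L N) :
    (h17lr_res1 N q x : Additive (Gamma0 (N * q)) →+ ℤ)
      = h17lr_res (h32_incl N q) (x : Additive (Gamma0 N) →+ ℤ) := rfl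

theorem h17lr_res2_coe (N q : ℕ) [NeZero q] (x : h17lr_L N) :
    (h17lr_res2 N q x : Additive (Gamma0 (N * q)) →+ ℤ)
      = h17lr_res (h32_up N q) (x : Additive (Gamma0 N) →+ ℤ) := rfl

open Classical in
/-- the Hecke operator `T_ℓ` on `L_M` (specified by `IsCohHeckeAdd`, see `h17lr_TSpec`). -/
def h17lr_T (M ℓ : ℕ) : h17lr_L M →ₗ[ℤ] h17lr_L M :=
  if h : ∃ F : h17lr_L M →ₗ[ℤ] h17lr_L M, ∀ x : h17lr_L M,
      IsCohHeckeAdd M ℓ (x : Additive (Gamma0 M) →+ ℤ) (F x : Additive (Gamma0 M) →+ ℤ)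
  then h.choose else 0

open Classical in
/-- transfer along `f` on parabolic homomorphisms (specified by `h17lr_IsCor f`). -/
def h17lr_corLin {Γ' Γ : Subgroup SL(2, ℤ)} (f : Γ' →* Γ) :
    Period.parabolicHoms ℤ Γ' ℤ →ₗ[ℤ] Period.parabolicHoms ℤ Γ ℤ :=
  if h : ∃ F : Period.parabolicHoms ℤ Γ' ℤ →ₗ[ℤ] Period.parabolicHoms ℤ Γ ℤ,
      ∀ y : Period.parabolicHoms ℤ Γ' ℤ,
        h17lr_IsCor f (y : Additive Γ' →+ ℤ) (F y : Additive Γ →+ ℤ)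
  then h.choose else 0

/-- `cor₁ : L_{Nq} → L_N`, the transfer along `Γ₀(Nq) ≤ Γ₀(N)`. -/
def h17lr_cor1 (N q : ℕ) : h17lr_L (N * q) →ₗ[ℤ] h17lr_L N :=
  h17lr_corLin (h32_incl N q)

/-- `cor₂ : L_{Nq} → L_N`, the transfer along `γ ↦ g γ g⁻¹`, `g = diag(q, 1)`. -/
def h17lr_cor2 (N q : ℕ) [NeZero q] : h17lr_L (N * q) →ₗ[ℤ] h17lr_L N :=
  h17lr_corLin (h32_up N q)

/-! ## The statements of LR-COH -/

/-- `h17lr_T M ℓ` is the cohomological Hecke operator. -/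
def h17lr_TSpec : Prop :=
  ∀ (M ℓ : ℕ), ℓ.Prime → ¬ ℓ ∣ M → ∀ x : h17lr_L M,
    IsCohHeckeAdd M ℓ (x : Additive (Gamma0 M) →+ ℤ)
      (h17lr_T M ℓ x : Additive (Gamma0 M) →+ ℤ)

/-- `h17lr_cor1 N q` is the transfer along the inclusion. -/
def h17lr_Cor1Spec : Prop :=
  ∀ (N q : ℕ) [NeZero q], q.Prime → ¬ q ∣ N → ∀ y : h17lr_L (N * q),
    h17lr_IsCor (h32_incl N q) (y : Additive (Gamma0 (N * q)) →+ ℤ)
      (h17lr_cor1 N q y : Additive (Gamma0 N) →+ ℤ)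

/-- `h17lr_cor2 N q` is the transfer along conjugation by `diag(q, 1)`. -/
def h17lr_Cor2Spec : Prop :=
  ∀ (N q : ℕ) [NeZero q], q.Prime → ¬ q ∣ N → ∀ y : h17lr_L (N * q),
    h17lr_IsCor (h32_up N q) (y : Additive (Gamma0 (N * q)) →+ ℤ)
      (h17lr_cor2 N q y : Additive (Gamma0 N) →+ ℤ)

/-- `(cor_i ∘ res_j) = [[q + 1, T_q], [T_q, q + 1]]`. -/
def h17lr_CorRes : Prop :=
  ∀ (N q : ℕ) [NeZero q], q.Prime → ¬ q ∣ N → ∀ x : h17lr_L N,
    h17lr_cor1 N q (h17lr_res1 N q x) = ((q : ℤ) + 1) • x ∧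
    h17lr_cor2 N q (h17lr_res2 N q x) = ((q : ℤ) + 1) • x ∧
    h17lr_cor1 N q (h17lr_res2 N q x) = h17lr_T N q x ∧
    h17lr_cor2 N q (h17lr_res1 N q x) = h17lr_T N q x

/-- `res_i` commutes with `T_ℓ`, `ℓ ∤ Nq`. -/
def h17lr_ResT : Prop :=
  ∀ (N q : ℕ) [NeZero q] (ℓ : ℕ), q.Prime → ¬ q ∣ N → ℓ.Prime → ¬ ℓ ∣ N * q →
    ∀ x : h17lr_L N,
      h17lr_res1 N q (h17lr_T N ℓ x) = h17lr_T (N * q) ℓ (h17lr_res1 N q x) ∧
      h17lr_res2 N q (h17lr_T N ℓ x) = h17lr_T (N * q) ℓ (h17lr_res2 N q x)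

/-- `cor_i` commutes with `T_ℓ`, `ℓ ∤ Nq`. -/
def h17lr_CorT : Prop :=
  ∀ (N q : ℕ) [NeZero q] (ℓ : ℕ), q.Prime → ¬ q ∣ N → ℓ.Prime → ¬ ℓ ∣ N * q →
    ∀ y : h17lr_L (N * q),
      h17lr_cor1 N q (h17lr_T (N * q) ℓ y) = h17lr_T N ℓ (h17lr_cor1 N q y) ∧
      h17lr_cor2 N q (h17lr_T (N * q) ℓ y) = h17lr_T N ℓ (h17lr_cor2 N q y)

end Fermat.Agent.LR
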