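import Fermat.Agent.LR.CohCor

/-!
# P-LR (S41), item LR-COH: matrix families, parabolic homomorphisms, bundling (helper17)

* `h17lr_coe Γ : Γ →* Matrix (Fin 2) (Fin 2) ℤ`;
* `h17lr_isCohHeckeAdd_iff`: `IsCohHeckeAdd N ℓ` is the operator of the family `heckeRep ℓ`;
* `h17lr_op_parabolic`, `h17lr_cor_parabolic`: operators of free families of matrices of
  nonzero determinant preserve parabolic homomorphisms;
* `h17lr_bundle`: a total, functional, additive relation is a `ℤ`-linear map;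
* `h17lr_T_spec : h17lr_TSpec`, and `h17lr_corLin_spec`.
-/

set_option autoImplicit false

open ModularCurve CongruenceSubgroup
open scoped MatrixGroups

noncomputable section

namespace Fermat.Agent.LR

open Fermat.Agent.Jac

/-- the coercion of a subgroup of `SL(2, ℤ)` to integral matrices. -/
def h17lr_coe (Γ : Subgroup SL(2, ℤ)) : Γ →* Matrix (Fin 2) (Fin 2) ℤ :=
  Matrix.SpecialLinearGroup.coeMonoidHom.comp Γ.subtype

@[simp]
theorem h17lr_coe_apply (Γ : Subgroup SL(2, ℤ)) (γ : Γ) :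
    h17lr_coe Γ γ = ((γ : SL(2, ℤ)) : Matrix (Fin 2) (Fin 2) ℤ) := rfl

theorem h17lr_coe_injective (Γ : Subgroup SL(2, ℤ)) : Function.Injective (h17lr_coe Γ) :=
  Matrix.SpecialLinearGroup.coeMonoidHom_injective.comp Subtype.val_injective

theorem h17lr_det_coe (Γ : Subgroup SL(2, ℤ)) (γ : Γ) : (h17lr_coe Γ γ).det = 1 :=
  (γ : SL(2, ℤ)).det_coe

theorem h17lr_isCohHeckeAdd_iff {N ℓ : ℕ} {A : Type*} [AddCommMonoid A]
    {φ φ' : Additive (Gamma0 N) →+ A} :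
    IsCohHeckeAdd N ℓ φ φ'
      ↔ h17lr_IsOp (h17lr_coe (Gamma0 N)) (h17lr_coe (Gamma0 N)) (heckeRep ℓ) φ φ' :=
  Iff.rfl

theorem h17lr_heckeDecomp_iff {N ℓ : ℕ} {γ : Gamma0 N} {π : Fin (ℓ + 1) → Fin (ℓ + 1)}
    {c : Fin (ℓ + 1) → Gamma0 N} :
    HeckeDecomp N ℓ γ π c
      ↔ h17lr_Decomp (h17lr_coe (Gamma0 N)) (h17lr_coe (Gamma0 N)) (heckeRep ℓ) γ π c :=
  Iff.rfl

theorem h17lr_free_heckeRep (N : ℕ) {ℓ : ℕ} (hℓ : ℓ.Prime) :
    h17lr_Free (h17lr_coe (Gamma0 N)) (heckeRep ℓ) := by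
  intro a b h h' e
  obtain ⟨e1, e2⟩ := h17_decomp_unique ℓ hℓ _ _ _ _ e
  exact ⟨e1, Subtype.ext e2⟩

theorem h17lr_closed_heckeRep {N ℓ : ℕ} (hℓ : ℓ.Prime) (hℓN : ¬ ℓ ∣ N) :
    h17lr_Closed (h17lr_coe (Gamma0 N)) (h17lr_coe (Gamma0 N)) (heckeRep ℓ) := by
  intro i γ
  obtain ⟨π, c, h⟩ := h17_heckeDecomp_exists N ℓ hℓ hℓN γ
  exact ⟨π i, c i, h i⟩

/-- matrices of nonzero determinant are left-cancellable. -/
theorem h17lr_mul_left_cancel {a : Matrix (Fin 2) (Fin 2) ℤ} (ha : a.det ≠ 0)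
    (m m' : Matrix (Fin 2) (Fin 2) ℤ) (h : a * m = a * m') : m = m' := by
  have h1 : a.adjugate * (a * m) = a.adjugate * (a * m') := by rw [h]
  rw [← Matrix.mul_assoc, ← Matrix.mul_assoc, Matrix.adjugate_mul, Matrix.smul_mul,
    Matrix.smul_mul, Matrix.one_mul, Matrix.one_mul] at h1
  exact smul_right_injective _ ha h1

/-- matrices of nonzero determinant are right-cancellable. -/
theorem h17lr_mul_right_cancel {a : Matrix (Fin 2) (Fin 2) ℤ} (ha : a.det ≠ 0)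
    (m m' : Matrix (Fin 2) (Fin 2) ℤ) (h : m * a = m' * a) : m = m' := by
  have h1 : (m * a) * a.adjugate = (m' * a) * a.adjugate := by rw [h]
  rw [Matrix.mul_assoc, Matrix.mul_assoc, Matrix.mul_adjugate, Matrix.mul_smul,
    Matrix.mul_smul, Matrix.mul_one, Matrix.mul_one] at h1
  exact smul_right_injective _ ha h1

/-! ## Parabolic homomorphisms -/

section Iterate

variable {M : Type*} [Monoid M] {H Γ : Type*} [Group H] [Group Γ] {ι : Type*}
variable {f : H →* M} {g : Γ →* M} {δ : ι → M}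

theorem h17lr_decomp_iterate {A : Type*} [AddCommMonoid A] (y : Additive H →+ A) {γ : Γ}
    {π : ι → ι} {c : ι → H} (h : h17lr_Decomp f g δ γ π c) (i : ι) (r : ℕ) :
    ∃ P : H, δ i * g γ ^ r = f P * δ (π^[r] i) ∧
      y (Additive.ofMul P) = ∑ k ∈ Finset.range r, y (Additive.ofMul (c (π^[k] i))) := by
  induction r with
  | zero =>
    refine ⟨1, ?_, ?_⟩
    · simp
    · simp
  | succ r ih =>
    obtain ⟨P, hP1, hP2⟩ := ih
    refine ⟨P * c (π^[r] i), ?_, ?_⟩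
    · rw [pow_succ, ← mul_assoc, hP1, mul_assoc, h (π^[r] i),
        Function.iterate_succ_apply', map_mul, mul_assoc]
    · rw [ofMul_mul, map_add, hP2, Finset.sum_range_succ]

end Iterate

/-- the operator of a free family of matrices of nonzero determinant preserves parabolic
homomorphisms. -/
theorem h17lr_op_parabolic {Γ₁ Γ₂ : Subgroup SL(2, ℤ)} {ι : Type*} [Fintype ι]
    {δ : ι → Matrix (Fin 2) (Fin 2) ℤ} (hdet : ∀ i, (δ i).det ≠ 0)
    (hF : h17lr_Free (h17lr_coe Γ₁) δ) (hC : h17lr_Closed (h17lr_coe Γ₁) (h17lr_coe Γ₂) δ)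
    {A : Type*} [AddCommGroup A] {y : Additive Γ₁ →+ A} {z : Additive Γ₂ →+ A}
    (h : h17lr_IsOp (h17lr_coe Γ₁) (h17lr_coe Γ₂) δ y z)
    (hy : Period.IsParabolicHom Γ₁ y) : Period.IsParabolicHom Γ₂ z := by
  classical
  intro γ hγ
  obtain ⟨π, c, hd⟩ := h17lr_decomp_exists hC γ
  rw [h γ π c hd]
  refine h17_sum_eq_zero_of_chain_sums π (h17lr_decomp_injective hF hd)
    (fun i => y (Additive.ofMul (c i))) (fun i r hr => ?_)
  obtain ⟨P, hP1, hP2⟩ := h17lr_decomp_iterate y hd i r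
  rw [← hP2]
  apply hy
  rw [hr] at hP1
  have e := h17_trace_eq_of_conj (h17lr_coe Γ₁ P) (h17lr_coe Γ₂ γ ^ r) (δ i) (hdet i) hP1.symm
  rw [h17lr_coe_apply] at e
  rw [e]
  exact h17_trace_pow_sq _ (h17lr_det_coe Γ₂ γ) hγ r

/-- the transfer along `f` preserves parabolic homomorphisms, if `f` is conjugation by an
integral matrix `a` of nonzero determinant: `a f(h) = h a`. -/
theorem h17lr_cor_parabolic {Γ' Γ : Subgroup SL(2, ℤ)} {f : Γ' →* Γ}
    (hf : Function.Injective f) {a : Matrix (Fin 2) (Fin 2) ℤ} (ha : a.det ≠ 0)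
    (hfa : ∀ h : Γ', a * h17lr_coe Γ (f h) = h17lr_coe Γ' h * a)
    {ι : Type} [Fintype ι] {δ : ι → Γ} (hδ : h17lr_IsReps f δ)
    {A : Type*} [AddCommGroup A] {y : Additive Γ' →+ A} {z : Additive Γ →+ A}
    (h : h17lr_IsCor f y z) (hy : Period.IsParabolicHom Γ' y) :
    Period.IsParabolicHom Γ z := by
  have h1 := h17lr_isCor_iff.mp h ι δ hδ
  have h2 := (h17lr_isOp_twist (h17lr_coe_injective Γ) (h17lr_mul_left_cancel ha) hfa δ).mpr h1
  refine h17lr_op_parabolic (fun i => ?_)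
    (h17lr_free_twist hf (h17lr_coe_injective Γ) (h17lr_mul_left_cancel ha) hfa hδ)
    (h17lr_closed_twist hfa hδ) h2 hy
  rw [Matrix.det_mul, h17lr_det_coe, mul_one]
  exact ha

/-! ## Bundling -/

/-- a total, functional, additive relation between parabolic homomorphisms is a
`ℤ`-linear map. -/
theorem h17lr_bundle {Γ' Γ : Subgroup SL(2, ℤ)}
    (R : (Additive Γ' →+ ℤ) → (Additive Γ →+ ℤ) → Prop)
    (hex : ∀ y, Period.IsParabolicHom Γ' y → ∃ z, R y z ∧ Period.IsParabolicHom Γ z)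
    (huniq : ∀ y z z', R y z → R y z' → z = z')
    (hadd : ∀ y y' z z', R y z → R y' z' → R (y + y') (z + z')) :
    ∃ F : Period.parabolicHoms ℤ Γ' ℤ →ₗ[ℤ] Period.parabolicHoms ℤ Γ ℤ,
      ∀ y : Period.parabolicHoms ℤ Γ' ℤ,
        R (y : Additive Γ' →+ ℤ) (F y : Additive Γ →+ ℤ) := by
  classical
  choose z hz using hex
  let F₀ : Period.parabolicHoms ℤ Γ' ℤ → Period.parabolicHoms ℤ Γ ℤ :=
    fun y => ⟨z y.1 y.2, (hz y.1 y.2).2⟩
  have hF₀ : ∀ y : Period.parabolicHoms ℤ Γ' ℤ,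
      R (y : Additive Γ' →+ ℤ) (F₀ y : Additive Γ →+ ℤ) := fun y => (hz y.1 y.2).1
  have hadd' : ∀ y y', F₀ (y + y') = F₀ y + F₀ y' := by
    intro y y'
    apply Subtype.ext
    exact huniq _ _ _ (hF₀ (y + y')) (hadd _ _ _ _ (hF₀ y) (hF₀ y'))
  exact ⟨(AddMonoidHom.mk' F₀ hadd').toIntLinearMap, hF₀⟩

/-! ## `T_ℓ` -/

theorem h17lr_T_spec : h17lr_TSpec := by
  intro M ℓ hℓ hℓM x
  have hex : ∃ F : h17lr_L M →ₗ[ℤ] h17lr_L M, ∀ x : h17lr_L M,
      IsCohHeckeAdd M ℓ (x : Additive (Gamma0 M) →+ ℤ) (F x : Additive (Gamma0 M) →+ ℤ) := by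
    refine h17lr_bundle (fun y z => IsCohHeckeAdd M ℓ y z) ?_ ?_ ?_
    · intro y hy
      obtain ⟨z, h1, h2⟩ := h17_cohHecke_exists hℓ hℓM ℤ y
      exact ⟨z, h1, h2 hy⟩
    · intro y z z' h h'
      exact h17lr_op_unique (h17lr_closed_heckeRep hℓ hℓM) (h17lr_isCohHeckeAdd_iff.mp h)
        (h17lr_isCohHeckeAdd_iff.mp h')
    · intro y y' z z' h h'
      exact h17lr_op_add (h17lr_isCohHeckeAdd_iff.mp h) (h17lr_isCohHeckeAdd_iff.mp h')
  unfold h17lr_T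
  rw [dif_pos hex]
  exact hex.choose_spec x

/-- uniqueness of `T_ℓ`. -/
theorem h17lr_T_eq {M ℓ : ℕ} (hℓ : ℓ.Prime) (hℓM : ¬ ℓ ∣ M) (x : h17lr_L M)
    {z : Additive (Gamma0 M) →+ ℤ}
    (h : IsCohHeckeAdd M ℓ (x : Additive (Gamma0 M) →+ ℤ) z) :
    (h17lr_T M ℓ x : Additive (Gamma0 M) →+ ℤ) = z :=
  h17lr_op_unique (h17lr_closed_heckeRep hℓ hℓM)
    (h17lr_isCohHeckeAdd_iff.mp (h17lr_T_spec M ℓ hℓ hℓM x)) (h17lr_isCohHeckeAdd_iff.mp h)

/-! ## `cor` -/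

/-- the specification of `h17lr_corLin f`, given one system of representatives and a
conjugating matrix. -/
theorem h17lr_corLin_spec {Γ' Γ : Subgroup SL(2, ℤ)} {f : Γ' →* Γ}
    (hf : Function.Injective f) {a : Matrix (Fin 2) (Fin 2) ℤ} (ha : a.det ≠ 0)
    (hfa : ∀ h : Γ', a * h17lr_coe Γ (f h) = h17lr_coe Γ' h * a)
    {ι : Type} [Fintype ι] {δ : ι → Γ} (hδ : h17lr_IsReps f δ)
    (y : Period.parabolicHoms ℤ Γ' ℤ) :
    h17lr_IsCor f (y : Additive Γ' →+ ℤ) (h17lr_corLin f y : Additive Γ →+ ℤ) := by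
  have hex : ∃ F : Period.parabolicHoms ℤ Γ' ℤ →ₗ[ℤ] Period.parabolicHoms ℤ Γ ℤ,
      ∀ y : Period.parabolicHoms ℤ Γ' ℤ,
        h17lr_IsCor f (y : Additive Γ' →+ ℤ) (F y : Additive Γ →+ ℤ) := by
    refine h17lr_bundle (fun y z => h17lr_IsCor f y z) ?_ ?_ ?_
    · intro y hy
      obtain ⟨z, hz⟩ := h17lr_cor_exists hf hδ y
      exact ⟨z, hz, h17lr_cor_parabolic hf ha hfa hδ hz hy⟩
    · intro y z z' h h'
      exact h17lr_cor_unique hδ h h'
    · intro y y' z z' h h'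
      exact h17lr_cor_add h h'
  unfold h17lr_corLin
  rw [dif_pos hex]
  exact hex.choose_spec y

end Fermat.Agent.LR
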