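import Fermat.Agent.LR.CohPar

/-!
# P-LR (S41), item LR-COH: explicit representatives, `Cor1Spec`, `Cor2Spec`, `CorRes`
(helper17)

`q` prime, `q ∤ N`, integers `x y` with `q x - N y = 1`.

* `h17lr_g q = diag(q, 1)`, `h17lr_al q = diag(1, q)`;
* `h17lr_rho`: representatives `ρ_j = [[x, x j + y], [N, N j + q]]` (`j < q`), `1` of
  `Γ₀(Nq) \ Γ₀(N)`; `g ρ_j = V δ_j`, `V = [[q x, y], [N, 1]]`, `δ = heckeRep q`;
* `h17lr_tau`: representatives `τ_j = [[1, j], [0, 1]]` (`j < q`), `V` of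
  `g Γ₀(Nq) g⁻¹ \ Γ₀(N)`; `α τ_j = δ_j`, `α V = V' δ_q = W`, `V' = [[x, y], [N, q]]`;
* `h17lr_isReps_rho`, `h17lr_isReps_tau`;
* `h17lr_cor1_spec : h17lr_Cor1Spec`, `h17lr_cor2_spec : h17lr_Cor2Spec`,
  `h17lr_corRes : h17lr_CorRes`;
* `h17lr_isCor1_iff`, `h17lr_isCor2_iff`: the transfers as operators of explicit families of
  integral matrices.
-/

set_option autoImplicit false

open ModularCurve CongruenceSubgroup
open scoped MatrixGroups

noncomputable section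

namespace Fermat.Agent.LR

open Fermat.Agent.Jac

/-- `g = diag(q, 1)`. -/
def h17lr_g (q : ℕ) : Matrix (Fin 2) (Fin 2) ℤ := !![(q : ℤ), 0; 0, 1]

/-- `α = diag(1, q)`. -/
def h17lr_al (q : ℕ) : Matrix (Fin 2) (Fin 2) ℤ := !![1, 0; 0, (q : ℤ)]

theorem h17lr_det_g (q : ℕ) : (h17lr_g q).det = (q : ℤ) := by
  rw [h17lr_g, Matrix.det_fin_two_of]; ring

theorem h17lr_det_al (q : ℕ) : (h17lr_al q).det = (q : ℤ) := by
  rw [h17lr_al, Matrix.det_fin_two_of]; ring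

theorem h17lr_coe_up (N q : ℕ) [NeZero q] (h : Gamma0 (N * q)) :
    h17lr_coe (Gamma0 N) (h32_up N q h)
      = !![h17lr_coe (Gamma0 (N * q)) h 0 0, q * h17lr_coe (Gamma0 (N * q)) h 0 1;
          h17lr_coe (Gamma0 (N * q)) h 1 0 / q, h17lr_coe (Gamma0 (N * q)) h 1 1] := rfl

theorem h17lr_coe_incl (N q : ℕ) (h : Gamma0 (N * q)) :
    h17lr_coe (Gamma0 N) (h32_incl N q h) = h17lr_coe (Gamma0 (N * q)) h := rfl

theorem h17lr_dvd_lower (N q : ℕ) (h : Gamma0 (N * q)) :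
    (q : ℤ) ∣ h17lr_coe (Gamma0 (N * q)) h 1 0 := by
  have hmem := (h17_mem_Gamma0_iff (h : SL(2, ℤ))).mp h.2
  exact Dvd.dvd.trans ⟨(N : ℤ), by push_cast; ring⟩ hmem

theorem h17lr_dvd_lower' (N : ℕ) (h : Gamma0 N) :
    (N : ℤ) ∣ h17lr_coe (Gamma0 N) h 1 0 :=
  (h17_mem_Gamma0_iff (h : SL(2, ℤ))).mp h.2

/-- `g h = (g h g⁻¹) g`. -/
theorem h17lr_g_incl (N q : ℕ) [NeZero q] (h : Gamma0 (N * q)) :
    h17lr_g q * h17lr_coe (Gamma0 N) (h32_incl N q h)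
      = h17lr_coe (Gamma0 N) (h32_up N q h) * h17lr_g q := by
  obtain ⟨c, hc⟩ := h17lr_dvd_lower N q h
  have hq0 : (q : ℤ) ≠ 0 := Nat.cast_ne_zero.mpr (NeZero.ne q)
  rw [h17lr_coe_up, h17lr_coe_incl, h17lr_g]
  generalize h17lr_coe (Gamma0 (N * q)) h = m at hc ⊢
  ext i j
  fin_cases i <;> fin_cases j <;>
    simp [Matrix.mul_apply, Fin.sum_univ_two, hc, Int.mul_ediv_cancel_left _ hq0] <;> ring

/-- `α (g h g⁻¹) = h α`. -/
theorem h17lr_al_up (N q : ℕ) [NeZero q] (h : Gamma0 (N * q)) :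
    h17lr_al q * h17lr_coe (Gamma0 N) (h32_up N q h)
      = h17lr_coe (Gamma0 N) (h32_incl N q h) * h17lr_al q := by
  obtain ⟨c, hc⟩ := h17lr_dvd_lower N q h
  have hq0 : (q : ℤ) ≠ 0 := Nat.cast_ne_zero.mpr (NeZero.ne q)
  rw [h17lr_coe_up, h17lr_coe_incl, h17lr_al]
  generalize h17lr_coe (Gamma0 (N * q)) h = m at hc ⊢
  ext i j
  fin_cases i <;> fin_cases j <;>
    simp [Matrix.mul_apply, Fin.sum_univ_two, hc, Int.mul_ediv_cancel_left _ hq0] <;> ring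

/-! ## The representatives -/

/-- `V = [[q x, y], [N, 1]]`. -/
def h17lr_V (N q : ℕ) (x y : ℤ) (hxy : (q : ℤ) * x - N * y = 1) : Gamma0 N :=
  h17_mk N (q * x) y N 1 (by linear_combination hxy) (dvd_refl _)

/-- `V' = [[x, y], [N, q]]`. -/
def h17lr_V' (N q : ℕ) (x y : ℤ) (hxy : (q : ℤ) * x - N * y = 1) : Gamma0 N :=
  h17_mk N x y N q (by linear_combination hxy) (dvd_refl _)

/-- representatives of `Γ₀(Nq) \ Γ₀(N)`: `ρ_j = [[x, x j + y], [N, N j + q]]`, `j < q`,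
and `1`. -/
def h17lr_rho (N q : ℕ) (x y : ℤ) (hxy : (q : ℤ) * x - N * y = 1) (j : Fin (q + 1)) :
    Gamma0 N :=
  if (j : ℕ) < q then
    h17_mk N x (x * ((j : ℕ) : ℤ) + y) N (N * ((j : ℕ) : ℤ) + q)
      (by linear_combination hxy) (dvd_refl _)
  else 1

/-- the left factors `u_j` with `g ρ_j = u_j δ_j`. -/
def h17lr_rhoU (N q : ℕ) (x y : ℤ) (hxy : (q : ℤ) * x - N * y = 1) (j : Fin (q + 1)) :
    Gamma0 N :=
  if (j : ℕ) < q then h17lr_V N q x y hxy else 1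

/-- representatives of `g Γ₀(Nq) g⁻¹ \ Γ₀(N)`: `τ_j = [[1, j], [0, 1]]`, `j < q`, and `V`. -/
def h17lr_tau (N q : ℕ) (x y : ℤ) (hxy : (q : ℤ) * x - N * y = 1) (j : Fin (q + 1)) :
    Gamma0 N :=
  if (j : ℕ) < q then h17_mk N 1 ((j : ℕ) : ℤ) 0 1 (by ring) (dvd_zero _)
  else h17lr_V N q x y hxy

/-- the left factors `u_j` with `α τ_j = u_j δ_j`. -/
def h17lr_tauU (N q : ℕ) (x y : ℤ) (hxy : (q : ℤ) * x - N * y = 1) (j : Fin (q + 1)) :
    Gamma0 N :=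
  if (j : ℕ) < q then 1 else h17lr_V' N q x y hxy

theorem h17lr_g_rho (N q : ℕ) (x y : ℤ) (hxy : (q : ℤ) * x - N * y = 1) (j : Fin (q + 1)) :
    h17lr_g q * h17lr_coe (Gamma0 N) (h17lr_rho N q x y hxy j)
      = h17lr_coe (Gamma0 N) (h17lr_rhoU N q x y hxy j) * heckeRep q j := by
  by_cases h : (j : ℕ) < q
  · rw [h17lr_rho, h17lr_rhoU, if_pos h, if_pos h, h17_heckeRep_lt j h, h17lr_coe_apply,
      h17lr_coe_apply, h17lr_V, h17_mk_coe, h17_mk_coe, h17lr_g]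
    ext a b
    fin_cases a <;> fin_cases b <;> simp [Matrix.mul_apply, Fin.sum_univ_two] <;> ring
  · rw [h17lr_rho, h17lr_rhoU, if_neg h, if_neg h, h17_heckeRep_last j h, map_one, mul_one,
      one_mul, h17lr_g]

theorem h17lr_al_tau (N q : ℕ) (x y : ℤ) (hxy : (q : ℤ) * x - N * y = 1) (j : Fin (q + 1)) :
    h17lr_al q * h17lr_coe (Gamma0 N) (h17lr_tau N q x y hxy j)
      = h17lr_coe (Gamma0 N) (h17lr_tauU N q x y hxy j) * heckeRep q j := by
  by_cases h : (j : ℕ) < q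
  · rw [h17lr_tau, h17lr_tauU, if_pos h, if_pos h, h17_heckeRep_lt j h, h17lr_coe_apply,
      h17_mk_coe, map_one, one_mul, h17lr_al]
    ext a b
    fin_cases a <;> fin_cases b <;> simp [Matrix.mul_apply, Fin.sum_univ_two]
  · rw [h17lr_tau, h17lr_tauU, if_neg h, if_neg h, h17_heckeRep_last j h, h17lr_coe_apply,
      h17lr_coe_apply, h17lr_V, h17lr_V', h17_mk_coe, h17_mk_coe, h17lr_al]
    ext a b
    fin_cases a <;> fin_cases b <;> simp [Matrix.mul_apply, Fin.sum_univ_two] <;> ring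

/-! ## The hypotheses of `h17lr_isReps_of_hecke` -/

theorem h17lr_cover_g {N q : ℕ} (hq : q.Prime) (hqN : ¬ q ∣ N) (γ : Gamma0 N) :
    ∃ (j : Fin (q + 1)) (c : Gamma0 N),
      h17lr_g q * h17lr_coe (Gamma0 N) γ = h17lr_coe (Gamma0 N) c * heckeRep q j := by
  apply h17_exists_decomp N q hq hqN
  · rw [Matrix.det_mul, h17lr_det_g, h17lr_det_coe, mul_one]
  · have := h17lr_dvd_lower' N γ
    simpa [h17lr_g, Matrix.mul_apply, Fin.sum_univ_two] using this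

theorem h17lr_cover_al {N q : ℕ} (hq : q.Prime) (hqN : ¬ q ∣ N) (γ : Gamma0 N) :
    ∃ (j : Fin (q + 1)) (c : Gamma0 N),
      h17lr_al q * h17lr_coe (Gamma0 N) γ = h17lr_coe (Gamma0 N) c * heckeRep q j := by
  apply h17_exists_decomp N q hq hqN
  · rw [Matrix.det_mul, h17lr_det_al, h17lr_det_coe, mul_one]
  · have := h17lr_dvd_lower' N γ
    have e : (h17lr_al q * h17lr_coe (Gamma0 N) γ) 1 0
        = (q : ℤ) * h17lr_coe (Gamma0 N) γ 1 0 := by
      simp [h17lr_al, Matrix.mul_apply, Fin.sum_univ_two]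
    rw [e]
    exact Dvd.dvd.mul_left this _

/-- `g ρ ∈ Γ₀(N) g` implies `ρ ∈ Γ₀(Nq)`. -/
theorem h17lr_stab_g (N q : ℕ) (ρ c : Gamma0 N)
    (h : h17lr_g q * h17lr_coe (Gamma0 N) ρ = h17lr_coe (Gamma0 N) c * h17lr_g q) :
    ρ ∈ (h32_incl N q).range := by
  have h10 := congrFun (congrFun h 1) 0
  simp only [h17lr_g, Matrix.mul_apply, Fin.sum_univ_two, Matrix.of_apply, Matrix.cons_val',
    Matrix.cons_val_zero, Matrix.cons_val_one, Matrix.cons_val_fin_one] at h10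
  simp at h10
  obtain ⟨d, hd⟩ := h17lr_dvd_lower' N c
  have hmem : (ρ : SL(2, ℤ)) ∈ Gamma0 (N * q) := by
    rw [h17_mem_Gamma0_iff]
    refine ⟨d, ?_⟩
    have : h17lr_coe (Gamma0 N) ρ 1 0 = h17lr_coe (Gamma0 N) c 1 0 * q := h10
    rw [h17lr_coe_apply] at this
    rw [this, hd]
    push_cast
    ring
  exact ⟨⟨(ρ : SL(2, ℤ)), hmem⟩, Subtype.ext rfl⟩

/-- `α ρ ∈ Γ₀(N) α` implies `ρ ∈ g Γ₀(Nq) g⁻¹`. -/
theorem h17lr_stab_al (N q : ℕ) [NeZero q] (ρ c : Gamma0 N)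
    (h : h17lr_al q * h17lr_coe (Gamma0 N) ρ = h17lr_coe (Gamma0 N) c * h17lr_al q) :
    ρ ∈ (h32_up N q).range := by
  have hq0 : (q : ℤ) ≠ 0 := Nat.cast_ne_zero.mpr (NeZero.ne q)
  have h00 : h17lr_coe (Gamma0 N) ρ 0 0 = h17lr_coe (Gamma0 N) c 0 0 := by
    have := congrFun (congrFun h 0) 0
    simpa [h17lr_al, Matrix.mul_apply, Fin.sum_univ_two] using this
  have h01 : h17lr_coe (Gamma0 N) ρ 0 1 = (q : ℤ) * h17lr_coe (Gamma0 N) c 0 1 := by
    have := congrFun (congrFun h 0) 1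
    simpa [h17lr_al, Matrix.mul_apply, Fin.sum_univ_two, mul_comm] using this
  have h10 : h17lr_coe (Gamma0 N) c 1 0 = (q : ℤ) * h17lr_coe (Gamma0 N) ρ 1 0 := by
    have := congrFun (congrFun h 1) 0
    simpa [h17lr_al, Matrix.mul_apply, Fin.sum_univ_two] using this.symm
  have h11 : h17lr_coe (Gamma0 N) ρ 1 1 = h17lr_coe (Gamma0 N) c 1 1 := by
    have := congrFun (congrFun h 1) 1
    have h' : (q : ℤ) * h17lr_coe (Gamma0 N) ρ 1 1 = (q : ℤ) * h17lr_coe (Gamma0 N) c 1 1 := by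
      simpa [h17lr_al, Matrix.mul_apply, Fin.sum_univ_two, mul_comm] using this
    exact mul_left_cancel₀ hq0 h'
  obtain ⟨d, hd⟩ := h17lr_dvd_lower' N ρ
  have hmem : (c : SL(2, ℤ)) ∈ Gamma0 (N * q) := by
    rw [h17_mem_Gamma0_iff]
    refine ⟨d, ?_⟩
    have e : ((c : SL(2, ℤ)) : Matrix (Fin 2) (Fin 2) ℤ) 1 0
        = h17lr_coe (Gamma0 N) c 1 0 := rfl
    rw [e, h10, hd]
    push_cast
    ring
  refine ⟨⟨(c : SL(2, ℤ)), hmem⟩, ?_⟩
  apply h17lr_coe_injective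
  rw [h17lr_coe_up]
  have e : h17lr_coe (Gamma0 (N * q)) ⟨(c : SL(2, ℤ)), hmem⟩ = h17lr_coe (Gamma0 N) c := rfl
  rw [e]
  generalize h17lr_coe (Gamma0 N) c = mc at h00 h01 h10 h11 ⊢
  generalize h17lr_coe (Gamma0 N) ρ = mρ at h00 h01 h10 h11 ⊢
  ext a b
  fin_cases a <;> fin_cases b
  · simpa using h00.symm
  · simpa using h01.symm
  · simp [h10, Int.mul_ediv_cancel_left _ hq0]
  · simpa using h11.symm

/-! ## Systems of representatives -/

theorem h17lr_exists_bezout {N q : ℕ} (hq : q.Prime) (hqN : ¬ q ∣ N) :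
    ∃ x y : ℤ, (q : ℤ) * x - N * y = 1 := by
  have hcop : IsCoprime (q : ℤ) (N : ℤ) := by
    rw [Int.isCoprime_iff_gcd_eq_one, Int.gcd_natCast_natCast]
    exact (Nat.Prime.coprime_iff_not_dvd hq).mpr hqN
  obtain ⟨a, b, hab⟩ := hcop
  exact ⟨a, -b, by linear_combination hab⟩

theorem h17lr_isReps_rho {N q : ℕ} [NeZero q] (hq : q.Prime) (hqN : ¬ q ∣ N) (x y : ℤ)
    (hxy : (q : ℤ) * x - N * y = 1) :
    h17lr_IsReps (h32_incl N q) (h17lr_rho N q x y hxy) :=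
  h17lr_isReps_of_hecke (f' := h32_up N q) (e := h17lr_coe (Gamma0 N)) (a := h17lr_g q)
    (B := heckeRep q) (u := h17lr_rhoU N q x y hxy)
    (h17lr_g_incl N q) (h17lr_g_rho N q x y hxy) (h17lr_free_heckeRep N hq)
    (h17lr_cover_g hq hqN) (h17lr_stab_g N q)

theorem h17lr_isReps_tau {N q : ℕ} [NeZero q] (hq : q.Prime) (hqN : ¬ q ∣ N) (x y : ℤ)
    (hxy : (q : ℤ) * x - N * y = 1) :
    h17lr_IsReps (h32_up N q) (h17lr_tau N q x y hxy) :=
  h17lr_isReps_of_hecke (f' := h32_incl N q) (e := h17lr_coe (Gamma0 N)) (a := h17lr_al q)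
    (B := heckeRep q) (u := h17lr_tauU N q x y hxy)
    (h17lr_al_up N q) (h17lr_al_tau N q x y hxy) (h17lr_free_heckeRep N hq)
    (h17lr_cover_al hq hqN) (h17lr_stab_al N q)

theorem h17lr_g_det_ne {q : ℕ} (hq : q.Prime) : (h17lr_g q).det ≠ 0 := by
  rw [h17lr_det_g]
  exact_mod_cast hq.ne_zero

theorem h17lr_al_det_ne {q : ℕ} (hq : q.Prime) : (h17lr_al q).det ≠ 0 := by
  rw [h17lr_det_al]
  exact_mod_cast hq.ne_zero

theorem h17lr_one_incl (N q : ℕ) (h : Gamma0 (N * q)) :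
    (1 : Matrix (Fin 2) (Fin 2) ℤ) * h17lr_coe (Gamma0 N) (h32_incl N q h)
      = h17lr_coe (Gamma0 (N * q)) h * 1 := by
  rw [one_mul, mul_one]
  rfl

theorem h17lr_al_up' (N q : ℕ) [NeZero q] (h : Gamma0 (N * q)) :
    h17lr_al q * h17lr_coe (Gamma0 N) (h32_up N q h)
      = h17lr_coe (Gamma0 (N * q)) h * h17lr_al q :=
  h17lr_al_up N q h

/-! ## The specifications of `cor₁`, `cor₂` -/

theorem h17lr_cor1_spec : h17lr_Cor1Spec := by
  intro N q _ hq hqN y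
  obtain ⟨a, b, hab⟩ := h17lr_exists_bezout hq hqN
  exact h17lr_corLin_spec (h32_incl_injective N q) (a := 1) (by simp)
    (h17lr_one_incl N q) (h17lr_isReps_rho hq hqN a b hab) y

theorem h17lr_cor2_spec : h17lr_Cor2Spec := by
  intro N q _ hq hqN y
  obtain ⟨a, b, hab⟩ := h17lr_exists_bezout hq hqN
  exact h17lr_corLin_spec (h32_up_injective N q) (h17lr_al_det_ne hq)
    (h17lr_al_up' N q) (h17lr_isReps_tau hq hqN a b hab) y

/-- uniqueness of `cor₁`. -/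
theorem h17lr_cor1_eq {N q : ℕ} [NeZero q] (hq : q.Prime) (hqN : ¬ q ∣ N)
    (y : h17lr_L (N * q)) {z : Additive (Gamma0 N) →+ ℤ}
    (h : h17lr_IsCor (h32_incl N q) (y : Additive (Gamma0 (N * q)) →+ ℤ) z) :
    (h17lr_cor1 N q y : Additive (Gamma0 N) →+ ℤ) = z := by
  obtain ⟨a, b, hab⟩ := h17lr_exists_bezout hq hqN
  exact h17lr_cor_unique (h17lr_isReps_rho hq hqN a b hab) (h17lr_cor1_spec N q hq hqN y) h

/-- uniqueness of `cor₂`. -/
theorem h17lr_cor2_eq {N q : ℕ} [NeZero q] (hq : q.Prime) (hqN : ¬ q ∣ N)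
    (y : h17lr_L (N * q)) {z : Additive (Gamma0 N) →+ ℤ}
    (h : h17lr_IsCor (h32_up N q) (y : Additive (Gamma0 (N * q)) →+ ℤ) z) :
    (h17lr_cor2 N q y : Additive (Gamma0 N) →+ ℤ) = z := by
  obtain ⟨a, b, hab⟩ := h17lr_exists_bezout hq hqN
  exact h17lr_cor_unique (h17lr_isReps_tau hq hqN a b hab) (h17lr_cor2_spec N q hq hqN y) h

/-! ## `cor_i ∘ res_j`, relationally (any coefficients) -/

section Relational

variable {N q : ℕ} [NeZero q] {A : Type*} [AddCommGroup A]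

/-- `cor₁ (res₁ x) = (q + 1) x`. -/
theorem h17lr_isCor1_res1 (hq : q.Prime) (hqN : ¬ q ∣ N) (x : Additive (Gamma0 N) →+ A)
    {z : Additive (Gamma0 N) →+ A} (h : h17lr_IsCor (h32_incl N q) (h17lr_res (h32_incl N q) x) z) :
    z = (q + 1) • x := by
  obtain ⟨a, b, hab⟩ := h17lr_exists_bezout hq hqN
  have := h17lr_cor_res (h32_incl_injective N q) (h17lr_isReps_rho hq hqN a b hab) x h
  rw [this, Fintype.card_fin]

/-- `cor₂ (res₂ x) = (q + 1) x`. -/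
theorem h17lr_isCor2_res2 (hq : q.Prime) (hqN : ¬ q ∣ N) (x : Additive (Gamma0 N) →+ A)
    {z : Additive (Gamma0 N) →+ A} (h : h17lr_IsCor (h32_up N q) (h17lr_res (h32_up N q) x) z) :
    z = (q + 1) • x := by
  obtain ⟨a, b, hab⟩ := h17lr_exists_bezout hq hqN
  have := h17lr_cor_res (h32_up_injective N q) (h17lr_isReps_tau hq hqN a b hab) x h
  rw [this, Fintype.card_fin]

/-- `cor₁ (res₂ x) = T_q x`. -/
theorem h17lr_isCor1_res2 (hq : q.Prime) (hqN : ¬ q ∣ N) (x : Additive (Gamma0 N) →+ A)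
    {z : Additive (Gamma0 N) →+ A} (h : h17lr_IsCor (h32_incl N q) (h17lr_res (h32_up N q) x) z) :
    IsCohHeckeAdd N q x z := by
  obtain ⟨a, b, hab⟩ := h17lr_exists_bezout hq hqN
  exact h17lr_isCohHeckeAdd_iff.mpr
    (h17lr_cor_res_hecke (f := h32_incl N q) (f' := h32_up N q) (e := h17lr_coe (Gamma0 N))
      (a := h17lr_g q) (B := heckeRep q) (r := h17lr_rho N q a b hab)
      (u := h17lr_rhoU N q a b hab)
      (h17lr_coe_injective _) (h17lr_mul_right_cancel (h17lr_g_det_ne hq))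
      (h17lr_g_incl N q) (h17lr_g_rho N q a b hab) (h17lr_free_heckeRep N hq)
      (h17lr_stab_g N q) (h17lr_isReps_rho hq hqN a b hab) x h)

/-- `cor₂ (res₁ x) = T_q x`. -/
theorem h17lr_isCor2_res1 (hq : q.Prime) (hqN : ¬ q ∣ N) (x : Additive (Gamma0 N) →+ A)
    {z : Additive (Gamma0 N) →+ A} (h : h17lr_IsCor (h32_up N q) (h17lr_res (h32_incl N q) x) z) :
    IsCohHeckeAdd N q x z := by
  obtain ⟨a, b, hab⟩ := h17lr_exists_bezout hq hqN
  exact h17lr_isCohHeckeAdd_iff.mpr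
    (h17lr_cor_res_hecke (f := h32_up N q) (f' := h32_incl N q) (e := h17lr_coe (Gamma0 N))
      (a := h17lr_al q) (B := heckeRep q) (r := h17lr_tau N q a b hab)
      (u := h17lr_tauU N q a b hab)
      (h17lr_coe_injective _) (h17lr_mul_right_cancel (h17lr_al_det_ne hq))
      (h17lr_al_up N q) (h17lr_al_tau N q a b hab) (h17lr_free_heckeRep N hq)
      (h17lr_stab_al N q) (h17lr_isReps_tau hq hqN a b hab) x h)

end Relational

/-! ## `CorRes` -/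

theorem h17lr_corRes : h17lr_CorRes := by
  intro N q _ hq hqN x
  have e : ∀ z : Additive (Gamma0 N) →+ ℤ, (q + 1) • z = ((q : ℤ) + 1) • z := by
    intro z
    rw [← Nat.cast_smul_eq_nsmul ℤ (q + 1) z]
    push_cast
    rfl
  refine ⟨?_, ?_, ?_, ?_⟩
  · apply Subtype.ext
    have h := h17lr_cor1_spec N q hq hqN (h17lr_res1 N q x)
    rw [h17lr_res1_coe] at h
    rw [h17lr_isCor1_res1 hq hqN _ h, e]
    rfl
  · apply Subtype.ext
    have h := h17lr_cor2_spec N q hq hqN (h17lr_res2 N q x)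
    rw [h17lr_res2_coe] at h
    rw [h17lr_isCor2_res2 hq hqN _ h, e]
    rfl
  · apply Subtype.ext
    have h := h17lr_cor1_spec N q hq hqN (h17lr_res2 N q x)
    rw [h17lr_res2_coe] at h
    exact (h17lr_T_eq hq hqN x (h17lr_isCor1_res2 hq hqN _ h)).symm
  · apply Subtype.ext
    have h := h17lr_cor2_spec N q hq hqN (h17lr_res1 N q x)
    rw [h17lr_res1_coe] at h
    exact (h17lr_T_eq hq hqN x (h17lr_isCor2_res1 hq hqN _ h)).symm

/-! ## The transfers as operators of explicit families of integral matrices -/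

section Bridge

variable {N q : ℕ} [NeZero q] {A : Type*} [AddCommGroup A]

/-- the family of `cor₁`: `ρ_j = [[x, x j + y], [N, N j + q]]` (`j < q`) and `1`. -/
def h17lr_fam1 (N q : ℕ) (x y : ℤ) (j : Fin (q + 1)) : Matrix (Fin 2) (Fin 2) ℤ :=
  if (j : ℕ) < q then !![x, x * ((j : ℕ) : ℤ) + y; (N : ℤ), N * ((j : ℕ) : ℤ) + q] else 1

/-- the family of `cor₂`: `δ_j = [[1, j], [0, q]]` (`j < q`) and `W = [[q x, y], [N q, q]]`. -/
def h17lr_fam2 (N q : ℕ) (x y : ℤ) (j : Fin (q + 1)) : Matrix (Fin 2) (Fin 2) ℤ :=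
  if (j : ℕ) < q then !![1, ((j : ℕ) : ℤ); 0, (q : ℤ)]
  else !![(q : ℤ) * x, y; (N : ℤ) * q, (q : ℤ)]

theorem h17lr_fam1_eq (x y : ℤ) (hxy : (q : ℤ) * x - N * y = 1) :
    h17lr_fam1 N q x y
      = fun j => 1 * h17lr_coe (Gamma0 N) (h17lr_rho N q x y hxy j) := by
  funext j
  rw [one_mul]
  by_cases h : (j : ℕ) < q
  · rw [h17lr_fam1, h17lr_rho, if_pos h, if_pos h]
    rfl
  · rw [h17lr_fam1, h17lr_rho, if_neg h, if_neg h, map_one]

theorem h17lr_fam2_eq (x y : ℤ) (hxy : (q : ℤ) * x - N * y = 1) :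
    h17lr_fam2 N q x y
      = fun j => h17lr_al q * h17lr_coe (Gamma0 N) (h17lr_tau N q x y hxy j) := by
  funext j
  by_cases h : (j : ℕ) < q
  · rw [h17lr_fam2, h17lr_tau, if_pos h, if_pos h, h17lr_coe_apply, h17_mk_coe, h17lr_al]
    ext a b
    fin_cases a <;> fin_cases b <;> simp [Matrix.mul_apply, Fin.sum_univ_two]
  · rw [h17lr_fam2, h17lr_tau, if_neg h, if_neg h, h17lr_coe_apply, h17lr_V, h17_mk_coe,
      h17lr_al]
    ext a b
    fin_cases a <;> fin_cases b <;> simp [Matrix.mul_apply, Fin.sum_univ_two] <;> ring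

/-- `cor₁` is the operator of the family `h17lr_fam1`. -/
theorem h17lr_isCor1_iff (hq : q.Prime) (hqN : ¬ q ∣ N) (x y : ℤ)
    (hxy : (q : ℤ) * x - N * y = 1) {φ : Additive (Gamma0 (N * q)) →+ A}
    {ψ : Additive (Gamma0 N) →+ A} :
    h17lr_IsCor (h32_incl N q) φ ψ
      ↔ h17lr_IsOp (h17lr_coe (Gamma0 (N * q))) (h17lr_coe (Gamma0 N))
          (h17lr_fam1 N q x y) φ ψ := by
  rw [h17lr_fam1_eq x y hxy,
    h17lr_isOp_twist (f := h32_incl N q) (h17lr_coe_injective (Gamma0 N))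
      (fun m m' h => by simpa using h) (h17lr_one_incl N q)]
  constructor
  · intro h
    exact h17lr_isCor_iff.mp h _ _ (h17lr_isReps_rho hq hqN x y hxy)
  · intro h
    exact h17lr_isCor_of_isOp (h32_incl_injective N q) (h17lr_isReps_rho hq hqN x y hxy) h

/-- `cor₂` is the operator of the family `h17lr_fam2`. -/
theorem h17lr_isCor2_iff (hq : q.Prime) (hqN : ¬ q ∣ N) (x y : ℤ)
    (hxy : (q : ℤ) * x - N * y = 1) {φ : Additive (Gamma0 (N * q)) →+ A}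
    {ψ : Additive (Gamma0 N) →+ A} :
    h17lr_IsCor (h32_up N q) φ ψ
      ↔ h17lr_IsOp (h17lr_coe (Gamma0 (N * q))) (h17lr_coe (Gamma0 N))
          (h17lr_fam2 N q x y) φ ψ := by
  rw [h17lr_fam2_eq x y hxy,
    h17lr_isOp_twist (f := h32_up N q) (h17lr_coe_injective (Gamma0 N))
      (h17lr_mul_left_cancel (h17lr_al_det_ne hq)) (h17lr_al_up' N q)]
  constructor
  · intro h
    exact h17lr_isCor_iff.mp h _ _ (h17lr_isReps_tau hq hqN x y hxy)
  · intro h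
    exact h17lr_isCor_of_isOp (h32_up_injective N q) (h17lr_isReps_tau hq hqN x y hxy) h

/-- `res₁` is the operator of the family `{1}`, `res₂` of the family `{diag(q, 1)}`. -/
theorem h17lr_isOp_res1 (x : Additive (Gamma0 N) →+ A) :
    h17lr_IsOp (h17lr_coe (Gamma0 N)) (h17lr_coe (Gamma0 (N * q)))
      (fun _ : Fin 1 => (1 : Matrix (Fin 2) (Fin 2) ℤ)) x (h17lr_res (h32_incl N q) x) := by
  intro γ π c hd
  have h0 := hd 0
  simp only [one_mul, mul_one] at h0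
  have hc : c 0 = h32_incl N q γ := (h17lr_coe_injective (Gamma0 N) h0).symm
  rw [Fin.sum_univ_one, hc]
  rfl

theorem h17lr_isOp_res2 (hq : q.Prime) (x : Additive (Gamma0 N) →+ A) :
    h17lr_IsOp (h17lr_coe (Gamma0 N)) (h17lr_coe (Gamma0 (N * q)))
      (fun _ : Fin 1 => h17lr_g q) x (h17lr_res (h32_up N q) x) := by
  intro γ π c hd
  have h0 := hd 0
  simp only at h0
  have h1 := h17lr_g_incl N q γ
  rw [h17lr_coe_incl] at h1
  rw [h1] at h0
  have hc : c 0 = h32_up N q γ :=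
    (h17lr_coe_injective (Gamma0 N)
      (h17lr_mul_right_cancel (h17lr_g_det_ne hq) _ _ h0)).symm
  rw [Fin.sum_univ_one, hc]
  rfl

end Bridge

end Fermat.Agent.LR
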