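/-
P-LR (S41), LR-COH: `res₁`, `res₂` commute with `T_ℓ` (`ℓ ∤ N q`), conditional on the
specification `h17lr_TSpec` of `h17lr_T`.  (helper81)

`res₁`: a level `N q` Hecke decomposition is a level `N` one.
`res₂`: conjugate the decomposition by `g = diag(q, 1)`:
`g [[1, j], [0, ℓ]] g⁻¹ = [[1, q j], [0, ℓ]] = [[1, k], [0, 1]] [[1, (q j) % ℓ], [0, ℓ]]`.
-/
import Fermat.Agent.LR.CohDefs

set_option autoImplicit false

open ModularCurve CongruenceSubgroup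
open scoped MatrixGroups

noncomputable section

namespace Fermat.Agent.LR

open Fermat.Agent.Jac

/-- the target of `IsCohHeckeAdd` is unique. -/
theorem h81r_cohHecke_unique {M ℓ : ℕ} (hℓ : ℓ.Prime) (hℓM : ¬ ℓ ∣ M) {A : Type*}
    [AddCommMonoid A] {φ ψ ψ' : Additive (Gamma0 M) →+ A}
    (h : IsCohHeckeAdd M ℓ φ ψ) (h' : IsCohHeckeAdd M ℓ φ ψ') : ψ = ψ' := by
  apply AddMonoidHom.ext
  intro a
  obtain ⟨π, c, hd⟩ := h17_heckeDecomp_exists M ℓ hℓ hℓM (Additive.toMul a)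
  have e1 := h _ π c hd
  have e2 := h' _ π c hd
  rw [ofMul_toMul] at e1 e2
  rw [e1, e2]

/-- `g = diag(q, 1)`. -/
def h81r_G (q : ℕ) : Matrix (Fin 2) (Fin 2) ℤ := !![(q : ℤ), 0; 0, 1]

theorem h81r_mul_G (q : ℕ) (X : Matrix (Fin 2) (Fin 2) ℤ) :
    X * h81r_G q = !![X 0 0 * q, X 0 1; X 1 0 * q, X 1 1] := by
  ext i j
  fin_cases i <;> fin_cases j <;> simp [h81r_G, Matrix.mul_apply, Fin.sum_univ_two]

theorem h81r_G_mul (q : ℕ) (X : Matrix (Fin 2) (Fin 2) ℤ) :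
    h81r_G q * X = !![q * X 0 0, q * X 0 1; X 1 0, X 1 1] := by
  ext i j
  fin_cases i <;> fin_cases j <;> simp [h81r_G, Matrix.mul_apply, Fin.sum_univ_two]

theorem h81r_G_cancel {q : ℕ} [NeZero q] {X Y : Matrix (Fin 2) (Fin 2) ℤ}
    (h : X * h81r_G q = Y * h81r_G q) : X = Y := by
  have hq : ¬ q = 0 := NeZero.ne q
  rw [h81r_mul_G, h81r_mul_G] at h
  have h00 := congrFun (congrFun h 0) 0
  have h01 := congrFun (congrFun h 0) 1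
  have h10 := congrFun (congrFun h 1) 0
  have h11 := congrFun (congrFun h 1) 1
  simp at h00 h01 h10 h11
  ext i j
  fin_cases i <;> fin_cases j
  · exact h00.resolve_right hq
  · exact h01
  · exact h10.resolve_right hq
  · exact h11

theorem h81r_up_mul_G (N q : ℕ) [NeZero q] (γ : Gamma0 (N * q)) :
    (((h32_up N q γ : Gamma0 N) : SL(2, ℤ)) : Matrix (Fin 2) (Fin 2) ℤ) * h81r_G q
      = h81r_G q * ((γ : SL(2, ℤ)) : Matrix (Fin 2) (Fin 2) ℤ) := by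
  have hmem := (h32_mem_Gamma0_iff (N * q) γ.1).1 γ.2
  have hq : (q : ℤ) ∣ (γ : SL(2, ℤ)) 1 0 :=
    Dvd.dvd.trans ⟨(N : ℤ), by push_cast; ring⟩ hmem
  rw [h81r_mul_G, h81r_G_mul]
  have e : (((h32_up N q γ : Gamma0 N) : SL(2, ℤ)) : Matrix (Fin 2) (Fin 2) ℤ)
      = !![(γ : SL(2, ℤ)) 0 0, q * (γ : SL(2, ℤ)) 0 1;
          (γ : SL(2, ℤ)) 1 0 / q, (γ : SL(2, ℤ)) 1 1] := rfl
  rw [e]
  ext i j
  fin_cases i <;> fin_cases j
  · simp [mul_comm]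
  · simp
  · simp [Int.ediv_mul_cancel hq]
  · simp

/-- the conjugates `g δ_i g⁻¹` of the Hecke representatives. -/
def h81r_rep (q ℓ : ℕ) (i : Fin (ℓ + 1)) : Matrix (Fin 2) (Fin 2) ℤ :=
  if (i : ℕ) < ℓ then !![1, (q : ℤ) * ((i : ℕ) : ℤ); 0, (ℓ : ℤ)] else !![(ℓ : ℤ), 0; 0, 1]

theorem h81r_rep_mul_G (q ℓ : ℕ) (i : Fin (ℓ + 1)) :
    h81r_rep q ℓ i * h81r_G q = h81r_G q * heckeRep ℓ i := by
  rw [h81r_mul_G, h81r_G_mul]
  by_cases h : (i : ℕ) < ℓ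
  · rw [h17_heckeRep_lt i h]
    unfold h81r_rep
    rw [if_pos h]
    ext a b
    fin_cases a <;> fin_cases b <;> simp
  · rw [h17_heckeRep_last i h]
    unfold h81r_rep
    rw [if_neg h]
    ext a b
    fin_cases a <;> fin_cases b <;> simp [mul_comm]

/-- the permutation `j ↦ q j mod ℓ` of the indices. -/
def h81r_sig (q ℓ : ℕ) (i : Fin (ℓ + 1)) : Fin (ℓ + 1) :=
  if h : (i : ℕ) < ℓ then ⟨(q * (i : ℕ)) % ℓ, by
    have : (q * (i : ℕ)) % ℓ < ℓ := Nat.mod_lt _ (by omega)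
    omega⟩ else i

theorem h81r_sig_lt {q ℓ : ℕ} (i : Fin (ℓ + 1)) (h : (i : ℕ) < ℓ) :
    ((h81r_sig q ℓ i : Fin (ℓ + 1)) : ℕ) = (q * (i : ℕ)) % ℓ := by
  unfold h81r_sig
  rw [dif_pos h]

theorem h81r_sig_last {q ℓ : ℕ} (i : Fin (ℓ + 1)) (h : ¬ (i : ℕ) < ℓ) :
    h81r_sig q ℓ i = i := by
  unfold h81r_sig
  rw [dif_neg h]

theorem h81r_sig_lt_iff {q ℓ : ℕ} (i : Fin (ℓ + 1)) :
    ((h81r_sig q ℓ i : Fin (ℓ + 1)) : ℕ) < ℓ ↔ (i : ℕ) < ℓ := by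
  by_cases h : (i : ℕ) < ℓ
  · rw [h81r_sig_lt i h]
    exact ⟨fun _ => h, fun _ => Nat.mod_lt _ (by omega)⟩
  · rw [h81r_sig_last i h]

theorem h81r_sig_injective {q ℓ : ℕ} (hqℓ : Nat.Coprime q ℓ) :
    Function.Injective (h81r_sig q ℓ) := by
  intro i i' h
  by_cases hi : (i : ℕ) < ℓ
  · have hi' : (i' : ℕ) < ℓ := by
      rw [← h81r_sig_lt_iff (q := q), ← h, h81r_sig_lt_iff]
      exact hi
    have e := congrArg (fun x : Fin (ℓ + 1) => (x : ℕ)) h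
    simp only [h81r_sig_lt i hi, h81r_sig_lt i' hi'] at e
    have e2 : (i : ℕ) ≡ (i' : ℕ) [MOD ℓ] :=
      Nat.ModEq.cancel_left_of_coprime (Nat.coprime_comm.mp hqℓ) e
    apply Fin.ext
    exact Nat.ModEq.eq_of_lt_of_lt e2 hi hi'
  · have hi' : ¬ (i' : ℕ) < ℓ := by
      rw [← h81r_sig_lt_iff (q := q), ← h, h81r_sig_lt_iff]
      exact hi
    rw [h81r_sig_last i hi, h81r_sig_last i' hi'] at h
    exact h

/-- the unipotent correction `[[1, (q j) / ℓ], [0, 1]]`. -/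
def h81r_u (N q ℓ : ℕ) (i : Fin (ℓ + 1)) : Gamma0 N :=
  h17_mk N 1 (if (i : ℕ) < ℓ then (((q * (i : ℕ)) / ℓ : ℕ) : ℤ) else 0) 0 1 (by ring)
    (dvd_zero _)

theorem h81r_rep_eq (N q ℓ : ℕ) (i : Fin (ℓ + 1)) :
    h81r_rep q ℓ i = (((h81r_u N q ℓ i : Gamma0 N) : SL(2, ℤ)) : Matrix (Fin 2) (Fin 2) ℤ)
      * heckeRep ℓ (h81r_sig q ℓ i) := by
  unfold h81r_u
  rw [h17_mk_coe]
  by_cases h : (i : ℕ) < ℓ
  · have hs : ((h81r_sig q ℓ i : Fin (ℓ + 1)) : ℕ) < ℓ := (h81r_sig_lt_iff i).mpr h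
    rw [h17_heckeRep_lt _ hs, h81r_sig_lt i h, if_pos h]
    unfold h81r_rep
    rw [if_pos h]
    have key : ((q : ℤ)) * ((i : ℕ) : ℤ)
        = (((q * (i : ℕ)) % ℓ : ℕ) : ℤ) + (((q * (i : ℕ)) / ℓ : ℕ) : ℤ) * (ℓ : ℤ) := by
      have := Nat.mod_add_div (q * (i : ℕ)) ℓ
      have h2 : ((q * (i : ℕ) : ℕ) : ℤ)
          = (((q * (i : ℕ)) % ℓ + ℓ * ((q * (i : ℕ)) / ℓ) : ℕ) : ℤ) := by rw [this]
      push_cast at h2
      push_cast
      linarith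
    ext a b
    fin_cases a <;> fin_cases b <;> simp [Matrix.mul_apply, Fin.sum_univ_two]
    exact key
  · rw [h81r_sig_last i h, h17_heckeRep_last i h, if_neg h]
    unfold h81r_rep
    rw [if_neg h]
    ext a b
    fin_cases a <;> fin_cases b <;> simp [Matrix.mul_apply, Fin.sum_univ_two]

/-- conjugating a level `N q` decomposition by `diag(q, 1)`. -/
theorem h81r_conj_decomp {N q ℓ : ℕ} [NeZero q] {γ : Gamma0 (N * q)}
    {π : Fin (ℓ + 1) → Fin (ℓ + 1)} {c : Fin (ℓ + 1) → Gamma0 (N * q)}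
    (hd : HeckeDecomp (N * q) ℓ γ π c) (i : Fin (ℓ + 1)) :
    h81r_rep q ℓ i * (((h32_up N q γ : Gamma0 N) : SL(2, ℤ)) : Matrix (Fin 2) (Fin 2) ℤ)
      = (((h32_up N q (c i) : Gamma0 N) : SL(2, ℤ)) : Matrix (Fin 2) (Fin 2) ℤ)
        * h81r_rep q ℓ (π i) := by
  apply h81r_G_cancel (q := q)
  rw [Matrix.mul_assoc, h81r_up_mul_G, ← Matrix.mul_assoc, h81r_rep_mul_G, Matrix.mul_assoc,
    hd i, ← Matrix.mul_assoc, ← h81r_up_mul_G, Matrix.mul_assoc, ← h81r_rep_mul_G,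
    Matrix.mul_assoc]

theorem h81r_res2_decomp {N q ℓ : ℕ} [NeZero q] {γ : Gamma0 (N * q)}
    {π : Fin (ℓ + 1) → Fin (ℓ + 1)} {c : Fin (ℓ + 1) → Gamma0 (N * q)}
    (hd : HeckeDecomp (N * q) ℓ γ π c) (i : Fin (ℓ + 1)) :
    heckeRep ℓ (h81r_sig q ℓ i)
        * (((h32_up N q γ : Gamma0 N) : SL(2, ℤ)) : Matrix (Fin 2) (Fin 2) ℤ)
      = ((((h81r_u N q ℓ i)⁻¹ * h32_up N q (c i) * h81r_u N q ℓ (π i) : Gamma0 N) : SL(2, ℤ)) :
          Matrix (Fin 2) (Fin 2) ℤ) * heckeRep ℓ (h81r_sig q ℓ (π i)) := by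
  have h := h81r_conj_decomp hd i
  rw [h81r_rep_eq N q ℓ i, h81r_rep_eq N q ℓ (π i)] at h
  have hinv : ((((h81r_u N q ℓ i)⁻¹ : Gamma0 N) : SL(2, ℤ)) : Matrix (Fin 2) (Fin 2) ℤ)
      * (((h81r_u N q ℓ i : Gamma0 N) : SL(2, ℤ)) : Matrix (Fin 2) (Fin 2) ℤ) = 1 := by
    rw [← Matrix.SpecialLinearGroup.coe_mul, ← Subgroup.coe_mul, inv_mul_cancel]
    rfl
  calc heckeRep ℓ (h81r_sig q ℓ i)
        * (((h32_up N q γ : Gamma0 N) : SL(2, ℤ)) : Matrix (Fin 2) (Fin 2) ℤ)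
      = ((((h81r_u N q ℓ i)⁻¹ : Gamma0 N) : SL(2, ℤ)) : Matrix (Fin 2) (Fin 2) ℤ)
          * ((((h81r_u N q ℓ i : Gamma0 N) : SL(2, ℤ)) : Matrix (Fin 2) (Fin 2) ℤ)
            * heckeRep ℓ (h81r_sig q ℓ i)
            * (((h32_up N q γ : Gamma0 N) : SL(2, ℤ)) : Matrix (Fin 2) (Fin 2) ℤ)) := by
        rw [Matrix.mul_assoc, ← Matrix.mul_assoc _ _ (heckeRep ℓ (h81r_sig q ℓ i) * _), hinv,
          Matrix.one_mul]
    _ = _ := by
        rw [h]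
        simp only [Subgroup.coe_mul, Matrix.SpecialLinearGroup.coe_mul, Matrix.mul_assoc]

/-- `res₁` commutes with `T_ℓ`. -/
theorem h81r_res1T (hT : h17lr_TSpec) (N q ℓ : ℕ) (hℓ : ℓ.Prime) (hℓNq : ¬ ℓ ∣ N * q)
    (x : h17lr_L N) :
    h17lr_res1 N q (h17lr_T N ℓ x) = h17lr_T (N * q) ℓ (h17lr_res1 N q x) := by
  have hℓN : ¬ ℓ ∣ N := fun h => hℓNq (Dvd.dvd.mul_right h q)
  apply Subtype.ext
  refine h81r_cohHecke_unique hℓ hℓNq (φ := (h17lr_res1 N q x : Additive (Gamma0 (N * q)) →+ ℤ))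
    ?_ (hT (N * q) ℓ hℓ hℓNq _)
  intro γ π c hd
  rw [h17lr_res1_apply]
  exact hT N ℓ hℓ hℓN x (h32_incl N q γ) π (fun i => h32_incl N q (c i)) (fun i => hd i)

/-- `res₂` commutes with `T_ℓ`. -/
theorem h81r_res2T (hT : h17lr_TSpec) (N q ℓ : ℕ) [NeZero q] (hℓ : ℓ.Prime)
    (hℓNq : ¬ ℓ ∣ N * q) (x : h17lr_L N) :
    h17lr_res2 N q (h17lr_T N ℓ x) = h17lr_T (N * q) ℓ (h17lr_res2 N q x) := by
  have hℓN : ¬ ℓ ∣ N := fun h => hℓNq (Dvd.dvd.mul_right h q)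
  have hℓq : ¬ ℓ ∣ q := fun h => hℓNq (Dvd.dvd.mul_left h N)
  have hqℓ : Nat.Coprime q ℓ := by
    rw [Nat.coprime_comm]
    exact (Nat.Prime.coprime_iff_not_dvd hℓ).mpr hℓq
  apply Subtype.ext
  refine h81r_cohHecke_unique hℓ hℓNq (φ := (h17lr_res2 N q x : Additive (Gamma0 (N * q)) →+ ℤ))
    ?_ (hT (N * q) ℓ hℓ hℓNq _)
  intro γ π c hd
  rw [h17lr_res2_apply]
  have hπ : Function.Bijective π := h17_heckeDecomp_bijective hℓ hd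
  have hσ : Function.Bijective (h81r_sig q ℓ) :=
    Finite.injective_iff_bijective.mp (h81r_sig_injective hqℓ)
  let e : Fin (ℓ + 1) ≃ Fin (ℓ + 1) := Equiv.ofBijective _ hσ
  have he : ∀ i, e i = h81r_sig q ℓ i := fun i => rfl
  have hd' : HeckeDecomp N ℓ (h32_up N q γ) (fun i' => e (π (e.symm i')))
      (fun i' => (h81r_u N q ℓ (e.symm i'))⁻¹ * h32_up N q (c (e.symm i'))
        * h81r_u N q ℓ (π (e.symm i'))) := by
    intro i'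
    have h := h81r_res2_decomp (N := N) hd (e.symm i')
    rw [← he, ← he, Equiv.apply_symm_apply] at h
    exact h
  rw [hT N ℓ hℓ hℓN x (h32_up N q γ) _ _ hd', ← Equiv.sum_comp e]
  simp only [Equiv.symm_apply_apply, ofMul_mul, ofMul_inv, map_add, map_neg,
    Finset.sum_add_distrib, Finset.sum_neg_distrib]
  have hsum : (∑ i, (x : Additive (Gamma0 N) →+ ℤ) (Additive.ofMul (h81r_u N q ℓ (π i))))
      = ∑ i, (x : Additive (Gamma0 N) →+ ℤ) (Additive.ofMul (h81r_u N q ℓ i)) :=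
    Function.Bijective.sum_comp hπ
      (fun i => (x : Additive (Gamma0 N) →+ ℤ) (Additive.ofMul (h81r_u N q ℓ i)))
  rw [hsum]
  simp only [h17lr_res2_apply]
  abel

/-- **LR-COH, `ResT`** (conditional on the specification of `T`). -/
theorem h81r_resT (hT : h17lr_TSpec) : h17lr_ResT := by
  intro N q _ ℓ _ _ hℓ hℓNq x
  exact ⟨h81r_res1T hT N q ℓ hℓ hℓNq x, h81r_res2T hT N q ℓ hℓ hℓNq x⟩

end Fermat.Agent.LR
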