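/-
P-LR (S41), LR-COH: `h17lr_ResT` unconditionally, and the formal derivation of `CorT`-type
statements from adjointness (for the assembly: `β T_Y = T_X β` from `α T_X = T_Y α`,
adjointness of `α`, `β`, self-adjointness of `T_X`, `T_Y` and nondegeneracy of `B_X`).
(helper81)
-/
import Fermat.Agent.LR.CohResT81
import Fermat.Agent.LR.CohPar

set_option autoImplicit false

namespace Fermat.Agent.LR

/-- **LR-COH, `ResT`.** `res₁`, `res₂` commute with `T_ℓ` (`ℓ ∤ N q`). -/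
theorem h81r_resT_final : h17lr_ResT := h81r_resT h17lr_T_spec

/-- The adjoint `β` of a `T`-equivariant map `α` is `T`-equivariant, if `T_X`, `T_Y` are
self-adjoint and `B_X` is nondegenerate in the second slot. -/
theorem h81r_adj_comm {X Y : Type*} [AddCommGroup X] [AddCommGroup Y]
    (BX : X →ₗ[ℤ] X →ₗ[ℤ] ℤ) (BY : Y →ₗ[ℤ] Y →ₗ[ℤ] ℤ)
    (hBX : ∀ z, (∀ x, BX x z = 0) → z = 0)
    (α : X →ₗ[ℤ] Y) (β : Y →ₗ[ℤ] X) (hadj : ∀ x y, BY (α x) y = BX x (β y))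
    (TX : X →ₗ[ℤ] X) (TY : Y →ₗ[ℤ] Y) (hαT : ∀ x, α (TX x) = TY (α x))
    (hsX : ∀ z x, BX (TX z) x = BX z (TX x)) (hsY : ∀ z y, BY (TY z) y = BY z (TY y))
    (y : Y) : β (TY y) = TX (β y) := by
  rw [← sub_eq_zero]
  apply hBX
  intro x
  rw [map_sub, ← hadj, ← hsY, ← hαT, hadj, hsX, sub_self]

/-- Variant of `h81r_adj_comm`: `B_X` antisymmetric and nondegenerate in the first slot. -/
theorem h81r_adj_comm' {X Y : Type*} [AddCommGroup X] [AddCommGroup Y]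
    (BX : X →ₗ[ℤ] X →ₗ[ℤ] ℤ) (BY : Y →ₗ[ℤ] Y →ₗ[ℤ] ℤ)
    (hanti : ∀ x z, BX x z = - BX z x)
    (hBX : ∀ z, (∀ x, BX z x = 0) → z = 0)
    (α : X →ₗ[ℤ] Y) (β : Y →ₗ[ℤ] X) (hadj : ∀ x y, BY (α x) y = BX x (β y))
    (TX : X →ₗ[ℤ] X) (TY : Y →ₗ[ℤ] Y) (hαT : ∀ x, α (TX x) = TY (α x))
    (hsX : ∀ z x, BX (TX z) x = BX z (TX x)) (hsY : ∀ z y, BY (TY z) y = BY z (TY y))
    (y : Y) : β (TY y) = TX (β y) := by
  refine h81r_adj_comm BX BY ?_ α β hadj TX TY hαT hsX hsY y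
  intro z hz
  apply hBX
  intro x
  rw [hanti, hz, neg_zero]

end Fermat.Agent.LR
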