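/-
P-LR (S41 level raising), row LR-COMM, core: for distinct primes `ℓ ≠ ℓ'` the product families
`(i, j) ↦ δ_i ε_j` and `(j, i) ↦ ε_j δ_i` (`δ = heckeRep ℓ`, `ε = heckeRep ℓ'`) are free
and equivalent systems of representatives (upper triangular matrices of determinant `ℓ ℓ'`).
(helper32)
-/
import Fermat.Agent.LR.CohPar

set_option autoImplicit false

open ModularCurve CongruenceSubgroup
open scoped MatrixGroups

namespace Fermat.Agent.LR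

open Fermat.Agent.Jac

/-- product of upper triangular matrices. -/
theorem h32c_ut_mul (x y z x' y' z' : ℤ) :
    (!![x, y; 0, z] * !![x', y'; 0, z'] : Matrix (Fin 2) (Fin 2) ℤ)
      = !![x * x', x * y' + y * z'; 0, z * z'] := by
  ext i j
  fin_cases i <;> fin_cases j <;> simp [Matrix.mul_apply, Fin.sum_univ_two]

/-- the shape of `heckeRep ℓ i`. -/
theorem h32c_rep (ℓ : ℕ) (i : Fin (ℓ + 1)) :
    ∃ x y z : ℤ, heckeRep ℓ i = !![x, y; 0, z] ∧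
      ((x = 1 ∧ z = (ℓ : ℤ) ∧ y = ((i : ℕ) : ℤ) ∧ (i : ℕ) < ℓ) ∨
        (x = (ℓ : ℤ) ∧ z = 1 ∧ y = 0 ∧ (i : ℕ) = ℓ)) := by
  by_cases h : (i : ℕ) < ℓ
  · exact ⟨1, ((i : ℕ) : ℤ), ℓ, h17_heckeRep_lt i h, Or.inl ⟨rfl, rfl, rfl, h⟩⟩
  · refine ⟨ℓ, 0, 1, h17_heckeRep_last i h, Or.inr ⟨rfl, rfl, rfl, ?_⟩⟩
    have := i.2
    omega

/-- two upper triangular matrices with positive diagonal in the same left `SL(2, ℤ)`-coset. -/
theorem h32c_ut_coset (c₁ c₂ : SL(2, ℤ)) {X Y Z X' Y' Z' : ℤ} (hX : 0 < X) (hX' : 0 < X')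
    (h : (c₁ : Matrix (Fin 2) (Fin 2) ℤ) * !![X, Y; 0, Z]
      = (c₂ : Matrix (Fin 2) (Fin 2) ℤ) * !![X', Y'; 0, Z']) :
    X = X' ∧ Z = Z' ∧ ∃ t : ℤ, Y' = Y + t * Z ∧ (t = 0 → c₁ = c₂) := by
  have hd1 := c₁.det_coe
  have hd2 := c₂.det_coe
  rw [Matrix.det_fin_two] at hd1 hd2
  have e00 := congrFun (congrFun h 0) 0
  have e01 := congrFun (congrFun h 0) 1
  have e10 := congrFun (congrFun h 1) 0
  have e11 := congrFun (congrFun h 1) 1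
  simp [Matrix.mul_apply, Fin.sum_univ_two] at e00 e01 e10 e11
  set a := c₁.1 0 0 with ha
  set b := c₁.1 0 1 with hb
  set c := c₁.1 1 0 with hc
  set d := c₁.1 1 1 with hd
  set a' := c₂.1 0 0 with ha'
  set b' := c₂.1 0 1 with hb'
  set c' := c₂.1 1 0 with hc'
  set d' := c₂.1 1 1 with hd'
  -- the entries of `g = c₂⁻¹ c₁`
  have g00 : (d' * a - b' * c) * X = X' := by
    linear_combination d' * e00 - b' * e10 + X' * hd2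
  have g10 : (a' * c - c' * a) * X = 0 := by
    linear_combination a' * e10 - c' * e00
  have g10' : a' * c - c' * a = 0 := by
    rcases mul_eq_zero.mp g10 with h0 | h0
    · exact h0
    · exact absurd h0 hX.ne'
  have g11 : (a' * d - c' * b) * Z = Z' := by
    linear_combination a' * e11 - c' * e01 + Z' * hd2 - Y * g10'
  have g01 : (d' * a - b' * c) * Y + (d' * b - b' * d) * Z = Y' := by
    linear_combination d' * e01 - b' * e11 + Y' * hd2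
  have gdet : (d' * a - b' * c) * (a' * d - c' * b) = 1 := by
    linear_combination (a' * d' - b' * c') * hd1 + hd2 + (d' * b - b' * d) * g10'
  have hpos : 0 < d' * a - b' * c := by
    by_contra hneg
    have hneg' := not_lt.mp hneg
    have : (d' * a - b' * c) * X ≤ 0 := mul_nonpos_of_nonpos_of_nonneg hneg' hX.le
    rw [g00] at this
    exact absurd hX' (not_lt.mpr this)
  have h1 : d' * a - b' * c = 1 := Int.eq_one_of_mul_eq_one_right hpos.le gdet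
  have h2 : a' * d - c' * b = 1 := by rw [h1, one_mul] at gdet; exact gdet
  refine ⟨?_, ?_, d' * b - b' * d, ?_, ?_⟩
  · rw [← g00, h1, one_mul]
  · rw [← g11, h2, one_mul]
  · rw [← g01, h1, one_mul]
  · intro ht
    have ea : a = a' := by linear_combination a' * h1 + b' * g10' - a * hd2
    have eb : b = b' := by linear_combination a' * ht + b' * h2 - b * hd2
    have ec : c = c' := by linear_combination c' * h1 + d' * g10' - c * hd2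
    have ed : d = d' := by linear_combination c' * ht + d' * h2 - d * hd2
    ext i j
    fin_cases i <;> fin_cases j
    · exact ea
    · exact eb
    · exact ec
    · exact ed

/-- division with remainder is unique. -/
theorem h32c_divmod {m r r' s s' : ℤ} (hr : 0 ≤ r) (hr' : r < m) (hs : 0 ≤ r') (hs' : r' < m)
    (h : r + s * m = r' + s' * m) : r = r' ∧ s = s' := by
  have hm : 0 < m := lt_of_le_of_lt hr hr'
  have hdvd : m ∣ r - r' := ⟨s' - s, by linear_combination h⟩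
  have h0 : r - r' = 0 := by
    apply Int.eq_zero_of_abs_lt_dvd hdvd
    rw [abs_lt]
    constructor <;> linarith
  have hrr : r = r' := by linarith
  refine ⟨hrr, ?_⟩
  rw [hrr] at h
  have : (s - s') * m = 0 := by linear_combination h
  rcases mul_eq_zero.mp this with h1 | h1
  · linarith
  · exact absurd h1 hm.ne'

/-- the diagonal of a product `δ_a ε_b` determines the types of `a` and `b`. -/
theorem h32c_diag {ℓ ℓ' : ℕ} (hℓ : ℓ.Prime) (hℓ' : ℓ'.Prime) (hne : ℓ ≠ ℓ') {x x₁ y y₁ : ℤ}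
    (hx : x = 1 ∨ x = (ℓ : ℤ)) (hx₁ : x₁ = 1 ∨ x₁ = (ℓ : ℤ))
    (hy : y = 1 ∨ y = (ℓ' : ℤ)) (hy₁ : y₁ = 1 ∨ y₁ = (ℓ' : ℤ)) (h : x * y = x₁ * y₁) :
    x = x₁ ∧ y = y₁ := by
  have h2 : (2 : ℤ) ≤ ℓ := by exact_mod_cast hℓ.two_le
  have h2' : (2 : ℤ) ≤ ℓ' := by exact_mod_cast hℓ'.two_le
  have hne' : (ℓ : ℤ) ≠ ℓ' := by exact_mod_cast hne
  have hp1 : (ℓ : ℤ) < ℓ * ℓ' := by nlinarith
  have hp2 : (ℓ' : ℤ) < ℓ * ℓ' := by nlinarith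
  rcases hx with rfl | rfl <;> rcases hx₁ with rfl | rfl <;> rcases hy with rfl | rfl <;>
    rcases hy₁ with rfl | rfl <;> simp only [one_mul, mul_one] at h <;>
    first
    | exact ⟨rfl, rfl⟩
    | (exfalso; first | exact hne' h | exact hne' h.symm | linarith)


/-- `[[1, t], [0, 1]] ∈ Γ₀(N)`. -/
def h32c_U (N : ℕ) (t : ℤ) : Gamma0 N := h17_mk N 1 t 0 1 (by ring) (dvd_zero _)

theorem h32c_U_coe (N : ℕ) (t : ℤ) :
    h17lr_coe (Gamma0 N) (h32c_U N t) = !![1, t; 0, 1] := rfl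

theorem h32c_U_mul (N : ℕ) (t x y z : ℤ) :
    h17lr_coe (Gamma0 N) (h32c_U N t) * !![x, y; 0, z] = !![x, y + t * z; 0, z] := by
  rw [h32c_U_coe, h32c_ut_mul]
  simp

/-- **freeness of the product family** `(a, b) ↦ δ_a ε_b`, `δ = heckeRep ℓ`,
`ε = heckeRep ℓ'`, `ℓ ≠ ℓ'` primes. -/
theorem h32c_free_prod {ℓ ℓ' : ℕ} (hℓ : ℓ.Prime) (hℓ' : ℓ'.Prime) (hne : ℓ ≠ ℓ') (N : ℕ) :
    h17lr_Free (h17lr_coe (Gamma0 N))
      (fun p : Fin (ℓ + 1) × Fin (ℓ' + 1) => heckeRep ℓ p.1 * heckeRep ℓ' p.2) := by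
  rintro ⟨a, b⟩ ⟨a', b'⟩ h h' e
  have hℓ0 : (0 : ℤ) < ℓ := by exact_mod_cast hℓ.pos
  have hℓ'0 : (0 : ℤ) < ℓ' := by exact_mod_cast hℓ'.pos
  obtain ⟨x, y, z, hδ, hδc⟩ := h32c_rep ℓ a
  obtain ⟨x', y', z', hε, hεc⟩ := h32c_rep ℓ' b
  obtain ⟨x₁, y₁, z₁, hδ₁, hδc₁⟩ := h32c_rep ℓ a'
  obtain ⟨x₁', y₁', z₁', hε₁, hεc₁⟩ := h32c_rep ℓ' b'
  simp only [h17lr_coe_apply] at e
  rw [hδ, hε, hδ₁, hε₁, h32c_ut_mul, h32c_ut_mul] at e
  have hxpos : 0 < x := by rcases hδc with ⟨rfl, -⟩ | ⟨rfl, -⟩ <;> [norm_num; exact hℓ0]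
  have hx'pos : 0 < x' := by rcases hεc with ⟨rfl, -⟩ | ⟨rfl, -⟩ <;> [norm_num; exact hℓ'0]
  have hx₁pos : 0 < x₁ := by rcases hδc₁ with ⟨rfl, -⟩ | ⟨rfl, -⟩ <;> [norm_num; exact hℓ0]
  have hx₁'pos : 0 < x₁' := by rcases hεc₁ with ⟨rfl, -⟩ | ⟨rfl, -⟩ <;> [norm_num; exact hℓ'0]
  obtain ⟨hX, -, t, ht, htc⟩ := h32c_ut_coset (h : SL(2, ℤ)) (h' : SL(2, ℤ))
    (mul_pos hxpos hx'pos) (mul_pos hx₁pos hx₁'pos) e
  obtain ⟨hxx, hxx'⟩ := h32c_diag hℓ hℓ' hne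
    (hδc.imp (fun h => h.1) (fun h => h.1)) (hδc₁.imp (fun h => h.1) (fun h => h.1))
    (hεc.imp (fun h => h.1) (fun h => h.1)) (hεc₁.imp (fun h => h.1) (fun h => h.1)) hX
  have hℓ1 : (ℓ : ℤ) ≠ 1 := by exact_mod_cast hℓ.one_lt.ne'
  have hℓ'1 : (ℓ' : ℤ) ≠ 1 := by exact_mod_cast hℓ'.one_lt.ne'
  -- the conclusion from `a = a'`, `b = b'`, `t = 0`
  have fin : (a : ℕ) = a' → (b : ℕ) = b' → t = 0 → ((a, b) = (a', b') ∧ h = h') := by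
    intro h1 h2 h3
    exact ⟨Prod.ext (Fin.ext h1) (Fin.ext h2), Subtype.ext (htc h3)⟩
  rcases hδc with ⟨rfl, rfl, rfl, ha⟩ | ⟨rfl, rfl, rfl, ha⟩ <;>
    rcases hδc₁ with ⟨rfl, rfl, rfl, ha₁⟩ | ⟨rfl, rfl, rfl, ha₁⟩ <;>
    rcases hεc with ⟨rfl, rfl, rfl, hb⟩ | ⟨rfl, rfl, rfl, hb⟩ <;>
    rcases hεc₁ with ⟨rfl, rfl, rfl, hb₁⟩ | ⟨rfl, rfl, rfl, hb₁⟩ <;>
    first
    | exact absurd hxx hℓ1
    | exact absurd hxx.symm hℓ1
    | exact absurd hxx' hℓ'1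
    | exact absurd hxx'.symm hℓ'1
    | skip
  · -- type (1, 1): `b' + a' ℓ' = b + a ℓ' + t ℓ ℓ'`
    have ha0 : (0 : ℤ) ≤ ((a : ℕ) : ℤ) := Int.natCast_nonneg _
    have ha1 : (((a : ℕ) : ℤ)) < ℓ := by exact_mod_cast ha
    have ha0' : (0 : ℤ) ≤ ((a' : ℕ) : ℤ) := Int.natCast_nonneg _
    have ha1' : (((a' : ℕ) : ℤ)) < ℓ := by exact_mod_cast ha₁
    have hb0 : (0 : ℤ) ≤ ((b : ℕ) : ℤ) := Int.natCast_nonneg _
    have hb1 : (((b : ℕ) : ℤ)) < ℓ' := by exact_mod_cast hb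
    have hb0' : (0 : ℤ) ≤ ((b' : ℕ) : ℤ) := Int.natCast_nonneg _
    have hb1' : (((b' : ℕ) : ℤ)) < ℓ' := by exact_mod_cast hb₁
    have e1 : ((b' : ℕ) : ℤ) + ((a' : ℕ) : ℤ) * ℓ'
        = ((b : ℕ) : ℤ) + (((a : ℕ) : ℤ) + t * ℓ) * ℓ' := by linear_combination ht
    obtain ⟨hbb, haa⟩ := h32c_divmod hb0' hb1' hb0 hb1 e1
    have e2 : ((a' : ℕ) : ℤ) + 0 * ℓ = ((a : ℕ) : ℤ) + t * ℓ := by linear_combination haa
    obtain ⟨haa', ht0⟩ := h32c_divmod ha0' ha1' ha0 ha1 e2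
    exact fin (by exact_mod_cast haa'.symm) (by exact_mod_cast hbb.symm) ht0.symm
  · -- type (1, last): `a' = a + t ℓ`
    have ha0 : (0 : ℤ) ≤ ((a : ℕ) : ℤ) := Int.natCast_nonneg _
    have ha1 : (((a : ℕ) : ℤ)) < ℓ := by exact_mod_cast ha
    have ha0' : (0 : ℤ) ≤ ((a' : ℕ) : ℤ) := Int.natCast_nonneg _
    have ha1' : (((a' : ℕ) : ℤ)) < ℓ := by exact_mod_cast ha₁
    have e2 : ((a' : ℕ) : ℤ) + 0 * ℓ = ((a : ℕ) : ℤ) + t * ℓ := by linear_combination ht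
    obtain ⟨haa', ht0⟩ := h32c_divmod ha0' ha1' ha0 ha1 e2
    exact fin (by exact_mod_cast haa'.symm) (by rw [hb, hb₁]) ht0.symm
  · -- type (last, 1): `ℓ b' = ℓ b + t ℓ'`
    have hb0 : (0 : ℤ) ≤ ((b : ℕ) : ℤ) := Int.natCast_nonneg _
    have hb1 : (((b : ℕ) : ℤ)) < ℓ' := by exact_mod_cast hb
    have hb0' : (0 : ℤ) ≤ ((b' : ℕ) : ℤ) := Int.natCast_nonneg _
    have hb1' : (((b' : ℕ) : ℤ)) < ℓ' := by exact_mod_cast hb₁
    have hcop : IsCoprime (ℓ' : ℤ) (ℓ : ℤ) :=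
      Nat.isCoprime_iff_coprime.mpr ((Nat.coprime_primes hℓ' hℓ).mpr hne.symm)
    have hdvd : (ℓ' : ℤ) ∣ (ℓ : ℤ) * (((b' : ℕ) : ℤ) - ((b : ℕ) : ℤ)) :=
      ⟨t, by linear_combination ht⟩
    have hdvd' : (ℓ' : ℤ) ∣ ((b' : ℕ) : ℤ) - ((b : ℕ) : ℤ) := hcop.dvd_of_dvd_mul_left hdvd
    have h0 : ((b' : ℕ) : ℤ) - ((b : ℕ) : ℤ) = 0 := by
      apply Int.eq_zero_of_abs_lt_dvd hdvd'
      rw [abs_lt]
      constructor <;> linarith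
    have hbb : ((b' : ℕ) : ℤ) = ((b : ℕ) : ℤ) := by linarith
    have ht0 : t = 0 := by
      have : t * (ℓ' : ℤ) = 0 := by rw [hbb] at ht; linear_combination -ht
      rcases mul_eq_zero.mp this with h1 | h1
      · exact h1
      · exact absurd h1 hℓ'0.ne'
    exact fin (by rw [ha, ha₁]) (by exact_mod_cast hbb.symm) ht0
  · -- type (last, last)
    have ht0 : t = 0 := by linear_combination -ht
    exact fin (by rw [ha, ha₁]) (by rw [hb, hb₁]) ht0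


theorem h32c_ut_congr {x y z x' y' z' : ℤ} (hx : x = x') (hy : y = y') (hz : z = z') :
    (!![x, y; 0, z] : Matrix (Fin 2) (Fin 2) ℤ) = !![x', y'; 0, z'] := by
  rw [hx, hy, hz]

/-- **the product families are equivalent**: every `ε_j δ_i` lies in a coset
`Γ₀(N) δ_a ε_b`. -/
theorem h32c_cover {ℓ ℓ' : ℕ} (hℓ : ℓ.Prime) (hℓ' : ℓ'.Prime) (hne : ℓ ≠ ℓ') (N : ℕ)
    (j : Fin (ℓ' + 1)) (i : Fin (ℓ + 1)) :
    ∃ (a : Fin (ℓ + 1)) (b : Fin (ℓ' + 1)) (u : Gamma0 N),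
      heckeRep ℓ' j * heckeRep ℓ i
        = h17lr_coe (Gamma0 N) u * (heckeRep ℓ a * heckeRep ℓ' b) := by
  have hℓ0 : 0 < ℓ := hℓ.pos
  have hℓ'0 : 0 < ℓ' := hℓ'.pos
  by_cases hj : (j : ℕ) < ℓ' <;> by_cases hi : (i : ℕ) < ℓ
  · -- type (1, 1)
    set n : ℕ := (i : ℕ) + (j : ℕ) * ℓ with hn
    have hnlt : n < ℓ * ℓ' := by
      have h1 : (j : ℕ) + 1 ≤ ℓ' := hj
      have h2 : ((j : ℕ) + 1) * ℓ ≤ ℓ' * ℓ := Nat.mul_le_mul_right ℓ h1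
      have h3 : ℓ' * ℓ = ℓ * ℓ' := Nat.mul_comm _ _
      nlinarith
    have hdiv : n / ℓ' < ℓ := Nat.div_lt_of_lt_mul (by rw [Nat.mul_comm]; exact hnlt)
    have hmod : n % ℓ' < ℓ' := Nat.mod_lt _ hℓ'0
    refine ⟨⟨n / ℓ', by omega⟩, ⟨n % ℓ', by omega⟩, h32c_U N 0, ?_⟩
    rw [h17_heckeRep_lt j hj, h17_heckeRep_lt i hi,
      h17_heckeRep_lt (⟨n / ℓ', by omega⟩ : Fin (ℓ + 1)) hdiv,
      h17_heckeRep_lt (⟨n % ℓ', by omega⟩ : Fin (ℓ' + 1)) hmod,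
      h32c_ut_mul, h32c_ut_mul, h32c_U_mul]
    apply h32c_ut_congr
    · ring
    · have := Nat.mod_add_div n ℓ'
      have h' : ((n % ℓ' : ℕ) : ℤ) + (ℓ' : ℤ) * ((n / ℓ' : ℕ) : ℤ) = (n : ℤ) := by
        exact_mod_cast this
      have hn' : (n : ℤ) = ((i : ℕ) : ℤ) + ((j : ℕ) : ℤ) * ℓ := by
        rw [hn]; push_cast; ring
      show 1 * ((i : ℕ) : ℤ) + ((j : ℕ) : ℤ) * (ℓ : ℤ)
        = 1 * ((n % ℓ' : ℕ) : ℤ) + ((n / ℓ' : ℕ) : ℤ) * (ℓ' : ℤ) + 0 * ((ℓ : ℤ) * (ℓ' : ℤ))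
      linear_combination -h' - hn'
    · ring
  · -- type `ε_j` small, `δ_i` last
    have hcop : IsCoprime (ℓ : ℤ) (ℓ' : ℤ) :=
      Nat.isCoprime_iff_coprime.mpr ((Nat.coprime_primes hℓ hℓ').mpr hne)
    obtain ⟨r, s, hrs⟩ := hcop
    have hℓ'z : (0 : ℤ) < ℓ' := by exact_mod_cast hℓ'0
    set B : ℤ := (((j : ℕ) : ℤ) * r) % (ℓ' : ℤ) with hB
    have hB0 : 0 ≤ B := Int.emod_nonneg _ hℓ'z.ne'
    have hB1 : B < ℓ' := Int.emod_lt_of_pos _ hℓ'z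
    have hBd : B + (ℓ' : ℤ) * ((((j : ℕ) : ℤ) * r) / (ℓ' : ℤ)) = ((j : ℕ) : ℤ) * r :=
      Int.emod_add_mul_ediv _ _
    have hBn : ((B.toNat : ℕ) : ℤ) = B := Int.toNat_of_nonneg hB0
    have hBlt : B.toNat < ℓ' := by
      have : ((B.toNat : ℕ) : ℤ) < (ℓ' : ℤ) := by rw [hBn]; exact hB1
      exact_mod_cast this
    refine ⟨Fin.last ℓ, ⟨B.toNat, by omega⟩,
      h32c_U N (((j : ℕ) : ℤ) * s + (ℓ : ℤ) * ((((j : ℕ) : ℤ) * r) / (ℓ' : ℤ))), ?_⟩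
    rw [h17_heckeRep_lt j hj, h17_heckeRep_last i hi,
      h17_heckeRep_last (Fin.last ℓ) (by simp),
      h17_heckeRep_lt (⟨B.toNat, by omega⟩ : Fin (ℓ' + 1)) hBlt,
      h32c_ut_mul, h32c_ut_mul, h32c_U_mul]
    apply h32c_ut_congr
    · ring
    · show 1 * (0 : ℤ) + ((j : ℕ) : ℤ) * 1
        = (ℓ : ℤ) * ((B.toNat : ℕ) : ℤ) + 0 * (ℓ' : ℤ)
          + (((j : ℕ) : ℤ) * s + (ℓ : ℤ) * ((((j : ℕ) : ℤ) * r) / (ℓ' : ℤ))) * (1 * (ℓ' : ℤ))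
      rw [hBn]
      linear_combination (-((j : ℕ) : ℤ)) * hrs - (ℓ : ℤ) * hBd
    · ring
  · -- type `ε_j` last, `δ_i` small
    set n : ℕ := ℓ' * (i : ℕ) with hn
    have hmod : n % ℓ < ℓ := Nat.mod_lt _ hℓ0
    refine ⟨⟨n % ℓ, by omega⟩, Fin.last ℓ', h32c_U N ((n / ℓ : ℕ) : ℤ), ?_⟩
    rw [h17_heckeRep_last j hj, h17_heckeRep_lt i hi,
      h17_heckeRep_lt (⟨n % ℓ, by omega⟩ : Fin (ℓ + 1)) hmod,
      h17_heckeRep_last (Fin.last ℓ') (by simp),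
      h32c_ut_mul, h32c_ut_mul, h32c_U_mul]
    apply h32c_ut_congr
    · ring
    · have := Nat.mod_add_div n ℓ
      have h' : ((n % ℓ : ℕ) : ℤ) + (ℓ : ℤ) * ((n / ℓ : ℕ) : ℤ) = (n : ℤ) := by
        exact_mod_cast this
      have hn' : (n : ℤ) = (ℓ' : ℤ) * ((i : ℕ) : ℤ) := by
        rw [hn]; push_cast; ring
      show (ℓ' : ℤ) * ((i : ℕ) : ℤ) + 0 * (ℓ : ℤ)
        = 1 * (0 : ℤ) + ((n % ℓ : ℕ) : ℤ) * 1 + ((n / ℓ : ℕ) : ℤ) * ((ℓ : ℤ) * 1)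
      linear_combination -h' - hn'
    · ring
  · -- both last
    refine ⟨Fin.last ℓ, Fin.last ℓ', h32c_U N 0, ?_⟩
    rw [h17_heckeRep_last j hj, h17_heckeRep_last i hi,
      h17_heckeRep_last (Fin.last ℓ) (by simp), h17_heckeRep_last (Fin.last ℓ') (by simp),
      h32c_ut_mul, h32c_ut_mul, h32c_U_mul]
    apply h32c_ut_congr <;> ring

end Fermat.Agent.LR
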