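/-
P-LR (S41 level raising), row LR-COMM: the cohomological Hecke operators `T_ℓ`, `T_ℓ'`
(`ℓ, ℓ' ∤ N` primes) commute on `Hom(Γ₀(N), A)` for every abelian group `A`, in particular on
`L_N = Hom_par(Γ₀(N), ℤ)` (`h17lr_T N ℓ`).

Purely group-theoretic proof (no Eichler–Shimura): with helper17's operator calculus
(`LR/CohGen.lean`), `T_ℓ' ∘ T_ℓ` is the operator of the product family `δ_i ε_j` and
`T_ℓ ∘ T_ℓ'` the operator of `ε_j δ_i`; both families are free systems of representatives of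
the same `Γ₀(N)`-cosets (`LR/CommCore.lean`), and equivalent families define the same
operator.  (helper32)
-/
import Fermat.Agent.LR.CommCore

set_option autoImplicit false

open ModularCurve CongruenceSubgroup
open scoped MatrixGroups

namespace Fermat.Agent.LR

open Fermat.Agent.Jac

/-- the product family of two closed families is closed. -/
theorem h32c_closed_prod {N ℓ ℓ' : ℕ} (hℓ : ℓ.Prime) (hℓN : ¬ ℓ ∣ N) (hℓ' : ℓ'.Prime)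
    (hℓ'N : ¬ ℓ' ∣ N) :
    h17lr_Closed (h17lr_coe (Gamma0 N)) (h17lr_coe (Gamma0 N))
      (fun p : Fin (ℓ + 1) × Fin (ℓ' + 1) => heckeRep ℓ p.1 * heckeRep ℓ' p.2) := by
  rintro ⟨i, j⟩ γ
  obtain ⟨j', c, h⟩ := h17lr_closed_heckeRep hℓ' hℓ'N j γ
  obtain ⟨i', c', h'⟩ := h17lr_closed_heckeRep hℓ hℓN i c
  refine ⟨(i', j'), c', ?_⟩
  show heckeRep ℓ i * heckeRep ℓ' j * h17lr_coe (Gamma0 N) γ
    = h17lr_coe (Gamma0 N) c' * (heckeRep ℓ i' * heckeRep ℓ' j')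
  rw [mul_assoc, h, ← mul_assoc, h', mul_assoc]

/-- **LR-COMM, unbundled form.**  `T_ℓ' (T_ℓ y) = T_ℓ (T_ℓ' y)` on `Hom(Γ₀(N), A)`. -/
theorem h32c_comm_op {N ℓ ℓ' : ℕ} (hℓ : ℓ.Prime) (hℓN : ¬ ℓ ∣ N) (hℓ' : ℓ'.Prime)
    (hℓ'N : ¬ ℓ' ∣ N) {A : Type*} [AddCommGroup A]
    {y z w z' w' : Additive (Gamma0 N) →+ A}
    (h1 : IsCohHeckeAdd N ℓ y z) (h2 : IsCohHeckeAdd N ℓ' z w)
    (h1' : IsCohHeckeAdd N ℓ' y z') (h2' : IsCohHeckeAdd N ℓ z' w') : w = w' := by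
  by_cases hne : ℓ = ℓ'
  · subst hne
    have hzz : z = z' := h17lr_op_unique (h17lr_closed_heckeRep hℓ hℓN)
      (h17lr_isCohHeckeAdd_iff.mp h1) (h17lr_isCohHeckeAdd_iff.mp h1')
    subst hzz
    exact h17lr_op_unique (h17lr_closed_heckeRep hℓ hℓN)
      (h17lr_isCohHeckeAdd_iff.mp h2) (h17lr_isCohHeckeAdd_iff.mp h2')
  · have hCδ := h17lr_closed_heckeRep (N := N) hℓ hℓN
    have hCε := h17lr_closed_heckeRep (N := N) hℓ' hℓ'N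
    have hFP := h32c_free_prod hℓ hℓ' hne N
    have hFQ := h32c_free_prod hℓ' hℓ (Ne.symm hne) N
    -- `w` is the operator of the family `P = δ ε`, `w'` the operator of `Q = ε δ`
    have hP := h17lr_op_comp hCδ hCε hFP (h17lr_isCohHeckeAdd_iff.mp h1)
      (h17lr_isCohHeckeAdd_iff.mp h2)
    have hQ := h17lr_op_comp hCε hCδ hFQ (h17lr_isCohHeckeAdd_iff.mp h1')
      (h17lr_isCohHeckeAdd_iff.mp h2')
    -- the families are equivalent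
    choose a b u hu using fun p : Fin (ℓ' + 1) × Fin (ℓ + 1) => h32c_cover hℓ hℓ' hne N p.1 p.2
    let σ : Fin (ℓ' + 1) × Fin (ℓ + 1) → Fin (ℓ + 1) × Fin (ℓ' + 1) := fun p => (a p, b p)
    have hu' : ∀ p : Fin (ℓ' + 1) × Fin (ℓ + 1),
        (fun p : Fin (ℓ' + 1) × Fin (ℓ + 1) => heckeRep ℓ' p.1 * heckeRep ℓ p.2) p
          = h17lr_coe (Gamma0 N) (u p)
            * (fun p : Fin (ℓ + 1) × Fin (ℓ' + 1) => heckeRep ℓ p.1 * heckeRep ℓ' p.2) (σ p) :=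
      fun p => hu p
    have hinj : Function.Injective σ :=
      h17lr_cover_injective
        (δ := fun p : Fin (ℓ + 1) × Fin (ℓ' + 1) => heckeRep ℓ p.1 * heckeRep ℓ' p.2)
        hFQ σ u hu'
    have hbij : Function.Bijective σ := by
      rw [Fintype.bijective_iff_injective_and_card]
      refine ⟨hinj, ?_⟩
      simp only [Fintype.card_prod, Fintype.card_fin]
      exact Nat.mul_comm _ _
    have hQ' := h17lr_op_of_equiv (g := h17lr_coe (Gamma0 N))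
      (δ := fun p : Fin (ℓ + 1) × Fin (ℓ' + 1) => heckeRep ℓ p.1 * heckeRep ℓ' p.2)
      hFQ σ hbij u hu' hP
    exact h17lr_op_unique (h32c_closed_prod hℓ' hℓ'N hℓ hℓN) hQ' hQ

/-- **LR-COMM**: `T_ℓ` and `T_ℓ'` commute on `L_N = Hom_par(Γ₀(N), ℤ)`. -/
theorem h32c_comm {N ℓ ℓ' : ℕ} (hℓ : ℓ.Prime) (hℓN : ¬ ℓ ∣ N) (hℓ' : ℓ'.Prime)
    (hℓ'N : ¬ ℓ' ∣ N) (x : h17lr_L N) :
    h17lr_T N ℓ' (h17lr_T N ℓ x) = h17lr_T N ℓ (h17lr_T N ℓ' x) :=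
  Subtype.ext (h32c_comm_op hℓ hℓN hℓ' hℓ'N (h17lr_T_spec N ℓ hℓ hℓN x)
    (h17lr_T_spec N ℓ' hℓ' hℓ'N (h17lr_T N ℓ x)) (h17lr_T_spec N ℓ' hℓ' hℓ'N x)
    (h17lr_T_spec N ℓ hℓ hℓN (h17lr_T N ℓ' x)))

theorem h32c_comm_comp {N ℓ ℓ' : ℕ} (hℓ : ℓ.Prime) (hℓN : ¬ ℓ ∣ N) (hℓ' : ℓ'.Prime)
    (hℓ'N : ¬ ℓ' ∣ N) :
    (h17lr_T N ℓ').comp (h17lr_T N ℓ) = (h17lr_T N ℓ).comp (h17lr_T N ℓ') :=
  LinearMap.ext fun x => h32c_comm hℓ hℓN hℓ' hℓ'N x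

theorem h32c_commute {N ℓ ℓ' : ℕ} (hℓ : ℓ.Prime) (hℓN : ¬ ℓ ∣ N) (hℓ' : ℓ'.Prime)
    (hℓ'N : ¬ ℓ' ∣ N) : Commute (h17lr_T N ℓ) (h17lr_T N ℓ') :=
  (h32c_comm_comp hℓ hℓN hℓ' hℓ'N).symm

end Fermat.Agent.LR
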