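/-
P-LR (S41 level raising), row LR-COMM: the frozen statement `h88_CommStatement` of
`LR/AsmDefs.lean`.  (helper32)
-/
import Fermat.Agent.LR.Comm
import Fermat.Agent.LR.AsmDefs

set_option autoImplicit false

namespace Fermat.Agent.LR

/-- **LR-COMM.** The cohomological Hecke operators `T_ℓ` (`ℓ ∤ M`) commute on `L_M`. -/
theorem h32c_Comm : h88_CommStatement :=
  fun _ _ _ _ hℓ hℓM hℓ' hℓ'M x => (h32c_comm hℓ hℓM hℓ' hℓ'M x).symm

end Fermat.Agent.LR
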