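/-
P-LR (S41 level raising), row LR-DOWN, abstract part: going down WITHOUT commutativity
(Nakayama over `ℤ̄`, helper88's argument) for an arbitrary family of operators on a finite free
`ℤ`-module, and the INDEP lemma.  Mathlib only.  (helper15)
-/
import Mathlib

set_option autoImplicit false
set_option linter.style.haveILetI false

namespace Fermat.Agent.LR

open Module

section core

variable {r : ℕ} {ι : Type*}

/-- **Going down without commutativity (matrix form).**  Integral matrices `M i`, a nonzero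
complex vector `c` with `M i c = a i • c`, `a i ≡ θ i` modulo a proper ideal `𝔪 ∋ p` of `ℤ̄`:
then some integral vector `x ∉ p ℤ^r` satisfies `M i x ≡ θ i x` mod `p` for all `i`. -/
theorem h15d_down_core (M : ι → Matrix (Fin r) (Fin r) ℤ) (θ : ι → ℤ) {p : ℕ} (hp : p.Prime)
    (c : Fin r → ℂ) (hc : c ≠ 0) (a : ι → integralClosure ℤ ℂ)
    (𝔪 : Ideal (integralClosure ℤ ℂ)) (h𝔪 : 𝔪 ≠ ⊤) (hpm : (p : integralClosure ℤ ℂ) ∈ 𝔪)
    (heig : ∀ i, ((M i).map (Int.cast : ℤ → ℂ)).mulVec c = (a i : ℂ) • c)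
    (hcong : ∀ i, a i - (θ i : integralClosure ℤ ℂ) ∈ 𝔪) :
    ∃ x : Fin r → ℤ, (¬ ∀ k, (p : ℤ) ∣ x k) ∧
      ∀ i k, (p : ℤ) ∣ (M i).mulVec x k - θ i * x k := by
  classical
  haveI : Fact p.Prime := ⟨hp⟩
  by_contra hcon
  have hcon' : ∀ x : Fin r → ℤ,
      (∀ i k, (p : ℤ) ∣ (M i).mulVec x k - θ i * x k) → ∀ k, (p : ℤ) ∣ x k := by
    intro x hx
    by_contra h
    exact hcon ⟨x, h, hx⟩
  -- rows of `M i - θ i`
  let row : ι → Fin r → (Fin r → ℤ) := fun i m l => M i m l - if m = l then θ i else 0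
  have hrowZ : ∀ (i : ι) (m : Fin r) (x : Fin r → ℤ),
      ∑ l, row i m l * x l = (M i).mulVec x m - θ i * x m := by
    intro i m x
    simp only [row, Matrix.mulVec, dotProduct, sub_mul, Finset.sum_sub_distrib]
    congr 1
    simp [ite_mul, Finset.sum_ite_eq]
  have hrowC : ∀ (i : ι) (m : Fin r),
      ∑ l, ((row i m l : ℤ) : ℂ) * c l
        = ((a i - (θ i : integralClosure ℤ ℂ) : integralClosure ℤ ℂ) : ℂ) * c m := by
    intro i m
    have h2 := congrFun (heig i) m
    simp only [Matrix.mulVec, dotProduct, Matrix.map_apply, Pi.smul_apply, smul_eq_mul] at h2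
    simp only [row]
    push_cast
    simp only [sub_mul, Finset.sum_sub_distrib]
    rw [h2]
    simp [ite_mul, Finset.sum_ite_eq]
  let rowF : ι → Fin r → (Fin r → ZMod p) := fun i m l => ((row i m l : ℤ) : ZMod p)
  let R : Submodule (ZMod p) (Fin r → ZMod p) :=
    Submodule.span (ZMod p) {w | ∃ i m, w = rowF i m}
  have hR : R = ⊤ := by
    by_contra hne
    obtain ⟨f, hf0, hfR⟩ := R.exists_le_ker_of_lt_top (lt_top_iff_ne_top.mpr hne)
    let xb : Fin r → ZMod p := fun k => f (Pi.single k 1)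
    have hfx : ∀ w : Fin r → ZMod p, f w = ∑ k, w k * xb k := by
      intro w
      conv_lhs => rw [← Finset.univ_sum_single w]
      rw [map_sum]
      refine Finset.sum_congr rfl fun k _ => ?_
      have : (Pi.single k (w k) : Fin r → ZMod p) = w k • Pi.single k 1 := by
        ext l; simp [Pi.single_apply]
      rw [this, map_smul, smul_eq_mul]
    let x : Fin r → ℤ := fun k => ((xb k).val : ℤ)
    have hxcast : ∀ k, ((x k : ℤ) : ZMod p) = xb k := by
      intro k; simp [x]
    have hx : ∀ i k, (p : ℤ) ∣ (M i).mulVec x k - θ i * x k := by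
      intro i m
      rw [← ZMod.intCast_zmod_eq_zero_iff_dvd, ← hrowZ]
      have h1 : f (rowF i m) = 0 := hfR (Submodule.subset_span ⟨i, m, rfl⟩)
      rw [hfx] at h1
      push_cast
      rw [← h1]
      refine Finset.sum_congr rfl fun l _ => ?_
      rw [hxcast]
    have hx0 := hcon' x hx
    apply hf0
    apply LinearMap.ext
    intro w
    rw [hfx, LinearMap.zero_apply]
    refine Finset.sum_eq_zero fun k _ => ?_
    have : xb k = 0 := by
      rw [← hxcast k, ZMod.intCast_zmod_eq_zero_iff_dvd]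
      exact hx0 k
    rw [this, mul_zero]
  -- the module generated by the coordinates of `c`
  let C : Submodule (integralClosure ℤ ℂ) ℂ := Submodule.span _ (Set.range c)
  have hsmulC : ∀ (n : ℤ) (z : ℂ), (n : ℂ) * z = ((n : ℤ) : integralClosure ℤ ℂ) • z := by
    intro n z
    rw [Subalgebra.smul_def]
    simp
  have hdotC : ∀ s : Fin r → ℤ, (∑ l, (s l : ℂ) * c l) ∈ C := by
    intro s
    refine Submodule.sum_mem _ fun l _ => ?_
    rw [hsmulC]
    exact Submodule.smul_mem _ _ (Submodule.subset_span ⟨l, rfl⟩)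
  have hQ : ∀ wb ∈ R, ∃ w : Fin r → ℤ, (∀ k, ((w k : ℤ) : ZMod p) = wb k) ∧
      (∑ l, (w l : ℂ) * c l) ∈ 𝔪 • C := by
    intro wb hwb
    induction hwb using Submodule.span_induction with
    | mem wb h =>
      obtain ⟨i, m, rfl⟩ := h
      refine ⟨row i m, fun k => rfl, ?_⟩
      rw [hrowC]
      have := Submodule.smul_mem_smul (hcong i) (Submodule.subset_span ⟨m, rfl⟩ : c m ∈ C)
      rwa [Subalgebra.smul_def, smul_eq_mul] at this
    | zero => exact ⟨0, fun k => by simp, by simp⟩
    | add u v _ _ hu hv =>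
      obtain ⟨w, hw, hwc⟩ := hu
      obtain ⟨w', hw', hwc'⟩ := hv
      refine ⟨w + w', fun k => by simp [hw, hw'], ?_⟩
      have : ∑ l, ((w + w') l : ℂ) * c l
          = ∑ l, (w l : ℂ) * c l + ∑ l, (w' l : ℂ) * c l := by
        simp [add_mul, Finset.sum_add_distrib]
      rw [this]; exact Submodule.add_mem _ hwc hwc'
    | smul t u _ hu =>
      obtain ⟨w, hw, hwc⟩ := hu
      refine ⟨(t.val : ℤ) • w, fun k => by simp [hw], ?_⟩
      have : ∑ l, ((((t.val : ℤ) • w) l : ℤ) : ℂ) * c l
          = (((t.val : ℕ) : ℤ) : integralClosure ℤ ℂ) • ∑ l, (w l : ℂ) * c l := by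
        rw [← hsmulC, Finset.mul_sum]
        refine Finset.sum_congr rfl fun l _ => ?_
        simp only [Pi.smul_apply, smul_eq_mul]
        push_cast
        ring
      rw [this]; exact Submodule.smul_mem _ _ hwc
  have hC : C ≤ 𝔪 • C := by
    apply Submodule.span_le.mpr
    rintro _ ⟨k, rfl⟩
    obtain ⟨w, hw, hwc⟩ := hQ (Pi.single k 1) (hR ▸ Submodule.mem_top)
    have hs : ∀ l, (p : ℤ) ∣ (if l = k then 1 else 0) - w l := by
      intro l
      rw [← ZMod.intCast_zmod_eq_zero_iff_dvd]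
      push_cast
      rw [hw l]
      simp [Pi.single_apply]
    choose s hs using hs
    have hck : c k = ∑ l, (w l : ℂ) * c l
        + (p : integralClosure ℤ ℂ) • ∑ l, (s l : ℂ) * c l := by
      have h1 : c k = ∑ l, (((if l = k then 1 else 0 : ℤ) : ℤ) : ℂ) * c l := by
        simp [ite_mul, Finset.sum_ite_eq']
      have h2 : ∀ l, (((if l = k then 1 else 0 : ℤ) : ℤ) : ℂ)
          = (w l : ℂ) + (p : ℂ) * (s l : ℂ) := by
        intro l
        have := hs l
        have h3 : ((if l = k then 1 else 0 : ℤ) : ℤ) = w l + (p : ℤ) * s l := by linarith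
        rw [h3]; push_cast; ring
      rw [h1, Subalgebra.smul_def, smul_eq_mul, Finset.mul_sum, ← Finset.sum_add_distrib]
      refine Finset.sum_congr rfl fun l _ => ?_
      rw [h2]
      push_cast
      ring
    rw [SetLike.mem_coe, hck]
    exact Submodule.add_mem _ hwc (Submodule.smul_mem_smul hpm (hdotC s))
  have hfg : C.FG := Submodule.fg_span (Set.finite_range c)
  obtain ⟨ρ, hρ1, hρ⟩ :=
    Submodule.exists_sub_one_mem_and_smul_eq_zero_of_fg_of_le_smul 𝔪 C hfg hC
  obtain ⟨k, hk⟩ : ∃ k, c k ≠ 0 := by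
    by_contra h
    push Not at h
    exact hc (funext h)
  have h1 := hρ (c k) (Submodule.subset_span ⟨k, rfl⟩)
  rw [Subalgebra.smul_def, smul_eq_mul] at h1
  have h2 : (ρ : ℂ) = 0 := by
    rcases mul_eq_zero.mp h1 with h | h
    · exact h
    · exact absurd h hk
  have h3 : ρ = 0 := Subtype.ext h2
  rw [h3, zero_sub] at hρ1
  apply h𝔪
  rw [Ideal.eq_top_iff_one]
  have := 𝔪.neg_mem hρ1
  simpa using this

end core

section wrapper

variable {K : Type*} [AddCommGroup K] {ι : Type*}

/-- transport of the action of one endomorphism to any complex vector space receiving `K`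
equivariantly. -/
theorem h15d_transport {r : ℕ} (b : Basis (Fin r) ℤ K) (T : Module.End ℤ K)
    {V : Type*} [AddCommGroup V] [Module ℂ V] (j : K →ₗ[ℤ] V) (TV : V →ₗ[ℂ] V)
    (hT : ∀ k : K, TV (j k) = j (T k)) (c : Fin r → ℂ) :
    TV (∑ k, c k • j (b k))
      = ∑ l, (((LinearMap.toMatrix b b T).map (Int.cast : ℤ → ℂ)).mulVec c) l • j (b l) := by
  rw [map_sum]
  have h1 : ∀ k, TV (c k • j (b k))
      = ∑ l, (c k * ((LinearMap.toMatrix b b T).map (Int.cast : ℤ → ℂ)) l k) • j (b l) := by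
    intro k
    rw [map_smul, hT]
    have h2 : T (b k) = ∑ l, (LinearMap.toMatrix b b T l k) • b l := by
      conv_lhs => rw [← b.sum_repr (T (b k))]
      simp [LinearMap.toMatrix_apply]
    rw [h2, map_sum, Finset.smul_sum]
    refine Finset.sum_congr rfl fun l _ => ?_
    rw [map_smul, mul_smul]
    congr 1
    rw [Matrix.map_apply]
    exact (Int.cast_smul_eq_zsmul ℂ _ _).symm
  simp_rw [h1]
  rw [Finset.sum_comm]
  refine Finset.sum_congr rfl fun l _ => ?_
  rw [← Finset.sum_smul]
  congr 1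
  rw [Matrix.mulVec, dotProduct]
  refine Finset.sum_congr rfl fun k _ => ?_
  ring

/-- **Going down for an arbitrary family of operators** (no commutativity) on a finite free
`ℤ`-module `K` with basis `b`: an eigenvector `v ≠ 0` in the complex span of the image of `K`
in `V`, with eigenvalues `a i` (algebraic integers) congruent to `θ i ∈ ℤ` modulo a proper
ideal `𝔪 ∋ p` of `ℤ̄`, gives a mod `p` eigenvector `x₀ ∈ K ∖ pK` with eigenvalues `θ i`. -/
theorem h15d_going_down {r : ℕ} (b : Basis (Fin r) ℤ K)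
    (TK : ι → Module.End ℤ K) {p : ℕ} (hp : p.Prime) (θ : ι → ℤ)
    {V : Type*} [AddCommGroup V] [Module ℂ V] (j : K →ₗ[ℤ] V)
    (hj : LinearIndependent ℂ (fun k => j (b k)))
    (TV : ι → V →ₗ[ℂ] V) (hT : ∀ i k, TV i (j k) = j (TK i k))
    (v : V) (hv0 : v ≠ 0) (hv : v ∈ Submodule.span ℂ (Set.range j))
    (a : ι → integralClosure ℤ ℂ) (𝔪 : Ideal (integralClosure ℤ ℂ)) (h𝔪 : 𝔪 ≠ ⊤)
    (hpm : (p : integralClosure ℤ ℂ) ∈ 𝔪)
    (heig : ∀ i, TV i v = (a i : ℂ) • v)
    (hcong : ∀ i, a i - (θ i : integralClosure ℤ ℂ) ∈ 𝔪) :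
    ∃ x₀ : K, (¬ ∃ z : K, x₀ = (p : ℤ) • z) ∧
      ∀ i, ∃ z : K, TK i x₀ = θ i • x₀ + (p : ℤ) • z := by
  classical
  -- coordinates of `v`
  have hspan : Submodule.span ℂ (Set.range j) ≤ Submodule.span ℂ (Set.range fun k => j (b k)) := by
    apply Submodule.span_le.mpr
    rintro _ ⟨x, rfl⟩
    have hx : j x = ∑ k, ((b.repr x k : ℤ) : ℂ) • j (b k) := by
      conv_lhs => rw [← b.sum_repr x]
      rw [map_sum]
      refine Finset.sum_congr rfl fun k _ => ?_
      rw [map_smul]
      exact (Int.cast_smul_eq_zsmul ℂ _ _).symm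
    rw [hx]
    exact Submodule.sum_mem _ fun k _ => Submodule.smul_mem _ _ (Submodule.subset_span ⟨k, rfl⟩)
  obtain ⟨c, hcv⟩ := (Submodule.mem_span_range_iff_exists_fun ℂ).mp (hspan hv)
  have hc0 : c ≠ 0 := by
    rintro rfl
    apply hv0
    rw [← hcv]
    simp
  have hgenc : ∀ i, ((LinearMap.toMatrix b b (TK i)).map (Int.cast : ℤ → ℂ)).mulVec c
      = (a i : ℂ) • c := by
    intro i
    have h1 := h15d_transport b (TK i) j (TV i) (hT i) c
    rw [hcv, heig i, ← hcv, Finset.smul_sum] at h1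
    have h2 : ∑ k, ((a i : ℂ) • c k
        - ((LinearMap.toMatrix b b (TK i)).map (Int.cast : ℤ → ℂ)).mulVec c k) • j (b k) = 0 := by
      simp_rw [sub_smul, Finset.sum_sub_distrib]
      rw [sub_eq_zero, ← h1]
      refine Finset.sum_congr rfl fun k _ => ?_
      rw [smul_eq_mul, mul_smul]
    have h3 := (Fintype.linearIndependent_iff.mp hj) _ h2
    funext k
    have := h3 k
    rw [sub_eq_zero] at this
    rw [Pi.smul_apply, this]
  obtain ⟨x, hx0, hxT⟩ := h15d_down_core (fun i => LinearMap.toMatrix b b (TK i)) θ hp c hc0 a 𝔪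
    h𝔪 hpm hgenc hcong
  refine ⟨∑ k, x k • b k, ?_, fun i => ?_⟩
  · rintro ⟨z, hz⟩
    apply hx0
    intro k
    refine ⟨b.repr z k, ?_⟩
    have h1 := congrArg (fun y => b.repr y k) hz
    simp only [map_sum, map_smul, Finsupp.coe_finsetSum, Finsupp.coe_smul, Finset.sum_apply,
      Pi.smul_apply, Basis.repr_self, smul_eq_mul] at h1
    rw [← h1]
    simp [Finsupp.single_apply]
  · choose s hs using hxT i
    refine ⟨∑ k, s k • b k, ?_⟩
    apply b.repr.injective
    ext k
    have h1 : b.repr (TK i (∑ k, x k • b k)) k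
        = (LinearMap.toMatrix b b (TK i)).mulVec x k := by
      have := LinearMap.toMatrix_mulVec_repr b b (TK i) (∑ k, x k • b k)
      rw [← this]
      congr 1
      funext l
      simp [Finsupp.single_apply]
    have h2 : ∀ y : Fin r → ℤ, b.repr (∑ k, y k • b k) k = y k := by
      intro y
      simp [Finsupp.single_apply]
    rw [h1, map_add, map_smul, map_smul, Finsupp.add_apply, Finsupp.smul_apply,
      Finsupp.smul_apply, h2 x, h2 s, smul_eq_mul, smul_eq_mul]
    have := hs k
    linarith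

/-- **INDEP.** `ℤ`-linearly independent integer valued functions are `ℂ`-linearly
independent. -/
theorem h15d_indep {S : Type*} {r : ℕ} (φ : Fin r → S → ℤ)
    (hφ : ∀ n : Fin r → ℤ, (∀ s, ∑ k, n k * φ k s = 0) → n = 0)
    (c : Fin r → ℂ) (hc : ∀ s, ∑ k, c k * (φ k s : ℂ) = 0) : c = 0 := by
  classical
  by_contra hc0
  obtain ⟨k₀, hk₀⟩ : ∃ k, c k ≠ 0 := by
    by_contra h
    push Not at h
    exact hc0 (funext h)
  obtain ⟨lam, hlam⟩ := Module.Projective.exists_dual_ne_zero ℚ hk₀
  -- the rational vectors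
  let w : Fin r → S → ℚ := fun k s => (φ k s : ℚ)
  have hwZ : LinearIndependent ℤ w := by
    rw [Fintype.linearIndependent_iff]
    intro n hn k
    have h1 : ∀ s, ∑ k, n k * φ k s = 0 := by
      intro s
      have h2 := congrFun hn s
      simp only [Finset.sum_apply, w, zsmul_eq_mul, Pi.zero_apply] at h2
      have h3 : ((∑ k, n k * φ k s : ℤ) : ℚ) = 0 := by
        push_cast
        rw [← h2]
        refine Finset.sum_congr rfl fun k _ => ?_
        simp
      exact_mod_cast h3
    rw [hφ n h1]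
    rfl
  have hwQ : LinearIndependent ℚ w := (LinearIndependent.iff_fractionRing ℤ ℚ).mp hwZ
  have hq : ∑ k, lam (c k) • w k = 0 := by
    funext s
    simp only [Finset.sum_apply, Pi.smul_apply, w, smul_eq_mul, Pi.zero_apply]
    have h1 := congrArg lam (hc s)
    rw [map_sum, map_zero] at h1
    rw [← h1]
    refine Finset.sum_congr rfl fun k _ => ?_
    have h2 : c k * (φ k s : ℂ) = ((φ k s : ℤ) : ℚ) • c k := by
      rw [Algebra.smul_def]
      simp [mul_comm]
    rw [h2, map_smul, smul_eq_mul, mul_comm]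
  have := (Fintype.linearIndependent_iff.mp hwQ) _ hq k₀
  exact hlam this

end wrapper

end Fermat.Agent.LR
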