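/-
P-LR (S41 level raising), row LR-DOWN (helper15): `h15d_down : h88_DownStatement`.

From a normalised eigenform `f` of level `N` with `a_ℓ(f) ≡ θ ℓ` modulo `𝔪` (`ℓ ∈ S`) to an
element `φ ∈ L_N ∖ p L_N` with `T_ℓ φ ≡ θ ℓ • φ` modulo `p L_N` (`ℓ ∈ S`).

Inputs: the abstract going-down lemma `h15d_going_down` (`LR/DownAlg15.lean`, no commutativity
of the Hecke operators needed), the IN-JAC period package (`Jac.cohHecke`, `Jac.periodHecke`,
`Jac.latticeSpan`, `Jac.latticeFG`, `Jac.HKM.h57_periodMap_*`) and `h17lr_T_eq`.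
-/
import Fermat.Agent.LR.DownAlg15
import Fermat.Agent.LR.AsmDefs
import Fermat.Agent.LR.CohPar
import Fermat.Agent.Jac.HKM
import Fermat.Agent.Jac.COH
import Fermat.Agent.Jac.Per
import Fermat.Agent.Jac.Lam

set_option autoImplicit false
set_option linter.style.haveILetI false

open ModularCurve CongruenceSubgroup
open scoped MatrixGroups

noncomputable section

namespace Fermat.Agent.LR

open Fermat.Agent.Jac Fermat.Agent.Jac.HKM Module

/-- the two bundled Hecke operators on the lattice agree. -/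
theorem h15d_TLam_eq (N : ℕ) [NeZero N] {ℓ : ℕ} (hℓ : ℓ.Prime) (hℓN : ¬ ℓ ∣ N)
    (x : h17lr_L N) : h57_TLam cohHecke N ℓ x = h17lr_T N ℓ x := by
  apply Subtype.ext
  rw [h57_TLam_coe]
  exact (h17lr_T_eq hℓ hℓN x (h57_Tfun_spec cohHecke ⟨hℓ, hℓN⟩ ℤ x.1)).symm

/-- a `ℤ`-basis of the lattice stays linearly independent in `Hom(Γ₀(N), ℂ)`. -/
theorem h15d_indep_j (N : ℕ) [NeZero N] {r : ℕ} (b : Basis (Fin r) ℤ (h17lr_L N)) :
    LinearIndependent ℂ (fun k => h57_j N (b k)) := by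
  rw [Fintype.linearIndependent_iff]
  intro c hc k
  have h1 : c = 0 := by
    refine h15d_indep (fun k (γ : Additive (Gamma0 N)) => (b k).1 γ) ?_ c ?_
    · intro n hn
      have h2 : ∑ k, n k • b k = 0 := by
        apply Subtype.ext
        refine AddMonoidHom.ext fun γ => ?_
        have := hn γ
        simpa [AddMonoidHom.finsetSum_apply] using this
      funext k
      exact (Fintype.linearIndependent_iff.mp b.linearIndependent) n h2 k
    · intro γ
      have h2 := congrArg (fun ψ : Additive (Gamma0 N) →+ ℂ => ψ γ) hc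
      simpa [AddMonoidHom.finsetSum_apply] using h2
  rw [h1]
  rfl

/-- **LR-DOWN.** -/
theorem h15d_down : h88_DownStatement := by
  intro N hN p hp f hf 𝔪 hmax hpm S θ hS hcong
  classical
  haveI : NeZero N := ⟨hN.ne'⟩
  haveI hfin : Module.Finite ℤ (h17lr_L N) := Module.Finite.iff_fg.mpr (latticeFG N)
  haveI htf : IsAddTorsionFree (h17lr_L N) := h57_isAddTorsionFree_Lam N
  haveI hfree : Module.Free ℤ (h17lr_L N) := inferInstance
  let b : Basis (Fin (Module.finrank ℤ (h17lr_L N))) ℤ (h17lr_L N) := Module.finBasis ℤ _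
  choose a ha using fun ℓ : S => hcong ℓ.1 ℓ.2
  have hv0 : periodMap N f ≠ 0 := h57_periodMap_ne_zero f hf.ne_zero
  have hv := h57_periodMap_mem_span latticeSpan f
  obtain ⟨x₀, hx₀, hx₀T⟩ := h15d_going_down (ι := S) b (fun ℓ => h17lr_T N ℓ.1) hp
    (fun ℓ => θ ℓ.1) (h57_j N) (h15d_indep_j N b) (fun ℓ => h57_SC cohHecke N ℓ.1)
    (fun ℓ x => by
      rw [h57_SC_j, h15d_TLam_eq N (hS ℓ.1 ℓ.2).1 (hS ℓ.1 ℓ.2).2])
    (periodMap N f) hv0 hv a 𝔪 hmax.ne_top hpm
    (fun ℓ => by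
      rw [h57_periodMap_eigen cohHecke periodHecke hf (hS ℓ.1 ℓ.2).1 (hS ℓ.1 ℓ.2).2, (ha ℓ).1])
    (fun ℓ => (ha ℓ).2)
  refine ⟨x₀, hx₀, fun ℓ hℓ => ?_⟩
  obtain ⟨z, hz⟩ := hx₀T ⟨ℓ, hℓ⟩
  exact ⟨z, by rw [hz]; abel⟩

end Fermat.Agent.LR
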