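import Mathlib
import Fermat.Agent.S49.EigenChar

/-!
# P-LR (S41 level raising), LR-ALG part (4): the eigen-lift (helper61)

Abstract Deligne–Serre lifting on a lattice.

* `h61el_core`: `K` a finite `ℤ`-module, `j : K → V` an injective `ℤ`-linear map into a finite
  dimensional complex vector space, `TK i` commuting endomorphisms of `K`, `TV i` endomorphisms
  of `V` with `TV i ∘ j = j ∘ TK i`; `y₀ ∈ K ∖ pK` with `TK i y₀ ≡ θ i • y₀ mod pK` for all `i`.
  Then there are `0 ≠ v ∈ span_ℂ j(K)`, algebraic integers `a i` and a maximal ideal `𝔪' ∋ p` of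
  `integralClosure ℤ ℂ` with `TV i v = a i • v` and `a i - θ i ∈ 𝔪'`.
* `h61el_full`: moreover `v` may be chosen to be a simultaneous eigenvector of a further family
  `𝒰` of endomorphisms of `V` which stabilise a subspace `W' ⊇ j(K)` and commute on `W'` with
  each other and with the `TV i`.
* `h61el_of_ker`, `h61el_of_ker_full`: the same for `K = ker β ⊆ Y`, in exactly the shape of the
  conclusion of `h15lr_ribet_alg` (`LR/RibetAlg.lean`).
-/

set_option autoImplicit false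
set_option linter.style.haveILetI false

open Module

namespace Fermat.Agent.LR

section Core

variable {K : Type*} [AddCommGroup K]
  {V : Type*} [AddCommGroup V] [Module ℂ V]

/-- the complex span of the lattice. -/
abbrev h61el_W (j : K →ₗ[ℤ] V) : Submodule ℂ V := Submodule.span ℂ (Set.range j)

/-- the lattice inside its span. -/
def h61el_jW (j : K →ₗ[ℤ] V) (y : K) : h61el_W j := ⟨j y, Submodule.subset_span ⟨y, rfl⟩⟩

theorem h61el_jW_add (j : K →ₗ[ℤ] V) (y y' : K) :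
    h61el_jW j (y + y') = h61el_jW j y + h61el_jW j y' :=
  Subtype.ext (map_add j y y')

theorem h61el_jW_zsmul (j : K →ₗ[ℤ] V) (n : ℤ) (y : K) :
    h61el_jW j (n • y) = n • h61el_jW j y :=
  Subtype.ext (map_zsmul j n y)

theorem h61el_jW_zero (j : K →ₗ[ℤ] V) : h61el_jW j 0 = 0 :=
  Subtype.ext (map_zero j)

/-- a linear map on the span which kills the lattice is zero. -/
theorem h61el_eq_zero_of_jW (j : K →ₗ[ℤ] V) {M : Type*} [AddCommGroup M] [Module ℂ M]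
    (f : h61el_W j →ₗ[ℂ] M) (hf : ∀ y, f (h61el_jW j y) = 0) : f = 0 := by
  have h1 : h61el_W j ≤ Submodule.map (h61el_W j).subtype (LinearMap.ker f) := by
    apply Submodule.span_le.2
    rintro _ ⟨y, rfl⟩
    exact ⟨h61el_jW j y, hf y, rfl⟩
  ext w
  obtain ⟨w', hw', hww'⟩ := h1 w.2
  have : w' = w := Subtype.ext hww'
  rw [← this]
  exact hw'

/-- two linear maps on the span which agree on the lattice are equal. -/
theorem h61el_ext_of_jW (j : K →ₗ[ℤ] V) {M : Type*} [AddCommGroup M] [Module ℂ M]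
    (f g : h61el_W j →ₗ[ℂ] M) (hfg : ∀ y, f (h61el_jW j y) = g (h61el_jW j y)) : f = g := by
  have := h61el_eq_zero_of_jW j (f - g) (fun y => by
    rw [LinearMap.sub_apply, hfg y, sub_self])
  exact sub_eq_zero.1 this

theorem h61el_TV_mem (j : K →ₗ[ℤ] V) (TKi : K →ₗ[ℤ] K) (TVi : Module.End ℂ V)
    (hTV : ∀ y, TVi (j y) = j (TKi y)) : ∀ w ∈ h61el_W j, TVi w ∈ h61el_W j := by
  intro w hw
  have h1 : h61el_W j ≤ Submodule.comap TVi (h61el_W j) := by
    apply Submodule.span_le.2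
    rintro _ ⟨y, rfl⟩
    show TVi (j y) ∈ h61el_W j
    rw [hTV y]
    exact Submodule.subset_span ⟨TKi y, rfl⟩
  exact h1 hw

/-- the ambient ring of the graph algebra. -/
abbrev h61el_R (j : K →ₗ[ℤ] V) : Type _ := Module.End ℂ (h61el_W j) × Module.End ℤ K

/-- the generator `(TV i|W, TK i)` of the graph algebra. -/
def h61el_gen (j : K →ₗ[ℤ] V) (TKi : K →ₗ[ℤ] K) (TVi : Module.End ℂ V)
    (hTV : ∀ y, TVi (j y) = j (TKi y)) : h61el_R j :=
  (TVi.restrict (h61el_TV_mem j TKi TVi hTV), TKi)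

/-- the graph condition: the two components agree on the lattice. -/
def h61el_graph (j : K →ₗ[ℤ] V) : Subalgebra ℤ (h61el_R j) where
  carrier := {x | ∀ y, x.1 (h61el_jW j y) = h61el_jW j (x.2 y)}
  mul_mem' := by
    intro x x' hx hx' y
    show x.1 (x'.1 (h61el_jW j y)) = h61el_jW j (x.2 (x'.2 y))
    rw [hx' y, hx]
  add_mem' := by
    intro x x' hx hx' y
    show x.1 (h61el_jW j y) + x'.1 (h61el_jW j y) = h61el_jW j (x.2 y + x'.2 y)
    rw [hx y, hx' y, h61el_jW_add]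
  algebraMap_mem' := by
    intro n y
    show ((algebraMap ℤ (Module.End ℂ (h61el_W j)) n) (h61el_jW j y))
      = h61el_jW j ((algebraMap ℤ (Module.End ℤ K) n) y)
    rw [Module.algebraMap_end_apply, Module.algebraMap_end_apply, h61el_jW_zsmul]

theorem h61el_gen_mem_graph (j : K →ₗ[ℤ] V) (TKi : K →ₗ[ℤ] K) (TVi : Module.End ℂ V)
    (hTV : ∀ y, TVi (j y) = j (TKi y)) : h61el_gen j TKi TVi hTV ∈ h61el_graph j := by
  intro y
  apply Subtype.ext
  show TVi (j y) = j (TKi y)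
  exact hTV y

end Core

section Main

variable {p : ℕ} {K : Type*} [AddCommGroup K] [Module.Finite ℤ K]
  {V : Type*} [AddCommGroup V] [Module ℂ V] [FiniteDimensional ℂ V]

/-- **Eigen-lift (Deligne–Serre lifting on a lattice), core form.** -/
theorem h61el_core (hp : p.Prime)
    (j : K →ₗ[ℤ] V) (hj : Function.Injective j)
    {ι : Type*} (TK : ι → K →ₗ[ℤ] K) (TV : ι → Module.End ℂ V)
    (hcomm : ∀ i i' y, TK i (TK i' y) = TK i' (TK i y))
    (hTV : ∀ i y, TV i (j y) = j (TK i y))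
    (θ : ι → ℤ) (y₀ : K) (hy₀ : ¬ ∃ y', y₀ = (p : ℤ) • y')
    (hy₀T : ∀ i, ∃ y', TK i y₀ - θ i • y₀ = (p : ℤ) • y') :
    ∃ (v : V) (a : ι → integralClosure ℤ ℂ) (𝔪' : Ideal (integralClosure ℤ ℂ)),
      v ≠ 0 ∧ v ∈ Submodule.span ℂ (Set.range j) ∧ 𝔪'.IsMaximal ∧
      (p : integralClosure ℤ ℂ) ∈ 𝔪' ∧
      ∀ i, TV i v = ((a i : integralClosure ℤ ℂ) : ℂ) • v ∧
        a i - ((θ i : ℤ) : integralClosure ℤ ℂ) ∈ 𝔪' := by
  classical
  -- the generators and the graph algebra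
  let g : ι → h61el_R j :=
    fun i => h61el_gen j (TK i) (TV i) (hTV i)
  have hg2 : ∀ i, (g i).2 = TK i := fun i => rfl
  have hg1 : ∀ i (w : h61el_W j), (((g i).1 w : h61el_W j) : V) = TV i (w : V) := fun i w => rfl
  have hgcomm : ∀ a ∈ Set.range g, ∀ b ∈ Set.range g, a * b = b * a := by
    rintro _ ⟨i, rfl⟩ _ ⟨i', rfl⟩
    have h2 : (g i).2 * (g i').2 = (g i').2 * (g i).2 := by
      apply LinearMap.ext
      intro y
      exact hcomm i i' y
    have h1 : (g i).1 * (g i').1 = (g i').1 * (g i).1 := by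
      apply h61el_ext_of_jW j
      intro y
      have e1 := h61el_gen_mem_graph j (TK i) (TV i) (hTV i)
      have e2 := h61el_gen_mem_graph j (TK i') (TV i') (hTV i')
      show (g i).1 ((g i').1 (h61el_jW j y)) = (g i').1 ((g i).1 (h61el_jW j y))
      rw [e2 y, e1 y, e1 (_), e2 (_)]
      show h61el_jW j (TK i (TK i' y)) = h61el_jW j (TK i' (TK i y))
      rw [hcomm i i' y]
    exact Prod.ext h1 h2
  let A : Subalgebra ℤ (h61el_R j) :=
    Algebra.adjoin ℤ (Set.range g)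
  letI : CommRing A := Algebra.adjoinCommRingOfComm ℤ hgcomm
  have hAle : A ≤ h61el_graph j := by
    apply Algebra.adjoin_le
    rintro _ ⟨i, rfl⟩
    exact h61el_gen_mem_graph j (TK i) (TV i) (hTV i)
  have hgraph : ∀ (x : A) (y : K), (x : h61el_R j).1 (h61el_jW j y) = h61el_jW j ((x : h61el_R j).2 y) :=
    fun x y => hAle x.2 y
  -- the two projections
  let ρ : A →+* Module.End ℂ (h61el_W j) :=
    (RingHom.fst (Module.End ℂ (h61el_W j)) (Module.End ℤ K)).comp (A.val : A →ₐ[ℤ] h61el_R j).toRingHom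
  have hρ_apply : ∀ x : A, ρ x = (x : h61el_R j).1 := fun x => rfl
  have h2_of_1 : ∀ x : A, (x : h61el_R j).1 = 0 → (x : h61el_R j).2 = 0 := by
    intro x hx
    apply LinearMap.ext
    intro y
    have h := hgraph x y
    rw [hx] at h
    have h' : (h61el_jW j ((x : h61el_R j).2 y) : V) = 0 := by
      rw [← h]; rfl
    have h'' : j ((x : h61el_R j).2 y) = 0 := h'
    rw [LinearMap.zero_apply]
    exact hj (by rw [h'', map_zero])
  have h1_of_2 : ∀ x : A, (x : h61el_R j).2 = 0 → (x : h61el_R j).1 = 0 := by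
    intro x hx
    apply h61el_eq_zero_of_jW j
    intro y
    rw [hgraph x y, hx, LinearMap.zero_apply, h61el_jW_zero]
  have hρ : Function.Injective ρ := by
    rw [injective_iff_map_eq_zero]
    intro x hx
    have h1 : (x : h61el_R j).1 = 0 := hx
    have h2 := h2_of_1 x h1
    apply Subtype.ext
    exact Prod.ext h1 h2
  -- finiteness of `A` over `ℤ`
  haveI : Module.Finite ℤ A := by
    obtain ⟨n, s, hs⟩ := Module.Finite.exists_fin (R := ℤ) (M := K)
    let e : A →ₗ[ℤ] (Fin n → K) :=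
      { toFun := fun x k => (x : h61el_R j).2 (s k)
        map_add' := fun x x' => by
          funext k
          rfl
        map_smul' := fun m x => by
          funext k
          rfl }
    have he : Function.Injective e := by
      rw [injective_iff_map_eq_zero]
      intro x hx
      have h2 : (x : h61el_R j).2 = 0 := by
        apply LinearMap.ext_on_range hs
        intro k
        have := congrFun hx k
        rw [LinearMap.zero_apply]
        exact this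
      have h1 := h1_of_2 x h2
      apply Subtype.ext
      exact Prod.ext h1 h2
    exact Module.Finite.of_injective e he
  -- the maximal ideal
  let 𝔫 : Ideal A :=
    { carrier := {x | ∃ y', (x : h61el_R j).2 y₀ = (p : ℤ) • y'}
      zero_mem' := ⟨0, by simp⟩
      add_mem' := by
        rintro x x' ⟨y, hy⟩ ⟨y', hy'⟩
        refine ⟨y + y', ?_⟩
        show (x : h61el_R j).2 y₀ + (x' : h61el_R j).2 y₀ = _
        rw [hy, hy', smul_add]
      smul_mem' := by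
        rintro c x ⟨y, hy⟩
        refine ⟨(c : h61el_R j).2 y, ?_⟩
        show (c : h61el_R j).2 ((x : h61el_R j).2 y₀) = _
        rw [hy, map_zsmul] }
  have hmem𝔫 : ∀ x : A, x ∈ 𝔫 ↔ ∃ y', (x : h61el_R j).2 y₀ = (p : ℤ) • y' := fun x => Iff.rfl
  have hp𝔫 : ((p : ℤ) : A) ∈ 𝔫 := by
    rw [hmem𝔫]
    refine ⟨y₀, ?_⟩
    have : (((p : ℤ) : A) : h61el_R j).2 = ((p : ℤ) : Module.End ℤ K) := by
      simp
    rw [this]
    simp
  have hint𝔫 : ∀ n : ℤ, ((n : ℤ) : A) ∈ 𝔫 → (p : ℤ) ∣ n := by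
    intro n hn
    by_contra hpn
    have hcop : IsCoprime (p : ℤ) n := by
      rw [Int.isCoprime_iff_gcd_eq_one]
      have h1 : Nat.Coprime p n.natAbs := by
        rw [Nat.Prime.coprime_iff_not_dvd hp]
        intro h
        apply hpn
        exact Int.natCast_dvd.2 h
      simpa [Int.gcd] using h1
    obtain ⟨u, w, huw⟩ := hcop
    have h1 : (1 : A) ∈ 𝔫 := by
      have : (1 : A) = ((u : ℤ) : A) * ((p : ℤ) : A) + ((w : ℤ) : A) * ((n : ℤ) : A) := by
        have := congrArg (fun z : ℤ => (z : A)) huw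
        simp only [Int.cast_add, Int.cast_mul, Int.cast_one] at this
        exact this.symm
      rw [this]
      exact 𝔫.add_mem (𝔫.mul_mem_left _ hp𝔫) (𝔫.mul_mem_left _ hn)
    obtain ⟨y', hy'⟩ := (hmem𝔫 1).1 h1
    apply hy₀
    refine ⟨y', ?_⟩
    rw [← hy']
    rfl
  have hdecomp : ∀ x : A, ∃ n : ℤ, x - ((n : ℤ) : A) ∈ 𝔫 := by
    rintro ⟨x, hx⟩
    induction hx using Algebra.adjoin_induction with
    | mem x hx =>
        obtain ⟨i, rfl⟩ := hx
        refine ⟨θ i, ?_⟩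
        rw [hmem𝔫]
        obtain ⟨y', hy'⟩ := hy₀T i
        refine ⟨y', ?_⟩
        rw [← hy']
        have : (((⟨g i, Algebra.subset_adjoin ⟨i, rfl⟩⟩ : A) - ((θ i : ℤ) : A) : A) : h61el_R j).2
            = TK i - ((θ i : ℤ) : Module.End ℤ K) := by
          simp [hg2]
        rw [this, LinearMap.sub_apply]
        congr 1
    | algebraMap r =>
        refine ⟨r, ?_⟩
        have : (⟨algebraMap ℤ _ r, Subalgebra.algebraMap_mem _ r⟩ : A) = ((r : ℤ) : A) := by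
          apply Subtype.ext
          simp
        rw [this, sub_self]
        exact 𝔫.zero_mem
    | add x y hx hy ihx ihy =>
        obtain ⟨n, hn⟩ := ihx
        obtain ⟨m, hm⟩ := ihy
        refine ⟨n + m, ?_⟩
        have : (⟨x + y, add_mem hx hy⟩ : A) - ((n + m : ℤ) : A)
            = ((⟨x, hx⟩ : A) - ((n : ℤ) : A)) + ((⟨y, hy⟩ : A) - ((m : ℤ) : A)) := by
          rw [Int.cast_add]
          have : (⟨x + y, add_mem hx hy⟩ : A) = (⟨x, hx⟩ : A) + ⟨y, hy⟩ := rfl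
          rw [this]
          abel
        rw [this]
        exact 𝔫.add_mem hn hm
    | mul x y hx hy ihx ihy =>
        obtain ⟨n, hn⟩ := ihx
        obtain ⟨m, hm⟩ := ihy
        refine ⟨n * m, ?_⟩
        have : (⟨x * y, mul_mem hx hy⟩ : A) - ((n * m : ℤ) : A)
            = ((⟨x, hx⟩ : A) - ((n : ℤ) : A)) * (⟨y, hy⟩ : A)
              + ((n : ℤ) : A) * ((⟨y, hy⟩ : A) - ((m : ℤ) : A)) := by
          rw [Int.cast_mul]
          have : (⟨x * y, mul_mem hx hy⟩ : A) = (⟨x, hx⟩ : A) * ⟨y, hy⟩ := rfl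
          rw [this]
          ring
        rw [this]
        exact 𝔫.add_mem (𝔫.mul_mem_right _ hn) (𝔫.mul_mem_left _ hm)
  have h1𝔫 : (1 : A) ∉ 𝔫 := by
    intro h1
    obtain ⟨y', hy'⟩ := (hmem𝔫 1).1 h1
    apply hy₀
    refine ⟨y', ?_⟩
    rw [← hy']
    rfl
  haveI h𝔫max : 𝔫.IsMaximal := by
    rw [Ideal.isMaximal_iff]
    refine ⟨h1𝔫, ?_⟩
    intro J x h𝔫J hx𝔫 hxJ
    obtain ⟨n, hn⟩ := hdecomp x
    have hnJ : ((n : ℤ) : A) ∈ J := by
      have : ((n : ℤ) : A) = x - (x - ((n : ℤ) : A)) := by ring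
      rw [this]
      exact J.sub_mem hxJ (h𝔫J hn)
    have hpn : ¬ (p : ℤ) ∣ n := by
      rintro ⟨m, rfl⟩
      apply hx𝔫
      have : x = (x - (((p : ℤ) * m : ℤ) : A)) + ((m : ℤ) : A) * ((p : ℤ) : A) := by
        rw [Int.cast_mul]
        ring
      rw [this]
      exact 𝔫.add_mem hn (𝔫.mul_mem_left _ hp𝔫)
    have hcop : IsCoprime (p : ℤ) n := by
      rw [Int.isCoprime_iff_gcd_eq_one]
      have h1 : Nat.Coprime p n.natAbs := by
        rw [Nat.Prime.coprime_iff_not_dvd hp]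
        intro h
        apply hpn
        exact Int.natCast_dvd.2 h
      simpa [Int.gcd] using h1
    obtain ⟨u, w, huw⟩ := hcop
    have : (1 : A) = ((u : ℤ) : A) * ((p : ℤ) : A) + ((w : ℤ) : A) * ((n : ℤ) : A) := by
      have := congrArg (fun z : ℤ => (z : A)) huw
      simp only [Int.cast_add, Int.cast_mul, Int.cast_one] at this
      exact this.symm
    rw [this]
    exact J.add_mem (J.mul_mem_left _ (h𝔫J hp𝔫)) (J.mul_mem_left _ hnJ)
  haveI : 𝔫.IsPrime := h𝔫max.isPrime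
  -- Deligne–Serre
  obtain ⟨v, χ, hv0, hvχ, hker⟩ := Fermat.Agent.S49.exists_eigenchar_ker_le ρ hρ 𝔫
  obtain ⟨χ', 𝔪', hχ', h𝔪'max, h𝔪'⟩ := Fermat.Agent.S49.exists_integral_lift χ 𝔫 hker
  have hχ'int : ∀ n : ℤ, χ' ((n : ℤ) : A) = ((n : ℤ) : integralClosure ℤ ℂ) := fun n => by
    simp
  refine ⟨(v : V), fun i => χ' ⟨g i, Algebra.subset_adjoin ⟨i, rfl⟩⟩, 𝔪', ?_, v.2, h𝔪'max, ?_, ?_⟩
  · intro h
    exact hv0 (Subtype.ext h)
  · have := h𝔪' _ hp𝔫
    rw [hχ'int] at this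
    exact_mod_cast this
  · intro i
    constructor
    · have h1 := hvχ ⟨g i, Algebra.subset_adjoin ⟨i, rfl⟩⟩
      rw [hρ_apply] at h1
      have h2 := congrArg (fun w : h61el_W j => (w : V)) h1
      simp only at h2
      rw [hχ']
      rw [← hg1 i v]
      exact h2
    · obtain ⟨y', hy'⟩ := hy₀T i
      have hmem : (⟨g i, Algebra.subset_adjoin ⟨i, rfl⟩⟩ : A) - ((θ i : ℤ) : A) ∈ 𝔫 := by
        rw [hmem𝔫]
        refine ⟨y', ?_⟩
        rw [← hy']
        have : (((⟨g i, Algebra.subset_adjoin ⟨i, rfl⟩⟩ : A) - ((θ i : ℤ) : A) : A) : h61el_R j).2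
            = TK i - ((θ i : ℤ) : Module.End ℤ K) := by
          simp [hg2]
        rw [this, LinearMap.sub_apply]
        congr 1
      have := h𝔪' _ hmem
      rw [map_sub, hχ'int] at this
      exact this

/-- **Eigen-lift, with an extra commuting family.**  The eigenvector may be chosen to be a
simultaneous eigenvector of a further family `𝒰` of endomorphisms of `V` which stabilise a
subspace `W' ⊇ j(K)` and commute, on `W'`, with each other and with the `TV i`. -/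
theorem h61el_full (hp : p.Prime)
    (j : K →ₗ[ℤ] V) (hj : Function.Injective j)
    {ι : Type*} (TK : ι → K →ₗ[ℤ] K) (TV : ι → Module.End ℂ V)
    (hcomm : ∀ i i' y, TK i (TK i' y) = TK i' (TK i y))
    (hTV : ∀ i y, TV i (j y) = j (TK i y))
    (θ : ι → ℤ) (y₀ : K) (hy₀ : ¬ ∃ y', y₀ = (p : ℤ) • y')
    (hy₀T : ∀ i, ∃ y', TK i y₀ - θ i • y₀ = (p : ℤ) • y')
    (W' : Submodule ℂ V) (hjW' : ∀ y, j y ∈ W')
    (𝒰 : Set (Module.End ℂ V)) (hUW' : ∀ U ∈ 𝒰, ∀ w ∈ W', U w ∈ W')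
    (hUU : ∀ U ∈ 𝒰, ∀ U' ∈ 𝒰, ∀ w ∈ W', U (U' w) = U' (U w))
    (hUT : ∀ U ∈ 𝒰, ∀ i, ∀ w ∈ W', U (TV i w) = TV i (U w)) :
    ∃ (v : V) (a : ι → integralClosure ℤ ℂ) (𝔪' : Ideal (integralClosure ℤ ℂ)),
      v ≠ 0 ∧ v ∈ W' ∧ 𝔪'.IsMaximal ∧ (p : integralClosure ℤ ℂ) ∈ 𝔪' ∧
      (∀ i, TV i v = ((a i : integralClosure ℤ ℂ) : ℂ) • v ∧
        a i - ((θ i : ℤ) : integralClosure ℤ ℂ) ∈ 𝔪') ∧
      ∀ U ∈ 𝒰, ∃ μ : ℂ, U v = μ • v := by
  classical
  obtain ⟨v₀, a, 𝔪', hv₀, hv₀W, hmax, hp𝔪, hT⟩ :=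
    h61el_core hp j hj TK TV hcomm hTV θ y₀ hy₀ hy₀T
  have hWW' : Submodule.span ℂ (Set.range j) ≤ W' := by
    apply Submodule.span_le.2
    rintro _ ⟨y, rfl⟩
    exact hjW' y
  have hv₀W' : v₀ ∈ W' := hWW' hv₀W
  -- the restricted family
  let 𝒰' : Set (Module.End ℂ W') :=
    {T | ∃ (U : Module.End ℂ V) (hU : U ∈ 𝒰), T = U.restrict (hUW' U hU)}
  -- the simultaneous eigenspace of the `TV i` inside `W'`
  let E : Submodule ℂ W' :=
    Submodule.comap W'.subtype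
      (⨅ i, LinearMap.ker (TV i - ((a i : integralClosure ℤ ℂ) : ℂ) • (LinearMap.id : V →ₗ[ℂ] V)))
  have hEmem : ∀ w : W', w ∈ E ↔ ∀ i, TV i (w : V) = ((a i : integralClosure ℤ ℂ) : ℂ) • (w : V) := by
    intro w
    simp only [E, Submodule.mem_comap, Submodule.mem_iInf, LinearMap.mem_ker,
      LinearMap.sub_apply, LinearMap.smul_apply, LinearMap.id_apply, sub_eq_zero,
      Submodule.subtype_apply]
  have hE : E ≠ ⊥ := by
    intro h
    have h1 : (⟨v₀, hv₀W'⟩ : W') ∈ E := (hEmem _).2 (fun i => (hT i).1)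
    rw [h] at h1
    have h2 := (Submodule.mem_bot ℂ).1 h1
    exact hv₀ (congrArg Subtype.val h2)
  have hcomm' : ∀ T ∈ 𝒰', ∀ T' ∈ 𝒰', Commute T T' := by
    rintro _ ⟨U, hU, rfl⟩ _ ⟨U', hU', rfl⟩
    apply LinearMap.ext
    intro w
    apply Subtype.ext
    exact hUU U hU U' hU' w w.2
  have hstab : ∀ T ∈ 𝒰', ∀ w ∈ E, T w ∈ E := by
    rintro _ ⟨U, hU, rfl⟩ w hw
    rw [hEmem] at hw ⊢
    intro i
    show TV i (U (w : V)) = ((a i : integralClosure ℤ ℂ) : ℂ) • U (w : V)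
    rw [← hUT U hU i w w.2, hw i, map_smul]
  obtain ⟨v, hvE, hv0, hv⟩ := Fermat.Agent.S49.exists_common_eigenvector 𝒰' hcomm' E hE hstab
  refine ⟨(v : V), a, 𝔪', ?_, v.2, hmax, hp𝔪, ?_, ?_⟩
  · intro h
    exact hv0 (Subtype.ext h)
  · intro i
    exact ⟨(hEmem v).1 hvE i, (hT i).2⟩
  · intro U hU
    obtain ⟨μ, hμ⟩ := hv (U.restrict (hUW' U hU)) ⟨U, hU, rfl⟩
    exact ⟨μ, congrArg Subtype.val hμ⟩

end Main

section Ker

variable {p : ℕ} {X Y : Type*} [AddCommGroup X] [AddCommGroup Y] [Module.Finite ℤ Y]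
  {V : Type*} [AddCommGroup V] [Module ℂ V] [FiniteDimensional ℂ V]

/-- **Eigen-lift on `ker β`**, with an extra commuting family: the input is exactly the
conclusion of `h15lr_ribet_alg` (a `θ`-eigenvector mod `p` in `ker β`, not divisible by `p`). -/
theorem h61el_of_ker_full (hp : p.Prime)
    (β : Y →ₗ[ℤ] X) (hX : ∀ x : X, (p : ℤ) • x = 0 → x = 0)
    (j : Y →ₗ[ℤ] V) (hj : ∀ y, β y = 0 → j y = 0 → y = 0)
    {ι : Type*} (TY : ι → Y →ₗ[ℤ] Y) (TV : ι → Module.End ℂ V)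
    (hβT : ∀ i y, β y = 0 → β (TY i y) = 0)
    (hcomm : ∀ i i' y, β y = 0 → TY i (TY i' y) = TY i' (TY i y))
    (hTV : ∀ i y, β y = 0 → TV i (j y) = j (TY i y))
    (θ : ι → ℤ) (y : Y) (hβy : β y = 0) (hy : ¬ ∃ y', y = (p : ℤ) • y')
    (hyT : ∀ i, ∃ y', TY i y - θ i • y = (p : ℤ) • y')
    (W' : Submodule ℂ V) (hjW' : ∀ y, β y = 0 → j y ∈ W')
    (𝒰 : Set (Module.End ℂ V)) (hUW' : ∀ U ∈ 𝒰, ∀ w ∈ W', U w ∈ W')
    (hUU : ∀ U ∈ 𝒰, ∀ U' ∈ 𝒰, ∀ w ∈ W', U (U' w) = U' (U w))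
    (hUT : ∀ U ∈ 𝒰, ∀ i, ∀ w ∈ W', U (TV i w) = TV i (U w)) :
    ∃ (v : V) (a : ι → integralClosure ℤ ℂ) (𝔪' : Ideal (integralClosure ℤ ℂ)),
      v ≠ 0 ∧ v ∈ W' ∧ 𝔪'.IsMaximal ∧ (p : integralClosure ℤ ℂ) ∈ 𝔪' ∧
      (∀ i, TV i v = ((a i : integralClosure ℤ ℂ) : ℂ) • v ∧
        a i - ((θ i : ℤ) : integralClosure ℤ ℂ) ∈ 𝔪') ∧
      ∀ U ∈ 𝒰, ∃ μ : ℂ, U v = μ • v := by
  classical
  let K : Submodule ℤ Y := LinearMap.ker β
  have hKmem : ∀ z : Y, z ∈ K ↔ β z = 0 := fun z => LinearMap.mem_ker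
  haveI : IsNoetherian ℤ Y := isNoetherian_of_isNoetherianRing_of_finite ℤ Y
  haveI : Module.Finite ℤ K := Module.IsNoetherian.finite ℤ K
  let TK : ι → K →ₗ[ℤ] K := fun i =>
    (TY i).restrict (fun z hz => (hKmem _).2 (hβT i z ((hKmem z).1 hz)))
  let jK : K →ₗ[ℤ] V := j.comp K.subtype
  have hjK : Function.Injective jK := by
    rw [injective_iff_map_eq_zero]
    intro z hz
    exact Subtype.ext (hj z.1 ((hKmem _).1 z.2) hz)
  refine h61el_full hp jK hjK TK TV ?_ ?_ θ ⟨y, (hKmem y).2 hβy⟩ ?_ ?_ W' ?_ 𝒰 hUW' hUU hUT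
  · intro i i' z
    apply Subtype.ext
    exact hcomm i i' z.1 ((hKmem _).1 z.2)
  · intro i z
    exact hTV i z.1 ((hKmem _).1 z.2)
  · rintro ⟨y', hy'⟩
    apply hy
    refine ⟨y'.1, ?_⟩
    exact congrArg Subtype.val hy'
  · intro i
    obtain ⟨y', hy'⟩ := hyT i
    have hβy' : β y' = 0 := by
      apply hX
      rw [← map_zsmul, ← hy', map_sub, map_zsmul, hβy, hβT i y hβy, smul_zero, sub_zero]
    refine ⟨⟨y', (hKmem y').2 hβy'⟩, ?_⟩
    apply Subtype.ext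
    exact hy'
  · intro z
    exact hjW' z.1 ((hKmem _).1 z.2)

/-- **Eigen-lift on `ker β`** (no extra family). -/
theorem h61el_of_ker (hp : p.Prime)
    (β : Y →ₗ[ℤ] X) (hX : ∀ x : X, (p : ℤ) • x = 0 → x = 0)
    (j : Y →ₗ[ℤ] V) (hj : ∀ y, β y = 0 → j y = 0 → y = 0)
    {ι : Type*} (TY : ι → Y →ₗ[ℤ] Y) (TV : ι → Module.End ℂ V)
    (hβT : ∀ i y, β y = 0 → β (TY i y) = 0)
    (hcomm : ∀ i i' y, β y = 0 → TY i (TY i' y) = TY i' (TY i y))
    (hTV : ∀ i y, β y = 0 → TV i (j y) = j (TY i y))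
    (θ : ι → ℤ) (y : Y) (hβy : β y = 0) (hy : ¬ ∃ y', y = (p : ℤ) • y')
    (hyT : ∀ i, ∃ y', TY i y - θ i • y = (p : ℤ) • y') :
    ∃ (v : V) (a : ι → integralClosure ℤ ℂ) (𝔪' : Ideal (integralClosure ℤ ℂ)),
      v ≠ 0 ∧ v ∈ Submodule.span ℂ (j '' {z | β z = 0}) ∧ 𝔪'.IsMaximal ∧
      (p : integralClosure ℤ ℂ) ∈ 𝔪' ∧
      ∀ i, TV i v = ((a i : integralClosure ℤ ℂ) : ℂ) • v ∧
        a i - ((θ i : ℤ) : integralClosure ℤ ℂ) ∈ 𝔪' := by
  obtain ⟨v, a, 𝔪', h1, h2, h3, h4, h5, -⟩ :=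
    h61el_of_ker_full hp β hX j hj TY TV hβT hcomm hTV θ y hβy hy hyT
      (Submodule.span ℂ (j '' {z | β z = 0}))
      (fun z hz => Submodule.subset_span ⟨z, hz, rfl⟩) ∅
      (fun U hU => absurd hU (Set.notMem_empty U))
      (fun U hU => absurd hU (Set.notMem_empty U))
      (fun U hU => absurd hU (Set.notMem_empty U))
  exact ⟨v, a, 𝔪', h1, h2, h3, h4, h5⟩

end Ker

end Fermat.Agent.LR
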