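import Mathlib
import Fermat.Agent.LR.EigenLift61

/-!
# P-LR (S41 level raising), LR-ALG: going down (helper61)

The twin of `EigenLift61.lean`: reduction of an eigen-system of a lattice.

* `h61gd_core`: `K` a finite `ℤ`-module, `j : K → V` an injective `ℤ`-linear map into a complex
  vector space, `TK i` commuting endomorphisms of `K`, `TV i` endomorphisms of `V` with
  `TV i ∘ j = j ∘ TK i`; `0 ≠ v ∈ span_ℂ j(K)` with `TV i v = a i • v`, `a i` algebraic integers
  with `a i - θ i ∈ 𝔪`, `𝔪 ∋ p` a prime ideal of `integralClosure ℤ ℂ`, `θ i ∈ ℤ`.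
  Then there is `y₀ ∈ K ∖ pK` with `TK i y₀ ≡ θ i • y₀ mod pK` for all `i`.
-/

set_option autoImplicit false
set_option linter.style.haveILetI false

open Module Polynomial

namespace Fermat.Agent.LR

section GoDown

variable {p : ℕ} {K : Type*} [AddCommGroup K]
  {V : Type*} [AddCommGroup V] [Module ℂ V]

/-- elements of the graph algebra with vanishing first component vanish. -/
theorem h61gd_snd_eq_zero (j : K →ₗ[ℤ] V) (hj : Function.Injective j)
    (x : h61el_R j) (hx : x ∈ h61el_graph j) (h1 : x.1 = 0) : x.2 = 0 := by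
  apply LinearMap.ext
  intro y
  have h := hx y
  rw [h1] at h
  have h' : (h61el_jW j (x.2 y) : V) = 0 := by
    rw [← h]; rfl
  have h'' : j (x.2 y) = 0 := h'
  rw [LinearMap.zero_apply]
  exact hj (by rw [h'', map_zero])

/-- elements of the graph algebra with vanishing second component vanish. -/
theorem h61gd_fst_eq_zero (j : K →ₗ[ℤ] V)
    (x : h61el_R j) (hx : x ∈ h61el_graph j) (h2 : x.2 = 0) : x.1 = 0 := by
  apply h61el_eq_zero_of_jW j
  intro y
  rw [hx y, h2, LinearMap.zero_apply, h61el_jW_zero]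

variable [Module.Finite ℤ K]

/-- an eigenvalue of an endomorphism of the span which preserves the lattice is integral. -/
theorem h61gd_isIntegral_of_graph (j : K →ₗ[ℤ] V)
    (x : h61el_R j) (hx : x ∈ h61el_graph j) (w : h61el_W j) (hw : w ≠ 0) (μ : ℂ)
    (hμ : x.1 w = μ • w) : IsIntegral ℤ μ := by
  obtain ⟨P, hP, hP0⟩ := LinearMap.exists_monic_and_aeval_eq_zero ℤ x.2
  have hz : aeval x P ∈ h61el_graph j := by
    have := aeval_subalgebra_coe P (h61el_graph j) ⟨x, hx⟩
    rw [← this]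
    exact (aeval (⟨x, hx⟩ : h61el_graph j) P).2
  have h2 : (aeval x P).2 = 0 := by
    have := aeval_algHom_apply (AlgHom.snd ℤ (Module.End ℂ (h61el_W j)) (Module.End ℤ K)) x P
    have e : (aeval x P).2 = aeval x.2 P := this.symm
    rw [e, hP0]
  have h1 : (aeval x P).1 = 0 := h61gd_fst_eq_zero j _ hz h2
  have h1' : aeval x.1 P = 0 := by
    have := aeval_algHom_apply (AlgHom.fst ℤ (Module.End ℂ (h61el_W j)) (Module.End ℤ K)) x P
    have e : (aeval x P).1 = aeval x.1 P := this.symm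
    rw [← e, h1]
  have h3 : aeval x.1 (P.map (algebraMap ℤ ℂ)) = 0 := by
    rw [aeval_map_algebraMap, h1']
  have h4 := Module.End.aeval_apply_of_mem_apply_eq_smul (p := P.map (algebraMap ℤ ℂ)) hμ
  rw [h3, LinearMap.zero_apply] at h4
  have h5 : (P.map (algebraMap ℤ ℂ)).eval μ = 0 := by
    rcases smul_eq_zero.1 h4.symm with h | h
    · exact h
    · exact absurd h hw
  refine ⟨P, hP, ?_⟩
  rw [← h5, eval_map]

set_option maxHeartbeats 2000000 in
/-- **Going down (reduction of an eigen-system of a lattice), core form.** -/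
theorem h61gd_core (hp : p.Prime)
    (j : K →ₗ[ℤ] V) (hj : Function.Injective j)
    {ι : Type*} (TK : ι → K →ₗ[ℤ] K) (TV : ι → Module.End ℂ V)
    (hcomm : ∀ i i' y, TK i (TK i' y) = TK i' (TK i y))
    (hTV : ∀ i y, TV i (j y) = j (TK i y))
    (θ : ι → ℤ) (a : ι → integralClosure ℤ ℂ)
    (𝔪 : Ideal (integralClosure ℤ ℂ)) (h𝔪 : 𝔪.IsPrime)
    (hp𝔪 : (p : integralClosure ℤ ℂ) ∈ 𝔪)
    (ha : ∀ i, a i - ((θ i : ℤ) : integralClosure ℤ ℂ) ∈ 𝔪)
    (v : V) (hv0 : v ≠ 0) (hvW : v ∈ Submodule.span ℂ (Set.range j))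
    (hv : ∀ i, TV i v = ((a i : integralClosure ℤ ℂ) : ℂ) • v) :
    ∃ y₀ : K, (¬ ∃ y', y₀ = (p : ℤ) • y') ∧ ∀ i, ∃ y', TK i y₀ - θ i • y₀ = (p : ℤ) • y' := by
  classical
  have hp0 : (p : ℤ) ≠ 0 := by exact_mod_cast hp.ne_zero
  have hpC : (p : ℂ) ≠ 0 := by exact_mod_cast hp.ne_zero
  -- `K` has no `p`-torsion
  have hKtf : ∀ y : K, (p : ℤ) • y = 0 → y = 0 := by
    intro y hy
    apply hj
    have h1 : (p : ℤ) • j y = 0 := by rw [← map_zsmul, hy, map_zero]
    have h2 : ((p : ℤ) : ℂ) • j y = 0 := by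
      rw [← h1]
      exact (Int.cast_smul_eq_zsmul ℂ (p : ℤ) (j y))
    rw [map_zero]
    rcases smul_eq_zero.1 h2 with h | h
    · exact absurd h (by exact_mod_cast hp.ne_zero)
    · exact h
  -- the generators and the graph algebra
  let g : ι → h61el_R j :=
    fun i => h61el_gen j (TK i) (TV i) (hTV i)
  have hg2 : ∀ i, (g i).2 = TK i := fun i => rfl
  have hg1 : ∀ i (w : h61el_W j), (((g i).1 w : h61el_W j) : V) = TV i (w : V) := fun i w => rfl
  have hgcomm : ∀ a ∈ Set.range g, ∀ b ∈ Set.range g, a * b = b * a := by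
    rintro _ ⟨i, rfl⟩ _ ⟨i', rfl⟩
    have h2 : (g i).2 * (g i').2 = (g i').2 * (g i).2 := by
      apply LinearMap.ext
      intro y
      exact hcomm i i' y
    have h1 : (g i).1 * (g i').1 = (g i').1 * (g i).1 := by
      apply h61el_ext_of_jW j
      intro y
      have e1 := h61el_gen_mem_graph j (TK i) (TV i) (hTV i)
      have e2 := h61el_gen_mem_graph j (TK i') (TV i') (hTV i')
      show (g i).1 ((g i').1 (h61el_jW j y)) = (g i').1 ((g i).1 (h61el_jW j y))
      rw [e2 y, e1 y, e1 (_), e2 (_)]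
      show h61el_jW j (TK i (TK i' y)) = h61el_jW j (TK i' (TK i y))
      rw [hcomm i i' y]
    exact Prod.ext h1 h2
  let A : Subalgebra ℤ (h61el_R j) :=
    Algebra.adjoin ℤ (Set.range g)
  letI : CommRing A := Algebra.adjoinCommRingOfComm ℤ hgcomm
  have hAle : A ≤ h61el_graph j := by
    apply Algebra.adjoin_le
    rintro _ ⟨i, rfl⟩
    exact h61el_gen_mem_graph j (TK i) (TV i) (hTV i)
  have hgraph : ∀ (x : A) (y : K),
      (x : h61el_R j).1 (h61el_jW j y) = h61el_jW j ((x : h61el_R j).2 y) :=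
    fun x y => hAle x.2 y
  have h1_of_2 : ∀ x : A, (x : h61el_R j).2 = 0 → (x : h61el_R j).1 = 0 :=
    fun x hx => h61gd_fst_eq_zero j _ (hAle x.2) hx
  -- finiteness of `A` over `ℤ`
  haveI : Module.Finite ℤ A := by
    obtain ⟨n, s, hs⟩ := Module.Finite.exists_fin (R := ℤ) (M := K)
    let e : A →ₗ[ℤ] (Fin n → K) :=
      { toFun := fun x k => (x : h61el_R j).2 (s k)
        map_add' := fun x x' => by
          funext k
          rfl
        map_smul' := fun m x => by
          funext k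
          rfl }
    have he : Function.Injective e := by
      rw [injective_iff_map_eq_zero]
      intro x hx
      have h2 : (x : h61el_R j).2 = 0 := by
        apply LinearMap.ext_on_range hs
        intro k
        have := congrFun hx k
        rw [LinearMap.zero_apply]
        exact this
      have h1 := h1_of_2 x h2
      apply Subtype.ext
      exact Prod.ext h1 h2
    exact Module.Finite.of_injective e he
  haveI : IsNoetherianRing A := IsNoetherianRing.of_finite ℤ A
  haveI : Algebra.IsIntegral ℤ A := Algebra.IsIntegral.of_finite ℤ A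
  -- the eigenvector in the span
  let vW : h61el_W j := ⟨v, hvW⟩
  have hvW0 : vW ≠ 0 := fun h => hv0 (congrArg Subtype.val h)
  have hgen_v : ∀ i, (g i).1 vW = ((a i : integralClosure ℤ ℂ) : ℂ) • vW := by
    intro i
    apply Subtype.ext
    show TV i v = ((a i : integralClosure ℤ ℂ) : ℂ) • v
    exact hv i
  -- every element of `A` acts on `vW` by a scalar
  have hscal : ∀ x : A, ∃ c : ℂ, (x : h61el_R j).1 vW = c • vW := by
    rintro ⟨x, hx⟩
    induction hx using Algebra.adjoin_induction with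
    | mem x hx =>
        obtain ⟨i, rfl⟩ := hx
        exact ⟨_, hgen_v i⟩
    | algebraMap r =>
        refine ⟨(r : ℂ), ?_⟩
        show ((algebraMap ℤ (h61el_R j) r).1) vW = (r : ℂ) • vW
        have : (algebraMap ℤ (h61el_R j) r).1 = algebraMap ℤ (Module.End ℂ (h61el_W j)) r := rfl
        rw [this, Module.algebraMap_end_apply]
        exact (Int.cast_smul_eq_zsmul ℂ r vW).symm
    | add x y hx hy ihx ihy =>
        obtain ⟨c, hc⟩ := ihx
        obtain ⟨d, hd⟩ := ihy
        refine ⟨c + d, ?_⟩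
        show (x.1 + y.1) vW = (c + d) • vW
        rw [LinearMap.add_apply, add_smul]
        exact congrArg₂ (· + ·) hc hd
    | mul x y hx hy ihx ihy =>
        obtain ⟨c, hc⟩ := ihx
        obtain ⟨d, hd⟩ := ihy
        refine ⟨c * d, ?_⟩
        show (x.1 * y.1) vW = (c * d) • vW
        rw [Module.End.mul_apply]
        have hd' : y.1 vW = d • vW := hd
        have hc' : x.1 vW = c • vW := hc
        rw [hd', map_smul, hc', smul_smul, mul_comm]
  choose χ₀ hχ₀ using hscal
  have huniq : ∀ {μ μ' : ℂ}, μ • vW = μ' • vW → μ = μ' := by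
    intro μ μ' h
    exact smul_left_injective ℂ hvW0 h
  let χ : A →+* ℂ :=
    { toFun := χ₀
      map_one' := by
        apply huniq
        rw [← hχ₀ 1, one_smul]
        rfl
      map_mul' := by
        intro x y
        apply huniq
        rw [← hχ₀ (x * y)]
        show ((x : h61el_R j).1 * (y : h61el_R j).1) vW = _
        rw [Module.End.mul_apply, hχ₀ y, map_smul, hχ₀ x, smul_smul, mul_comm]
      map_zero' := by
        apply huniq
        rw [← hχ₀ 0, zero_smul]
        rfl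
      map_add' := by
        intro x y
        apply huniq
        rw [← hχ₀ (x + y)]
        show ((x : h61el_R j).1 + (y : h61el_R j).1) vW = _
        rw [LinearMap.add_apply, hχ₀ x, hχ₀ y, add_smul] }
  have hχ : ∀ x : A, (x : h61el_R j).1 vW = χ x • vW := hχ₀
  have hint : ∀ x : A, χ x ∈ integralClosure ℤ ℂ := by
    intro x
    have h1 : IsIntegral ℤ x := Algebra.IsIntegral.isIntegral x
    exact h1.map (χ.toIntAlgHom)
  let χ' : A →+* integralClosure ℤ ℂ :=
    ((χ.toIntAlgHom).codRestrict (integralClosure ℤ ℂ) hint : A →ₐ[ℤ] integralClosure ℤ ℂ)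
  have hχ' : ∀ x, (χ' x : ℂ) = χ x := fun x => rfl
  have hχ'int : ∀ n : ℤ, χ' ((n : ℤ) : A) = ((n : ℤ) : integralClosure ℤ ℂ) := fun n => by
    simp
  have hχ'gen : ∀ i, χ' ⟨g i, Algebra.subset_adjoin ⟨i, rfl⟩⟩ = a i := by
    intro i
    apply Subtype.ext
    rw [hχ']
    apply huniq
    rw [← hχ, ← hgen_v i]
  -- the prime ideal
  let 𝔫 : Ideal A := Ideal.comap χ' 𝔪
  haveI h𝔫 : 𝔫.IsPrime := Ideal.comap_isPrime χ' 𝔪
  have hmem𝔫 : ∀ x : A, x ∈ 𝔫 ↔ χ' x ∈ 𝔪 := fun x => Iff.rfl
  have hp𝔫 : ((p : ℤ) : A) ∈ 𝔫 := by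
    rw [hmem𝔫, hχ'int]
    exact_mod_cast hp𝔪
  have hgen𝔫 : ∀ i, (⟨g i, Algebra.subset_adjoin ⟨i, rfl⟩⟩ : A) - ((θ i : ℤ) : A) ∈ 𝔫 := by
    intro i
    rw [hmem𝔫, map_sub, hχ'gen, hχ'int]
    exact ha i
  -- `K` as an `A`-module
  let π₂ : A →+* Module.End ℤ K :=
    (RingHom.snd (Module.End ℂ (h61el_W j)) (Module.End ℤ K)).comp
      (A.val : A →ₐ[ℤ] h61el_R j).toRingHom
  letI modAK : Module A K := Module.compHom K π₂
  have hsmul : ∀ (x : A) (y : K), x • y = (x : h61el_R j).2 y := fun x y => rfl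
  have hsmul_int : ∀ (n : ℤ) (y : K), ((n : ℤ) : A) • y = n • y := by
    intro n y
    rw [hsmul]
    have : (((n : ℤ) : A) : h61el_R j).2 = ((n : ℤ) : Module.End ℤ K) := by
      simp
    rw [this]
    simp
  let pK : Submodule A K :=
    { carrier := {y | ∃ y', y = (p : ℤ) • y'}
      zero_mem' := ⟨0, by simp⟩
      add_mem' := by
        rintro y z ⟨y', rfl⟩ ⟨z', rfl⟩
        exact ⟨y' + z', by rw [smul_add]⟩
      smul_mem' := by
        rintro x y ⟨y', rfl⟩
        refine ⟨(x : h61el_R j).2 y', ?_⟩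
        rw [hsmul, map_zsmul] }
  have hmempK : ∀ y : K, y ∈ pK ↔ ∃ y', y = (p : ℤ) • y' := fun y => Iff.rfl
  haveI : Module.Finite A K := by
    obtain ⟨n, s, hs⟩ := Module.Finite.exists_fin (R := ℤ) (M := K)
    refine ⟨⟨Finset.univ.image s, ?_⟩⟩
    rw [eq_top_iff]
    intro y _
    have hy : y ∈ Submodule.span ℤ (Set.range s) := by rw [hs]; trivial
    have hle : Submodule.span ℤ (Set.range s) ≤
        (Submodule.span A ((Finset.univ.image s : Finset K) : Set K)).restrictScalars ℤ := by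
      apply Submodule.span_le.2
      rintro _ ⟨k, rfl⟩
      apply Submodule.subset_span
      simp
    exact hle hy
  haveI : Module.Finite A (K ⧸ pK) := Module.Finite.of_surjective pK.mkQ (Submodule.mkQ_surjective pK)
  -- the annihilator of `K / pK` is contained in `𝔫`
  have hann : Module.annihilator A (K ⧸ pK) ≤ 𝔫 := by
    intro t ht
    have ht' : ∀ y : K, ∃ y', (t : h61el_R j).2 y = (p : ℤ) • y' := by
      intro y
      have h1 := (Module.mem_annihilator.1 ht) (Submodule.Quotient.mk y)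
      rw [← Submodule.Quotient.mk_smul, Submodule.Quotient.mk_eq_zero] at h1
      exact (hmempK _).1 h1
    choose s₀ hs₀ using ht'
    let s : Module.End ℤ K :=
      { toFun := s₀
        map_add' := by
          intro y z
          have : (p : ℤ) • (s₀ (y + z) - (s₀ y + s₀ z)) = 0 := by
            rw [smul_sub, smul_add, ← hs₀, ← hs₀, ← hs₀, map_add, sub_self]
          exact sub_eq_zero.1 (hKtf _ this)
        map_smul' := by
          intro n y
          have : (p : ℤ) • (s₀ (n • y) - n • s₀ y) = 0 := by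
            rw [smul_sub, smul_comm (p : ℤ) n, ← hs₀, ← hs₀, map_zsmul, sub_self]
          exact sub_eq_zero.1 (hKtf _ this) }
    have hs : ∀ y, (t : h61el_R j).2 y = (p : ℤ) • s y := hs₀
    let x : h61el_R j := (((p : ℂ)⁻¹) • (t : h61el_R j).1, s)
    have hx : x ∈ h61el_graph j := by
      intro y
      show ((p : ℂ)⁻¹ • (t : h61el_R j).1) (h61el_jW j y) = h61el_jW j (s y)
      rw [LinearMap.smul_apply, hgraph t y, hs y, h61el_jW_zsmul]
      have : (p : ℤ) • h61el_jW j (s y) = ((p : ℤ) : ℂ) • h61el_jW j (s y) :=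
        (Int.cast_smul_eq_zsmul ℂ (p : ℤ) _).symm
      rw [this, smul_smul]
      have : (p : ℂ)⁻¹ * (((p : ℤ) : ℂ)) = 1 := by
        push_cast
        exact inv_mul_cancel₀ hpC
      rw [this, one_smul]
    have hxv : x.1 vW = ((p : ℂ)⁻¹ * χ t) • vW := by
      show ((p : ℂ)⁻¹ • (t : h61el_R j).1) vW = _
      rw [LinearMap.smul_apply, hχ t, smul_smul]
    have hμ := h61gd_isIntegral_of_graph j x hx vW hvW0 _ hxv
    rw [hmem𝔫]
    have : χ' t = (p : integralClosure ℤ ℂ) * ⟨(p : ℂ)⁻¹ * χ t, hμ⟩ := by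
      apply Subtype.ext
      rw [hχ']
      push_cast
      rw [← mul_assoc, mul_inv_cancel₀ hpC, one_mul]
    rw [this]
    exact 𝔪.mul_mem_right _ hp𝔪
  -- `p` kills `K / pK`
  have hpann : ((p : ℤ) : A) ∈ Module.annihilator A (K ⧸ pK) := by
    rw [Module.mem_annihilator]
    intro m
    obtain ⟨y, rfl⟩ := Submodule.Quotient.mk_surjective pK m
    rw [← Submodule.Quotient.mk_smul, Submodule.Quotient.mk_eq_zero, hmempK, hsmul_int]
    exact ⟨y, rfl⟩
  -- `𝔫` is a minimal prime over the annihilator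
  have hmin : 𝔫 ∈ (Module.annihilator A (K ⧸ pK)).minimalPrimes := by
    refine ⟨⟨h𝔫, hann⟩, ?_⟩
    rintro 𝔮 ⟨h𝔮, h𝔮ann⟩ h𝔮𝔫
    haveI := h𝔮
    have hp𝔮 : ((p : ℤ) : A) ∈ 𝔮 := h𝔮ann hpann
    have hcomap : (𝔮.comap (algebraMap ℤ A)).IsMaximal := by
      haveI : (𝔮.comap (algebraMap ℤ A)).IsPrime := Ideal.comap_isPrime _ _
      apply Ideal.IsPrime.isMaximal inferInstance
      intro h
      have : (p : ℤ) ∈ 𝔮.comap (algebraMap ℤ A) := by
        rw [Ideal.mem_comap]
        simpa using hp𝔮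
      rw [h] at this
      exact hp0 ((Ideal.mem_bot).1 this)
    have h𝔮max : 𝔮.IsMaximal := Ideal.isMaximal_of_isIntegral_of_isMaximal_comap (R := ℤ) 𝔮 hcomap
    have := h𝔮max.eq_of_le h𝔫.ne_top h𝔮𝔫
    rw [this]
  have hass := Module.associatedPrimes.minimalPrimes_annihilator_subset_associatedPrimes A
    (K ⧸ pK) hmin
  obtain ⟨-, m, hm⟩ := (isAssociatedPrime_iff (I := 𝔫) (M := K ⧸ pK)).1 hass
  obtain ⟨y₀, rfl⟩ := Submodule.Quotient.mk_surjective pK m
  have hcolon : ∀ x : A, x ∈ 𝔫 ↔ ∃ y', (x : h61el_R j).2 y₀ = (p : ℤ) • y' := by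
    intro x
    rw [hm, Submodule.mem_colon_singleton, Submodule.mem_bot, ← Submodule.Quotient.mk_smul,
      Submodule.Quotient.mk_eq_zero, hmempK, hsmul]
  refine ⟨y₀, ?_, ?_⟩
  · rintro ⟨y', hy'⟩
    apply h𝔫.ne_top
    rw [Ideal.eq_top_iff_one, hcolon]
    exact ⟨y', hy'⟩
  · intro i
    obtain ⟨y', hy'⟩ := (hcolon _).1 (hgen𝔫 i)
    refine ⟨y', ?_⟩
    rw [← hy']
    have : (((⟨g i, Algebra.subset_adjoin ⟨i, rfl⟩⟩ : A) - ((θ i : ℤ) : A) : A) : h61el_R j).2
        = TK i - ((θ i : ℤ) : Module.End ℤ K) := by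
      simp [hg2]
    rw [this, LinearMap.sub_apply]
    congr 1

end GoDown

end Fermat.Agent.LR
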