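import Fermat.Agent.LR.AsmDefs
import Fermat.Agent.LR.EigenLift61
import Fermat.Agent.LR.CohReps
import Fermat.Agent.LR.CohCommStatement
import Fermat.Agent.LR.CohResTFinal81
import Fermat.Agent.LR.PD.Final
import Fermat.Agent.LR.PD.Bridge27
import Fermat.Agent.Jac.HKM.Coh
import Fermat.Agent.Jac.COH
import Fermat.Agent.Jac.H18FinGen

/-!
# P-LR (S41 level raising), row LR-UP (G3): `h88_UpStatement` (helper61)

Deligne–Serre lifting on the `q`-new lattice `ker cor₁ ∩ ker cor₂ ⊆ L_{Nq}`: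
instantiation of `h61el_of_ker_full` (`LR/EigenLift61.lean`).

* `h61up_finDim`: `Hom(Γ₀(M), ℂ)` is finite dimensional;
* `h61up_corT : h17lr_CorT`: the transfers commute with `T_ℓ` (from Poincaré duality,
  `ResT` and the self-adjointness of `T_ℓ`);
* `h61up_up : h88_UpStatement`.
-/

set_option autoImplicit false
set_option linter.style.haveILetI false

open ModularCurve CongruenceSubgroup
open scoped MatrixGroups

noncomputable section

namespace Fermat.Agent.LR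

open Fermat.Agent.Jac Fermat.Agent.Jac.HKM

/-- `Hom(Γ, ℂ)` is finite dimensional for a finitely generated group `Γ`. -/
theorem h61up_finDim_of_fg (Γ : Type*) [Group Γ] [Group.FG Γ] :
    FiniteDimensional ℂ (Additive Γ →+ ℂ) := by
  classical
  have hfg : AddGroup.FG (Additive Γ) := inferInstance
  obtain ⟨S, hS⟩ := AddGroup.fg_def.mp hfg
  let ev : (Additive Γ →+ ℂ) →ₗ[ℂ] (S → ℂ) :=
    { toFun := fun φ s => φ s
      map_add' := fun φ φ' => by ext s; simp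
      map_smul' := fun c φ => by ext s; simp }
  have hinj : Function.Injective ev := by
    intro φ φ' h
    refine AddMonoidHom.eq_of_eqOn_dense hS ?_
    intro s hs
    exact congrFun h ⟨s, hs⟩
  exact Module.Finite.of_injective ev hinj

/-- `Hom(Γ₀(M), ℂ)` is finite dimensional. -/
theorem h61up_finDim (M : ℕ) [NeZero M] : FiniteDimensional ℂ (Additive (Gamma0 M) →+ ℂ) :=
  h61up_finDim_of_fg (Gamma0 M)

/-- **`CorT`**: the transfers `cor₁`, `cor₂` commute with `T_ℓ` (`ℓ ∤ N q`). -/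
theorem h61up_corT : h17lr_CorT := by
  intro N q _ ℓ hq hqN hℓ hℓNq y
  have hN0 : N ≠ 0 := by
    rintro rfl
    apply hℓNq
    simp
  haveI : NeZero N := ⟨hN0⟩
  haveI : NeZero (N * q) := ⟨mul_ne_zero hN0 (NeZero.ne q)⟩
  haveI : NeZero ℓ := ⟨hℓ.ne_zero⟩
  have hℓN : ¬ ℓ ∣ N := fun h => hℓNq (dvd_mul_of_dvd_left h q)
  have hBr := PD.h27b_bridge
  have hsX := PD.h1pd_T_selfadjoint hBr h17lr_cor1_spec h17lr_cor2_spec h17lr_corRes N ℓ hℓ hℓN
  have hsY := PD.h1pd_T_selfadjoint hBr h17lr_cor1_spec h17lr_cor2_spec h17lr_corRes (N * q) ℓ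
    hℓ hℓNq
  constructor
  · exact h81r_adj_comm' (PD.h1pd_form N) (PD.h1pd_form (N * q)) (PD.h1pd_form_antisymm N)
      (PD.h1pd_perfect_nondeg N).1 (h17lr_res1 N q) (h17lr_cor1 N q)
      (PD.h1pd_adj1 hBr h17lr_cor1_spec N q hq hqN) (h17lr_T N ℓ) (h17lr_T (N * q) ℓ)
      (fun x => (h81r_resT_final N q ℓ hq hqN hℓ hℓNq x).1) hsX hsY y
  · exact h81r_adj_comm' (PD.h1pd_form N) (PD.h1pd_form (N * q)) (PD.h1pd_form_antisymm N)
      (PD.h1pd_perfect_nondeg N).1 (h17lr_res2 N q) (h17lr_cor2 N q)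
      (PD.h1pd_adj2 hBr h17lr_cor2_spec N q hq hqN) (h17lr_T N ℓ) (h17lr_T (N * q) ℓ)
      (fun x => (h81r_resT_final N q ℓ hq hqN hℓ hℓNq x).2) hsX hsY y

theorem h61up_isCor_zero {H Γ : Type*} [Group H] [Group Γ] (f : H →* Γ) {A : Type*}
    [AddCommMonoid A] : h17lr_IsCor f (0 : Additive H →+ A) (0 : Additive Γ →+ A) := by
  intro ι _ δ π c γ _ _
  simp

theorem h61up_isCor_smul {H Γ : Type*} [Group H] [Group Γ] (f : H →* Γ) (a : ℂ)
    {y : Additive H →+ ℂ} {z : Additive Γ →+ ℂ} (h : h17lr_IsCor f y z) :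
    h17lr_IsCor f (a • y) (a • z) := by
  have h1 := h17lr_cor_map (AddMonoidHom.mulLeft a) h
  have e1 : (AddMonoidHom.mulLeft a).comp y = a • y := by
    refine AddMonoidHom.ext fun γ => ?_
    rfl
  have e2 : (AddMonoidHom.mulLeft a).comp z = a • z := by
    refine AddMonoidHom.ext fun γ => ?_
    rfl
  rw [e1, e2] at h1
  exact h1

/-- the `q`-new subspace of `Hom(Γ₀(Nq), ℂ)`: parabolic and killed by both transfers. -/
def h61up_W (N q : ℕ) [NeZero q] : Submodule ℂ (Additive (Gamma0 (N * q)) →+ ℂ) where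
  carrier := {v | Period.IsParabolicHom (Gamma0 (N * q)) v ∧
    h17lr_IsCor (h32_incl N q) v (0 : Additive (Gamma0 N) →+ ℂ) ∧
    h17lr_IsCor (h32_up N q) v (0 : Additive (Gamma0 N) →+ ℂ)}
  zero_mem' := ⟨fun _ _ => rfl, h61up_isCor_zero _, h61up_isCor_zero _⟩
  add_mem' := by
    rintro v w ⟨hv1, hv2, hv3⟩ ⟨hw1, hw2, hw3⟩
    refine ⟨(Period.parabolicHoms ℂ (Gamma0 (N * q)) ℂ).add_mem hv1 hw1, ?_, ?_⟩
    · have := h17lr_cor_add hv2 hw2
      rwa [add_zero] at this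
    · have := h17lr_cor_add hv3 hw3
      rwa [add_zero] at this
  smul_mem' := by
    rintro a v ⟨hv1, hv2, hv3⟩
    refine ⟨(Period.parabolicHoms ℂ (Gamma0 (N * q)) ℂ).smul_mem a hv1, ?_, ?_⟩
    · have := h61up_isCor_smul (h32_incl N q) a hv2
      rwa [smul_zero] at this
    · have := h61up_isCor_smul (h32_up N q) a hv3
      rwa [smul_zero] at this

theorem h61up_mem_W (N q : ℕ) [NeZero q] (v : Additive (Gamma0 (N * q)) →+ ℂ) :
    v ∈ h61up_W N q ↔ Period.IsParabolicHom (Gamma0 (N * q)) v ∧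
      h17lr_IsCor (h32_incl N q) v (0 : Additive (Gamma0 N) →+ ℂ) ∧
      h17lr_IsCor (h32_up N q) v (0 : Additive (Gamma0 N) →+ ℂ) := Iff.rfl

/-- the complexification intertwines `h17lr_T` and `h57_SC`. -/
theorem h61up_SC_j (M : ℕ) [NeZero M] {ℓ : ℕ} (hℓ : ℓ.Prime) (hℓM : ¬ ℓ ∣ M) (y : h17lr_L M) :
    h57_SC cohHecke M ℓ (h57_j M y) = h57_j M (h17lr_T M ℓ y) := by
  rw [h57_SC_j]
  congr 1
  apply Subtype.ext
  rw [h57_TLam_coe]
  exact (h17lr_T_eq hℓ hℓM y (h57_Tfun_spec cohHecke ⟨hℓ, hℓM⟩ ℤ y.1)).symm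

theorem h61up_j_injective (M : ℕ) [NeZero M] : Function.Injective (h57_j M) := by
  intro y z h
  apply Subtype.ext
  refine AddMonoidHom.ext fun γ => ?_
  have := congrArg (fun φ : Additive (Gamma0 M) →+ ℂ => φ γ) h
  simp only [h57_j_apply] at this
  exact_mod_cast this

/-- `j y` lies in the `q`-new subspace when both transfers of `y` vanish. -/
theorem h61up_j_mem_W (N q : ℕ) [NeZero q] (hN : 0 < N) (hq : q.Prime) (hqN : ¬ q ∣ N)
    (y : h17lr_L (N * q)) (h1 : h17lr_cor1 N q y = 0) (h2 : h17lr_cor2 N q y = 0) :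
    haveI : NeZero (N * q) := ⟨mul_ne_zero hN.ne' (NeZero.ne q)⟩
    h57_j (N * q) y ∈ h61up_W N q := by
  haveI : NeZero (N * q) := ⟨mul_ne_zero hN.ne' (NeZero.ne q)⟩
  rw [h61up_mem_W]
  refine ⟨?_, ?_, ?_⟩
  · intro γ hγ
    show ((y.1 (Additive.ofMul γ) : ℤ) : ℂ) = 0
    rw [y.2 γ hγ]
    simp
  · have hs := h17lr_cor1_spec N q hq hqN y
    rw [h1] at hs
    have := h17lr_cor_map (Int.castAddHom ℂ) hs
    have e : (Int.castAddHom ℂ).comp
        (((0 : h17lr_L N) : Additive (Gamma0 N) →+ ℤ)) = 0 := by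
      refine AddMonoidHom.ext fun γ => ?_
      simp
    rw [e] at this
    exact this
  · have hs := h17lr_cor2_spec N q hq hqN y
    rw [h2] at hs
    have := h17lr_cor_map (Int.castAddHom ℂ) hs
    have e : (Int.castAddHom ℂ).comp
        (((0 : h17lr_L N) : Additive (Gamma0 N) →+ ℤ)) = 0 := by
      refine AddMonoidHom.ext fun γ => ?_
      simp
    rw [e] at this
    exact this

theorem h61up_torsionFree (N : ℕ) {p : ℕ} (hp : p.Prime) (x : h17lr_L N × h17lr_L N)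
    (hx : (p : ℤ) • x = 0) : x = 0 := by
  have hp0 : (p : ℤ) ≠ 0 := by exact_mod_cast hp.ne_zero
  have key : ∀ z : h17lr_L N, (p : ℤ) • z = 0 → z = 0 := by
    intro z hz
    apply Subtype.ext
    refine AddMonoidHom.ext fun γ => ?_
    have h1 := congrArg (fun w : h17lr_L N => (w : Additive (Gamma0 N) →+ ℤ) γ) hz
    simp only [Submodule.coe_smul, AddMonoidHom.smul_apply, smul_eq_mul, Submodule.coe_zero,
      AddMonoidHom.zero_apply] at h1
    rcases mul_eq_zero.1 h1 with h | h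
    · exact absurd h hp0
    · exact h
  have h1 := congrArg Prod.fst hx
  have h2 := congrArg Prod.snd hx
  exact Prod.ext (key _ h1) (key _ h2)

/-- **LR-UP.** -/
theorem h61up_up : h88_UpStatement := by
  intro N q _ hN hq hqN p hp S θ hS y hc1 hc2 hy hyT
  classical
  haveI : NeZero N := ⟨hN.ne'⟩
  haveI : NeZero (N * q) := ⟨mul_ne_zero hN.ne' (NeZero.ne q)⟩
  haveI := h61up_finDim (N * q)
  have hNq : 0 < N * q := Nat.mul_pos hN hq.pos
  let β : h17lr_L (N * q) →ₗ[ℤ] (h17lr_L N × h17lr_L N) :=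
    (h17lr_cor1 N q).prod (h17lr_cor2 N q)
  have hβ0 : ∀ z, β z = 0 ↔ h17lr_cor1 N q z = 0 ∧ h17lr_cor2 N q z = 0 := by
    intro z
    show ((h17lr_cor1 N q z, h17lr_cor2 N q z) : h17lr_L N × h17lr_L N) = 0 ↔ _
    exact Prod.mk_eq_zero
  obtain ⟨v, a, 𝔪', hv0, hvW, hmax, hp𝔪, hT, -⟩ :=
    h61el_of_ker_full hp β (h61up_torsionFree N hp) (h57_j (N * q))
      (fun z _ hz => h61up_j_injective (N * q) (by rw [hz, map_zero]))
      (ι := S) (fun i => h17lr_T (N * q) i.1) (fun i => h57_SC cohHecke (N * q) i.1)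
      (by
        intro i z hz
        obtain ⟨hz1, hz2⟩ := (hβ0 z).1 hz
        have hct := h61up_corT N q i.1 hq hqN (hS i.1 i.2).1 (hS i.1 i.2).2 z
        rw [hβ0, hct.1, hct.2, hz1, hz2, map_zero]
        exact ⟨rfl, rfl⟩)
      (by
        intro i i' z _
        exact h17lr_commStatement (N * q) hNq i.1 i'.1 (hS i.1 i.2).1 (hS i.1 i.2).2
          (hS i'.1 i'.2).1 (hS i'.1 i'.2).2 z)
      (by
        intro i z _
        exact h61up_SC_j (N * q) (hS i.1 i.2).1 (hS i.1 i.2).2 z)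
      (fun i => θ i.1) y ((hβ0 y).2 ⟨hc1, hc2⟩) hy (fun i => hyT i.1 i.2)
      (h61up_W N q)
      (by
        intro z hz
        obtain ⟨hz1, hz2⟩ := (hβ0 z).1 hz
        exact h61up_j_mem_W N q hN hq hqN z hz1 hz2)
      ∅
      (fun U hU => absurd hU (Set.notMem_empty U))
      (fun U hU => absurd hU (Set.notMem_empty U))
      (fun U hU => absurd hU (Set.notMem_empty U))
  obtain ⟨hvpar, hvc1, hvc2⟩ := (h61up_mem_W N q v).1 hvW
  refine ⟨𝔪', fun ℓ => if h : ℓ ∈ S then a ⟨ℓ, h⟩ else 0, v, hmax, hp𝔪, ?_, hv0, hvpar, hvc1,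
    hvc2, ?_⟩
  · intro ℓ hℓ
    simp only [dif_pos hℓ]
    exact (hT ⟨ℓ, hℓ⟩).2
  · intro ℓ hℓ
    simp only [dif_pos hℓ]
    have h1 := (hT ⟨ℓ, hℓ⟩).1
    have h2 := h57_Tfun_spec cohHecke (N := N * q) ⟨(hS ℓ hℓ).1, (hS ℓ hℓ).2⟩ ℂ v
    rw [h57_SC_apply] at h1
    rw [h1] at h2
    exact h2

end Fermat.Agent.LR
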