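import Fermat.Agent.LR.AsmDefs
import Fermat.Agent.LR.GoDown61
import Fermat.Agent.LR.Up61
import Fermat.Agent.LR.ES.H36Input
import Fermat.Agent.LR.CohCommStatement
import Fermat.Agent.Jac.Lam

/-!
# P-LR (S41 level raising), row LR-DOWN: going down from the eigenform (helper88)

`h88_down : h88_DownStatement` (unconditional): the period homomorphism of a normalised
eigenform `f` of level `N`, congruent to `θ` modulo `𝔪`, reduces to an element of
`L_N ∖ p L_N` which is a `θ`-eigenvector modulo `p`.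

Instance of helper61's `h61gd_core` with `K = L_N`, `V = Hom(Γ₀(N), ℂ)`, `j = h57_j N`,
`v = periodMap N f` (helper36's `h36e_input_*`, `Jac.latticeSpan`), commutativity from
helper17's `h17lr_commStatement`.
-/

set_option autoImplicit false

open ModularCurve CongruenceSubgroup
open scoped MatrixGroups

noncomputable section

namespace Fermat.Agent.LR

open Fermat.Agent.Jac Fermat.Agent.Jac.HKM Fermat.Agent.LR.ES

/-- the period homomorphism lies in the complex span of the integral parabolic homs. -/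
theorem h88_period_mem_span (N : ℕ) [NeZero N] (f : CuspForm (Gamma0 N) 2) :
    periodMap N f ∈ Submodule.span ℂ (Set.range (h57_j N)) := by
  obtain ⟨r, a, φs, hφs, hsum⟩ := latticeSpan N (periodMap N f) (h36e_input_parabolic f)
  have e : periodMap N f = ∑ i, a i • h57_j N ⟨φs i, hφs i⟩ := by
    refine AddMonoidHom.ext fun γ => ?_
    obtain ⟨γ, rfl⟩ := Additive.ofMul.surjective γ
    rw [hsum γ, AddMonoidHom.finsetSum_apply]
    refine Finset.sum_congr rfl fun i _ => ?_
    rfl
  rw [e]
  exact Submodule.sum_mem _ fun i _ =>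
    Submodule.smul_mem _ _ (Submodule.subset_span ⟨_, rfl⟩)

/-- **LR-DOWN.** -/
theorem h88_down : h88_DownStatement := by
  intro N hN p hp f hf 𝔪 hmax hpm S θ hS hcong
  classical
  haveI : NeZero N := ⟨hN.ne'⟩
  haveI : Module.Finite ℤ (h17lr_L N) := Module.Finite.iff_fg.mpr (latticeFG N)
  choose! a ha ham using hcong
  obtain ⟨y₀, hy₀, hy₀T⟩ := h61gd_core hp (h57_j N) (h61up_j_injective N) (ι := S)
    (fun i => h17lr_T N i.1) (fun i => h57_SC cohHecke N i.1)
    (fun i i' y => h17lr_commStatement N hN i.1 i'.1 (hS _ i.2).1 (hS _ i.2).2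
      (hS _ i'.2).1 (hS _ i'.2).2 y)
    (fun i y => h61up_SC_j N (hS _ i.2).1 (hS _ i.2).2 y)
    (fun i => θ i.1) (fun i => a i.1) 𝔪 hmax.isPrime hpm (fun i => ham i.1 i.2)
    (periodMap N f) (h36e_input_ne_zero hf) (h88_period_mem_span N f)
    (fun i => by
      rw [h57_SC_apply]
      refine h57_Tfun_eq_of cohHecke ⟨(hS _ i.2).1, (hS _ i.2).2⟩ ?_
      rw [ha i.1 i.2]
      exact h36e_input_hecke hf (hS _ i.2).1 (hS _ i.2).2)
  exact ⟨y₀, hy₀, fun ℓ hℓ => hy₀T ⟨ℓ, hℓ⟩⟩

end Fermat.Agent.LR
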