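import Mathlib
import Fermat.Agent.S49.Eigenform
import Fermat.Agent.S49.CommonEigen
import Fermat.Agent.S49.HeckeFinite
import Fermat.Prelude.Def_FreyPackage_LevelRaising

/-!
# LR-NEW (helper77): from a `q`-new Hecke eigenvector to a normalised eigenform new at `q`

Input (delivered by LR-ES): a nonzero cusp form `g₀` of weight 2 and level `M` (`q ∣ M`),
eigen for the `T_ℓ` with `ℓ ∈ L`, `ℓ ∤ M`, and such that both traces to level `M / q` vanish.
In explicit form (for ANY matrix `W`, in practice an Atkin-Lehner matrix at `q`):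

* (H1) `g₀ + U_q (g₀ ∣[2] W) = 0`   (trace along the identity degeneracy),
* (H2) `g₀ ∣[2] W + U_q g₀ = 0`     (trace along the other degeneracy).

These two identities give `U_q (U_q g₀) = g₀`, and this is all that is used: the subspace
cut out by the eigen-equations and `U_q² = 1` is stable under the full commutative Hecke family,
so it contains a simultaneous eigenvector, which after normalisation is a normalised
eigenform `g` with `a_ℓ(g) = lam ℓ` (`ℓ ∈ L`) and `a_q(g) ^ 2 = 1`.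
-/

set_option autoImplicit false
set_option linter.style.haveILetI false

namespace Fermat.Agent.LR

open ModularFormClass CongruenceSubgroup UpperHalfPlane
open scoped ModularForm MatrixGroups

/-- Abstract core of LR-NEW: a nonzero cusp form which is an eigenvector for the `T_ℓ`,
`ℓ ∈ L`, and is fixed by `U_q ^ 2`, gives rise to a normalised eigenform with the same
`T_ℓ`-eigenvalues (`ℓ ∈ L`) which is new at `q` in the sense of the prelude. -/
theorem h77n_exists_newform {M q : ℕ} [NeZero M] (hq : q.Prime) (hqM : q ∣ M)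
    (L : Set ℕ) (g₀ : CuspForm (Gamma0 M) 2) (hg₀ : g₀ ≠ 0) (lam : ℕ → ℂ)
    (hT : ∀ (ℓ : ℕ) (hℓ : ℓ.Prime) (hℓM : ¬ ℓ ∣ M), ℓ ∈ L →
      CuspForm.heckeTLin 2 hℓ hℓM g₀ = lam ℓ • g₀)
    (hU : CuspForm.heckeULin 2 hqM (CuspForm.heckeULin 2 hqM g₀) = g₀) :
    ∃ g : CuspForm (Gamma0 M) 2, g.IsNormalizedEigenform ∧
      (∀ ℓ : ℕ, ℓ.Prime → ¬ ℓ ∣ M → ℓ ∈ L → qCoeff ⇑g ℓ = lam ℓ) ∧ g.IsNewAt q := by
  classical
  haveI : FiniteDimensional ℂ (CuspForm (Gamma0 M) 2) :=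
    Fermat.Agent.S49.finiteDimensional_cuspForm M 2
  -- the subspace cut out by the eigen-equations and `U_q ^ 2 = 1`
  let Uq : Module.End ℂ (CuspForm (Gamma0 M) 2) := CuspForm.heckeULin 2 hqM
  let W₀ : Submodule ℂ (CuspForm (Gamma0 M) 2) :=
    { carrier := {g | (∀ (ℓ : ℕ) (hℓ : ℓ.Prime) (hℓM : ¬ ℓ ∣ M), ℓ ∈ L →
          CuspForm.heckeTLin 2 hℓ hℓM g = lam ℓ • g) ∧ Uq (Uq g) = g}
      add_mem' := by
        rintro a b ⟨ha1, ha2⟩ ⟨hb1, hb2⟩
        refine ⟨fun ℓ hℓ hℓM hL => ?_, ?_⟩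
        · rw [map_add, ha1 ℓ hℓ hℓM hL, hb1 ℓ hℓ hℓM hL, smul_add]
        · rw [map_add, map_add, ha2, hb2]
      zero_mem' := by
        refine ⟨fun ℓ hℓ hℓM _ => ?_, ?_⟩
        · rw [map_zero, smul_zero]
        · rw [map_zero, map_zero]
      smul_mem' := by
        rintro c a ⟨ha1, ha2⟩
        refine ⟨fun ℓ hℓ hℓM hL => ?_, ?_⟩
        · rw [map_smul, ha1 ℓ hℓ hℓM hL, smul_comm]
        · rw [map_smul, map_smul, ha2] }
  have hmemW : ∀ g, g ∈ W₀ ↔ ((∀ (ℓ : ℕ) (hℓ : ℓ.Prime) (hℓM : ¬ ℓ ∣ M), ℓ ∈ L →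
      CuspForm.heckeTLin 2 hℓ hℓM g = lam ℓ • g) ∧ Uq (Uq g) = g) := fun g => Iff.rfl
  have hg₀W : g₀ ∈ W₀ := (hmemW g₀).2 ⟨hT, hU⟩
  have hW₀ : W₀ ≠ ⊥ := by
    intro h
    apply hg₀
    have : g₀ ∈ (⊥ : Submodule ℂ (CuspForm (Gamma0 M) 2)) := h ▸ hg₀W
    exact (Submodule.mem_bot ℂ).1 this
  have hUqmem : Uq ∈ CuspForm.heckeGenerators M 2 (∅ : Set ℕ) :=
    CuspForm.heckeULin_mem_heckeGenerators hq hqM (Set.notMem_empty q)
  -- stability
  have hstab : ∀ T ∈ CuspForm.heckeGenerators M 2 (∅ : Set ℕ), ∀ w ∈ W₀, T w ∈ W₀ := by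
    intro T hTgen w hw
    obtain ⟨hw1, hw2⟩ := (hmemW w).1 hw
    refine (hmemW _).2 ⟨fun ℓ hℓ hℓM hL => ?_, ?_⟩
    · have hc : Commute (CuspForm.heckeTLin 2 hℓ hℓM) T :=
        CuspForm.commute_of_mem_heckeGenerators
          (CuspForm.heckeTLin_mem_heckeGenerators hℓ hℓM (Set.notMem_empty ℓ)) hTgen
      have h1 : CuspForm.heckeTLin 2 hℓ hℓM (T w) = T (CuspForm.heckeTLin 2 hℓ hℓM w) :=
        congrArg (fun f : Module.End ℂ (CuspForm (Gamma0 M) 2) => f w) hc.eq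
      rw [h1, hw1 ℓ hℓ hℓM hL, map_smul]
    · have hc : Commute Uq T := CuspForm.commute_of_mem_heckeGenerators hUqmem hTgen
      have h1 : ∀ x, Uq (T x) = T (Uq x) := fun x =>
        congrArg (fun f : Module.End ℂ (CuspForm (Gamma0 M) 2) => f x) hc.eq
      rw [h1, h1, hw2]
  obtain ⟨v, hvW, hv0, hveig⟩ := Fermat.Agent.S49.exists_common_eigenvector
    (CuspForm.heckeGenerators M 2 (∅ : Set ℕ))
    (fun T hT' T' hT'' => CuspForm.commute_of_mem_heckeGenerators hT' hT'') W₀ hW₀ hstab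
  obtain ⟨hv1, hv2⟩ := (hmemW v).1 hvW
  -- eigenvalue function
  have hexT : ∀ (p : ℕ) (hp : p.Prime) (hpM : ¬ p ∣ M),
      ∃ μ : ℂ, CuspForm.heckeTLin 2 hp hpM v = μ • v := fun p hp hpM =>
    hveig _ (CuspForm.heckeTLin_mem_heckeGenerators hp hpM (Set.notMem_empty p))
  have hexU : ∀ (p : ℕ) (_ : p.Prime) (hpM : p ∣ M),
      ∃ μ : ℂ, CuspForm.heckeULin 2 hpM v = μ • v := fun p hp hpM =>
    hveig _ (CuspForm.heckeULin_mem_heckeGenerators hp hpM (Set.notMem_empty p))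
  let lam' : ℕ → ℂ := fun p =>
    if hp : p.Prime then
      if hpM : p ∣ M then (hexU p hp hpM).choose else (hexT p hp hpM).choose
    else 0
  have hT' : ∀ (p : ℕ) (hp : p.Prime) (hpM : ¬ p ∣ M),
      CuspForm.heckeTLin 2 hp hpM v = lam' p • v := by
    intro p hp hpM
    have := (hexT p hp hpM).choose_spec
    simp only [lam', dif_pos hp, dif_neg hpM]
    exact this
  have hU' : ∀ (p : ℕ) (hp : p.Prime) (hpM : p ∣ M),
      CuspForm.heckeULin 2 hpM v = lam' p • v := by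
    intro p hp hpM
    have := (hexU p hp hpM).choose_spec
    simp only [lam', dif_pos hp, dif_pos hpM]
    exact this
  obtain ⟨g, hg, hgco⟩ := Fermat.Agent.S49.exists_normalized_eigenform v hv0 lam' hT'
    (fun p hp hpM => hU' p hp hpM)
  refine ⟨g, hg, ?_, ?_⟩
  · intro ℓ hℓ hℓM hL
    rw [hgco ℓ hℓ]
    have h1 := hT' ℓ hℓ hℓM
    rw [hv1 ℓ hℓ hℓM hL] at h1
    have h2 : (lam ℓ - lam' ℓ) • v = 0 := by rw [sub_smul, h1, sub_self]
    rcases smul_eq_zero.1 h2 with h | h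
    · exact (sub_eq_zero.1 h).symm
    · exact absurd h hv0
  · show qCoeff ⇑g q ^ 2 = 1
    rw [hgco q hq]
    have h1 : Uq v = lam' q • v := hU' q hq hqM
    have h2 : Uq (Uq v) = (lam' q ^ 2) • v := by
      rw [h1, map_smul, h1, smul_smul, sq]
    rw [hv2] at h2
    have h3 : (lam' q ^ 2 - 1) • v = 0 := by rw [sub_smul, ← h2, one_smul, sub_self]
    rcases smul_eq_zero.1 h3 with h | h
    · exact sub_eq_zero.1 h
    · exact absurd h hv0

/-- The two trace identities (H1), (H2) (for an arbitrary matrix `W`) imply `U_q ^ 2 = 1`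
on the underlying function. -/
theorem h77n_heckeU_sq_of_traces (q : ℕ) (f : ℍ → ℂ) (W : GL (Fin 2) ℝ)
    (h1 : f + ModularForm.heckeU 2 q (f ∣[(2 : ℤ)] W) = 0)
    (h2 : f ∣[(2 : ℤ)] W + ModularForm.heckeU 2 q f = 0) :
    ModularForm.heckeU 2 q (ModularForm.heckeU 2 q f) = f := by
  have e2 : ModularForm.heckeU 2 q f = -(f ∣[(2 : ℤ)] W) := by
    rw [eq_neg_iff_add_eq_zero, add_comm]
    exact h2
  rw [e2, ModularForm.heckeU_neg, neg_eq_iff_add_eq_zero, add_comm]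
  exact h1

/-- LR-NEW, consumer form for LR-ES: a nonzero cusp form `g₀` of level `M` (`q ∣ M`), eigen
for `T_ℓ` (`ℓ ∈ L`, `ℓ ∤ M`), satisfying the two explicit trace identities with respect to
some matrix `W`, yields a normalised eigenform with the same eigenvalues, new at `q`. -/
theorem h77n_exists_newform_of_traces {M q : ℕ} [NeZero M] (hq : q.Prime) (hqM : q ∣ M)
    (L : Set ℕ) (g₀ : CuspForm (Gamma0 M) 2) (hg₀ : g₀ ≠ 0) (lam : ℕ → ℂ)
    (hT : ∀ (ℓ : ℕ) (hℓ : ℓ.Prime) (hℓM : ¬ ℓ ∣ M), ℓ ∈ L →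
      CuspForm.heckeTLin 2 hℓ hℓM g₀ = lam ℓ • g₀)
    (W : GL (Fin 2) ℝ)
    (h1 : (⇑g₀ : ℍ → ℂ) + ModularForm.heckeU 2 q ((⇑g₀ : ℍ → ℂ) ∣[(2 : ℤ)] W) = 0)
    (h2 : (⇑g₀ : ℍ → ℂ) ∣[(2 : ℤ)] W + ModularForm.heckeU 2 q (⇑g₀ : ℍ → ℂ) = 0) :
    ∃ g : CuspForm (Gamma0 M) 2, g.IsNormalizedEigenform ∧
      (∀ ℓ : ℕ, ℓ.Prime → ¬ ℓ ∣ M → ℓ ∈ L → qCoeff ⇑g ℓ = lam ℓ) ∧ g.IsNewAt q := by
  refine h77n_exists_newform hq hqM L g₀ hg₀ lam hT ?_
  apply DFunLike.coe_injective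
  rw [CuspForm.coe_heckeULin_apply, CuspForm.coe_heckeULin_apply]
  exact h77n_heckeU_sq_of_traces q _ W h1 h2

end Fermat.Agent.LR
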