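/-
P-LR (S41 level raising): GLUE "Ihara's lemma ⇒ hypothesis `H1` of Ribet's algebra lemma
(`h15lr_ribet_alg`)".

`L_M = Hom_par(Γ₀(M), ℤ)` (`h17lr_L M`), `res₁, res₂ : L_N → L_{Nq}` (`h17lr_res1/2`),
`T_ℓ` on `L_N` (`h17lr_T N ℓ`, specified by the Prop `h17lr_TSpec`).

`h32h_H1`: if `res₁ x₁ + res₂ x₂ ∈ p L_{Nq}`, then `T_ℓ x_i - (ℓ + 1) x_i ∈ p L_N` (`i = 1, 2`)
for every prime `ℓ ∤ N`.  Proof: reduce `x_i` modulo `p`; the reductions form an element of the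
Ihara kernel, so they factor through `d mod N` (`h11_ihara`, unconditional), hence are
Eisenstein (`h15lr_eis_hecke`).  (helper32)
-/
import Fermat.Agent.LR.CSP.Final
import Fermat.Agent.LR.CohDefs

set_option autoImplicit false

open ModularCurve CongruenceSubgroup
open scoped MatrixGroups

namespace Fermat.Agent.LR

open Fermat.Agent.Jac

/-- the cohomological Hecke relation is preserved by post-composition with an additive map. -/
theorem h32h_isCohHeckeAdd_comp {N ℓ : ℕ} {A B : Type*} [AddCommMonoid A] [AddCommMonoid B]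
    (f : A →+ B) {φ φ' : Additive (Gamma0 N) →+ A} (h : IsCohHeckeAdd N ℓ φ φ') :
    IsCohHeckeAdd N ℓ (f.comp φ) (f.comp φ') := by
  intro γ π c hd
  rw [AddMonoidHom.comp_apply, h γ π c hd, map_sum]
  rfl

/-- a homomorphism to `ℤ` with all values divisible by `p ≠ 0` is `p` times a homomorphism. -/
theorem h32h_div {G : Type*} [AddZeroClass G] {p : ℤ} (hp : p ≠ 0) (w : G →+ ℤ)
    (hw : ∀ g, p ∣ w g) : ∃ z : G →+ ℤ, w = p • z := by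
  refine ⟨⟨⟨fun g => w g / p, ?_⟩, ?_⟩, ?_⟩
  · simp
  · intro a b
    show w (a + b) / p = w a / p + w b / p
    obtain ⟨ka, hka⟩ := hw a
    obtain ⟨kb, hkb⟩ := hw b
    rw [map_add, hka, hkb, ← mul_add, Int.mul_ediv_cancel_left _ hp,
      Int.mul_ediv_cancel_left _ hp, Int.mul_ediv_cancel_left _ hp]
  · ext g
    show w g = p • (w g / p)
    rw [smul_eq_mul, Int.mul_ediv_cancel' (hw g)]

/-- reduction modulo `p` of a homomorphism to `ℤ`. -/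
noncomputable def h32h_red (p : ℕ) {G : Type*} [AddZeroClass G] (x : G →+ ℤ) : G →+ ZMod p :=
  (Int.castAddHom (ZMod p)).comp x

theorem h32h_red_apply (p : ℕ) {G : Type*} [AddZeroClass G] (x : G →+ ℤ) (g : G) :
    h32h_red p x g = ((x g : ℤ) : ZMod p) := rfl

/-- **Ihara ⇒ Eisenstein modulo `p`**, for homomorphisms to `ℤ` (not necessarily bundled in
`L_N`): if `x₁` is parabolic and `x₁ (ι γ) + x₂ (g γ g⁻¹) ∈ p ℤ` for all `γ ∈ Γ₀(Nq)`, then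
`T_ℓ x_i ≡ (ℓ + 1) x_i mod p`. -/
theorem h32h_eis_mod {N p q ℓ : ℕ} [NeZero q] (hN : 0 < N) (hp : p.Prime) (hp2 : p ≠ 2)
    (hq : q.Prime) (hpq : p ≠ q) (hNq : Nat.Coprime N q) (hℓ : ℓ.Prime) (hℓN : ¬ ℓ ∣ N)
    (x₁ x₂ : Additive (Gamma0 N) →+ ℤ)
    (h₁ : Period.IsParabolicHom (Gamma0 N) x₁)
    (hker : ∀ γ : Gamma0 (N * q), (p : ℤ) ∣
      x₁ (Additive.ofMul (h32_incl N q γ)) + x₂ (Additive.ofMul (h32_up N q γ)))
    (x₁' x₂' : Additive (Gamma0 N) →+ ℤ)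
    (hT₁ : IsCohHeckeAdd N ℓ x₁ x₁') (hT₂ : IsCohHeckeAdd N ℓ x₂ x₂') :
    (∀ γ : Gamma0 N, (p : ℤ) ∣ x₁' (Additive.ofMul γ) - ((ℓ : ℤ) + 1) * x₁ (Additive.ofMul γ)) ∧
    (∀ γ : Gamma0 N, (p : ℤ) ∣ x₂' (Additive.ofMul γ) - ((ℓ : ℤ) + 1) * x₂ (Additive.ofMul γ)) := by
  have hpA : ∀ a : ZMod p, p • a = 0 := fun a => by
    rw [nsmul_eq_mul, ZMod.natCast_self, zero_mul]
  have hpar : Period.IsParabolicHom (Gamma0 N) (h32h_red p x₁) := fun γ hγ => by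
    rw [h32h_red_apply, h₁ γ hγ, Int.cast_zero]
  have hk : ∀ γ : Gamma0 (N * q),
      h32h_red p x₁ (Additive.ofMul (h32_incl N q γ))
        + h32h_red p x₂ (Additive.ofMul (h32_up N q γ)) = 0 := fun γ => by
    rw [h32h_red_apply, h32h_red_apply, ← Int.cast_add]
    exact (ZMod.intCast_zmod_eq_zero_iff_dvd _ _).mpr (hker γ)
  obtain ⟨k1, k2⟩ := h11_ihara hN hp hp2 hq hpq hNq hpA (h32h_red p x₁) (h32h_red p x₂) hpar hk
  have e1 := h15lr_eis_hecke hℓ hℓN (h32h_red p x₁) (h32h_red p x₁') k1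
    (h32h_isCohHeckeAdd_comp (Int.castAddHom (ZMod p)) hT₁)
  have e2 := h15lr_eis_hecke hℓ hℓN (h32h_red p x₂) (h32h_red p x₂') k2
    (h32h_isCohHeckeAdd_comp (Int.castAddHom (ZMod p)) hT₂)
  constructor
  · intro γ
    rw [← ZMod.intCast_zmod_eq_zero_iff_dvd]
    have := e1 γ
    rw [h32h_red_apply, h32h_red_apply, nsmul_eq_mul] at this
    push_cast
    rw [this]
    push_cast
    ring
  · intro γ
    rw [← ZMod.intCast_zmod_eq_zero_iff_dvd]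
    have := e2 γ
    rw [h32h_red_apply, h32h_red_apply, nsmul_eq_mul] at this
    push_cast
    rw [this]
    push_cast
    ring

/-- division by `p` inside `L_M`: an element of `L_M` all of whose values are divisible by `p`
is `p` times an element of `L_M`. -/
theorem h32h_div_L {M : ℕ} {p : ℤ} (hp : p ≠ 0) (w : h17lr_L M)
    (hw : ∀ γ : Gamma0 M, p ∣ (w : Additive (Gamma0 M) →+ ℤ) (Additive.ofMul γ)) :
    ∃ z : h17lr_L M, w = p • z := by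
  obtain ⟨z, hz⟩ := h32h_div hp (w : Additive (Gamma0 M) →+ ℤ) (fun g => hw (Additive.toMul g))
  have hzpar : Period.IsParabolicHom (Gamma0 M) z := by
    intro γ hγ
    have h0 : (w : Additive (Gamma0 M) →+ ℤ) (Additive.ofMul γ) = 0 := w.2 γ hγ
    rw [hz] at h0
    have h1 : p * z (Additive.ofMul γ) = 0 := h0
    rcases mul_eq_zero.mp h1 with h | h
    · exact absurd h hp
    · exact h
  refine ⟨⟨z, hzpar⟩, ?_⟩
  apply Subtype.ext
  rw [hz]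
  rfl

/-- **GLUE: Ihara ⇒ `H1` (component form).**  If `res₁ x₁ + res₂ x₂ = p • y` in `L_{Nq}`, then
`T_ℓ x_i - (ℓ + 1) x_i ∈ p L_N` for `i = 1, 2` and every prime `ℓ ∤ N`. -/
theorem h32h_H1 (hT : h17lr_TSpec) {N p q ℓ : ℕ} [NeZero q] (hN : 0 < N) (hp : p.Prime)
    (hp2 : p ≠ 2) (hq : q.Prime) (hpq : p ≠ q) (hNq : Nat.Coprime N q) (hℓ : ℓ.Prime)
    (hℓN : ¬ ℓ ∣ N) (x₁ x₂ : h17lr_L N) (y : h17lr_L (N * q))
    (h : h17lr_res1 N q x₁ + h17lr_res2 N q x₂ = (p : ℤ) • y) :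
    (∃ z₁ : h17lr_L N, h17lr_T N ℓ x₁ - ((ℓ : ℤ) + 1) • x₁ = (p : ℤ) • z₁) ∧
    (∃ z₂ : h17lr_L N, h17lr_T N ℓ x₂ - ((ℓ : ℤ) + 1) • x₂ = (p : ℤ) • z₂) := by
  have hp0 : (p : ℤ) ≠ 0 := by exact_mod_cast hp.ne_zero
  have hker : ∀ γ : Gamma0 (N * q), (p : ℤ) ∣
      (x₁ : Additive (Gamma0 N) →+ ℤ) (Additive.ofMul (h32_incl N q γ))
        + (x₂ : Additive (Gamma0 N) →+ ℤ) (Additive.ofMul (h32_up N q γ)) := by
    intro γ
    have := congrArg (fun w : h17lr_L (N * q) =>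
      (w : Additive (Gamma0 (N * q)) →+ ℤ) (Additive.ofMul γ)) h
    simp only [Submodule.coe_add, AddMonoidHom.add_apply, h17lr_res1_apply, h17lr_res2_apply,
      Submodule.coe_smul, AddMonoidHom.smul_apply, smul_eq_mul] at this
    rw [this]
    exact dvd_mul_right _ _
  obtain ⟨e1, e2⟩ := h32h_eis_mod hN hp hp2 hq hpq hNq hℓ hℓN
    (x₁ : Additive (Gamma0 N) →+ ℤ) (x₂ : Additive (Gamma0 N) →+ ℤ) x₁.2 hker
    (h17lr_T N ℓ x₁ : Additive (Gamma0 N) →+ ℤ) (h17lr_T N ℓ x₂ : Additive (Gamma0 N) →+ ℤ)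
    (hT N ℓ hℓ hℓN x₁) (hT N ℓ hℓ hℓN x₂)
  constructor
  · apply h32h_div_L hp0
    intro γ
    simpa using e1 γ
  · apply h32h_div_L hp0
    intro γ
    simpa using e2 γ

/-- **GLUE: Ihara ⇒ `H1` (product form)**, in the shape of hypothesis `H1` of
`h15lr_ribet_alg` for `X = L_N × L_N`, `α = res₁ ∘ pr₁ + res₂ ∘ pr₂`, `TX = T_ℓ × T_ℓ`,
`θ i₀ + c = ℓ + 1`. -/
theorem h32h_H1_prod (hT : h17lr_TSpec) {N p q ℓ : ℕ} [NeZero q] (hN : 0 < N) (hp : p.Prime)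
    (hp2 : p ≠ 2) (hq : q.Prime) (hpq : p ≠ q) (hNq : Nat.Coprime N q) (hℓ : ℓ.Prime)
    (hℓN : ¬ ℓ ∣ N) (z : h17lr_L N × h17lr_L N)
    (h : ∃ y : h17lr_L (N * q),
      ((h17lr_res1 N q).coprod (h17lr_res2 N q)) z = (p : ℤ) • y) :
    ∃ z' : h17lr_L N × h17lr_L N,
      ((h17lr_T N ℓ).prodMap (h17lr_T N ℓ)) z - ((ℓ : ℤ) + 1) • z = (p : ℤ) • z' := by
  obtain ⟨y, hy⟩ := h
  rw [LinearMap.coprod_apply] at hy
  obtain ⟨⟨z₁, h1⟩, ⟨z₂, h2⟩⟩ := h32h_H1 hT hN hp hp2 hq hpq hNq hℓ hℓN z.1 z.2 y hy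
  refine ⟨(z₁, z₂), ?_⟩
  ext1
  · simpa using h1
  · simpa using h2

end Fermat.Agent.LR
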