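/-
P-LR (S41 level raising), blueprint item (1): RIBET'S ALGEBRA LEMMA, in an elementary
"one Hecke operator" form that needs no localisation / completion / generalised eigenspaces.

Setting: `X, Y` abelian groups (`X` finite free over `ℤ`) with bilinear forms `BX, BY`,
`α : X → Y`, `β : Y → X` adjoint (`BY (α x) y = BX x (β y)`), commuting families `TX i`, `TY i`
intertwined by `α`; a system of eigenvalues `θ : ι → ℤ` (mod `p`).
Hypotheses:
* duality: every functional on `X` is `BX z ·`; `BY` is left-nondegenerate mod `p`;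
* (IHARA, in the form delivered by Ihara's lemma + the Eisenstein computation)
  one operator `E = TX i₀`, self-adjoint and commuting with `β`, acts on
  `ker (α mod p)` as a scalar `θ i₀ + c` with `p ∤ c`;
* (LEVEL-RAISING CONGRUENCE) a `θ`-eigenvector `x₀ mod p` (`x₀ ∉ pX`) with `β (α x₀) ∈ pX`.
Conclusion: there is `y ∈ ker β`, `y ∉ pY`, which is a `θ`-eigenvector mod `p`
(`TY i y - θ i y ∈ pY`, hence `∈ p ker β`).

Mathlib only.  (helper15)
-/
import Mathlib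

namespace Fermat.Agent.LR

open Module

/-- In a vector space over `ZMod p`, a nonzero vector is detected by an additive map to
`ZMod p`. -/
theorem h15lr_sep_aux {p : ℕ} [Fact p.Prime] {Q : Type*} [AddCommGroup Q] [Module (ZMod p) Q]
    {q : Q} (hq : q ≠ 0) : ∃ f : Q →+ ZMod p, f q ≠ 0 := by
  obtain ⟨f, hf⟩ := Module.Projective.exists_dual_ne_zero (ZMod p) hq
  exact ⟨f.toAddMonoidHom, hf⟩

/-- In an abelian group killed by `p`, a nonzero element is detected by an additive map to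
`ZMod p`. -/
theorem h15lr_sep {p : ℕ} [Fact p.Prime] {Q : Type*} [AddCommGroup Q] (hQ : ∀ q : Q, p • q = 0)
    {q : Q} (hq : q ≠ 0) : ∃ f : Q →+ ZMod p, f q ≠ 0 :=
  @h15lr_sep_aux p _ Q _ (AddCommGroup.zmodModule hQ) q hq

/-- A functional separating a point from a submodule containing `pX`. -/
theorem h15lr_exists_functional {p : ℕ} [Fact p.Prime] {X : Type*} [AddCommGroup X]
    [Module.Free ℤ X] (M : Submodule ℤ X) (hpM : ∀ x : X, (p : ℤ) • x ∈ M) {x' : X}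
    (hx' : x' ∉ M) :
    ∃ ξ : X →ₗ[ℤ] ℤ, (∀ m ∈ M, (p : ℤ) ∣ ξ m) ∧ ¬ (p : ℤ) ∣ ξ x' := by
  have hQ : ∀ q : X ⧸ M, p • q = 0 := by
    intro q
    obtain ⟨x, rfl⟩ := Submodule.Quotient.mk_surjective M q
    rw [← Submodule.Quotient.mk_smul, Submodule.Quotient.mk_eq_zero]
    have := hpM x
    rwa [Nat.cast_smul_eq_nsmul] at this
  have hq : (Submodule.Quotient.mk x' : X ⧸ M) ≠ 0 := by
    rwa [Ne, Submodule.Quotient.mk_eq_zero]
  obtain ⟨f, hf⟩ := h15lr_sep hQ hq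
  let g : X →ₗ[ℤ] ZMod p := (f.comp (M.mkQ).toAddMonoidHom).toIntLinearMap
  have hg : ∀ x, g x = f (Submodule.Quotient.mk x) := fun x => rfl
  obtain ⟨ξ, hξ⟩ := Module.projective_lifting_property
    ((Int.castAddHom (ZMod p)).toIntLinearMap) g
    (fun a => ZMod.intCast_surjective a)
  have hξ' : ∀ x, ((ξ x : ℤ) : ZMod p) = f (Submodule.Quotient.mk x) := by
    intro x
    have := congrArg (fun h : X →ₗ[ℤ] ZMod p => h x) hξ
    simpa [hg] using this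
  refine ⟨ξ, ?_, ?_⟩
  · intro m hm
    rw [← ZMod.intCast_zmod_eq_zero_iff_dvd, hξ' m,
      (Submodule.Quotient.mk_eq_zero M).mpr hm, map_zero]
  · rw [← ZMod.intCast_zmod_eq_zero_iff_dvd, hξ' x']
    exact hf

/-- Krull intersection, in the form used below: a `p`-torsion class which is infinitely
`p`-divisible in the finitely generated group `X / M` is zero. -/
theorem h15lr_krull {p : ℕ} {X : Type*} [AddCommGroup X] [Module.Finite ℤ X]
    (M : Submodule ℤ X) (x : X) (hpx : (p : ℤ) • x ∈ M)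
    (h : ∀ n : ℕ, ∃ m ∈ M, ∃ w : X, x = m + ((p : ℤ) ^ n) • w) : x ∈ M := by
  rw [← Submodule.Quotient.mk_eq_zero M]
  have hmem : (Submodule.Quotient.mk x : X ⧸ M) ∈
      (⨅ i : ℕ, (Ideal.span {(p : ℤ)}) ^ i • ⊤ : Submodule ℤ (X ⧸ M)) := by
    rw [Submodule.mem_iInf]
    intro n
    obtain ⟨m, hm, w, rfl⟩ := h n
    rw [Submodule.Quotient.mk_add, (Submodule.Quotient.mk_eq_zero M).mpr hm, zero_add,
      Submodule.Quotient.mk_smul]
    exact Submodule.smul_mem_smul (Ideal.pow_mem_pow (Ideal.mem_span_singleton_self _) n)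
      Submodule.mem_top
  obtain ⟨⟨r, hr⟩, hrx⟩ := (Ideal.mem_iInf_smul_pow_eq_bot_iff (Ideal.span {(p : ℤ)}) _).mp hmem
  obtain ⟨s, rfl⟩ := Ideal.mem_span_singleton'.mp hr
  have h0 : (p : ℤ) • (Submodule.Quotient.mk x : X ⧸ M) = 0 := by
    rw [← Submodule.Quotient.mk_smul, Submodule.Quotient.mk_eq_zero]
    exact hpx
  rw [← hrx]
  show (s * (p : ℤ)) • (Submodule.Quotient.mk x : X ⧸ M) = 0
  rw [mul_smul, h0, smul_zero]

/-- **Ribet's algebra lemma** (one-operator form). -/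
theorem h15lr_ribet_alg {p : ℕ} (hp : p.Prime)
    {X Y : Type*} [AddCommGroup X] [AddCommGroup Y] [Module.Free ℤ X] [Module.Finite ℤ X]
    (BX : X →ₗ[ℤ] X →ₗ[ℤ] ℤ) (BY : Y →ₗ[ℤ] Y →ₗ[ℤ] ℤ)
    (hBX : ∀ ξ : X →ₗ[ℤ] ℤ, ∃ z : X, ∀ x, ξ x = BX z x)
    (hBY : ∀ y₀ : Y, (∀ y, (p : ℤ) ∣ BY y₀ y) → ∃ y₁, y₀ = (p : ℤ) • y₁)
    (α : X →ₗ[ℤ] Y) (β : Y →ₗ[ℤ] X)
    (hadj : ∀ x y, BY (α x) y = BX x (β y))
    {ι : Type*} (TX : ι → X →ₗ[ℤ] X) (TY : ι → Y →ₗ[ℤ] Y) (θ : ι → ℤ)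
    (hαT : ∀ i x, α (TX i x) = TY i (α x))
    (i₀ : ι) (hβT : ∀ y, β (TY i₀ y) = TX i₀ (β y))
    (hself : ∀ z x, BX (TX i₀ z) x = BX z (TX i₀ x))
    (c : ℤ) (hc : ¬ (p : ℤ) ∣ c)
    (H1 : ∀ z : X, (∃ y, α z = (p : ℤ) • y) →
      ∃ z', TX i₀ z - (θ i₀ + c) • z = (p : ℤ) • z')
    (x₀ : X) (hx₀ : ¬ ∃ x', x₀ = (p : ℤ) • x')
    (hx₀T : ∀ i, ∃ x', TX i x₀ - θ i • x₀ = (p : ℤ) • x')
    (hx₀M : ∃ x₁, β (α x₀) = (p : ℤ) • x₁) :
    ∃ y : Y, β y = 0 ∧ (¬ ∃ y', y = (p : ℤ) • y') ∧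
      ∀ i, ∃ y', TY i y - θ i • y = (p : ℤ) • y' := by
  have : Fact p.Prime := ⟨hp⟩
  have hpZ : Prime (p : ℤ) := Nat.prime_iff_prime_int.mp hp
  have hp0 : (p : ℤ) ≠ 0 := hpZ.ne_zero
  -- Bezout for `c` and `p`
  have hcop : IsCoprime c (p : ℤ) :=
    (Prime.coprime_iff_not_dvd hpZ).mpr hc |>.symm
  obtain ⟨u, v, huv⟩ := hcop
  set e : ℤ := θ i₀ + c with he
  -- the operator `G = E - e`
  set G : X →ₗ[ℤ] X := TX i₀ - e • LinearMap.id with hG
  have hGapp : ∀ x, G x = TX i₀ x - e • x := fun x => rfl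
  -- `G` preserves the range of `β`
  have hGβ : ∀ y, G (β y) = β (TY i₀ y - e • y) := by
    intro y
    rw [hGapp, map_sub, map_smul, hβT]
  -- Step 1: `G X ⊆ β Y + p X`
  have step1 : ∀ x : X, ∃ y w, G x = β y + (p : ℤ) • w := by
    intro x
    by_contra hcon
    set M : Submodule ℤ X :=
      LinearMap.range β ⊔ LinearMap.range ((p : ℤ) • (LinearMap.id : X →ₗ[ℤ] X)) with hM
    have hpM : ∀ x : X, (p : ℤ) • x ∈ M := fun x =>
      Submodule.mem_sup_right ⟨x, rfl⟩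
    have hβM : ∀ y : Y, β y ∈ M := fun y => Submodule.mem_sup_left ⟨y, rfl⟩
    have hx' : G x ∉ M := by
      intro hmem
      obtain ⟨a, ⟨y, rfl⟩, b, ⟨w, rfl⟩, hab⟩ := Submodule.mem_sup.mp hmem
      exact hcon ⟨y, w, hab.symm⟩
    obtain ⟨ξ, hξM, hξx⟩ := h15lr_exists_functional M hpM hx'
    obtain ⟨z₀, hz₀⟩ := hBX ξ
    have hαz : ∃ y, α z₀ = (p : ℤ) • y := by
      apply hBY
      intro y
      rw [hadj, ← hz₀]
      exact hξM _ (hβM y)
    obtain ⟨z', hz'⟩ := H1 z₀ hαz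
    apply hξx
    rw [hz₀, hGapp, map_sub, map_smul, ← hself, ← LinearMap.smul_apply, ← map_smul,
      ← LinearMap.sub_apply, ← map_sub, hz', map_smul, LinearMap.smul_apply]
    exact Dvd.intro _ rfl
  -- Step 2
  obtain ⟨x₁, hx₁⟩ := hx₀M
  obtain ⟨x₀', hx₀'⟩ := hx₀T i₀
  -- `(E - θ) x₁ ∈ β Y`
  have hD : TX i₀ x₁ - θ i₀ • x₁ = β (α x₀') := by
    have h1 : (p : ℤ) • (TX i₀ x₁ - θ i₀ • x₁) = (p : ℤ) • β (α x₀') := by
      calc (p : ℤ) • (TX i₀ x₁ - θ i₀ • x₁)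
          = TX i₀ ((p : ℤ) • x₁) - θ i₀ • ((p : ℤ) • x₁) := by
            rw [smul_sub, map_smul, smul_comm]
        _ = β (α (TX i₀ x₀ - θ i₀ • x₀)) := by
            rw [← hx₁, ← hβT, ← hαT, map_sub, map_sub, map_smul, map_smul]
        _ = (p : ℤ) • β (α x₀') := by rw [hx₀', map_smul, map_smul]
    exact smul_right_injective X hp0 h1
  have hcx : c • x₁ = β (α x₀') - G x₁ := by
    rw [hD.symm, hGapp, he, add_smul]
    abel
  have hdiv : ∀ n : ℕ, ∃ y w, x₁ = β y + ((p : ℤ) ^ n) • w := by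
    intro n
    induction n with
    | zero => exact ⟨0, x₁, by simp⟩
    | succ n ih =>
      obtain ⟨y, w, hyw⟩ := ih
      obtain ⟨y', w', hyw'⟩ := step1 w
      have hGx : G x₁ = β (TY i₀ y - e • y + (p : ℤ) ^ n • y')
          + ((p : ℤ) ^ (n + 1)) • w' := by
        conv_lhs => rw [hyw]
        rw [map_add, map_smul, hGβ, hyw', smul_add, map_add, map_smul, pow_succ, mul_smul]
        abel
      refine ⟨u • (α x₀' - (TY i₀ y - e • y + (p : ℤ) ^ n • y')) + v • α x₀, - (u • w'), ?_⟩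
      have hx : x₁ = u • (c • x₁) + v • ((p : ℤ) • x₁) := by
        rw [smul_smul, smul_smul, ← add_smul, huv, one_smul]
      conv_lhs => rw [hx]
      rw [hcx, hGx, ← hx₁]
      simp only [map_add, map_sub, map_smul]
      module
  have hx₁β : x₁ ∈ LinearMap.range β := by
    apply h15lr_krull (p := p) (LinearMap.range β) x₁
    · rw [← hx₁]; exact ⟨_, rfl⟩
    · intro n
      obtain ⟨y, w, hyw⟩ := hdiv n
      exact ⟨β y, ⟨y, rfl⟩, w, hyw⟩
  obtain ⟨y₁, hy₁⟩ := hx₁β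
  -- Step 3
  refine ⟨α x₀ - (p : ℤ) • y₁, ?_, ?_, ?_⟩
  · rw [map_sub, map_smul, hy₁, hx₁, sub_self]
  · rintro ⟨y', hy'⟩
    have hαx : ∃ y, α x₀ = (p : ℤ) • y := ⟨y' + y₁, by
      rw [smul_add, ← hy']; abel⟩
    obtain ⟨z', hz'⟩ := H1 x₀ hαx
    apply hx₀
    -- `c x₀ = (E - θ) x₀ - (E - e) x₀ ∈ p X`
    have hcx₀ : c • x₀ = (p : ℤ) • (x₀' - z') := by
      rw [smul_sub, ← hx₀', ← hz', he, add_smul]
      abel
    refine ⟨u • (x₀' - z') + v • x₀, ?_⟩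
    have hx : x₀ = u • (c • x₀) + v • ((p : ℤ) • x₀) := by
      rw [smul_smul, smul_smul, ← add_smul, huv, one_smul]
    conv_lhs => rw [hx]
    rw [hcx₀]
    module
  · intro i
    obtain ⟨xi, hxi⟩ := hx₀T i
    refine ⟨α xi - (TY i y₁ - θ i • y₁), ?_⟩
    have h1 : (p : ℤ) • α xi = TY i (α x₀) - θ i • α x₀ := by
      rw [← map_smul, ← hxi, map_sub, map_smul, hαT]
    calc TY i (α x₀ - (p : ℤ) • y₁) - θ i • (α x₀ - (p : ℤ) • y₁)
        = (TY i (α x₀) - θ i • α x₀) - (p : ℤ) • (TY i y₁ - θ i • y₁) := by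
          simp only [map_sub, map_smul]
          module
      _ = (p : ℤ) • α xi - (p : ℤ) • (TY i y₁ - θ i • y₁) := by rw [h1]
      _ = (p : ℤ) • (α xi - (TY i y₁ - θ i • y₁)) := (smul_sub _ _ _).symm

end Fermat.Agent.LR
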