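import Fermat.Agent.LR.PD.Final
import Fermat.Agent.LR.PD.Bridge27
import Fermat.Agent.LR.IharaH1
import Fermat.Agent.LR.CohResTFinal81
import Fermat.Agent.LR.CohReps
import Fermat.Agent.LR.RibetAlg

/-!
# P-LR (S41 level raising), row LR-ASM, part 1: instantiation of Ribet's algebra lemma (helper88)

`X = L_N × L_N`, `Y = L_{Nq}`, `α = res₁ ∘ pr₁ + res₂ ∘ pr₂`, `β = (cor₁, cor₂)`,
`B_X = B_N ⊕ B_N`, `B_Y = B_{Nq}` (Poincaré duality pairings `h1pd_form`).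

`h88_ribet_inst` (UNCONDITIONAL): if `φ ∈ L_N ∖ p L_N` is a `θ`-eigenvector modulo `p` for the
`T_ℓ` (`ℓ ∈ S`, a set of primes not dividing `Nq`), with `T_q φ ≡ ε (q + 1) φ` modulo `p`
(`ε = ± 1`), and if `p ∤ ℓ₀ + 1 - θ ℓ₀` for some `ℓ₀ ∈ S`, then there is
`y ∈ L_{Nq} ∖ p L_{Nq}` with `cor₁ y = 0 = cor₂ y` and `T_ℓ y ≡ θ ℓ • y` modulo `p` (`ℓ ∈ S`).
-/

set_option autoImplicit false

open ModularCurve CongruenceSubgroup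
open scoped MatrixGroups

noncomputable section

namespace Fermat.Agent.LR

open Fermat.Agent.LR.PD

/-- `B_X = B_N ⊕ B_N` on `X = L_N × L_N`. -/
def h88_BX (N : ℕ) [NeZero N] :
    (h17lr_L N × h17lr_L N) →ₗ[ℤ] (h17lr_L N × h17lr_L N) →ₗ[ℤ] ℤ :=
  (h1pd_form N).compl₁₂ (LinearMap.fst ℤ (h17lr_L N) (h17lr_L N))
      (LinearMap.fst ℤ (h17lr_L N) (h17lr_L N))
    + (h1pd_form N).compl₁₂ (LinearMap.snd ℤ (h17lr_L N) (h17lr_L N))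
      (LinearMap.snd ℤ (h17lr_L N) (h17lr_L N))

theorem h88_BX_apply (N : ℕ) [NeZero N] (x z : h17lr_L N × h17lr_L N) :
    h88_BX N x z = h1pd_form N x.1 z.1 + h1pd_form N x.2 z.2 := rfl

theorem h88_BX_rep (N : ℕ) [NeZero N] (ξ : (h17lr_L N × h17lr_L N) →ₗ[ℤ] ℤ) :
    ∃ z : h17lr_L N × h17lr_L N, ∀ x, ξ x = h88_BX N z x := by
  obtain ⟨z₁, h₁⟩ := h1pd_perfect_rep N (ξ.comp (LinearMap.inl ℤ (h17lr_L N) (h17lr_L N)))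
  obtain ⟨z₂, h₂⟩ := h1pd_perfect_rep N (ξ.comp (LinearMap.inr ℤ (h17lr_L N) (h17lr_L N)))
  refine ⟨(z₁, z₂), fun x => ?_⟩
  have hx : x = LinearMap.inl ℤ (h17lr_L N) (h17lr_L N) x.1
      + LinearMap.inr ℤ (h17lr_L N) (h17lr_L N) x.2 := by
    ext1 <;> simp
  rw [h88_BX_apply, ← h₁ x.1, ← h₂ x.2]
  conv_lhs => rw [hx, map_add]
  rfl

theorem h88_BX_antisymm (N : ℕ) [NeZero N] (x z : h17lr_L N × h17lr_L N) :
    h88_BX N x z = - h88_BX N z x := by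
  rw [h88_BX_apply, h88_BX_apply, h1pd_form_antisymm N x.1 z.1, h1pd_form_antisymm N x.2 z.2]
  ring

theorem h88_BX_nondeg (N : ℕ) [NeZero N] (z : h17lr_L N × h17lr_L N)
    (h : ∀ x, h88_BX N z x = 0) : z = 0 := by
  have h1 : z.1 = 0 := (h1pd_perfect_nondeg N).1 z.1 fun x => by
    have := h (x, 0)
    rw [h88_BX_apply] at this
    simpa using this
  have h2 : z.2 = 0 := (h1pd_perfect_nondeg N).1 z.2 fun x => by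
    have := h (0, x)
    rw [h88_BX_apply] at this
    simpa using this
  ext1
  · exact h1
  · exact h2

/-- `α = res₁ ∘ pr₁ + res₂ ∘ pr₂`. -/
def h88_alpha (N q : ℕ) [NeZero q] : (h17lr_L N × h17lr_L N) →ₗ[ℤ] h17lr_L (N * q) :=
  (h17lr_res1 N q).coprod (h17lr_res2 N q)

/-- `β = (cor₁, cor₂)`. -/
def h88_beta (N q : ℕ) [NeZero q] : h17lr_L (N * q) →ₗ[ℤ] (h17lr_L N × h17lr_L N) :=
  (h17lr_cor1 N q).prod (h17lr_cor2 N q)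

/-- `T_ℓ × T_ℓ` on `X`. -/
def h88_TX (N ℓ : ℕ) : (h17lr_L N × h17lr_L N) →ₗ[ℤ] (h17lr_L N × h17lr_L N) :=
  (h17lr_T N ℓ).prodMap (h17lr_T N ℓ)

theorem h88_alpha_apply (N q : ℕ) [NeZero q] (x : h17lr_L N × h17lr_L N) :
    h88_alpha N q x = h17lr_res1 N q x.1 + h17lr_res2 N q x.2 := rfl

theorem h88_beta_apply (N q : ℕ) [NeZero q] (y : h17lr_L (N * q)) :
    h88_beta N q y = (h17lr_cor1 N q y, h17lr_cor2 N q y) := rfl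

theorem h88_TX_apply (N ℓ : ℕ) (x : h17lr_L N × h17lr_L N) :
    h88_TX N ℓ x = (h17lr_T N ℓ x.1, h17lr_T N ℓ x.2) := rfl

theorem h88_adj (N q : ℕ) [NeZero N] [NeZero q] (hq : q.Prime) (hqN : ¬ q ∣ N)
    (x : h17lr_L N × h17lr_L N) (y : h17lr_L (N * q)) :
    h1pd_form (N * q) (h88_alpha N q x) y = h88_BX N x (h88_beta N q y) := by
  rw [h88_alpha_apply, map_add, LinearMap.add_apply, h88_BX_apply, h88_beta_apply,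
    h1pd_adj1 h27b_bridge h17lr_cor1_spec N q hq hqN,
    h1pd_adj2 h27b_bridge h17lr_cor2_spec N q hq hqN]

theorem h88_alphaT (N q ℓ : ℕ) [NeZero q] (hq : q.Prime) (hqN : ¬ q ∣ N) (hℓ : ℓ.Prime)
    (hℓNq : ¬ ℓ ∣ N * q) (x : h17lr_L N × h17lr_L N) :
    h88_alpha N q (h88_TX N ℓ x) = h17lr_T (N * q) ℓ (h88_alpha N q x) := by
  obtain ⟨h1, -⟩ := h81r_resT_final N q ℓ hq hqN hℓ hℓNq x.1
  obtain ⟨-, h2⟩ := h81r_resT_final N q ℓ hq hqN hℓ hℓNq x.2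
  rw [h88_alpha_apply, h88_alpha_apply, h88_TX_apply, map_add, h1, h2]

theorem h88_selfX (N ℓ : ℕ) [NeZero N] (hℓ : ℓ.Prime) (hℓN : ¬ ℓ ∣ N)
    (z x : h17lr_L N × h17lr_L N) :
    h88_BX N (h88_TX N ℓ z) x = h88_BX N z (h88_TX N ℓ x) := by
  haveI : NeZero ℓ := ⟨hℓ.ne_zero⟩
  rw [h88_BX_apply, h88_BX_apply, h88_TX_apply, h88_TX_apply,
    h1pd_T_selfadjoint h27b_bridge h17lr_cor1_spec h17lr_cor2_spec h17lr_corRes N ℓ hℓ hℓN,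
    h1pd_T_selfadjoint h27b_bridge h17lr_cor1_spec h17lr_cor2_spec h17lr_corRes N ℓ hℓ hℓN]

/-- `β` commutes with `T_ℓ` (`ℓ ∤ Nq`), formally from duality. -/
theorem h88_betaT (N q ℓ : ℕ) [NeZero N] [NeZero q] (hq : q.Prime) (hqN : ¬ q ∣ N)
    (hℓ : ℓ.Prime) (hℓNq : ¬ ℓ ∣ N * q) (y : h17lr_L (N * q)) :
    h88_beta N q (h17lr_T (N * q) ℓ y) = h88_TX N ℓ (h88_beta N q y) := by
  haveI : NeZero ℓ := ⟨hℓ.ne_zero⟩
  have hℓN : ¬ ℓ ∣ N := fun h => hℓNq (Dvd.dvd.mul_right h q)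
  exact h81r_adj_comm' (h88_BX N) (h1pd_form (N * q)) (h88_BX_antisymm N) (h88_BX_nondeg N)
    (h88_alpha N q) (h88_beta N q) (h88_adj N q hq hqN) (h88_TX N ℓ) (h17lr_T (N * q) ℓ)
    (h88_alphaT N q ℓ hq hqN hℓ hℓNq) (h88_selfX N ℓ hℓ hℓN)
    (h1pd_T_selfadjoint h27b_bridge h17lr_cor1_spec h17lr_cor2_spec h17lr_corRes (N * q) ℓ hℓ
      hℓNq) y

/-- **Ribet's lemma, instantiated** (unconditional). -/
theorem h88_ribet_inst {N q p : ℕ} [NeZero N] [NeZero q] (hp : p.Prime) (hp2 : p ≠ 2)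
    (hq : q.Prime) (hqN : ¬ q ∣ N) (hpq : p ≠ q)
    (S : Set ℕ) (hS : ∀ ℓ ∈ S, ℓ.Prime ∧ ¬ ℓ ∣ N * q) (θ : ℕ → ℤ)
    (ℓ₀ : ℕ) (hℓ₀ : ℓ₀ ∈ S) (hc : ¬ (p : ℤ) ∣ (ℓ₀ : ℤ) + 1 - θ ℓ₀)
    (ε : ℤ) (hε : ε * ε = 1)
    (φ : h17lr_L N) (hφ : ¬ ∃ φ' : h17lr_L N, φ = (p : ℤ) • φ')
    (hφT : ∀ ℓ ∈ S, ∃ φ' : h17lr_L N, h17lr_T N ℓ φ - θ ℓ • φ = (p : ℤ) • φ')
    (hφq : ∃ φ' : h17lr_L N, h17lr_T N q φ - (ε * ((q : ℤ) + 1)) • φ = (p : ℤ) • φ') :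
    ∃ y : h17lr_L (N * q), h17lr_cor1 N q y = 0 ∧ h17lr_cor2 N q y = 0 ∧
      (¬ ∃ y' : h17lr_L (N * q), y = (p : ℤ) • y') ∧
      ∀ ℓ ∈ S, ∃ y' : h17lr_L (N * q), h17lr_T (N * q) ℓ y - θ ℓ • y = (p : ℤ) • y' := by
  have hN : 0 < N := Nat.pos_of_ne_zero (NeZero.ne N)
  have hNq : Nat.Coprime N q := (Nat.Coprime.symm ((Nat.Prime.coprime_iff_not_dvd hq).2 hqN))
  have hℓ₀N : ¬ ℓ₀ ∣ N := fun h => (hS ℓ₀ hℓ₀).2 (Dvd.dvd.mul_right h q)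
  obtain ⟨ψ, hψ⟩ := hφq
  have key := h15lr_ribet_alg (p := p) hp (X := h17lr_L N × h17lr_L N) (Y := h17lr_L (N * q))
    (h88_BX N) (h1pd_form (N * q)) (h88_BX_rep N)
    (fun y₀ h => (h1pd_perfect_nondeg (N * q)).2 (p : ℤ) y₀ h)
    (h88_alpha N q) (h88_beta N q) (h88_adj N q hq hqN)
    (ι := S) (fun i => h88_TX N i.1) (fun i => h17lr_T (N * q) i.1) (fun i => θ i.1)
    (fun i x => h88_alphaT N q i.1 hq hqN (hS i.1 i.2).1 (hS i.1 i.2).2 x)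
    ⟨ℓ₀, hℓ₀⟩ (fun y => h88_betaT N q ℓ₀ hq hqN (hS ℓ₀ hℓ₀).1 (hS ℓ₀ hℓ₀).2 y)
    (fun z x => h88_selfX N ℓ₀ (hS ℓ₀ hℓ₀).1 hℓ₀N z x)
    ((ℓ₀ : ℤ) + 1 - θ ℓ₀) hc
    (fun z hz => by
      have := h32h_H1_prod h17lr_T_spec hN hp hp2 hq hpq hNq (hS ℓ₀ hℓ₀).1 hℓ₀N z hz
      have e : θ ℓ₀ + ((ℓ₀ : ℤ) + 1 - θ ℓ₀) = (ℓ₀ : ℤ) + 1 := by ring
      rw [e]
      exact this)
    (φ, -(ε • φ))
    (by
      rintro ⟨x', hx'⟩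
      exact hφ ⟨x'.1, congrArg Prod.fst hx'⟩)
    (by
      intro i
      obtain ⟨φ', hφ'⟩ := hφT i.1 i.2
      refine ⟨(φ', -(ε • φ')), ?_⟩
      rw [h88_TX_apply]
      ext1
      · simpa using hφ'
      · show h17lr_T N i.1 (-(ε • φ)) - θ i.1 • (-(ε • φ)) = (p : ℤ) • (-(ε • φ'))
        rw [map_neg, map_smul, smul_neg, smul_neg, smul_comm (p : ℤ) ε φ', ← hφ', smul_sub,
          smul_comm (θ i.1) ε φ]
        abel)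
    (by
      obtain ⟨h11, h22, h12, h21⟩ := h17lr_corRes N q hq hqN φ
      refine ⟨(-(ε • ψ), ψ), ?_⟩
      have hT : h17lr_T N q φ = (ε * ((q : ℤ) + 1)) • φ + (p : ℤ) • ψ := by
        rw [← hψ]; abel
      rw [h88_alpha_apply, h88_beta_apply]
      ext1
      · show h17lr_cor1 N q (h17lr_res1 N q φ + h17lr_res2 N q (-(ε • φ)))
          = (p : ℤ) • (-(ε • ψ))
        rw [map_add, map_neg, map_neg, map_smul, map_smul, h11, h12, hT, smul_add, smul_smul,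
          smul_smul, ← mul_assoc, hε, one_mul, smul_neg, smul_smul, mul_comm ε (p : ℤ)]
        abel
      · show h17lr_cor2 N q (h17lr_res1 N q φ + h17lr_res2 N q (-(ε • φ))) = (p : ℤ) • ψ
        rw [map_add, map_neg, map_neg, map_smul, map_smul, h21, h22, hT, smul_smul]
        abel)
  obtain ⟨y, hβy, hy, hyT⟩ := key
  rw [h88_beta_apply] at hβy
  refine ⟨y, congrArg Prod.fst hβy, congrArg Prod.snd hβy, hy, fun ℓ hℓ => hyT ⟨ℓ, hℓ⟩⟩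

end Fermat.Agent.LR
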